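import Fermat.Agent.TW.Flat.Place

/-!
# The inertia field of a place over `p`

The fixed field `K₀` of inertia: its norms are powers of `p`, and it contains a representative of
every residue class (roots of unity of order prime to `p`).
-/

set_option autoImplicit false

open scoped Pointwise
open Polynomial

noncomputable section

namespace FLTAgent.TW.Flat

namespace LocalPlace

variable {p : ℕ} [hp : Fact p.Prime] (𝔓 : LocalPlace p)

/-- The fixed field of inertia. -/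
def K₀ : IntermediateField ℚ QB := IntermediateField.fixedField 𝔓.I

omit hp in
lemma mem_K₀ {x : QB} : x ∈ 𝔓.K₀ ↔ ∀ σ ∈ 𝔓.I, σ x = x :=
  IntermediateField.mem_fixedField_iff _ _

omit hp in
lemma apply_mem_K₀ {σ : GQ} (hσ : σ ∈ 𝔓.D) {x : QB} (hx : x ∈ 𝔓.K₀) : σ x ∈ 𝔓.K₀ := by
  rw [mem_K₀] at hx ⊢
  intro τ hτ
  have h := hx _ (by simpa using 𝔓.conj_mem_I hτ (inv_mem hσ))
  have := congrArg σ h
  simpa using this

omit hp in
lemma nm_pow_lt_one {x : QB} (h : 𝔓.nm x < 1) {n : ℕ} (hn : n ≠ 0) : 𝔓.nm (x ^ n) < 1 := by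
  rw [map_pow]; exact pow_lt_one₀ (𝔓.nm_nonneg x) h hn

omit hp in
lemma nm_eq_one_of_pow_eq_one {u : QB} {N : ℕ} (hN : N ≠ 0) (hu : u ^ N = 1) : 𝔓.nm u = 1 :=
  (pow_eq_one_iff_of_nonneg (𝔓.nm_nonneg u) hN).mp (by rw [← map_pow, hu, AbsoluteValue.map_one])

/-- A root of unity of order prime to `p` congruent to one is one. -/
lemma eq_one_of_pow_eq_one {u : QB} {N : ℕ} (hN : ¬ p ∣ N) (hu : u ^ N = 1)
    (h : 𝔓.nm (u - 1) < 1) : u = 1 := by
  by_contra hne
  have hN0 : N ≠ 0 := fun h0 => hN (h0 ▸ dvd_zero p)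
  have hsum : ∑ i ∈ Finset.range N, u ^ i = 0 := by
    have h' := geom_sum_mul u N
    rw [hu, sub_self] at h'
    exact (mul_eq_zero.mp h').resolve_right (sub_ne_zero.mpr hne)
  have hlt : 𝔓.nm (∑ i ∈ Finset.range N, (u ^ i - 1)) < 1 := by
    refine 𝔓.nm_sum_lt _ _ one_pos fun i _ => ?_
    rw [← geom_sum_mul, map_mul]
    refine lt_of_le_of_lt (mul_le_of_le_one_left (𝔓.nm_nonneg _)
      (𝔓.nm_sum_le _ _ zero_le_one fun j _ => ?_)) h
    rw [map_pow, 𝔓.nm_eq_one_of_pow_eq_one hN0 hu, one_pow]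
  rw [Finset.sum_sub_distrib, hsum, Finset.sum_const, Finset.card_range, nsmul_one, zero_sub,
    AbsoluteValue.map_neg, 𝔓.nm_natCast_eq_one hN] at hlt
  exact lt_irrefl _ hlt

omit hp in
/-- The residue map. -/
lemma residue_eq_iff {x y : 𝔓.P} :
    IsLocalRing.residue 𝔓.P x = IsLocalRing.residue 𝔓.P y ↔
      𝔓.nm ((x : QB) - (y : QB)) < 1 := by
  rw [← sub_eq_zero, ← map_sub, IsLocalRing.residue_eq_zero_iff,
    ← ValuationSubring.coe_mem_nonunits_iff, 𝔓.mem_nonunits_iff]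
  simp

instance charP_residue : CharP (IsLocalRing.ResidueField 𝔓.P) p := by
  refine (CharP.charP_iff_prime_eq_zero hp.out).mpr ?_
  rw [← map_natCast (IsLocalRing.residue 𝔓.P), ← map_zero (IsLocalRing.residue 𝔓.P),
    residue_eq_iff]
  simpa [𝔓.nm_p] using inv_p_lt_one (p := p)

/-- The residue field is algebraic over `𝔽_p`. -/
lemma isIntegral_residue (a : IsLocalRing.ResidueField 𝔓.P) :
    letI := ZMod.algebra (IsLocalRing.ResidueField 𝔓.P) p
    IsIntegral (ZMod p) a := by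
  let := ZMod.algebra (IsLocalRing.ResidueField 𝔓.P) p
  obtain ⟨x, rfl⟩ := IsLocalRing.residue_surjective a
  have key : ∀ z : Frobenius.Zbar, IsIntegral (ZMod p) (IsLocalRing.residue 𝔓.P
      ⟨(z : QB), Frobenius.mem_of_isIntegral 𝔓.P z.2⟩) := by
    intro z
    obtain ⟨f, hf, hfz⟩ := z.2
    refine ⟨f.map (Int.castRingHom (ZMod p)), hf.map _, ?_⟩
    rw [Polynomial.eval₂_map,
      show (algebraMap (ZMod p) _).comp (Int.castRingHom (ZMod p)) =
        (IsLocalRing.residue 𝔓.P).comp (Int.castRingHom 𝔓.P) from RingHom.ext_int _ _,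
      ← Polynomial.hom_eval₂]
    convert (IsLocalRing.residue 𝔓.P).map_zero
    apply Subtype.ext
    change (𝔓.P.subtype) (Polynomial.eval₂ (Int.castRingHom 𝔓.P) _ f) = ((0 : 𝔓.P) : QB)
    rw [Polynomial.hom_eval₂, show 𝔓.P.subtype.comp (Int.castRingHom 𝔓.P) = algebraMap ℤ QB from
      RingHom.ext_int _ _]
    simpa using hfz
  obtain ⟨c, d, hd, hx⟩ := Frobenius.exists_eq_div_of_mem x.2
  have hd' : IsLocalRing.residue 𝔓.P ⟨(d : QB), Frobenius.mem_of_isIntegral 𝔓.P d.2⟩ ≠ 0 := by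
    rw [Ne, IsLocalRing.residue_eq_zero_iff, ← ValuationSubring.coe_mem_nonunits_iff]
    exact hd
  have hmul : IsLocalRing.residue 𝔓.P x *
      IsLocalRing.residue 𝔓.P ⟨(d : QB), Frobenius.mem_of_isIntegral 𝔓.P d.2⟩ =
      IsLocalRing.residue 𝔓.P ⟨(c : QB), Frobenius.mem_of_isIntegral 𝔓.P c.2⟩ := by
    rw [← map_mul]
    congr 1
    apply Subtype.ext
    have hd0 : (d : QB) ≠ 0 := by
      intro h0
      apply hd
      rw [Frobenius.mem_centre, h0]
      exact 𝔓.P.nonunits.zero_mem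
    simp [hx, hd0]
  rw [← mul_div_cancel_right₀ (IsLocalRing.residue 𝔓.P x) hd', hmul, div_eq_mul_inv]
  exact (key c).mul (key d).inv

/-- Every integral element is congruent to its `p^n`-th power for some positive `n`. -/
lemma exists_pow_congr (a : QB) (ha : 𝔓.nm a ≤ 1) :
    ∃ n : ℕ, 0 < n ∧ 𝔓.nm (a ^ p ^ n - a) < 1 := by
  let := ZMod.algebra (IsLocalRing.ResidueField 𝔓.P) p
  set r := IsLocalRing.residue 𝔓.P ⟨a, (𝔓.mem_iff a).mpr ha⟩ with hr
  have hint := 𝔓.isIntegral_residue r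
  have : FiniteDimensional (ZMod p) (IntermediateField.adjoin (ZMod p) {r}) :=
    IntermediateField.adjoin.finiteDimensional hint
  have : Finite (IntermediateField.adjoin (ZMod p) {r}) := Module.finite_of_finite (ZMod p)
  let F := IntermediateField.adjoin (ZMod p) {r}
  let := Fintype.ofFinite F
  refine ⟨Module.finrank (ZMod p) F, Module.finrank_pos, ?_⟩
  have hcard : Fintype.card F = p ^ Module.finrank (ZMod p) F := by
    rw [Module.card_eq_pow_finrank (K := ZMod p), ZMod.card]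
  have h := FiniteField.pow_card (⟨r, IntermediateField.mem_adjoin_simple_self (ZMod p) r⟩ : F)
  rw [hcard] at h
  have h' : r ^ p ^ Module.finrank (ZMod p) F = r := congrArg Subtype.val h
  rw [hr, ← map_pow, residue_eq_iff] at h'
  simpa using h'

/-- A solution of `x^(p^n) = x` is fixed by inertia. -/
lemma mem_K₀_of_pow_eq {ω : QB} {n : ℕ} (hn : 0 < n) (hω : ω ^ p ^ n = ω) : ω ∈ 𝔓.K₀ := by
  rw [mem_K₀]
  intro σ hσ
  by_cases h0 : ω = 0
  · simp [h0]
  have h1 : 1 ≤ p ^ n := Nat.one_le_pow _ _ hp.out.pos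
  have hN : ¬ p ∣ p ^ n - 1 := by
    intro hd
    have h2 : p ∣ p ^ n := dvd_pow_self p hn.ne'
    have : p ∣ 1 := by
      have := Nat.dvd_sub h2 hd
      rwa [Nat.sub_sub_self h1] at this
    exact hp.out.not_dvd_one this
  have hu : ω ^ (p ^ n - 1) = 1 := by
    refine mul_right_cancel₀ h0 ?_
    rw [← pow_succ, Nat.sub_add_cancel h1, hω, one_mul]
  have hN0 : p ^ n - 1 ≠ 0 := fun h => hN (h ▸ dvd_zero p)
  have hnm := 𝔓.nm_eq_one_of_pow_eq_one hN0 hu
  have hq : (σ ω / ω) ^ (p ^ n - 1) = 1 := by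
    rw [div_pow, ← map_pow, hu, map_one, div_one]
  have hlt : 𝔓.nm (σ ω / ω - 1) < 1 := by
    rw [div_sub_one h0, map_div₀, hnm, div_one]
    exact (𝔓.mem_I_iff.mp hσ).2 ω hnm.le
  exact (div_eq_one_iff_eq h0).mp (𝔓.eq_one_of_pow_eq_one hN hq hlt)

lemma exists_lt_one_of_prod_lt_one {s : Multiset ℝ} (h : s.prod < 1) : ∃ x ∈ s, x < 1 := by
  by_contra hne
  push Not at hne
  exact absurd h (not_lt.mpr (Multiset.one_le_prod hne))

/-- An element congruent to its `p^n`-th power is congruent to a solution of `x^(p^n) = x`. -/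
lemma exists_root_of_pow_congr {a : QB} {n : ℕ} (hn : 0 < n)
    (h : 𝔓.nm (a ^ p ^ n - a) < 1) : ∃ ω : QB, ω ^ p ^ n = ω ∧ 𝔓.nm (a - ω) < 1 := by
  set g : QB[X] := X ^ p ^ n - X with hg
  have h1 : 1 < p ^ n := Nat.one_lt_pow hn.ne' hp.out.one_lt
  have hdeg : (X : QB[X]).degree < (X ^ p ^ n : QB[X]).degree := by
    rw [degree_X, degree_X_pow]
    exact_mod_cast h1
  have hmonic : g.Monic := (monic_X_pow _).sub_of_left hdeg
  have hsplit := (IsAlgClosed.splits g).eq_prod_roots_of_monic hmonic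
  have hval : g.eval a = (g.roots.map fun r => a - r).prod := by
    conv_lhs => rw [hsplit]
    rw [eval_multiset_prod, Multiset.map_map]
    simp [Function.comp_def]
  have hlt : (g.roots.map fun r => 𝔓.nm (a - r)).prod < 1 := by
    have e : 𝔓.nm (g.eval a) = (g.roots.map fun r => 𝔓.nm (a - r)).prod := by
      rw [hval, map_multiset_prod, Multiset.map_map]; rfl
    rw [← e]; simpa [hg] using h
  obtain ⟨x, hx, hx1⟩ := exists_lt_one_of_prod_lt_one hlt
  obtain ⟨r, hr, rfl⟩ := Multiset.mem_map.mp hx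
  refine ⟨r, ?_, hx1⟩
  have := isRoot_of_mem_roots hr
  simp only [hg, IsRoot.def, eval_sub, eval_pow, eval_X, sub_eq_zero] at this
  exact this

/-- Every residue class contains a solution of `x^(p^n) = x`. -/
lemma exists_root_congr (a : QB) (ha : 𝔓.nm a ≤ 1) :
    ∃ n : ℕ, 0 < n ∧ ∃ ω : QB, ω ^ p ^ n = ω ∧ 𝔓.nm (a - ω) < 1 := by
  obtain ⟨n, hn, h⟩ := 𝔓.exists_pow_congr a ha
  exact ⟨n, hn, 𝔓.exists_root_of_pow_congr hn h⟩

/-- The inertia field surjects onto the residue field. -/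
lemma exists_mem_K₀_congr (a : QB) (ha : 𝔓.nm a ≤ 1) :
    ∃ c ∈ 𝔓.K₀, 𝔓.nm (a - c) < 1 := by
  obtain ⟨n, hn, ω, hω, h⟩ := 𝔓.exists_root_congr a ha
  exact ⟨ω, 𝔓.mem_K₀_of_pow_eq hn hω, h⟩

end LocalPlace

end FLTAgent.TW.Flat
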