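import Fermat.Agent.TW.Flat.Unramified
import Fermat.Agent.Frobenius.Unramified
import Mathlib.LinearAlgebra.Lagrange

/-!
# Norms on the inertia field are powers of `p`

An element `x` fixed by inertia is fixed by the stabiliser in the decomposition group of a root of
unity `ω` of order prime to `p`; it is then a polynomial in `ω` over the decomposition field, and
the residues of these powers of `ω` are independent over `𝔽_p`.
-/

set_option autoImplicit false

open scoped Pointwise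
open Polynomial

noncomputable section

namespace FLTAgent.TW.Flat

namespace LocalPlace

variable {p : ℕ} [hp : Fact p.Prime] (𝔓 : LocalPlace p)

lemma nm_intCast_le_one (z : ℤ) : 𝔓.nm (z : QB) ≤ 1 := (𝔓.mem_iff _).mp (intCast_mem 𝔓.P z)

lemma pow_congr_mul {a : QB} {n : ℕ} (ha : 𝔓.nm a ≤ 1)
    (h : 𝔓.nm (a ^ p ^ n - a) < 1) (m : ℕ) : 𝔓.nm (a ^ p ^ (n * m) - a) < 1 := by
  induction m with
  | zero => simp
  | succ m ih =>
    have e : a ^ p ^ (n * (m + 1)) - a =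
        ((a ^ p ^ (n * m)) ^ p ^ n - a ^ p ^ n) + (a ^ p ^ n - a) := by
      rw [← pow_mul, ← pow_add, mul_add_one]; ring
    rw [e]
    refine (𝔓.ultra _ _).trans_lt (max_lt ?_ h)
    rw [← geom_sum₂_mul, map_mul]
    refine lt_of_le_of_lt (mul_le_of_le_one_left (𝔓.nm_nonneg _)
      (𝔓.nm_sum_le _ _ zero_le_one fun i _ => ?_)) ih
    rw [map_mul, map_pow, map_pow, map_pow]
    exact mul_le_one₀ (pow_le_one₀ (pow_nonneg (𝔓.nm_nonneg _) _)
      (pow_le_one₀ (𝔓.nm_nonneg _) ha)) (pow_nonneg (𝔓.nm_nonneg _) _)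
      (pow_le_one₀ (𝔓.nm_nonneg _) ha)

lemma add_pow_congr {x y : QB} (hx : 𝔓.nm x ≤ 1) (hy : 𝔓.nm y ≤ 1) (n : ℕ) :
    𝔓.nm ((x + y) ^ p ^ n - (x ^ p ^ n + y ^ p ^ n)) < 1 := by
  have h : IsLocalRing.residue 𝔓.P ((⟨x, (𝔓.mem_iff x).mpr hx⟩ + ⟨y, (𝔓.mem_iff y).mpr hy⟩) ^ p ^ n)
      = IsLocalRing.residue 𝔓.P (⟨x, (𝔓.mem_iff x).mpr hx⟩ ^ p ^ n +
        ⟨y, (𝔓.mem_iff y).mpr hy⟩ ^ p ^ n) := by
    simp only [map_add, map_pow, add_pow_char_pow]
  rw [residue_eq_iff] at h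
  simpa using h

lemma intCast_pow_congr (z : ℤ) (n : ℕ) : 𝔓.nm ((z : QB) ^ p ^ n - z) < 1 := by
  have h0 : (((z ^ p ^ n - z : ℤ)) : ZMod p) = 0 := by
    push_cast
    rw [ZMod.pow_card_pow, sub_self]
  obtain ⟨w, hw⟩ := (ZMod.intCast_zmod_eq_zero_iff_dvd _ p).mp h0
  rw [show (z : QB) ^ p ^ n - z = ((z ^ p ^ n - z : ℤ) : QB) by push_cast; ring, hw]
  push_cast
  rw [map_mul, 𝔓.nm_p]
  exact (mul_le_of_le_one_right (by positivity) (𝔓.nm_intCast_le_one w)).trans_lt inv_p_lt_one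

/-- A common Frobenius exponent for the integral elements of a number field. -/
lemma exists_exponent (L : IntermediateField ℚ QB) [FiniteDimensional ℚ L] :
    ∃ n : ℕ, 0 < n ∧ ∀ z : Frobenius.Zbar, (z : QB) ∈ L →
      𝔓.nm ((z : QB) ^ p ^ n - z) < 1 := by
  classical
  have : NumberField L := { to_finiteDimensional := inferInstance }
  obtain ⟨S, hS⟩ := (Module.finite_def.mp (inferInstance : Module.Finite ℤ (NumberField.RingOfIntegers L)))
  have hint : ∀ y : NumberField.RingOfIntegers L,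
      𝔓.nm (Frobenius.toZbar L y : QB) ≤ 1 := fun y =>
    (𝔓.mem_iff _).mp (Frobenius.mem_of_isIntegral 𝔓.P (Frobenius.toZbar L y).2)
  choose m hm0 hm using fun y : NumberField.RingOfIntegers L => 𝔓.exists_pow_congr _ (hint y)
  refine ⟨∏ y ∈ S, m y, Finset.prod_pos fun y _ => hm0 y, fun z hz => ?_⟩
  obtain ⟨y, rfl⟩ := Frobenius.exists_toZbar_eq L hz
  have hy : y ∈ Submodule.span ℤ (S : Set (NumberField.RingOfIntegers L)) := hS ▸ Submodule.mem_top
  clear hz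
  set N := ∏ y ∈ S, m y with hN
  induction hy using Submodule.span_induction with
  | mem x hx =>
    obtain ⟨k, hk⟩ := Finset.dvd_prod_of_mem m hx
    rw [hN, hk]
    exact 𝔓.pow_congr_mul (hint x) (hm x) k
  | zero => simp [hp.out.ne_zero]
  | add x x' _ _ ih ih' =>
    rw [map_add, Subalgebra.coe_add, show ((Frobenius.toZbar L x : QB) + Frobenius.toZbar L x') ^ p ^ N -
      ((Frobenius.toZbar L x : QB) + Frobenius.toZbar L x') =
      (((Frobenius.toZbar L x : QB) + Frobenius.toZbar L x') ^ p ^ N -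
        ((Frobenius.toZbar L x : QB) ^ p ^ N + (Frobenius.toZbar L x' : QB) ^ p ^ N)) +
      (((Frobenius.toZbar L x : QB) ^ p ^ N - Frobenius.toZbar L x) +
        ((Frobenius.toZbar L x' : QB) ^ p ^ N - Frobenius.toZbar L x')) by ring]
    exact (𝔓.ultra _ _).trans_lt (max_lt (𝔓.add_pow_congr (hint x) (hint x') N)
      ((𝔓.ultra _ _).trans_lt (max_lt ih ih')))
  | smul a x _ ih =>
    rw [map_zsmul, zsmul_eq_mul, Subalgebra.coe_mul, SubringClass.coe_intCast, mul_pow,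
      show (a : QB) ^ p ^ N * (Frobenius.toZbar L x : QB) ^ p ^ N - a * Frobenius.toZbar L x =
        ((a : QB) ^ p ^ N - a) * (Frobenius.toZbar L x : QB) ^ p ^ N +
          a * ((Frobenius.toZbar L x : QB) ^ p ^ N - Frobenius.toZbar L x) by ring]
    refine (𝔓.ultra _ _).trans_lt (max_lt ?_ ?_)
    · rw [map_mul, map_pow]
      exact (mul_le_of_le_one_right (𝔓.nm_nonneg _) (pow_le_one₀ (𝔓.nm_nonneg _) (hint x))).trans_lt
        (𝔓.intCast_pow_congr a N)
    · rw [map_mul]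
      exact (mul_le_of_le_one_left (𝔓.nm_nonneg _) (𝔓.nm_intCast_le_one a)).trans_lt ih

/-- Norms of the inertia field are powers of `p`. -/
theorem exists_zpow_of_mem_K₀ {x : QB} (hx : x ∈ 𝔓.K₀) (hx0 : x ≠ 0) :
    ∃ n : ℤ, 𝔓.nm x = (p : ℝ) ^ n := by
  classical
  have : IsGalois ℚ QB := by
    have : Algebra.IsAlgebraic ℚ QB := AlgebraicClosure.isAlgebraic ℚ
    have : IsAlgClosure ℚ QB := ⟨inferInstance, inferInstance⟩
    exact { to_normal := IsAlgClosure.normal ℚ QB }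
  have : FiniteDimensional ℚ (IntermediateField.adjoin ℚ {x}) :=
    IntermediateField.adjoin.finiteDimensional (Algebra.IsIntegral.isIntegral x)
  set L := IntermediateField.normalClosure ℚ (IntermediateField.adjoin ℚ {x}) QB with hL
  have : Normal ℚ L := normalClosure.normal ℚ _ QB
  have hxL : x ∈ L := IntermediateField.le_normalClosure _ (IntermediateField.mem_adjoin_simple_self ℚ x)
  obtain ⟨n, hn, hexp⟩ := 𝔓.exists_exponent L
  have h1 : 1 < p ^ n := Nat.one_lt_pow hn.ne' hp.out.one_lt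
  set N := p ^ n - 1 with hNdef
  have hN : ¬ p ∣ N := by
    intro hd
    have h2 : p ∣ p ^ n := dvd_pow_self p hn.ne'
    have h3 := Nat.dvd_sub h2 hd
    rw [hNdef, Nat.sub_sub_self h1.le] at h3
    exact hp.out.not_dvd_one h3
  have hN0 : 0 < N := by omega
  have : NeZero (N : QB) := ⟨Nat.cast_ne_zero.mpr hN0.ne'⟩
  obtain ⟨ω, hω⟩ := IsAlgClosed.exists_root (cyclotomic N QB)
    (by rw [degree_cyclotomic]; exact_mod_cast (Nat.totient_pos.mpr hN0).ne')
  rw [isRoot_cyclotomic_iff] at hω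
  have hroot : ∀ {v : QB}, v ^ p ^ n = v → v = 0 ∨ ∃ i, v = ω ^ i := by
    intro v hv
    by_cases h0 : v = 0
    · exact Or.inl h0
    · right
      have hv' : v ^ N = 1 := by
        refine mul_right_cancel₀ h0 ?_
        rw [← pow_succ, hNdef, Nat.sub_add_cancel h1.le, hv, one_mul]
      have : NeZero N := ⟨hN0.ne'⟩
      obtain ⟨i, -, hi⟩ := hω.eq_pow_of_pow_eq_one hv'
      exact ⟨i, hi.symm⟩
  -- the stabiliser of `ω` fixes `x`
  have hstab : ∀ σ ∈ 𝔓.D, σ ω = ω → σ x = x := by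
    intro σ hσ hσω
    obtain ⟨ι, hι, hιe⟩ := Frobenius.exists_mem_inertiaSubgroupIn_eqOn L (A := 𝔓.P) σ (fun z hz => by
      rw [Frobenius.mem_centre, 𝔓.mem_nonunits_iff]
      change 𝔓.nm (σ (z : QB) - (z : QB)) < 1
      obtain ⟨v, hv, hzv⟩ := 𝔓.exists_root_of_pow_congr hn (hexp z hz)
      have hσv : σ v = v := by
        rcases hroot hv with rfl | ⟨i, rfl⟩
        · simp
        · rw [map_pow, hσω]
      rw [show σ (z : QB) - (z : QB) = σ ((z : QB) - v) - ((z : QB) - v) by rw [map_sub, hσv]; ring]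
      exact (𝔓.nm_sub_le _ _).trans_lt (max_lt (by rw [𝔓.nm_apply hσ]; exact hzv) hzv))
    rw [← hιe x hxL]
    exact (𝔓.mem_K₀.mp hx) ι hι
  -- the orbit of `ω`
  have hωN : ω ^ N = 1 := hω.pow_eq_one
  set O : Finset QB := (Polynomial.nthRootsFinset N (1 : QB)).filter
    (fun o => ∃ σ ∈ 𝔓.D, σ ω = o) with hO
  have hmemO : ∀ o, o ∈ O ↔ ∃ σ ∈ 𝔓.D, σ ω = o := by
    intro o
    rw [hO, Finset.mem_filter, mem_nthRootsFinset hN0]
    refine and_iff_right_of_imp ?_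
    rintro ⟨σ, -, rfl⟩
    rw [← map_pow, hωN, map_one]
  let r : QB → QB := fun o => if h : ∃ σ ∈ 𝔓.D, σ ω = o then h.choose x else 0
  have hr : ∀ σ ∈ 𝔓.D, r (σ ω) = σ x := by
    intro σ hσ
    have h : ∃ τ ∈ 𝔓.D, τ ω = σ ω := ⟨σ, hσ, rfl⟩
    simp only [r, dif_pos h]
    obtain ⟨hτ, hτω⟩ := h.choose_spec
    have := hstab (σ⁻¹ * h.choose) (mul_mem (inv_mem hσ) hτ)
      (by rw [AlgEquiv.mul_apply, hτω]; simp)
    have := congrArg σ this
    simpa using this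
  set q := Lagrange.interpolate O id r with hq
  have hinj : Set.InjOn (id : QB → QB) O := fun a _ b _ h => h
  have hqdeg : q.degree < O.card := Lagrange.degree_interpolate_lt r hinj
  have hfix : ∀ σ ∈ 𝔓.D, ∀ i, σ (q.coeff i) = q.coeff i := by
    intro σ hσ i
    have key : q.map (σ : QB →+* QB) = q := by
      conv_rhs => rw [hq]
      refine Lagrange.eq_interpolate_of_eval_eq r hinj ?_ ?_
      · rwa [degree_map_eq_of_injective (σ : QB →+* QB).injective]
      · intro o ho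
        obtain ⟨τ, hτ, rfl⟩ := (hmemO o).mp ho
        have hmem : (σ⁻¹ * τ) ω ∈ O := (hmemO _).mpr ⟨_, mul_mem (inv_mem hσ) hτ, rfl⟩
        have he : q.eval ((σ⁻¹ * τ) ω) = (σ⁻¹ * τ) x := by
          rw [hq]
          exact (Lagrange.eval_interpolate_at_node r hinj hmem).trans
            (hr _ (mul_mem (inv_mem hσ) hτ))
        have hσσ : ∀ y, σ ((σ⁻¹ * τ) y) = τ y := fun y => by simp
        rw [id_eq, hr τ hτ, ← hσσ ω, ← hσσ x, ← he, eval_map,
          show σ ((σ⁻¹ * τ) ω) = (σ : QB →+* QB) ((σ⁻¹ * τ) ω) from rfl, eval₂_at_apply]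
        rfl
    conv_rhs => rw [← key, coeff_map]
    rfl
  have hxq : x = q.eval ω := by
    have hmem : ω ∈ O := (hmemO ω).mpr ⟨1, one_mem _, rfl⟩
    rw [hq]
    refine ((Lagrange.eval_interpolate_at_node r hinj hmem).trans ?_).symm
    have := hr 1 (one_mem _)
    simpa using this
  -- the largest coefficient gives the norm
  have hq0 : q ≠ 0 := by rintro h; rw [h, eval_zero] at hxq; exact hx0 hxq
  obtain ⟨i₀, hi₀, hmax⟩ := Finset.exists_max_image q.support (fun i => 𝔓.nm (q.coeff i))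
    (support_nonempty.mpr hq0)
  have hc0 : q.coeff i₀ ≠ 0 := mem_support_iff.mp hi₀
  obtain ⟨M, hM⟩ := 𝔓.decomp_norm _ hc0 (fun σ hσ => hfix σ hσ i₀)
  refine ⟨M, ?_⟩
  have hcmax : ∀ i, 𝔓.nm (q.coeff i / q.coeff i₀) ≤ 1 := by
    intro i
    rw [map_div₀, div_le_one (𝔓.nm.pos hc0)]
    by_cases hi : i ∈ q.support
    · exact hmax i hi
    · rw [notMem_support_iff.mp hi, map_zero]; exact 𝔓.nm_nonneg _
  choose a ha using fun i => 𝔓.decomp_residue _ (hcmax i)
    (fun σ hσ => by rw [map_div₀, hfix σ hσ, hfix σ hσ])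
  have hωnm : 𝔓.nm ω = 1 := 𝔓.nm_eq_one_of_pow_eq_one hN0.ne' hωN
  have hb : ∀ v, 𝔓.nm v ≤ 1 → 𝔓.nm ((∑ i ∈ q.support, q.coeff i / q.coeff i₀ * v ^ i) -
      ∑ i ∈ q.support, (a i : QB) * v ^ i) < 1 := by
    intro v hv
    rw [← Finset.sum_sub_distrib]
    refine 𝔓.nm_sum_lt _ _ one_pos fun i _ => ?_
    rw [← sub_mul, map_mul, map_pow]
    exact (mul_le_of_le_one_right (𝔓.nm_nonneg _) (pow_le_one₀ (𝔓.nm_nonneg _) hv)).trans_lt (ha i)
  set s : QB := ∑ i ∈ q.support, (a i : QB) * ω ^ i with hs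
  have hxdiv : x = q.coeff i₀ * ∑ i ∈ q.support, q.coeff i / q.coeff i₀ * ω ^ i := by
    rw [hxq, Finset.mul_sum, eval_eq_sum, sum_def]
    refine Finset.sum_congr rfl fun i _ => ?_
    field_simp
  suffices hs1 : ¬ 𝔓.nm s < 1 by
    rw [hxdiv, map_mul, hM]
    have hsle : 𝔓.nm s ≤ 1 := 𝔓.nm_sum_le _ _ zero_le_one fun i _ => by
      rw [map_mul, map_pow, hωnm, one_pow, mul_one]; exact 𝔓.nm_natCast_le_one _
    have hs1' : 𝔓.nm s = 1 := le_antisymm hsle (not_lt.mp hs1)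
    rw [𝔓.nm_eq_of_sub_lt ((hb ω hωnm.le).trans_eq hs1'.symm), hs1', mul_one]
  intro hlt
  let k := IsLocalRing.ResidueField 𝔓.P
  set f : k[X] := ∑ i ∈ q.support, C ((a i : k)) * X ^ i with hf
  have hOP : ∀ o ∈ O, o ∈ 𝔓.P := by
    intro o ho
    obtain ⟨τ, hτ, rfl⟩ := (hmemO o).mp ho
    rw [𝔓.mem_iff, 𝔓.nm_apply hτ, hωnm]
  let res : O → k := fun o => IsLocalRing.residue 𝔓.P ⟨o.1, hOP o.1 o.2⟩
  have hres : Function.Injective res := by
    rintro ⟨o₁, ho₁⟩ ⟨o₂, ho₂⟩ h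
    rw [residue_eq_iff] at h
    obtain ⟨τ₁, hτ₁, rfl⟩ := (hmemO o₁).mp ho₁
    obtain ⟨τ₂, hτ₂, rfl⟩ := (hmemO o₂).mp ho₂
    have hω0 : τ₂ ω ≠ 0 := by simpa using hω.ne_zero hN0.ne'
    have := 𝔓.eq_one_of_pow_eq_one (u := τ₁ ω / τ₂ ω) hN
      (by rw [div_pow, ← map_pow, ← map_pow, hωN, map_one, map_one, div_one])
      (by rw [div_sub_one hω0, map_div₀, 𝔓.nm_apply hτ₂, hωnm, div_one]; exact h)
    exact Subtype.ext ((div_eq_one_iff_eq hω0).mp this)
  have hroots : ∀ o : O, f.eval (res o) = 0 := by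
    rintro ⟨o, ho⟩
    obtain ⟨τ, hτ, rfl⟩ := (hmemO o).mp ho
    have hlt' : 𝔓.nm (∑ i ∈ q.support, (a i : QB) * (τ ω) ^ i) < 1 := by
      rw [show (∑ i ∈ q.support, (a i : QB) * (τ ω) ^ i) = τ s by simp [hs], 𝔓.nm_apply hτ]
      exact hlt
    have e : f.eval (res ⟨τ ω, ho⟩) = IsLocalRing.residue 𝔓.P
        (∑ i ∈ q.support, (a i : 𝔓.P) * ⟨τ ω, hOP _ ho⟩ ^ i) := by
      simp only [hf, res, eval_finsetSum, eval_mul, eval_C, eval_pow, eval_X, map_sum, map_mul,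
        map_pow, map_natCast]
    rw [e, IsLocalRing.residue_eq_zero_iff, ← ValuationSubring.coe_mem_nonunits_iff,
      𝔓.mem_nonunits_iff]
    simpa using hlt'
  have hf0 : f = 0 := by
    refine eq_zero_of_degree_lt_of_eval_finset_eq_zero (Finset.univ.image res) ?_ ?_
    · rw [Finset.card_image_of_injective _ hres, Finset.card_univ, Fintype.card_coe]
      refine lt_of_le_of_lt (degree_sum_le _ _) ((Finset.sup_lt_iff (WithBot.bot_lt_coe _)).mpr ?_)
      intro i hi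
      refine lt_of_le_of_lt (degree_C_mul_X_pow_le _ _) (lt_of_le_of_lt ?_ hqdeg)
      exact le_degree_of_mem_supp i hi
    · simp only [Finset.mem_image]
      rintro _ ⟨o, -, rfl⟩
      exact hroots o
  have hcoef : (a i₀ : k) = 0 := by
    have := congrArg (coeff · i₀) hf0
    simpa [hf, coeff_C_mul_X_pow, hi₀, Finset.sum_ite_eq] using this
  have h1' : 𝔓.nm (q.coeff i₀ / q.coeff i₀ - (a i₀ : QB)) < 1 := ha i₀
  rw [div_self hc0] at h1'
  rw [← map_natCast (IsLocalRing.residue 𝔓.P), ← map_zero (IsLocalRing.residue 𝔓.P),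
    residue_eq_iff] at hcoef
  have h2' := (𝔓.ultra (1 - (a i₀ : QB)) (a i₀ : QB))
  rw [sub_add_cancel, AbsoluteValue.map_one] at h2'
  exact absurd h2' (not_le.mpr (max_lt h1' (by simpa using hcoef)))

end LocalPlace

end FLTAgent.TW.Flat
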