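import Fermat.Agent.TW.Flat.Ramified
import Mathlib.Algebra.CharP.Lemmas

/-!
# Kummer theory for the totally ramified fields containing the `p`-th roots of unity

The levels of classes modulo `p`-th powers, and the uniformiser of `K(x^(1/p))`.
-/

set_option autoImplicit false

open scoped Pointwise

noncomputable section

namespace FLTAgent.TW.Flat

variable {p : ℕ} [hp : Fact p.Prime] {𝔓 : LocalPlace p}

namespace LocalPlace

/-- `(1 + t)^p` is `1 + t^p` up to `p t`. -/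
lemma nm_one_add_pow_sub {t : QB} (ht : 𝔓.nm t ≤ 1) :
    𝔓.nm ((1 + t) ^ p - 1 - t ^ p) ≤ (p : ℝ)⁻¹ * 𝔓.nm t := by
  obtain ⟨r, hr⟩ := exists_add_pow_prime_eq hp.out (1 : 𝔓.P) ⟨t, (𝔓.mem_iff t).mpr ht⟩
  have h := congrArg (Subtype.val : 𝔓.P → QB) hr
  simp only [SubmonoidClass.coe_pow, AddMemClass.coe_add, MulMemClass.coe_mul,
    OneMemClass.coe_one, one_pow, mul_one, SubringClass.coe_natCast] at h
  rw [h, show 1 + t ^ p + (p : QB) * t * r - 1 - t ^ p = (p : QB) * t * r by ring, map_mul,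
    map_mul, 𝔓.nm_p]
  exact mul_le_of_le_one_right (by positivity [𝔓.nm_nonneg t]) ((𝔓.mem_iff _).mp r.2)

/-- A Teichmüller representative and its `p`-th root, both fixed by inertia. -/
lemma exists_root_mem_K₀ {x : QB} (hx : 𝔓.nm x ≤ 1) :
    ∃ w ∈ 𝔓.K₀, 𝔓.nm w ≤ 1 ∧ 𝔓.nm (x - w ^ p) < 1 := by
  obtain ⟨n, hn, ω, hω, h⟩ := 𝔓.exists_root_congr x hx
  obtain ⟨k, rfl⟩ := Nat.exists_eq_succ_of_ne_zero hn.ne'
  have hw : (ω ^ p ^ k) ^ p = ω := by rw [← pow_mul, ← pow_succ]; exact hω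
  refine ⟨ω ^ p ^ k, pow_mem (𝔓.mem_K₀_of_pow_eq hn hω) _, ?_, by rwa [hw]⟩
  by_contra hgt
  push Not at hgt
  have h1 := one_lt_pow₀ hgt hp.out.ne_zero
  rw [← map_pow, hw] at h1
  have h2 := 𝔓.nm_sub_le x (x - ω)
  rw [sub_sub_cancel] at h2
  exact absurd h1 (not_lt.mpr (h2.trans (max_le hx h.le)))

end LocalPlace

namespace TR

variable {e m : ℕ} (T : TR 𝔓 e) (hm : e = m * (p - 1)) {ζ : QB} (hζ : IsPrimitiveRoot ζ p)

include hm hζ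

lemma nm_zeta : 𝔓.nm (ζ - 1) = T.ρ ^ m := by
  have hp1 : p - 1 ≠ 0 := by have := hp.out.two_le; omega
  refine (pow_left_inj₀ (𝔓.nm_nonneg _) (pow_nonneg T.rho_pos.le _) hp1).mp ?_
  rw [𝔓.nm_zeta_sub_one_pow hζ, ← pow_mul, ← hm, T.rho_pow]

lemma zeta_mem : ζ ∈ T.K := by
  refine T.mem_of_fixed fun σ hσ => ?_
  have hv : 𝔓.nm ((ζ - 1) / T.π ^ m) ≤ 1 := by
    rw [map_div₀, map_pow, T.nm_zeta hm hζ]; exact (div_self (pow_ne_zero _ T.rho_pos.ne')).le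
  have h := (𝔓.mem_I_iff.mp (T.fix_le_I hσ)).2 _ hv
  rw [map_div₀, map_pow, (IntermediateField.mem_fixingSubgroup_iff _ _).mp hσ _ T.mem, ← sub_div,
    map_sub, map_one, sub_sub_sub_cancel_right, map_div₀, map_pow,
    div_lt_one (pow_pos (show 0 < 𝔓.nm T.π from T.rho_pos) _)] at h
  have hζ0 : ζ ≠ 0 := hζ.ne_zero hp.out.ne_zero
  have h1 := 𝔓.nm_eq_one_of_pow_eq_one hp.out.ne_zero hζ.pow_eq_one
  refine (div_eq_one_iff_eq hζ0).mp (𝔓.eq_one_of_pow_p_eq_one hζ ?_ ?_)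
  · rw [div_pow, ← map_pow, hζ.pow_eq_one, map_one, div_one]
  · rw [div_sub_one hζ0, map_div₀, h1, div_one, T.nm_zeta hm hζ]; exact h

/-- Elements within `|ζ - 1|^p` of one are `p`-th powers. -/
lemma mem_of_pow_near {y : QB} (hy : y ^ p ∈ T.K) (h : 𝔓.nm (y ^ p - 1) ≤ T.ρ ^ (m * p)) :
    y ∈ T.K := by
  refine T.mem_of_fixed fun σ hσ => ?_
  have hy1 : 𝔓.nm (y - 1) ≤ 𝔓.nm (ζ - 1) := by
    by_contra hlt
    push Not at hlt
    rw [𝔓.nm_pow_p_sub_one_of_gt hζ hlt, pow_mul, ← T.nm_zeta hm hζ] at h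
    exact absurd h (not_le.mpr (pow_lt_pow_left₀ hlt (𝔓.nm_nonneg _) hp.out.ne_zero))
  have hnmy : 𝔓.nm y = 1 := by
    rw [𝔓.nm_eq_of_sub_lt (y := 1) (by
      rw [AbsoluteValue.map_one]; exact hy1.trans_lt (𝔓.nm_zeta_sub_one_lt_one hζ)),
      AbsoluteValue.map_one]
  have hy0 : y ≠ 0 := fun h0 => by simp [h0] at hnmy
  have hz : 𝔓.nm ((y - 1) / (ζ - 1)) ≤ 1 := by
    rw [map_div₀]; exact div_le_one_of_le₀ hy1 (𝔓.nm_nonneg _)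
  have hσζ := (IntermediateField.mem_fixingSubgroup_iff _ _).mp hσ _ (T.zeta_mem hm hζ)
  have h2 := (𝔓.mem_I_iff.mp (T.fix_le_I hσ)).2 _ hz
  rw [map_div₀ σ, map_sub σ, map_sub σ, map_one σ, hσζ, ← sub_div, sub_sub_sub_cancel_right,
    map_div₀,
    div_lt_one (𝔓.nm_zeta_sub_one_pos hζ)] at h2
  refine (div_eq_one_iff_eq hy0).mp (𝔓.eq_one_of_pow_p_eq_one hζ ?_ ?_)
  · rw [div_pow, ← map_pow, (IntermediateField.mem_fixingSubgroup_iff _ _).mp hσ _ hy,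
      div_self (pow_ne_zero _ hy0)]
  · rwa [div_sub_one hy0, map_div₀, hnmy, div_one]

/-- A `p`-th power is not at a level below `m p` prime to `p`. -/
lemma nm_sub_one_ne {w : QB} (hw : w ∈ T.K) {i : ℕ} (hi : i < m * p) (hpi : ¬ p ∣ i) :
    𝔓.nm (w ^ p - 1) ≠ T.ρ ^ i := by
  intro h
  rcases le_or_gt (𝔓.nm (w - 1)) (𝔓.nm (ζ - 1)) with hle | hgt
  · have := 𝔓.nm_pow_p_sub_one_of_le hζ hle
    rw [h, T.nm_zeta hm hζ, ← pow_mul] at this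
    exact absurd ((pow_le_pow_iff_right_of_lt_one₀ T.rho_pos T.rho_lt_one).mp this) (not_le.mpr hi)
  · rw [𝔓.nm_pow_p_sub_one_of_gt hζ hgt] at h
    have hne : w - 1 ≠ 0 := fun h0 => by
      rw [h0, map_zero] at hgt; exact absurd hgt (not_lt.mpr (𝔓.nm_nonneg _))
    obtain ⟨t, ht⟩ := T.exists_zpow (T.K.sub_mem hw (one_mem _)) hne
    rw [ht, ← zpow_natCast, ← zpow_mul, ← zpow_natCast T.ρ i] at h
    exact hpi (Int.natCast_dvd_natCast.mp ⟨t, by rw [← T.zpow_inj h]; ring⟩)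

/-- `x` is a `p`-th power times an element congruent to one at level `i`. -/
def InU (T : TR 𝔓 e) (i : ℕ) (x : QB) : Prop :=
  ∃ w ∈ T.K, w ≠ 0 ∧ 𝔓.nm (x / w ^ p - 1) ≤ T.ρ ^ i

omit hm hζ in
lemma InU.mono {i j : ℕ} (hij : i ≤ j) {x : QB} (h : T.InU j x) : T.InU i x := by
  obtain ⟨w, hw, hw0, h⟩ := h
  exact ⟨w, hw, hw0, h.trans (pow_le_pow_of_le_one T.rho_pos.le T.rho_lt_one.le hij)⟩

omit hm hζ in
lemma inU_one_of_nm {x : QB} (hx : x ∈ T.K) (h : 𝔓.nm x = 1) : T.InU 1 x := by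
  obtain ⟨w, hw, -, hlt⟩ := 𝔓.exists_root_mem_K₀ h.le
  have hw1 : 𝔓.nm (w ^ p) = 1 := by
    rw [𝔓.nm_eq_of_sub_lt (x := w ^ p) (y := x) (by rw [𝔓.nm.map_sub, h]; exact hlt), h]
  have hw0 : w ≠ 0 := fun h0 => by simp [h0, hp.out.ne_zero] at hw1
  refine ⟨w, T.le hw, hw0, T.le_succ_of_lt_nat (n := 0)
    (T.K.sub_mem (T.K.div_mem hx (pow_mem (T.le hw) p)) (one_mem _)) ?_⟩
  rw [div_sub_one (pow_ne_zero _ hw0), map_div₀, hw1, div_one, pow_zero]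
  exact hlt

omit hζ in
/-- Levels divisible by `p` below `m p` can be raised. -/
lemma inU_step {x : QB} (hx : x ∈ T.K) {k : ℕ} (hk0 : 0 < k) (hk : k < m)
    (h : T.InU (p * k) x) : T.InU (p * k + 1) x := by
  obtain ⟨w, hw, hw0, h⟩ := h
  have hxw : x / w ^ p - 1 ∈ T.K := T.K.sub_mem (T.K.div_mem hx (pow_mem hw p)) (one_mem _)
  obtain ⟨a, ha, ha1, hlead⟩ := T.exists_lead hxw h
  obtain ⟨b, hb, hb1, hab⟩ := 𝔓.exists_root_mem_K₀ ha1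
  set t := b * T.π ^ k with ht
  have hnt : 𝔓.nm t ≤ T.ρ ^ k := by
    rw [ht, map_mul, map_pow]; exact mul_le_of_le_one_left (pow_nonneg (𝔓.nm_nonneg _) _) hb1
  have ht1 : 𝔓.nm t < 1 := hnt.trans_lt (pow_lt_one₀ T.rho_pos.le T.rho_lt_one hk0.ne')
  have hv1 : 𝔓.nm (1 + t) = 1 := by
    rw [𝔓.nm_add_eq_of_lt (by rwa [AbsoluteValue.map_one]), AbsoluteValue.map_one]
  have hv0 : 1 + t ≠ 0 := fun h0 => by simp [h0] at hv1
  have htK : t ∈ T.K := T.K.mul_mem (T.le hb) (pow_mem T.mem k)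
  refine ⟨w * (1 + t), T.K.mul_mem hw (T.K.add_mem (one_mem _) htK), mul_ne_zero hw0 hv0, ?_⟩
  have key : x / (w * (1 + t)) ^ p - 1 =
      ((x / w ^ p - 1 - a * T.π ^ (p * k)) + (a - b ^ p) * T.π ^ (p * k) -
        ((1 + t) ^ p - 1 - t ^ p)) / (1 + t) ^ p := by
    have : t ^ p = b ^ p * T.π ^ (p * k) := by rw [ht, mul_pow, ← pow_mul, mul_comm k p]
    rw [mul_pow, this]
    field_simp
    ring
  rw [key, map_div₀, map_pow, hv1, one_pow, div_one]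
  refine (𝔓.nm_sub_le _ _).trans (max_le ((𝔓.ultra _ _).trans (max_le hlead ?_)) ?_)
  · refine T.le_succ_of_lt_nat (T.K.mul_mem (T.K.sub_mem (T.le ha) (pow_mem (T.le hb) p))
      (pow_mem T.mem _)) ?_
    rw [map_mul, map_pow]
    exact mul_lt_of_lt_one_left (pow_pos T.rho_pos _) hab
  · refine (𝔓.nm_one_add_pow_sub ht1.le).trans ?_
    rw [← T.rho_pow]
    refine (mul_le_mul_of_nonneg_left hnt (pow_nonneg T.rho_pos.le _)).trans ?_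
    rw [← pow_add]
    refine pow_le_pow_of_le_one T.rho_pos.le T.rho_lt_one.le ?_
    obtain ⟨q, rfl⟩ := Nat.exists_eq_add_of_lt hp.out.one_lt
    obtain ⟨r, rfl⟩ := Nat.exists_eq_add_of_lt hk
    simp only [hm]
    rw [show 1 + q + 1 - 1 = q + 1 by omega]
    nlinarith

/-- Every element is a power, or has norm exponent prime to `p`, or has a level prime to `p`. -/
theorem class_trichotomy {x : QB} (hx : x ∈ T.K) (hx0 : x ≠ 0) :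
    (∃ w ∈ T.K, w ^ p = x) ∨ (∃ n : ℤ, ¬ (p : ℤ) ∣ n ∧ 𝔓.nm x = T.ρ ^ n) ∨
      ∃ w ∈ T.K, ∃ i : ℕ, w ≠ 0 ∧ 0 < i ∧ i < m * p ∧ ¬ p ∣ i ∧
        𝔓.nm (x / w ^ p - 1) = T.ρ ^ i := by
  obtain ⟨n, hn⟩ := T.exists_zpow hx hx0
  by_cases hd : (p : ℤ) ∣ n
  swap
  · exact Or.inr (Or.inl ⟨n, hd, hn⟩)
  obtain ⟨q, rfl⟩ := hd
  by_contra hne
  obtain ⟨hpow, -, hlev⟩ : ¬ (∃ w ∈ T.K, w ^ p = x) ∧ True ∧ ¬ (∃ w ∈ T.K, ∃ i : ℕ,
      w ≠ 0 ∧ 0 < i ∧ i < m * p ∧ ¬ p ∣ i ∧ 𝔓.nm (x / w ^ p - 1) = T.ρ ^ i) :=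
    ⟨fun h => hne (Or.inl h), trivial, fun h => hne (Or.inr (Or.inr h))⟩
  have hstart : T.InU 1 x := by
    set w₀ := T.π ^ q with hw₀
    have hw₀K : w₀ ∈ T.K := zpow_mem T.mem q
    have hw₀0 : w₀ ≠ 0 := zpow_ne_zero q T.pi_ne_zero
    obtain ⟨w, hw, hw0, h⟩ := T.inU_one_of_nm (x := x / w₀ ^ p)
      (T.K.div_mem hx (pow_mem hw₀K p)) (by
        rw [map_div₀, map_pow, hw₀, map_zpow₀, hn, ← zpow_natCast (_ ^ q), ← zpow_mul, mul_comm q]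
        exact div_self (zpow_ne_zero _ T.rho_pos.ne'))
    exact ⟨w₀ * w, T.K.mul_mem hw₀K hw, mul_ne_zero hw₀0 hw0, by rwa [mul_pow, ← div_div]⟩
  have hall : ∀ i, i ≤ m * p → T.InU i x := by
    intro i
    induction i with
    | zero => exact fun _ => hstart.mono T (Nat.zero_le _)
    | succ i ih =>
      intro hi
      rcases Nat.eq_zero_or_pos i with rfl | hi0
      · exact hstart
      obtain ⟨w, hw, hw0, h⟩ := ih (by omega)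
      by_cases hpi : p ∣ i
      · obtain ⟨k, rfl⟩ := hpi
        exact T.inU_step hm hx (Nat.pos_of_mul_pos_left hi0)
          (Nat.lt_of_mul_lt_mul_left (a := p) (by rw [mul_comm p m]; omega)) ⟨w, hw, hw0, h⟩
      · refine ⟨w, hw, hw0, T.le_succ_of_lt_nat
          (T.K.sub_mem (T.K.div_mem hx (pow_mem hw p)) (one_mem _)) (lt_of_le_of_ne h fun he => ?_)⟩
        exact hlev ⟨w, hw, i, hw0, hi0, by omega, hpi, he⟩
  obtain ⟨w, hw, hw0, h⟩ := hall _ le_rfl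
  obtain ⟨y, hy⟩ := IsAlgClosed.exists_pow_nat_eq (x / w ^ p) hp.out.pos
  rw [← hy] at h
  have hyK := T.mem_of_pow_near hm hζ (hy ▸ T.K.div_mem hx (pow_mem hw p)) h
  refine hpow ⟨y * w, T.K.mul_mem hyK hw, ?_⟩
  rw [mul_pow, hy, div_mul_cancel₀ _ (pow_ne_zero _ hw0)]

omit hm hζ in
/-- An element of norm `ρ^(n/p)`, `p ∤ n`, gives a uniformiser. -/
lemma exists_uniformiser {u : QB} {n : ℤ} (hn : ¬ (p : ℤ) ∣ n) (hu : 𝔓.nm u ^ p = T.ρ ^ n) :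
    ∃ a b : ℤ, 𝔓.nm (u ^ a * T.π ^ b) ^ p = T.ρ ∧ ¬ (p : ℤ) ∣ a := by
  obtain ⟨a, b, hab⟩ :=
    ((Nat.prime_iff_prime_int.mp hp.out).coprime_iff_not_dvd.mpr hn).symm
  refine ⟨a, b, ?_, fun ha => ?_⟩
  · have h1 : (𝔓.nm u ^ a) ^ p = T.ρ ^ (a * n) := by
      rw [← zpow_natCast (𝔓.nm u ^ a), ← zpow_mul, mul_comm a (p : ℤ), zpow_mul, zpow_natCast, hu,
        ← zpow_mul, mul_comm n a]
    rw [map_mul, map_zpow₀, map_zpow₀, mul_pow, h1, ← zpow_natCast (_ ^ b), ← zpow_mul,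
      show 𝔓.nm T.π = T.ρ from rfl, ← zpow_add₀ T.rho_pos.ne', hab, zpow_one]
  · obtain ⟨c, rfl⟩ := ha
    exact (Nat.prime_iff_prime_int.mp hp.out).not_dvd_one ⟨c * n + b, by rw [← hab]; ring⟩

/-- A non-power has a normalised root `u`: `K(u) = K(y)` and some `u`-monomial is a uniformiser. -/
theorem exists_normal_root {y : QB} (hy : y ^ p ∈ T.K) (hnot : y ∉ T.K) :
    ∃ u : QB, ∃ n : ℤ, ¬ (p : ℤ) ∣ n ∧ u ∈ T.adjoinElt y ∧ 𝔓.nm u ^ p = T.ρ ^ n ∧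
      (u = y ∨ ∃ w ∈ T.K, ∃ i : ℕ, w ≠ 0 ∧ n = i ∧ 0 < i ∧ i < m * p ∧ u = y / w - 1 ∧
        𝔓.nm ((y / w) ^ p - 1) = T.ρ ^ i) := by
  have hy0 : y ≠ 0 := fun h => hnot (h ▸ T.K.zero_mem)
  have hyL := T.mem_adjoinElt y
  rcases T.class_trichotomy hm hζ hy (pow_ne_zero p hy0) with
    ⟨w, hw, he⟩ | ⟨n, hn, he⟩ | ⟨w, hw, i, hw0, hi0, hi, hpi, he⟩
  · refine absurd ?_ hnot
    have hw0 : w ≠ 0 := fun h =>
      pow_ne_zero p hy0 (by rw [← he, h, zero_pow hp.out.ne_zero])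
    have : NeZero p := ⟨hp.out.ne_zero⟩
    obtain ⟨j, -, hj⟩ := hζ.eq_pow_of_pow_eq_one
      (show (y / w) ^ p = 1 by rw [div_pow, ← he, div_self (pow_ne_zero _ hw0)])
    rw [← div_mul_cancel₀ y hw0, ← hj]
    exact T.K.mul_mem (pow_mem (T.zeta_mem hm hζ) j) hw
  · exact ⟨y, n, hn, hyL, by rw [← map_pow]; exact he, Or.inl rfl⟩
  · rw [← div_pow] at he
    have hgt : 𝔓.nm (ζ - 1) < 𝔓.nm (y / w - 1) := by
      by_contra hle
      push Not at hle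
      have := 𝔓.nm_pow_p_sub_one_of_le hζ hle
      rw [he, T.nm_zeta hm hζ, ← pow_mul] at this
      exact absurd ((pow_le_pow_iff_right_of_lt_one₀ T.rho_pos T.rho_lt_one).mp this)
        (not_le.mpr hi)
    exact ⟨y / w - 1, i, mod_cast hpi,
      sub_mem (div_mem hyL (T.K_le_adjoinElt y hw)) (one_mem _),
      by rw [← 𝔓.nm_pow_p_sub_one_of_gt hζ hgt, he, zpow_natCast],
      Or.inr ⟨w, hw, i, hw0, rfl, hi0, hi, rfl, he⟩⟩

/-- `K(x^(1/p))` is totally ramified of degree `e p`. -/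
theorem exists_TR_root {y : QB} (hy : y ^ p ∈ T.K) (hnot : y ∉ T.K) :
    ∃ T' : TR 𝔓 (e * p), T'.K = T.adjoinElt y := by
  obtain ⟨u, n, hn, hu, hnm, -⟩ := T.exists_normal_root hm hζ hy hnot
  obtain ⟨a, b, hab, -⟩ := T.exists_uniformiser hn hnm
  obtain ⟨T', hT', -⟩ := T.exists_TR_adjoin hp.out.pos hy
    (mul_mem (zpow_mem hu a) (zpow_mem (T.K_le_adjoinElt y T.mem) b)) hab
  exact ⟨T', hT'⟩

omit hm hζ in
/-- `K(√π)` is totally ramified of degree `2 e`. -/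
theorem exists_TR_sqrt : ∃ T' : TR 𝔓 (e * 2), T.K ≤ T'.K ∧ T'.π ^ 2 = T.π := by
  obtain ⟨y, hy⟩ := IsAlgClosed.exists_pow_nat_eq T.π (show 0 < 2 by norm_num)
  obtain ⟨T', hT', hπ⟩ := T.exists_TR_adjoin two_pos (hy ▸ T.mem) (T.mem_adjoinElt y)
    (by rw [← map_pow, hy]; rfl)
  exact ⟨T', hT' ▸ T.K_le_adjoinElt y, hπ.symm ▸ hy⟩

end TR

/-- `K₀((-p)^(1/e))`. -/
theorem exists_TR_tame (𝔓 : LocalPlace p) {e : ℕ} (he : 0 < e) :
    ∃ T : TR 𝔓 e, T.π ^ e = -(p : QB) := by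
  obtain ⟨π, hπ⟩ := IsAlgClosed.exists_pow_nat_eq (-(p : QB)) he
  obtain ⟨T₁, hK, hπ₁⟩ := exists_TR_one 𝔓
  have hnm : 𝔓.nm π ^ e = T₁.ρ := by
    rw [← map_pow, hπ, AbsoluteValue.map_neg, TR.ρ, hπ₁]
  obtain ⟨T, -, hT⟩ := T₁.exists_TR_adjoin he
    (by rw [hπ, hK]; exact neg_mem (natCast_mem _ p)) (T₁.mem_adjoinElt π) hnm
  rw [← one_mul e]
  exact ⟨T, by rw [hT, one_mul, hπ]⟩

end FLTAgent.TW.Flat
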