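import Fermat.Agent.TW.Flat.Roots
import Fermat.Agent.FlatModel.Cyclotomic
import Fermat.Agent.FlatModel.Specialise
import Fermat.Prelude.Def_GaloisRep_Flat

/-!
# Models by functions at a place over `p`

A finite Galois module which is the module of points of a finite flat Hopf algebra has a model by
functions over the inertia field, whose connected part is stable under the decomposition group.
-/

set_option autoImplicit false

open scoped Pointwise
open FLTAgent.FlatModel

noncomputable section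

namespace FLTAgent.TW.Flat

/-- A ring automorphism of `ℚ̄` as an element of the Galois group. -/
def ofRingEquivGQ : (QB ≃+* QB) →* GQ where
  toFun f := AlgEquiv.ofRingEquiv (f := f) fun q => map_ratCast f q
  map_one' := AlgEquiv.ext fun _ => rfl
  map_mul' _ _ := AlgEquiv.ext fun _ => rfl

/-- An element of the Galois group as a ring automorphism. -/
def toRingEquivQB : GQ →* (QB ≃+* QB) where
  toFun f := f.toRingEquiv
  map_one' := rfl
  map_mul' _ _ := rfl

variable {p : ℕ}

namespace LocalPlace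

variable (𝔓 : LocalPlace p)

/-- The inertia group as ring automorphisms. -/
def IR : Subgroup (QB ≃+* QB) := 𝔓.I.map toRingEquivQB

lemma ofRingEquivGQ_mem (τ : 𝔓.IR) : ofRingEquivGQ (τ : QB ≃+* QB) ∈ 𝔓.I := by
  obtain ⟨σ, hσ, he⟩ := τ.2
  rw [← he, show ofRingEquivGQ (toRingEquivQB σ) = σ from AlgEquiv.ext fun _ => rfl]
  exact hσ

lemma valuation_le_iff {x y : QB} :
    𝔓.P.valuation x ≤ 𝔓.P.valuation y ↔ 𝔓.nm x ≤ 𝔓.nm y := by
  rcases eq_or_ne y 0 with rfl | hy
  · rw [map_zero, map_zero, le_zero_iff, Valuation.zero_iff]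
    exact ⟨fun h => by simp [h], fun h => 𝔓.nm.eq_zero.mp (le_antisymm h (𝔓.nm_nonneg x))⟩
  rw [← div_le_one₀ (zero_lt_iff.mpr ((Valuation.ne_zero_iff _).mpr hy)), ← map_div₀,
    ValuationSubring.valuation_le_one_iff, 𝔓.mem_iff, map_div₀, div_le_one (𝔓.nm.pos hy)]

lemma valuation_lt_iff {x y : QB} :
    𝔓.P.valuation x < 𝔓.P.valuation y ↔ 𝔓.nm x < 𝔓.nm y := by
  rw [← not_le, ← not_le, 𝔓.valuation_le_iff]

lemma valuation_lt_one_iff {x : QB} : 𝔓.P.valuation x < 1 ↔ 𝔓.nm x < 1 := by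
  rw [← map_one 𝔓.P.valuation, 𝔓.valuation_lt_iff, map_one]

lemma fixed_IR_iff {x : QB} : (∀ τ ∈ 𝔓.IR, τ x = x) ↔ x ∈ 𝔓.K₀ := by
  rw [𝔓.mem_K₀]
  refine ⟨fun h σ hσ => h _ ⟨σ, hσ, rfl⟩, ?_⟩
  rintro h _ ⟨σ, hσ, rfl⟩
  exact h σ hσ

lemma mem_baseRing_iff {x : QB} : x ∈ baseRing 𝔓.P 𝔓.IR ↔ 𝔓.nm x ≤ 1 ∧ x ∈ 𝔓.K₀ := by
  rw [mem_baseRing, 𝔓.mem_iff, 𝔓.fixed_IR_iff]

variable [hp : Fact p.Prime]

lemma isUnramifiedBase : IsUnramifiedBase p 𝔓.P 𝔓.IR where
  prime := hp.out
  natCast_lt := by rw [𝔓.valuation_lt_one_iff, 𝔓.nm_p]; exact inv_p_lt_one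
  valuation_map := by
    rintro _ ⟨σ, hσ, rfl⟩ x
    have h : 𝔓.nm (σ x) = 𝔓.nm x := 𝔓.nm_apply (𝔓.I_le_D hσ) x
    exact le_antisymm (𝔓.valuation_le_iff.mpr h.le) (𝔓.valuation_le_iff.mpr h.ge)
  map_sub_lt := by
    rintro _ ⟨σ, hσ, rfl⟩ x hx
    exact 𝔓.valuation_lt_one_iff.mpr ((𝔓.mem_I_iff.mp hσ).2 x ((𝔓.mem_iff x).mp hx))
  le_natCast := fun x hx hlt => by
    rw [𝔓.valuation_le_iff, 𝔓.nm_p]
    rw [𝔓.valuation_lt_one_iff] at hlt
    rcases eq_or_ne x 0 with rfl | hx0
    · rw [map_zero]; positivity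
    obtain ⟨n, hn⟩ := 𝔓.exists_zpow_of_mem_K₀ (𝔓.fixed_IR_iff.mp hx) hx0
    have hp1 : (1 : ℝ) < p := mod_cast hp.out.one_lt
    rw [hn, ← zpow_zero (p : ℝ), zpow_lt_zpow_iff_right₀ hp1] at hlt
    rw [hn, ← zpow_neg_one]
    exact zpow_le_zpow_right₀ hp1.le (by omega)
  exists_pow_lt := fun x hx => by
    obtain ⟨m, hm⟩ := exists_pow_lt_of_lt_one (𝔓.nm.pos hx) (inv_p_lt_one (p := p))
    refine ⟨m, ?_⟩
    rw [← map_pow, 𝔓.valuation_lt_iff, map_pow, 𝔓.nm_p]
    exact hm

variable {V : Type} [AddCommGroup V]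

/-- The action of the inertia group on a Galois module. -/
def actI (a : GQ →* AddMonoid.End V) : 𝔓.IR →* AddMonoid.End V :=
  a.comp (ofRingEquivGQ.comp 𝔓.IR.subtype)

omit hp in
lemma apply_actI {H : Submodule (baseRing 𝔓.P 𝔓.IR) (V → QB)} {a : GQ →* AddMonoid.End V}
    (hH : IsModel (𝔓.actI a) H) {f : V → QB} (hf : f ∈ H) {σ : GQ} (hσ : σ ∈ 𝔓.I) (x : V) :
    f (a σ x) = σ (f x) := by
  have h := hH.apply_map hf ⟨toRingEquivQB σ, σ, hσ, rfl⟩ x
  rwa [show 𝔓.actI a ⟨toRingEquivQB σ, σ, hσ, rfl⟩ = a σ from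
    congrArg a (AlgEquiv.ext fun _ => rfl)] at h

/-- The model by functions of the points of a finite flat Hopf algebra. -/
theorem exists_model [Finite V] (a : GQ →* AddMonoid.End V)
    {H₀ : Type} [CommRing H₀] [HopfAlgebra (GaloisRep.ratLocalizedAt p) H₀]
    [Module.Finite (GaloisRep.ratLocalizedAt p) H₀]
    (e : WithConv (H₀ →ₐ[GaloisRep.ratLocalizedAt p] QB) ≃ V)
    (hadd : ∀ f g, e (f * g) = e f + e g)
    (hact : ∀ (σ : GQ) (f g : WithConv (H₀ →ₐ[GaloisRep.ratLocalizedAt p] QB)),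
      (∀ h, g h = σ (f h)) → e g = a σ (e f)) :
    ∃ H : Submodule (baseRing 𝔓.P 𝔓.IR) (V → QB), IsModel (𝔓.actI a) H ∧
      ∀ τ ∈ 𝔓.D, ∀ x, IsModel.IsConnected H x → IsModel.IsConnected H (a τ x) := by
  classical
  let ev : H₀ → V → QB := fun h x => (e.symm x).ofConv h
  have hev : ∀ h x, ev h x = (e.symm x).ofConv h := fun _ _ => rfl
  have hsymm : ∀ (σ : GQ) (x : V) (h : H₀), ev h (a σ x) = σ (ev h x) := by
    intro σ x h
    let g : WithConv (H₀ →ₐ[(GaloisRep.ratLocalizedAt p)] QB) := WithConv.toConv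
      (((σ : QB →ₐ[ℚ] QB).restrictScalars (GaloisRep.ratLocalizedAt p)).comp (e.symm x).ofConv)
    have := hact σ (e.symm x) g fun _ => rfl
    rw [Equiv.apply_symm_apply] at this
    rw [hev, ← this, Equiv.symm_apply_apply]
    rfl
  have hcoe : ∀ r : (GaloisRep.ratLocalizedAt p), algebraMap (GaloisRep.ratLocalizedAt p) QB r ∈ baseRing 𝔓.P 𝔓.IR := fun r => by
    refine ⟨mem_of_isIntegral_ratLocalizedAt 𝔓.liesOverPrime isIntegral_algebraMap, ?_⟩
    rintro _ ⟨σ, -, rfl⟩
    exact σ.commutes ((r : (GaloisRep.ratLocalizedAt p)) : ℚ)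
  set H := Submodule.span (baseRing 𝔓.P 𝔓.IR) (Set.range ev) with hH
  have hsub : ∀ h, ev h ∈ H := fun h => Submodule.subset_span ⟨h, rfl⟩
  have hmul : ∀ h h', ev h * ev h' = ev (h * h') := fun h h' => funext fun x => by
    simp [hev]
  refine ⟨H, ⟨?_, ?_, ?_, ?_, ?_, ?_, ?_⟩, ?_⟩
  · obtain ⟨S, hS⟩ := (Module.finite_def.mp (inferInstance : Module.Finite (GaloisRep.ratLocalizedAt p) H₀))
    refine ⟨S.image ev, le_antisymm (Submodule.span_mono ?_) (Submodule.span_le.mpr ?_)⟩
    · rintro _ hf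
      obtain ⟨h, -, rfl⟩ := Finset.mem_image.mp hf
      exact ⟨h, rfl⟩
    rintro _ ⟨h, rfl⟩
    have hh : h ∈ Submodule.span (GaloisRep.ratLocalizedAt p) (S : Set H₀) := hS ▸ Submodule.mem_top
    induction hh using Submodule.span_induction with
    | mem h hh => exact Submodule.subset_span (Finset.mem_image_of_mem ev hh)
    | zero =>
      rw [show ev 0 = 0 from funext fun x => map_zero _]
      exact Submodule.zero_mem _
    | add h h' _ _ ih ih' =>
      rw [show ev (h + h') = ev h + ev h' from funext fun x => map_add _ _ _]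
      exact Submodule.add_mem _ ih ih'
    | smul r h _ ih =>
      rw [show ev (r • h) = (⟨_, hcoe r⟩ : baseRing 𝔓.P 𝔓.IR) • ev h from funext fun x => by
        rw [hev, map_smul, Algebra.smul_def]; rfl]
      exact Submodule.smul_mem _ _ ih
  · rw [show (1 : V → QB) = ev 1 from funext fun x => (map_one _).symm]
    exact hsub 1
  · intro f hf g hg
    induction hf using Submodule.span_induction with
    | mem f hf =>
      obtain ⟨h, rfl⟩ := hf
      induction hg using Submodule.span_induction with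
      | mem g hg => obtain ⟨h', rfl⟩ := hg; rw [hmul]; exact hsub _
      | zero => rw [mul_zero]; exact Submodule.zero_mem _
      | add g g' _ _ ih ih' => rw [mul_add]; exact Submodule.add_mem _ ih ih'
      | smul r g _ ih => rw [mul_smul_comm]; exact Submodule.smul_mem _ r ih
    | zero => rw [zero_mul]; exact Submodule.zero_mem _
    | add f f' _ _ ih ih' => rw [add_mul]; exact Submodule.add_mem _ ih ih'
    | smul r f _ ih => rw [smul_mul_assoc]; exact Submodule.smul_mem _ r ih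
  · intro f hf x
    induction hf using Submodule.span_induction with
    | mem f hf =>
      obtain ⟨h, rfl⟩ := hf
      exact mem_of_isIntegral_ratLocalizedAt 𝔓.liesOverPrime
        ((Algebra.IsIntegral.isIntegral h).map (e.symm x).ofConv)
    | zero => exact zero_mem _
    | add f f' _ _ ih ih' => exact add_mem ih ih'
    | smul r f _ ih => exact baseRing_smul_mem r ih
  · intro f hf
    induction hf using Submodule.span_induction with
    | mem f hf =>
      obtain ⟨h, rfl⟩ := hf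
      intro τ x
      exact hsymm (ofRingEquivGQ (τ : QB ≃+* QB)) x h
    | zero => intro τ x; simp
    | add f f' _ _ ih ih' => intro τ x; simp only [Pi.add_apply, map_add, ih τ x, ih' τ x]
    | smul r f _ ih => exact isEquivariant_smul ih r
  · intro x y h
    apply e.symm.injective
    refine WithConv.ofConv_injective ?_
    exact AlgHom.ext fun h' => h (ev h') (hsub h')
  · intro f hf
    induction hf using Submodule.span_induction with
    | mem f hf =>
      obtain ⟨h, rfl⟩ := hf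
      let R := Coalgebra.Repr.arbitrary (GaloisRep.ratLocalizedAt p) h
      refine ⟨R.index.card, fun i => ev (R.left (R.index.equivFin.symm i)),
        fun i => ev (R.right (R.index.equivFin.symm i)), fun i => hsub _, fun i => hsub _,
        fun x y => ?_⟩
      have hxy : e.symm (x + y) = e.symm x * e.symm y := e.symm_apply_eq.mpr (by
        rw [hadd, Equiv.apply_symm_apply, Equiv.apply_symm_apply])
      rw [hev, hxy]
      show (e.symm x * e.symm y) h = _
      rw [AlgHom.convMul_apply, ← R.eq, map_sum, ← Finset.sum_coe_sort]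
      refine Fintype.sum_equiv R.index.equivFin _ _ fun i => ?_
      simp [hev]
    | zero => exact ⟨0, ![], ![], fun i => i.elim0, fun i => i.elim0, fun x y => by simp⟩
    | add f f' _ _ ih ih' =>
      obtain ⟨n, a₁, b₁, ha₁, hb₁, h₁⟩ := ih
      obtain ⟨m, a₂, b₂, ha₂, hb₂, h₂⟩ := ih'
      refine ⟨n + m, Fin.append a₁ a₂, Fin.append b₁ b₂, ?_, ?_, fun x y => ?_⟩
      · intro i; induction i using Fin.addCases <;> simp [ha₁, ha₂]
      · intro i; induction i using Fin.addCases <;> simp [hb₁, hb₂]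
      · simp [Fin.sum_univ_add, Pi.add_apply, h₁, h₂]
    | smul r f _ ih =>
      obtain ⟨n, a₁, b₁, ha₁, hb₁, h₁⟩ := ih
      refine ⟨n, fun i => r • a₁ i, b₁, fun i => Submodule.smul_mem _ r (ha₁ i), hb₁, fun x y => ?_⟩
      simp [Pi.smul_apply, Subring.smul_def, h₁, Finset.mul_sum, mul_assoc]
  · intro τ hτ x hx f hf
    induction hf using Submodule.span_induction with
    | mem f hf =>
      obtain ⟨h, rfl⟩ := hf
      rw [𝔓.valuation_lt_one_iff, hsymm τ x h,
        show ev h 0 = τ (ev h 0) by rw [← hsymm τ 0 h, map_zero], ← map_sub, 𝔓.nm_apply hτ,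
        ← 𝔓.valuation_lt_one_iff]
      exact hx _ (hsub h)
    | zero => simp
    | add f f' _ _ ih ih' =>
      rw [Pi.add_apply, Pi.add_apply, add_sub_add_comm]
      exact (Valuation.map_add _ _ _).trans_lt (max_lt ih ih')
    | smul r f _ ih =>
      rw [Pi.smul_apply, Pi.smul_apply, Subring.smul_def, Subring.smul_def, smul_eq_mul, smul_eq_mul,
        ← mul_sub, map_mul]
      exact (mul_le_of_le_one_left' ((ValuationSubring.valuation_le_one_iff _ _).mpr r.2.1)).trans_lt ih

end LocalPlace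

end FLTAgent.TW.Flat
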