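import Fermat.Agent.TW.Flat.Space
import Mathlib.Algebra.DualNumber
import Mathlib.LinearAlgebra.FiniteDimensional.Lemmas

/-!
# The local bound for flat deformations

The cocycles of the flat lifts of a residual representation to the dual numbers, restricted to the
decomposition group at a place over `p`, lie in a space of adjoint cocycles of dimension at most
four which contains the coboundaries.
-/

set_option autoImplicit false

noncomputable section

namespace FLTAgent.TW

open FLTAgent.Deformation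

namespace Flat

variable {k : Type} [Field k] {p : ℕ}

/-- Conjugation of matrices. -/
def conjLin (g : (Mat k)ˣ) : Mat k ≃ₗ[k] Mat k where
  toFun X := (g : Mat k) * X * ((g⁻¹ : (Mat k)ˣ) : Mat k)
  invFun X := ((g⁻¹ : (Mat k)ˣ) : Mat k) * X * (g : Mat k)
  map_add' X Y := by rw [mul_add, add_mul]
  map_smul' t X := by simp
  left_inv X := by simp [mul_assoc]
  right_inv X := by simp [mul_assoc]

lemma conjLin_adAct (g : (Mat k)ˣ) (rb : GQ →* Mat k) (σ : GQ) (X : Mat k) :
    adAct (conjRep g rb) σ (conjLin g X) = conjLin g (adAct rb σ X) := by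
  simp [adAct, conjLin, conjRep_apply, mul_assoc]

lemma conjLin_symm_adAct (g : (Mat k)ˣ) (rb : GQ →* Mat k) (σ : GQ) (X : Mat k) :
    (conjLin g).symm (adAct (conjRep g rb) σ X) = adAct rb σ ((conjLin g).symm X) := by
  rw [LinearEquiv.symm_apply_eq, ← conjLin_adAct, LinearEquiv.apply_symm_apply]

lemma trace_conjLin_symm (g : (Mat k)ˣ) (X : Mat k) :
    Matrix.trace ((conjLin g).symm X) = Matrix.trace X := by
  show Matrix.trace (((g⁻¹ : (Mat k)ˣ) : Mat k) * X * (g : Mat k)) = _
  rw [Matrix.trace_mul_cycle, Units.mul_inv, one_mul]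

/-- A space of cocycles containing the classes of lifts can be moved to other coordinates. -/
theorem exists_space_of_conj {rb : GQ →* Mat k} {D : Subgroup GQ} (g : (Mat k)ˣ) {d : ℕ}
    {C C' : (GQ →* Mat (DualNumber k)) → Prop} (hC : ∀ N, C N → C' (conjRep (inlMat g) N))
    (h : ∃ S : Submodule k (D → Mat k), adB1 (conjRep g rb) D ≤ S ∧ S ≤ adZ1 (conjRep g rb) D ∧
      Module.Finite k S ∧ Module.finrank k S ≤ d ∧
      ∀ N, C' N → (fun σ : D => liftCocycle (conjRep g rb) N σ) ∈ S) :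
    ∃ S : Submodule k (D → Mat k), adB1 rb D ≤ S ∧ S ≤ adZ1 rb D ∧
      Module.Finite k S ∧ Module.finrank k S ≤ d ∧
      ∀ N, C N → (fun σ : D => liftCocycle rb N σ) ∈ S := by
  obtain ⟨S, hB, hZ, hfin, hrank, hlift⟩ := h
  let Φ : (D → Mat k) ≃ₗ[k] (D → Mat k) := LinearEquiv.piCongrRight fun _ => (conjLin g).symm
  refine ⟨S.map (Φ : (D → Mat k) →ₗ[k] (D → Mat k)), ?_, ?_, inferInstance,
    (LinearEquiv.finrank_map_eq Φ S).trans_le hrank, fun N hN => ?_⟩
  · rintro _ ⟨X, hX, rfl⟩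
    refine ⟨adDelta (conjRep g rb) D (conjLin g X), hB ⟨_, ?_, rfl⟩, funext fun σ => ?_⟩
    · show Matrix.trace (conjLin g X) = 0
      rw [← trace_conjLin_symm g, LinearEquiv.symm_apply_apply]
      exact hX
    · show (conjLin g).symm (adAct (conjRep g rb) σ (conjLin g X) - conjLin g X) =
        adAct rb σ X - X
      rw [map_sub, conjLin_symm_adAct, LinearEquiv.symm_apply_apply]
  · rintro _ ⟨c, hc, rfl⟩
    obtain ⟨h1, h2, L, hL, h3⟩ := hZ hc
    refine ⟨fun σ τ => ?_, fun σ => ?_, L, hL, fun σ s hs => ?_⟩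
    · show (conjLin g).symm (c (σ * τ)) =
        (conjLin g).symm (c σ) + adAct rb σ ((conjLin g).symm (c τ))
      rw [h1, map_add, conjLin_symm_adAct]
    · exact (trace_conjLin_symm g _).trans (h2 σ)
    · exact congrArg (conjLin g).symm (h3 σ s hs)
  · refine ⟨_, hlift _ (hC N hN), funext fun σ => ?_⟩
    show (conjLin g).symm (liftCocycle (conjRep g rb) (conjRep (inlMat g) N) σ) = _
    rw [liftCocycle_conj]
    exact (conjLin g).symm_apply_apply _

/-- The bound does not depend on the coordinates. -/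
theorem hasFlatBound_of_conj {rb : GQ →* Mat k} {D : Subgroup GQ} (g : (Mat k)ˣ)
    (h : HasFlatBound p (conjRep g rb) D) : HasFlatBound p rb D :=
  exists_space_of_conj g (fun _ hN => hN.conj g) h

/-- A flat representation on the dual numbers is a flat lift. -/
theorem isFlatLift_of_isFlatAt [Finite k] {rb : GQ →* Mat k} (N : GQ →* Mat (DualNumber k))
    (hN : MatCont N) (hfst : ∀ σ, (N σ).map TrivSqZeroExt.fst = rb σ)
    (htr : ∀ σ, Matrix.trace (liftCocycle rb N σ) = 0) (hflat : (matRep N hN).IsFlatAt p) :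
    IsFlatLift p rb N := by
  have : Finite (DualNumber k) := inferInstanceAs (Finite (k × k))
  refine ⟨hfst, htr, hN.exists_eq_one (n := 2) ?_, ?_⟩
  · rw [eq_bot_iff, pow_two, Ideal.mul_le]
    intro x hx y hy
    have hf : ∀ z ∈ IsLocalRing.maximalIdeal (DualNumber k), TrivSqZeroExt.fst z = 0 := by
      intro z hz
      by_contra h
      exact hz (TrivSqZeroExt.isUnit_iff_isUnit_fst.mpr (isUnit_iff_ne_zero.mpr h))
    rw [Ideal.mem_bot]
    exact TrivSqZeroExt.ext (by simp [hf x hx]) (by simp [hf x hx, hf y hy])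
  obtain ⟨H, i1, i2, hfinite, -, -, e, hadd, hact⟩ := hflat.2 ⊥
    (Finite.of_surjective (Submodule.Quotient.mk (p := (⊥ : Ideal (DualNumber k))))
      (Submodule.Quotient.mk_surjective _))
  let q := Submodule.quotEquivOfEqBot
    ((⊥ : Ideal (DualNumber k)) • (⊤ : Submodule (DualNumber k) (Fin 2 → DualNumber k)))
    (Submodule.bot_smul _)
  refine ⟨H, i1, i2, hfinite, e.trans q.toEquiv, fun f f' => ?_, fun σ f f' hff => ?_⟩
  · show q (e (f * f')) = q (e f) + q (e f')
    rw [hadd]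
    exact map_add q _ _
  · show q (e f') = mvAct N σ (q (e f))
    rw [hact σ f f' hff]
    obtain ⟨x, hx⟩ := Submodule.Quotient.mk_surjective _ (e f)
    rw [← hx]
    rfl

end Flat

open Flat in
/-- **The local bound for flat deformations.** -/
theorem flat_cocycle_bound {k : Type} [Field k] [Finite k] {p : ℕ} [Fact p.Prime] [CharP k p]
    (hp : p ≠ 2) (rb : Gal →* Mat k)
    (hfin : ∃ L : IntermediateField ℚ (AlgebraicClosure ℚ), FiniteDimensional ℚ L ∧
      ∀ σ : Gal, (∀ x ∈ L, σ x = x) → rb σ = 1)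
    (hsplit : ∀ σ : Gal, ∃ α β : k, (rb σ).charpoly =
      (Polynomial.X - Polynomial.C α) * (Polynomial.X - Polynomial.C β))
    (hdet : ∀ (σ : Gal) (a : ℕ),
      (∀ μ : AlgebraicClosure ℚ, μ ^ p = 1 → σ μ = μ ^ a) → (rb σ).det = (a : k))
    (P : ValuationSubring (AlgebraicClosure ℚ)) (hP : P.LiesOverPrime p) :
    ∃ S : Submodule k (P.decompositionSubgroup ℚ → Mat k),
      adB1 rb (P.decompositionSubgroup ℚ) ≤ S ∧ S ≤ adZ1 rb (P.decompositionSubgroup ℚ) ∧
      Module.Finite k S ∧ Module.finrank k S ≤ 4 ∧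
      ∀ (N : Gal →* Mat (DualNumber k)) (hN : MatCont N),
        (∀ σ, (N σ).map TrivSqZeroExt.fst = rb σ) →
        (∀ σ, Matrix.trace (liftCocycle rb N σ) = 0) →
        (matRep N hN).IsFlatAt p →
        (fun g : P.decompositionSubgroup ℚ => liftCocycle rb N g) ∈ S := by
  obtain ⟨𝔓, rfl⟩ := exists_localPlace hP
  obtain ⟨L₀, hL₀, hlev₀⟩ := hfin
  obtain ⟨L, _, _, hle⟩ := exists_normal_level L₀
  have hlev : ∀ σ : Gal, (∀ x ∈ L, σ x = x) → rb σ = 1 := fun σ hσ =>
    hlev₀ σ fun x hx => hσ x (hle hx)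
  suffices h : HasFlatBound p rb 𝔓.D by
    obtain ⟨S, h1, h2, h3, h4, h5⟩ := h
    exact ⟨S, h1, h2, h3, h4, fun N hN hfst htr hflat =>
      h5 N (isFlatLift_of_isFlatAt N hN hfst htr hflat)⟩
  by_cases hex : ∃ N, IsFlatLift p rb N
  · obtain ⟨N, hN⟩ := hex
    obtain ⟨g, ⟨F⟩⟩ := exists_frame 𝔓 hp hlev hdet hsplit hN
    exact hasFlatBound_of_conj g (F.hasFlatBound hp (hN.conj g) (L := L)
      fun σ hσ => by rw [conjRep_apply, hlev σ hσ, mul_one, Units.mul_inv])
  · refine ⟨adB1 rb 𝔓.D, le_rfl, adB1_le_adZ1 L hlev 𝔓.D, ?_, ?_,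
      fun N hN => absurd ⟨N, hN⟩ hex⟩
    · unfold adB1; infer_instance
    · refine (Submodule.finrank_map_le _ _).trans ((Submodule.finrank_le _).trans ?_)
      rw [Module.finrank_matrix]
      simp

end FLTAgent.TW
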