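import Fermat.Agent.TW.Flat.Main

/-!
# Flat lifts with the trace of a Frobenius element fixed

For a residually ordinary representation at a place over `p` the flat cocycles of lifts with fixed
trace at a Frobenius element lie in a space of dimension at most three, when the two residual
eigenvalues there differ.
-/

set_option autoImplicit false

open scoped Pointwise
open FLTAgent.Deformation

noncomputable section

namespace FLTAgent.TW

namespace Flat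

variable {k : Type} [Field k]

/-- The first order change of the trace at an element. -/
def traceAt (rb : GQ →* Mat k) {D : Subgroup GQ} (φ : D) : (D → Mat k) →ₗ[k] k where
  toFun c := Matrix.trace (c φ * rb φ)
  map_add' c c' := by simp [add_mul]
  map_smul' t c := by simp

lemma adB1_le_ker_traceAt (rb : GQ →* Mat k) {D : Subgroup GQ} (φ : D) :
    LinearMap.range (adDelta rb D) ≤ LinearMap.ker (traceAt rb φ) := by
  rintro _ ⟨X, rfl⟩
  show Matrix.trace ((adAct rb φ X - X) * rb φ) = 0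
  rw [sub_mul, adAct_mul_rb, Matrix.trace_sub, Matrix.trace_mul_comm (rb φ) X, sub_self]

lemma traceAt_lift {p : ℕ} {rb : GQ →* Mat k} {N : GQ →* Mat (DualNumber k)}
    (h : IsFlatLift p rb N) {D : Subgroup GQ} (φ : D) :
    traceAt rb φ (fun g : D => liftCocycle rb N g) =
      TrivSqZeroExt.snd (Matrix.trace (N φ)) := by
  show Matrix.trace (liftCocycle rb N φ * rb φ) = _
  simp [Matrix.trace_fin_two, IsFlatLift.snd_apply (rb := rb)]

lemma adAct_upper_entries {rb : GQ →* Mat k} {σ : GQ} (h : rb σ 1 0 = 0) {X : Mat k}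
    (hX : X 1 0 = 0) : adAct rb σ X 1 0 = 0 ∧ adAct rb σ X 0 0 = X 0 0 := by
  have hdet : rb σ 0 0 * rb σ 1 1 ≠ 0 := by
    have := congrArg Matrix.det (rb_mul_inv rb σ)
    rw [Matrix.det_mul, Matrix.det_fin_two, h, mul_zero, sub_zero, Matrix.det_one] at this
    exact fun h0 => by rw [h0, zero_mul] at this; exact zero_ne_one this
  have e := adAct_mul_rb rb σ X
  have c := congrFun (congrFun e 1) 0
  have a := congrFun (congrFun e 0) 0
  simp [Matrix.mul_apply, Fin.sum_univ_two, h, hX, left_ne_zero_of_mul hdet] at c a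
  exact ⟨c, mul_right_cancel₀ (left_ne_zero_of_mul hdet) (a.trans (mul_comm _ _))⟩

namespace Frame

variable {p : ℕ} [hp : Fact p.Prime] [Finite k] [CharP k p] {rb : GQ →* Mat k}
  {𝔓 : LocalPlace p} (F : Frame rb 𝔓) (hp2 : p ≠ 2) (hu2 : F.u2 = 1)

include hp2 hu2

omit [Finite k] in
lemma χ_eq_aγ : F.χ = (F.aγ : k) ∧ F.u1 ≠ F.u2 := by
  have h1 : F.u1 = (F.aγ : k) := by rw [← F.hdet, hu2, mul_one]
  refine ⟨by rw [F.χ_eq_iff, hu2, mul_one, h1], ?_⟩
  rw [h1, hu2]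
  exact F.aγ1 hp2

lemma upper : ∀ σ ∈ 𝔓.D, rb σ 1 0 = 0 := by
  rcases F.shape with ⟨h, -⟩ | ⟨-, -, h, hne⟩
  · exact h
  · exact absurd (F.χ_eq_aγ hp2 hu2).1 (F.dihedral_ne hp2 h hne).1

variable {N : GQ →* Mat (DualNumber k)} (hN : IsFlatLift p rb N)

include hN

/-- The cocycles of the space are upper triangular with an unramified diagonal. -/
lemma space_upper {c : 𝔓.D → Mat k} (hc : c ∈ F.space) {φ : 𝔓.D} (hφ : 𝔓.IsFrob p φ) :
    c φ 1 0 = 0 ∧ c φ 0 0 = c F.τD 0 0 := by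
  obtain ⟨hχ, hne⟩ := F.χ_eq_aγ hp2 hu2
  have hD := F.upper hp2 hu2
  obtain ⟨hZ, hγ0, h00, -, -, h10⟩ := hc
  have hK : ∀ σ, c (F.ι σ) 1 0 = 0 ∧ c (F.ι σ) 0 0 = 0 := fun σ => ⟨h10 hχ σ, h00 σ⟩
  have hmul : ∀ g h : 𝔓.D, c h 1 0 = 0 →
      c (g * h) 1 0 = c g 1 0 ∧ c (g * h) 0 0 = c g 0 0 + c h 0 0 := fun g h hh => by
    obtain ⟨a, b⟩ := adAct_upper_entries (hD g g.2) hh
    rw [hZ.1, Matrix.add_apply, Matrix.add_apply, a, b, add_zero]
    exact ⟨rfl, rfl⟩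
  have hγpow : ∀ j : ℕ, c (F.γD ^ j) = 0 := fun j => by
    rw [adZ1_pow hZ (by rw [hγ0, adAct_zero]), hγ0, smul_zero]
  -- inertia
  have hI : ∀ s : 𝔓.D, (s : GQ) ∈ 𝔓.I → c s 1 0 = 0 ∧ c s 0 0 = 0 := by
    intro s hs
    obtain ⟨j, hj⟩ := F.T.exists_pow_mul_fix F.hπ rfl F.hγ F.hprim hs
    have hsj : s = F.γD ^ j * F.ι ⟨_, hj⟩ := Subtype.ext (by
      show (s : GQ) = F.γ ^ j * ((F.γ ^ j)⁻¹ * s)
      rw [mul_inv_cancel_left])
    obtain ⟨a, b⟩ := hmul (F.γD ^ j) _ (hK ⟨_, hj⟩).1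
    rw [hsj, a, b, hγpow, (hK _).2]
    simp
  -- Frobenius
  have hτ : c F.τD 1 0 = 0 := by
    set w : 𝔓.D := F.τD * F.γD * F.τD⁻¹
    have hw := (hI w (𝔓.conj_mem_I F.hγ F.hτ.1)).1
    rw [adZ1_conj hZ, hγ0, adAct_zero, add_zero, Matrix.sub_apply, sub_eq_zero] at hw
    have h10w : rb (w : GQ) 1 0 = 0 := hD _ w.2
    have e := congrFun (congrFun (adAct_mul_rb rb (w : GQ) (c F.τD)) 1) 0
    simp [Matrix.mul_apply, Fin.sum_univ_two, h10w] at e
    have hdiag : rb (w : GQ) 0 0 ≠ rb (w : GQ) 1 1 := fun h => by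
      have e1 : rb (w : GQ) * rb F.τ = rb F.τ * rb F.γ := by
        rw [← map_mul, ← map_mul]; congr 1
        show F.τ * F.γ * F.τ⁻¹ * F.τ = _
        rw [inv_mul_cancel_right]
      obtain ⟨a, b, -⟩ := mul_upper (hD F.τ F.hτ.1) h10w
      obtain ⟨a', b', -⟩ := mul_upper (hD F.γ (𝔓.I_le_D F.hγ)) (hD F.τ F.hτ.1)
      have hne0 : rb F.τ 0 0 * rb F.τ 1 1 ≠ 0 := by
        have := congrArg Matrix.det (rb_mul_inv rb F.τ)
        rw [Matrix.det_mul, Matrix.det_fin_two, hD F.τ F.hτ.1, mul_zero, sub_zero,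
          Matrix.det_one] at this
        exact fun h0 => by rw [h0, zero_mul] at this; exact zero_ne_one this
      have ha := congrFun (congrFun e1 0) 0
      have hb := congrFun (congrFun e1 1) 1
      rw [a, a', F.rbγ, mul_comm] at ha
      rw [b, b', F.rbγ, mul_comm] at hb
      simp [left_ne_zero_of_mul hne0, right_ne_zero_of_mul hne0] at ha hb
      exact hne (ha.symm.trans (h.trans hb))
    have : (rb (w : GQ) 0 0 - rb (w : GQ) 1 1) * c F.τD 1 0 = 0 := by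
      linear_combination e + rb (w : GQ) 0 0 * hw
    exact (mul_eq_zero.mp this).resolve_left (sub_ne_zero.mpr hdiag)
  have hs : ((F.τD⁻¹ * φ : 𝔓.D) : GQ) ∈ 𝔓.I := by
    refine 𝔓.mem_I_iff.mpr ⟨(F.τD⁻¹ * φ).2, fun x hx => ?_⟩
    have h := (𝔓.nm_sub_le ((φ : GQ) x - x ^ p) (F.τ x - x ^ p)).trans_lt
      (max_lt (hφ.2 x hx) (F.hτ.2 x hx))
    rw [sub_sub_sub_cancel_right] at h
    rw [← 𝔓.nm_apply F.hτ.1, map_sub]
    show 𝔓.nm (F.τ ((F.τ⁻¹ * (φ : GQ)) x) - F.τ x) < 1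
    rwa [AlgEquiv.mul_apply, gq_apply_inv]
  obtain ⟨a, b⟩ := hmul F.τD (F.τD⁻¹ * φ) (hI _ hs).1
  rw [mul_inv_cancel_left] at a b
  exact ⟨a.trans hτ, by rw [b, (hI _ hs).2, add_zero]⟩

variable {L : IntermediateField ℚ QB} [FiniteDimensional ℚ L]
  (hlev : ∀ σ : GQ, (∀ x ∈ L, σ x = x) → rb σ = 1)

include hlev

/-- The bound in adapted coordinates. -/
theorem traceFix_bound (φ : 𝔓.D) (hφ : 𝔓.IsFrob p φ)
    (hdisc : (rb φ).trace ^ 2 ≠ 4 * (rb φ).det) :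
    ∃ S : Submodule k (𝔓.D → Mat k), adB1 rb 𝔓.D ≤ S ∧ S ≤ adZ1 rb 𝔓.D ∧ Module.Finite k S ∧
      Module.finrank k S ≤ 3 ∧
      ∀ N, IsFlatLift p rb N ∧ TrivSqZeroExt.snd (Matrix.trace (N φ)) = 0 →
        (fun g : 𝔓.D => liftCocycle rb N g) ∈ S := by
  classical
  obtain ⟨-, hne⟩ := F.χ_eq_aγ hp2 hu2
  set f := traceAt rb φ
  set ev : (𝔓.D → Mat k) →ₗ[k] k :=
    (Matrix.entryLinearMap k k 0 0).comp (LinearMap.proj F.τD)
  have hDf : F.off.map (adDelta rb 𝔓.D) ≤ LinearMap.ker f :=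
    LinearMap.map_le_range.trans (adB1_le_ker_traceAt rb φ)
  have hdis : rb (φ : GQ) 0 0 - rb (φ : GQ) 1 1 ≠ 0 := fun h => hdisc (by
    rw [Matrix.trace_fin_two, Matrix.det_fin_two, F.upper hp2 hu2 _ φ.2, sub_eq_zero.mp h]
    ring)
  have hker : F.space ⊓ LinearMap.ker f ≤ F.space ⊓ LinearMap.ker ev := by
    rintro c ⟨hc, hcf⟩
    refine ⟨hc, ?_⟩
    obtain ⟨h10, h00⟩ := F.space_upper hp2 hu2 hN hc hφ
    have hcf' : Matrix.trace (c φ * rb φ) = 0 := hcf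
    simp [Matrix.trace_fin_two, Matrix.mul_apply, Fin.sum_univ_two, h10, h00,
      adZ1_trace hc.1, F.upper hp2 hu2 _ φ.2] at hcf'
    show c F.τD 0 0 = 0
    exact (mul_eq_zero.mp (show c F.τD 0 0 * (rb (φ : GQ) 0 0 - rb (φ : GQ) 1 1) = 0 by
      linear_combination hcf')).resolve_right hdis
  obtain ⟨hkf, hkr⟩ := F.kernel_count hp2 hN hne
  have : Module.Finite k ↥(F.space ⊓ LinearMap.ker f) :=
    Submodule.finiteDimensional_of_le hker
  have hoff : F.off ≤ sl2 k := by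
    rw [off, if_neg hne, Submodule.span_le]
    rintro _ (rfl | rfl) <;> simp [sl2, Matrix.trace_fin_two]
  refine ⟨F.off.map (adDelta rb 𝔓.D) ⊔ F.space ⊓ LinearMap.ker f, ?_,
    sup_le ((Submodule.map_mono hoff).trans (adB1_le_adZ1 L hlev 𝔓.D))
      fun c hc => hc.1.1, inferInstance, ?_, fun N' h' => ?_⟩
  · rw [← sup_inf_assoc_of_le F.space hDf]
    exact le_inf (F.adB1_le hp2 hN hlev)
      (LinearMap.map_le_range.trans (adB1_le_ker_traceAt rb φ))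
  · refine (Submodule.finrank_add_le_finrank_add_finrank _ _).trans ?_
    refine (add_le_add (Submodule.finrank_map_le _ _) (Submodule.finrank_mono hker)).trans ?_
    have hoff2 : Module.finrank k ↥(F.off) ≤ 2 := by
      rw [off, if_neg hne]
      refine (finrank_span_le_card _).trans ?_
      simp only [Set.toFinset_insert, Set.toFinset_singleton]
      exact Finset.card_le_two
    exact (add_le_add hoff2 hkr).trans le_rfl
  · obtain ⟨X, hX, hc⟩ := F.lift_mem hp2 hN hlev h'.1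
    have hf : f (fun g : 𝔓.D => liftCocycle rb N' g) = 0 := (traceAt_lift h'.1 φ).trans h'.2
    rw [← add_sub_cancel (adDelta rb 𝔓.D X) (fun g : 𝔓.D => liftCocycle rb N' g)]
    refine Submodule.add_mem_sup ⟨X, hX, rfl⟩ ⟨hc, ?_⟩
    show f (_ - _) = 0
    rw [map_sub, hf, LinearMap.mem_ker.mp (hDf ⟨X, hX, rfl⟩), sub_self]

end Frame

end Flat

open Flat in
/-- **Flat deformations with fixed trace at a Frobenius element.** -/
theorem flat_traceFix_cocycle_bound {k : Type} [Field k] [Finite k] {p : ℕ} [Fact p.Prime]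
    [CharP k p] (hp : p ≠ 2) (rb : Gal →* Mat k)
    (hfin : ∃ L : IntermediateField ℚ (AlgebraicClosure ℚ), FiniteDimensional ℚ L ∧
      ∀ σ : Gal, (∀ x ∈ L, σ x = x) → rb σ = 1)
    (hdet : ∀ (σ : Gal) (a : ℕ),
      (∀ μ : AlgebraicClosure ℚ, μ ^ p = 1 → σ μ = μ ^ a) → (rb σ).det = (a : k))
    (P : ValuationSubring (AlgebraicClosure ℚ)) (hP : P.LiesOverPrime p)
    (hord : ∃ v : Fin 2 → k, v ≠ 0 ∧
      (∀ σ ∈ P.decompositionSubgroup ℚ, ∃ c : k, Matrix.mulVec (rb σ) v = c • v) ∧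
      ∀ σ ∈ P.inertiaSubgroupIn ℚ, ∀ w, ∃ c : k, Matrix.mulVec (rb σ) w - w = c • v)
    (φ : Gal) (hφ : P.IsFrobeniusAt φ p) (hdisc : (rb φ).trace ^ 2 ≠ 4 * (rb φ).det) :
    ∃ S : Submodule k (P.decompositionSubgroup ℚ → Mat k),
      adB1 rb (P.decompositionSubgroup ℚ) ≤ S ∧ S ≤ adZ1 rb (P.decompositionSubgroup ℚ) ∧
      Module.Finite k S ∧ Module.finrank k S ≤ 3 ∧
      ∀ (N : Gal →* Mat (DualNumber k)) (hN : MatCont N),
        (∀ σ, (N σ).map TrivSqZeroExt.fst = rb σ) →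
        (∀ σ, Matrix.trace (liftCocycle rb N σ) = 0) →
        (matRep N hN).IsFlatAt p →
        TrivSqZeroExt.snd (Matrix.trace (N φ)) = 0 →
        (fun g : P.decompositionSubgroup ℚ => liftCocycle rb N g) ∈ S := by
  obtain ⟨𝔓, rfl⟩ := exists_localPlace hP
  obtain ⟨hφD, hφx⟩ := Frobenius.isFrobeniusAt_iff.mp hφ
  have hfr : 𝔓.IsFrob p φ :=
    ⟨hφD, fun x hx => (𝔓.mem_nonunits_iff _).mp (hφx x ((𝔓.mem_iff x).mpr hx))⟩
  obtain ⟨L₀, hL₀, hlev₀⟩ := hfin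
  obtain ⟨L, _, _, hle⟩ := exists_normal_level L₀
  have hlev : ∀ σ : Gal, (∀ x ∈ L, σ x = x) → rb σ = 1 := fun σ hσ =>
    hlev₀ σ fun x hx => hσ x (hle hx)
  suffices h : ∃ S : Submodule k (𝔓.D → Mat k), adB1 rb 𝔓.D ≤ S ∧ S ≤ adZ1 rb 𝔓.D ∧
      Module.Finite k S ∧ Module.finrank k S ≤ 3 ∧
      ∀ N, IsFlatLift p rb N ∧ TrivSqZeroExt.snd (Matrix.trace (N φ)) = 0 →
        (fun g : 𝔓.D => liftCocycle rb N g) ∈ S by
    obtain ⟨S, h1, h2, h3, h4, h5⟩ := h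
    exact ⟨S, h1, h2, h3, h4, fun N hN hfst htr hflat hfix =>
      h5 N ⟨isFlatLift_of_isFlatAt N hN hfst htr hflat, hfix⟩⟩
  by_cases hex : ∃ N, IsFlatLift p rb N
  · obtain ⟨N, hN⟩ := hex
    obtain ⟨v, hv, hvD, hvI⟩ := hord
    obtain ⟨g, hg⟩ := exists_colUnit hv
    have hr : ∀ σ, conjRep g⁻¹ rb σ = ((g⁻¹ : (Mat k)ˣ) : Mat k) * rb σ * (g : Mat k) :=
      fun σ => by rw [conjRep_apply, inv_inv]
    have hD : ∀ σ ∈ 𝔓.D, conjRep g⁻¹ rb σ 1 0 = 0 := fun σ hσ => by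
      obtain ⟨c, hc⟩ := hvD σ hσ
      rw [hr]
      simpa [Matrix.mulVec, dotProduct, Fin.sum_univ_two] using congrFun (conj_col hg hc) 1
    have hI : ∀ σ ∈ 𝔓.I, conjRep g⁻¹ rb σ 1 1 = 1 := fun σ hσ => by
      obtain ⟨c, hc⟩ := hvI σ hσ (Matrix.mulVec (g : Mat k) ![0, 1])
      have h1 := congrArg (Matrix.mulVec ((g⁻¹ : (Mat k)ˣ) : Mat k)) hc
      rw [Matrix.mulVec_sub, Matrix.mulVec_smul, Matrix.mulVec_mulVec, Matrix.mulVec_mulVec,
        Matrix.mulVec_mulVec, Units.inv_mul, Matrix.one_mulVec, ← hr, ← hg,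
        Matrix.mulVec_mulVec, Units.inv_mul, Matrix.one_mulVec] at h1
      simpa [Matrix.mulVec, dotProduct, Fin.sum_univ_two, sub_eq_zero] using congrFun h1 1
    obtain ⟨g', F, hF⟩ := exists_frame_of_upper 𝔓 hp (rb := conjRep g⁻¹ rb) (L := L)
      (fun σ hσ => by rw [conjRep_apply, hlev σ hσ, mul_one, Units.mul_inv])
      (det_conj hdet g⁻¹) hD (hN.conj g⁻¹)
    have hu2 := hF hI
    clear hF
    revert F
    rw [conjRep_conjRep]
    intro F hu2
    refine exists_space_of_conj (g' * g⁻¹)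
      (C' := fun N' => IsFlatLift p (conjRep (g' * g⁻¹) rb) N' ∧
        TrivSqZeroExt.snd (Matrix.trace (N' φ)) = 0)
      (fun N' hN' => ⟨hN'.1.conj _, by
        rw [conjRep_apply, Matrix.trace_mul_cycle, Units.inv_mul, one_mul]; exact hN'.2⟩) ?_
    exact F.traceFix_bound hp hu2 (hN.conj _) (L := L)
      (fun σ hσ => by rw [conjRep_apply, hlev σ hσ, mul_one, Units.mul_inv]) ⟨φ, hφD⟩ hfr
      (by rwa [conjRep_apply, Matrix.trace_mul_cycle, Units.inv_mul, one_mul, Matrix.det_units_conj])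
  · refine ⟨adB1 rb 𝔓.D, le_rfl, adB1_le_adZ1 L hlev 𝔓.D, ?_, ?_,
      fun N hN => absurd ⟨N, hN.1⟩ hex⟩
    · unfold adB1; infer_instance
    · refine (Submodule.finrank_map_le _ _).trans ?_
      have hne : sl2 k ≠ ⊤ := fun h => by
        have h1 : (!![1, 0; 0, 0] : Mat k) ∈ sl2 k := h ▸ Submodule.mem_top
        simp [sl2, Matrix.trace_fin_two] at h1
      have := Submodule.finrank_lt hne
      rw [Module.finrank_matrix] at this
      simp at this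
      omega

/-- The same at every place over `p`, for a Frobenius element at one of them. -/
theorem flat_traceFix_cocycle_bound' {k : Type} [Field k] [Finite k] {p : ℕ} [Fact p.Prime]
    [CharP k p] (hp : p ≠ 2) (rb : Gal →* Mat k)
    (hfin : ∃ L : IntermediateField ℚ (AlgebraicClosure ℚ), FiniteDimensional ℚ L ∧
      ∀ σ : Gal, (∀ x ∈ L, σ x = x) → rb σ = 1)
    (hdet : ∀ (σ : Gal) (a : ℕ),
      (∀ μ : AlgebraicClosure ℚ, μ ^ p = 1 → σ μ = μ ^ a) → (rb σ).det = (a : k))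
    (hord : ∀ P : ValuationSubring (AlgebraicClosure ℚ), P.LiesOverPrime p →
      ∃ v : Fin 2 → k, v ≠ 0 ∧
        (∀ σ ∈ P.decompositionSubgroup ℚ, ∃ c : k, Matrix.mulVec (rb σ) v = c • v) ∧
        ∀ σ ∈ P.inertiaSubgroupIn ℚ, ∀ w, ∃ c : k, Matrix.mulVec (rb σ) w - w = c • v)
    (P₀ : ValuationSubring (AlgebraicClosure ℚ)) (hP₀ : P₀.LiesOverPrime p)
    (φ : Gal) (hφ : P₀.IsFrobeniusAt φ p) (hdisc : (rb φ).trace ^ 2 ≠ 4 * (rb φ).det)
    (P : ValuationSubring (AlgebraicClosure ℚ)) (hP : P.LiesOverPrime p) :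
    ∃ S : Submodule k (P.decompositionSubgroup ℚ → Mat k),
      adB1 rb (P.decompositionSubgroup ℚ) ≤ S ∧ S ≤ adZ1 rb (P.decompositionSubgroup ℚ) ∧
      Module.Finite k S ∧ Module.finrank k S ≤ 3 ∧
      ∀ (N : Gal →* Mat (DualNumber k)) (hN : MatCont N),
        (∀ σ, (N σ).map TrivSqZeroExt.fst = rb σ) →
        (∀ σ, Matrix.trace (liftCocycle rb N σ) = 0) →
        (matRep N hN).IsFlatAt p →
        TrivSqZeroExt.snd (Matrix.trace (N φ)) = 0 →
        (fun g : P.decompositionSubgroup ℚ => liftCocycle rb N g) ∈ S := by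
  obtain ⟨τ, hτ⟩ := Frobenius.exists_smul_eq (Fact.out : p.Prime) hP₀ hP
  have htr : ∀ {A : Type} [CommRing A] (M : Gal →* Mat A),
      Matrix.trace (M (τ * φ * τ⁻¹)) = Matrix.trace (M φ) := fun M => by
    rw [map_mul, map_mul, Matrix.trace_mul_cycle, ← map_mul, inv_mul_cancel, map_one, one_mul]
  obtain ⟨S, h1, h2, h3, h4, h5⟩ := flat_traceFix_cocycle_bound hp rb hfin hdet P hP (hord P hP)
    (τ * φ * τ⁻¹) (hτ ▸ Frobenius.isFrobeniusAt_conj (Fact.out : p.Prime).pos hφ τ) (by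
      rwa [htr, map_mul, map_mul, Matrix.det_mul, Matrix.det_mul, mul_comm (rb τ).det, mul_assoc,
        ← Matrix.det_mul, ← map_mul, mul_inv_cancel, map_one, Matrix.det_one, mul_one])
  exact ⟨S, h1, h2, h3, h4, fun N hN e1 e2 e3 e4 => h5 N hN e1 e2 e3 (by rw [htr]; exact e4)⟩

end FLTAgent.TW
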