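import Fermat.Agent.TW.Flat.Model

/-!
# Approximate points of a model are near points

Coordinates of the characters of a module killed by `p` in the basis of a model; congruent points
are equal and a functional which is multiplicative modulo `ε < |ζ - 1|^p` is within `ε p` of a
point.
-/

set_option autoImplicit false

open scoped Pointwise
open FLTAgent.FlatModel

noncomputable section

namespace FLTAgent.TW.Flat

variable {p : ℕ} {𝔓 : LocalPlace p} {V : Type} [AddCommGroup V]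

/-- The coordinates of the characters in a basis of a model. -/
structure CharCoord (H : Submodule (baseRing 𝔓.P 𝔓.IR) (V → QB)) where
  /-- the rank -/
  n : ℕ
  /-- the basis -/
  b : Fin n → V → QB
  /-- the coordinates -/
  u : AddChar V QB → Fin n → QB
  /-- the coproduct constants -/
  c : Fin n → Fin n → Fin n → baseRing 𝔓.P 𝔓.IR
  /-- the product constants -/
  μ : Fin n → Fin n → Fin n → baseRing 𝔓.P 𝔓.IR
  mem : ∀ i, b i ∈ H
  span : Submodule.span (baseRing 𝔓.P 𝔓.IR) (Set.range b) = H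
  b_le : ∀ i x, 𝔓.nm (b i x) ≤ 1
  u_le : ∀ ψ i, 𝔓.nm (u ψ i) ≤ 1
  expand : ∀ ψ x, ψ x = ∑ k, u ψ k * b k x
  u_mul : ∀ ψ i j, u ψ i * u ψ j = ∑ k, u ψ k * (c k i j : QB)
  b_mul : ∀ i j, b i * b j = ∑ k, μ i j k • b k
  u_add : ∀ ψ φ k, u (ψ * φ) k = ∑ i, ∑ j, u ψ i * u φ j * (μ i j k : QB)
  u_one : ∀ k, u 1 k ∈ baseRing 𝔓.P 𝔓.IR
  li : LinearIndependent QB b
  top : Submodule.span QB (Set.range b) = ⊤

/-- The model has coordinates. -/
theorem exists_charCoord [Finite V] {ρ : 𝔓.IR →* AddMonoid.End V}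
    {H : Submodule (baseRing 𝔓.P 𝔓.IR) (V → QB)} (hH : IsModel ρ H) :
    Nonempty (CharCoord H) := by
  classical
  obtain ⟨n, b, hbH, hli, hspan, htop⟩ := hH.exists_fullBasis
  let B := Module.Basis.mk hli htop.ge
  let u : AddChar V QB → Fin n → QB := fun ψ k => B.repr (⇑ψ) k
  have hu : ∀ (ψ : AddChar V QB) (x : V), ψ x = ∑ k, u ψ k * b k x := fun ψ x => by
    have h := congrFun (B.sum_repr (⇑ψ)) x
    simpa [u, B, Finset.sum_apply] using h.symm
  choose m a a' ha ha' hab using fun k => hH.coprod _ (hbH k)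
  choose c hc using fun k => exists_tensor_coeff hspan (ha k) (ha' k)
  have huu : ∀ ψ i j, u ψ i * u ψ j = ∑ k, u ψ k * (c k i j : QB) := by
    intro ψ i j
    have e : ∀ x y, ∑ i, (∑ j, u ψ i * u ψ j * b j y) * b i x =
        ∑ i, (∑ j, (∑ k, u ψ k * (c k i j : QB)) * b j y) * b i x := by
      intro x y
      have h1 : ∑ i, (∑ j, u ψ i * u ψ j * b j y) * b i x = ψ x * ψ y := by
        rw [hu, hu, Finset.sum_mul_sum]
        simp only [Finset.sum_mul]
        exact Finset.sum_congr rfl fun _ _ => Finset.sum_congr rfl fun _ _ => by ring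
      rw [h1, ← AddChar.map_add_eq_mul, hu]
      simp only [hab, hc, Finset.mul_sum, Finset.sum_mul]
      rw [Finset.sum_comm]
      refine Finset.sum_congr rfl fun i _ => ?_
      rw [Finset.sum_comm]
      exact Finset.sum_congr rfl fun _ _ => Finset.sum_congr rfl fun _ _ => by ring
    exact congrFun (eq_of_sum_mul_eq hli (g := fun j => u ψ i * u ψ j)
      (h := fun j => ∑ k, u ψ k * (c k i j : QB))
      fun y => congrFun (eq_of_sum_mul_eq hli fun x => e x y) i) j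
  have hle : ∀ ψ i, 𝔓.nm (u ψ i) ≤ 1 := by
    intro ψ i
    obtain ⟨j, -, hj⟩ := Finset.univ.exists_max_image (fun i => 𝔓.nm (u ψ i)) ⟨i, Finset.mem_univ i⟩
    refine (hj i (Finset.mem_univ i)).trans ?_
    by_contra hgt
    push Not at hgt
    have h : 𝔓.nm (u ψ j * u ψ j) ≤ 𝔓.nm (u ψ j) := by
      rw [huu]
      refine 𝔓.nm_sum_le _ _ (𝔓.nm_nonneg _) fun l _ => ?_
      rw [map_mul]
      exact (mul_le_of_le_one_right (𝔓.nm_nonneg _) (𝔓.mem_baseRing_iff.mp (c l j j).2).1).trans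
        (hj l (Finset.mem_univ l))
    rw [map_mul] at h
    nlinarith
  choose μ hμ using fun i j =>
    (Submodule.mem_span_range_iff_exists_fun _).mp
      (hspan ▸ hH.mul_mem _ (hbH i) _ (hbH j) : b i * b j ∈ _)
  have hadd : ∀ ψ φ k, u (ψ * φ) k = ∑ i, ∑ j, u ψ i * u φ j * (μ i j k : QB) := by
    intro ψ φ k
    refine congrFun (eq_of_sum_mul_eq hli (g := fun k => u (ψ * φ) k)
      (h := fun k => ∑ i, ∑ j, u ψ i * u φ j * (μ i j k : QB)) fun x => ?_) k
    rw [← hu, AddChar.mul_apply, hu, hu, Finset.sum_mul_sum]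
    simp only [Finset.sum_mul]
    conv_rhs => rw [Finset.sum_comm]
    refine Finset.sum_congr rfl fun i _ => ?_
    conv_rhs => rw [Finset.sum_comm]
    refine Finset.sum_congr rfl fun j _ => ?_
    have hbb : b i x * b j x = ∑ l, (μ i j l : QB) * b l x := by
      rw [← Pi.mul_apply, ← hμ]
      simp [Finset.sum_apply, Subring.smul_def]
    rw [show u ψ i * b i x * (u φ j * b j x) = u ψ i * u φ j * (b i x * b j x) by ring, hbb,
      Finset.mul_sum]
    exact Finset.sum_congr rfl fun _ _ => by ring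
  have hone : ∀ k, u 1 k ∈ baseRing 𝔓.P 𝔓.IR := by
    obtain ⟨d, hd⟩ := (Submodule.mem_span_range_iff_exists_fun _).mp (hspan ▸ hH.one_mem : (1 : V → QB) ∈ _)
    have := eq_of_sum_mul_eq hli (g := fun k => u 1 k) (h := fun k => (d k : QB)) fun x => by
      rw [← hu, AddChar.one_apply]
      have := congrFun hd x
      simpa [Finset.sum_apply, Subring.smul_def] using this.symm
    exact fun k => by rw [congrFun this k]; exact (d k).2
  exact ⟨⟨n, b, u, c, μ, hbH, hspan, fun i x => (𝔓.mem_iff _).mp (hH.integral _ (hbH i) x), hle, hu,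
    huu, fun i j => (hμ i j).symm, hadd, hone, hli, htop⟩⟩

variable {H : Submodule (baseRing 𝔓.P 𝔓.IR) (V → QB)} (C : CharCoord H)

/-- The functions on characters with coordinates bounded by `r`. -/
def InLat (r : ℝ) (F : AddChar V QB → QB) : Prop :=
  ∃ d : Fin C.n → QB, (∀ k, 𝔓.nm (d k) ≤ r) ∧ ∀ ψ, F ψ = ∑ k, d k * C.u ψ k

namespace InLat

variable {C} {r s : ℝ} {F G : AddChar V QB → QB}

lemma mono (hrs : r ≤ s) (h : InLat C r F) : InLat C s F := by
  obtain ⟨d, hd, he⟩ := h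
  exact ⟨d, fun k => (hd k).trans hrs, he⟩

lemma congr (h : InLat C r F) (he : ∀ ψ, G ψ = F ψ) : InLat C r G := by
  obtain ⟨d, hd, hF⟩ := h
  exact ⟨d, hd, fun ψ => (he ψ).trans (hF ψ)⟩

lemma zero (hr : 0 ≤ r) : InLat C r 0 := ⟨0, fun k => by simpa using hr, fun ψ => by simp⟩

lemma one : InLat C 1 1 := by
  refine ⟨fun k => C.b k 0, fun k => C.b_le k 0, fun ψ => ?_⟩
  rw [Pi.one_apply, ← AddChar.map_zero_eq_one ψ, C.expand]
  exact Finset.sum_congr rfl fun _ _ => mul_comm _ _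

lemma coord (i : Fin C.n) : InLat C 1 (fun ψ => C.u ψ i) := by
  classical
  exact ⟨Pi.single i 1, fun k => by rw [Pi.single_apply]; split <;> simp, fun ψ => by
    simp [Pi.single_apply]⟩

lemma add (hF : InLat C r F) (hG : InLat C r G) : InLat C r (F + G) := by
  obtain ⟨d, hd, he⟩ := hF
  obtain ⟨d', hd', he'⟩ := hG
  exact ⟨d + d', fun k => (𝔓.ultra _ _).trans (max_le (hd k) (hd' k)), fun ψ => by
    simp [he, he', add_mul, Finset.sum_add_distrib]⟩

lemma const_mul (c : QB) (hF : InLat C r F) : InLat C (𝔓.nm c * r) (fun ψ => c * F ψ) := by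
  obtain ⟨d, hd, he⟩ := hF
  exact ⟨fun k => c * d k, fun k => by
    rw [map_mul]; exact mul_le_mul_of_nonneg_left (hd k) (𝔓.nm_nonneg c), fun ψ => by
    dsimp only; rw [he, Finset.mul_sum]; exact Finset.sum_congr rfl fun _ _ => by ring⟩

lemma neg (hF : InLat C r F) : InLat C r (-F) := by
  obtain ⟨d, hd, he⟩ := hF
  exact ⟨-d, fun k => by simpa using hd k, fun ψ => by simp [he]⟩

lemma sub (hF : InLat C r F) (hG : InLat C r G) : InLat C r (F - G) := by
  rw [sub_eq_add_neg]; exact hF.add hG.neg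

lemma sum {ι : Type*} (S : Finset ι) {f : ι → AddChar V QB → QB} (hr : 0 ≤ r)
    (h : ∀ i ∈ S, InLat C r (f i)) : InLat C r (∑ i ∈ S, f i) := by
  classical
  induction S using Finset.induction with
  | empty => exact zero hr
  | insert i S hi ih =>
    rw [Finset.sum_insert hi]
    exact (h i (Finset.mem_insert_self i S)).add (ih fun j hj => h j (Finset.mem_insert_of_mem hj))

lemma mul (hr : 0 ≤ r) (hs : 0 ≤ s) (hF : InLat C r F) (hG : InLat C s G) :
    InLat C (r * s) (F * G) := by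
  obtain ⟨d, hd, he⟩ := hF
  obtain ⟨d', hd', he'⟩ := hG
  refine ⟨fun k => ∑ i, ∑ j, d i * d' j * (C.c k i j : QB), fun k => ?_, fun ψ => ?_⟩
  · refine 𝔓.nm_sum_le _ _ (mul_nonneg hr hs) fun i _ => 𝔓.nm_sum_le _ _ (mul_nonneg hr hs)
      fun j _ => ?_
    rw [map_mul, map_mul]
    exact (mul_le_of_le_one_right (mul_nonneg (𝔓.nm_nonneg _) (𝔓.nm_nonneg _))
      (𝔓.mem_baseRing_iff.mp (C.c k i j).2).1).trans (mul_le_mul (hd i) (hd' j) (𝔓.nm_nonneg _) hr)
  · rw [Pi.mul_apply, he, he', Finset.sum_mul_sum]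
    simp only [Finset.sum_mul]
    conv_rhs => rw [Finset.sum_comm]
    refine Finset.sum_congr rfl fun i _ => ?_
    conv_rhs => rw [Finset.sum_comm]
    refine Finset.sum_congr rfl fun j _ => ?_
    rw [show d i * C.u ψ i * (d' j * C.u ψ j) = d i * d' j * (C.u ψ i * C.u ψ j) by ring, C.u_mul,
      Finset.mul_sum]
    exact Finset.sum_congr rfl fun _ _ => by ring

lemma pow (hF : InLat C 1 F) (n : ℕ) : InLat C 1 (F ^ n) := by
  induction n with
  | zero => rw [pow_zero]; exact InLat.one (C := C)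
  | succ n ih => rw [pow_succ, ← one_mul (1 : ℝ)]; exact ih.mul zero_le_one zero_le_one hF

lemma apply_le (hr : 0 ≤ r) (hF : InLat C r F) (ψ : AddChar V QB) : 𝔓.nm (F ψ) ≤ r := by
  obtain ⟨d, hd, he⟩ := hF
  rw [he]
  refine 𝔓.nm_sum_le _ _ hr fun k _ => ?_
  rw [map_mul]
  exact (mul_le_of_le_one_right (𝔓.nm_nonneg _) (C.u_le ψ k)).trans (hd k)

/-- The coordinates at a power of a character. -/
lemma coord_pow (k : Fin C.n) (n : ℕ) : InLat C 1 (fun ψ => C.u (ψ ^ n) k) := by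
  induction n generalizing k with
  | zero =>
    simp only [pow_zero]
    refine (InLat.const_mul (C.u 1 k) (InLat.one (C := C))).mono ?_ |>.congr (fun ψ => by simp)
    rw [mul_one]; exact C.u_le 1 k
  | succ n ih =>
    refine (InLat.sum (C := C) Finset.univ zero_le_one (f := fun i => ∑ j,
      fun ψ => (C.μ i j k : QB) * (C.u (ψ ^ n) i * C.u ψ j)) fun i _ =>
        InLat.sum Finset.univ zero_le_one fun j _ => ?_).congr fun ψ => ?_
    · refine (InLat.const_mul _ ((ih i).mul zero_le_one zero_le_one (coord j))).mono ?_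
      rw [mul_one, mul_one]; exact (𝔓.mem_baseRing_iff.mp (C.μ i j k).2).1
    · simp only [Finset.sum_apply, pow_succ, C.u_add]
      exact Finset.sum_congr rfl fun _ _ => Finset.sum_congr rfl fun _ _ => by ring

end InLat

section Finite

variable [Finite V]

lemma sum_char_eq (x : V) [Fintype (AddChar V QB)] [Decidable (x = 0)] :
    ∑ ψ : AddChar V QB, ψ x = if x = 0 then (Fintype.card (AddChar V QB) : QB) else 0 := by
  split_ifs with hx
  · subst hx; simp [AddChar.map_zero_eq_one]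
  · obtain ⟨φ, hφ⟩ := exists_char_ne_one (K := QB) V hx
    have h : φ x * ∑ ψ : AddChar V QB, ψ x = ∑ ψ : AddChar V QB, ψ x := by
      rw [Finset.mul_sum]
      exact Fintype.sum_equiv (Equiv.mulLeft φ) _ _ fun ψ => by simp
    by_contra hne
    exact hφ (mul_right_cancel₀ hne (h.trans (one_mul _).symm))

lemma sum_point_eq [Fintype V] (ψ : AddChar V QB) (hψ : ψ ≠ 1) : ∑ x : V, ψ x = 0 := by
  obtain ⟨z, hz⟩ : ∃ z, ψ z ≠ 1 := by
    by_contra h
    push Not at h
    exact hψ (DFunLike.ext _ _ fun z => by rw [h z, AddChar.one_apply])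
  have h : ψ z * ∑ x : V, ψ x = ∑ x : V, ψ x := by
    rw [Finset.mul_sum]
    exact Fintype.sum_equiv (Equiv.addLeft z) _ _ fun x => by simp [AddChar.map_add_eq_mul]
  by_contra hne
  exact hz (mul_right_cancel₀ hne (h.trans (one_mul _).symm))

/-- Coordinates are controlled by values, up to a constant. -/
lemma exists_coord_bound : ∃ N : ℝ, 0 < N ∧ ∀ (d : Fin C.n → QB) (η : ℝ), 0 ≤ η →
    (∀ ψ, 𝔓.nm (∑ k, d k * C.u ψ k) ≤ η) → ∀ j, 𝔓.nm (d j) ≤ N * η := by
  classical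
  have := Fintype.ofFinite V
  have := finite_addChar (K := QB) V
  have := Fintype.ofFinite (AddChar V QB)
  set M : QB := (Fintype.card (AddChar V QB) : QB) with hM
  have hM0 : M ≠ 0 := Nat.cast_ne_zero.mpr Fintype.card_ne_zero
  refine ⟨(𝔓.nm M)⁻¹, inv_pos.mpr (𝔓.nm.pos hM0), fun d η hη hd j => ?_⟩
  set G : V → QB := fun x => ∑ ψ : AddChar V QB, (∑ k, d k * C.u ψ k) * ψ (-x) with hG
  -- `G x` recovers `d` after pairing with the basis
  have hrec : ∀ i, ∑ x, C.b i x * G x = M * d i := by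
    intro i
    have h1 : ∀ k y, ∑ x, C.b i x * (∑ ψ : AddChar V QB, C.u ψ k * ψ (-x)) * C.b k y =
        ∑ x, C.b i x * ∑ ψ : AddChar V QB, C.u ψ k * C.b k y * ψ (-x) := fun k y =>
      Finset.sum_congr rfl fun x _ => by
        rw [mul_assoc, Finset.sum_mul]
        congr 1
        exact Finset.sum_congr rfl fun ψ _ => by ring
    have h2 : (fun k => ∑ x, C.b i x * ∑ ψ : AddChar V QB, C.u ψ k * ψ (-x)) =
        fun k => if k = i then M else 0 := by
      refine eq_of_sum_mul_eq C.li fun y => ?_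
      simp only [Finset.sum_mul, h1, ite_mul, zero_mul, Finset.sum_ite_eq', Finset.mem_univ, if_true]
      rw [Finset.sum_comm]
      simp only [← Finset.mul_sum]
      simp_rw [fun x : V => Finset.sum_comm (s := (Finset.univ : Finset (Fin C.n)))
        (t := (Finset.univ : Finset (AddChar V QB)))
        (f := fun k ψ => C.u ψ k * C.b k y * ψ (-x))]
      simp only [← Finset.sum_mul, ← C.expand, ← AddChar.map_add_eq_mul, sum_char_eq]
      simp [add_neg_eq_zero, Finset.sum_ite_eq, hM, mul_comm]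
    have h3 := fun k => congrFun h2 k
    calc ∑ x, C.b i x * G x
        = ∑ k, d k * ∑ x, C.b i x * ∑ ψ : AddChar V QB, C.u ψ k * ψ (-x) := by
          simp only [hG, Finset.mul_sum, Finset.sum_mul]
          rw [Finset.sum_comm]
          conv_rhs => rw [Finset.sum_comm]
          rw [Finset.sum_comm]
          refine Finset.sum_congr rfl fun x _ => ?_
          rw [Finset.sum_comm]
          exact Finset.sum_congr rfl fun k _ => Finset.sum_congr rfl fun ψ _ => by ring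
      _ = M * d i := by simp [h3, mul_comm]
  have hval : ∀ (ψ : AddChar V QB) x, 𝔓.nm (ψ x) ≤ 1 := fun ψ x => by
    rw [C.expand]
    refine 𝔓.nm_sum_le _ _ zero_le_one fun k _ => ?_
    rw [map_mul]
    exact mul_le_one₀ (C.u_le ψ k) (𝔓.nm_nonneg _) (C.b_le k x)
  have h := congrArg 𝔓.nm (hrec j)
  rw [map_mul] at h
  rw [le_inv_mul_iff₀ (𝔓.nm.pos hM0), ← h]
  refine 𝔓.nm_sum_le _ _ hη fun x _ => ?_
  rw [map_mul]
  refine (mul_le_of_le_one_left (𝔓.nm_nonneg _) (C.b_le j x)).trans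
    (𝔓.nm_sum_le _ _ hη fun ψ _ => ?_)
  rw [map_mul]
  exact (mul_le_of_le_one_right (𝔓.nm_nonneg _) (hval ψ _)).trans (hd ψ)

/-- A multiplicative function on characters is the evaluation at a point. -/
lemma exists_point_of_mul {f : AddChar V QB → QB} (h1 : f 1 = 1)
    (hf : ∀ ψ φ, f (ψ * φ) = f ψ * f φ) : ∃ x, ∀ ψ : AddChar V QB, ψ x = f ψ := by
  classical
  have := Fintype.ofFinite V
  have := finite_addChar (K := QB) V
  have := Fintype.ofFinite (AddChar V QB)
  let G : V → QB := fun x => ∑ ψ : AddChar V QB, f ψ * ψ (-x)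
  obtain ⟨x, hx⟩ : ∃ x, G x ≠ 0 := by
    by_contra hne
    push Not at hne
    have hsum : ∑ x, G x = (Fintype.card V : QB) := by
      rw [Finset.sum_comm, Finset.sum_eq_single (1 : AddChar V QB)]
      · simp [h1, AddChar.one_apply]
      · intro ψ _ hψ
        rw [← Finset.mul_sum, Fintype.sum_equiv (Equiv.neg V) (fun x => ψ (-x)) (fun x => ψ x)
          fun x => rfl, sum_point_eq ψ hψ, mul_zero]
      · simp
    simp [hne] at hsum
    exact Fintype.card_ne_zero (mod_cast hsum.symm)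
  refine ⟨x, fun φ => ?_⟩
  have h : f φ * G x = φ x * G x := by
    show f φ * ∑ ψ : AddChar V QB, f ψ * ψ (-x) = φ x * ∑ ψ : AddChar V QB, f ψ * ψ (-x)
    rw [Finset.mul_sum, Finset.mul_sum]
    refine Fintype.sum_equiv (Equiv.mulLeft φ) _ _ fun ψ => ?_
    have hinv : φ x * φ (-x) = 1 := by
      rw [← AddChar.map_add_eq_mul, add_neg_cancel, AddChar.map_zero_eq_one]
    rw [Equiv.coe_mulLeft, hf, AddChar.mul_apply,
      show φ x * (f φ * f ψ * (φ (-x) * ψ (-x))) = (φ x * φ (-x)) * (f φ * (f ψ * ψ (-x))) by ring,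
      hinv, one_mul]
  exact (mul_right_cancel₀ hx h).symm

variable [hp : Fact p.Prime] (hpV : ∀ x : V, p • x = 0) {ζ : QB} (hζ : IsPrimitiveRoot ζ p)

include hpV in
omit hp [Finite V] in
lemma char_pow_p (ψ : AddChar V QB) (x : V) : ψ x ^ p = 1 := by
  rw [← AddChar.map_nsmul_eq_pow, hpV, AddChar.map_zero_eq_one]

include hpV in
omit hp [Finite V] in
lemma char_pow_p' (ψ : AddChar V QB) : ψ ^ p = 1 :=
  DFunLike.ext _ _ fun x => by rw [AddChar.pow_apply, AddChar.one_apply, char_pow_p hpV]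

include C hpV hζ in
/-- Points whose coordinates agree to within less than `|ζ - 1|` are equal. -/
theorem eq_of_congr {x y : V} (h : ∀ f ∈ H, 𝔓.nm (f x - f y) < 𝔓.nm (ζ - 1)) : x = y := by
  by_contra hne
  obtain ⟨ψ, hψ⟩ := exists_char_ne_one (K := QB) V (sub_ne_zero.mpr hne)
  have hlt : 𝔓.nm (ψ x - ψ y) < 𝔓.nm (ζ - 1) := by
    rw [C.expand, C.expand, ← Finset.sum_sub_distrib]
    refine 𝔓.nm_sum_lt _ _ (𝔓.nm_zeta_sub_one_pos hζ) fun k _ => ?_
    rw [← mul_sub, map_mul]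
    exact (mul_le_of_le_one_left (𝔓.nm_nonneg _) (C.u_le ψ k)).trans_lt (h _ (C.mem k))
  have hy0 : ψ y ≠ 0 := (AddChar.val_isUnit ψ y).ne_zero
  refine hψ ?_
  rw [AddChar.map_sub_eq_div]
  refine 𝔓.eq_one_of_pow_p_eq_one hζ ?_ ?_
  · rw [div_pow, char_pow_p hpV, char_pow_p hpV, div_one]
  · rwa [div_sub_one hy0, map_div₀,
      𝔓.nm_eq_one_of_pow_eq_one hp.out.ne_zero (char_pow_p hpV ψ y), div_one]

variable {ε : ℝ}

include hζ in
omit [Finite V] in
/-- The near root of unity. -/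
lemma exists_near_root {z : QB} (hz : 𝔓.nm (z ^ p - 1) ≤ ε) (hε : ε < 𝔓.nm (ζ - 1) ^ p) :
    ∃ ξ : QB, ξ ^ p = 1 ∧ 𝔓.nm (z - ξ) ≤ ε * p ∧ 𝔓.nm (z - ξ) < 𝔓.nm (ζ - 1) := by
  set l := 𝔓.nm (ζ - 1)
  obtain ⟨k, hk, hmin⟩ := Finset.exists_min_image (Finset.range p) (fun k => 𝔓.nm (z - ζ ^ k))
    ⟨0, Finset.mem_range.mpr hp.out.pos⟩
  rw [← LocalPlace.prod_sub_one hζ, map_prod, ← Finset.mul_prod_erase _ _ hk] at hz
  have hnear : 𝔓.nm (z - ζ ^ k) < l := by
    by_contra hge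
    push Not at hge
    have := hz.trans_lt hε
    rw [Finset.mul_prod_erase _ (fun k => 𝔓.nm (z - ζ ^ k)) hk] at this
    refine absurd this (not_lt.mpr ?_)
    rw [show l ^ p = ∏ _j ∈ Finset.range p, l by simp]
    exact Finset.prod_le_prod (fun _ _ => 𝔓.nm_nonneg _) fun j hj => hge.trans (hmin j hj)
  have hother : ∀ j ∈ (Finset.range p).erase k, 𝔓.nm (z - ζ ^ j) = l := by
    intro j hj
    obtain ⟨hne, hj'⟩ := Finset.mem_erase.mp hj
    have hd : 𝔓.nm (ζ ^ k - ζ ^ j) = l := by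
      have hk1 := 𝔓.nm_eq_one_of_pow_eq_one hp.out.ne_zero hζ.pow_eq_one
      rcases Nat.le_total j k with hle | hle <;>
        obtain ⟨d, rfl⟩ := Nat.exists_eq_add_of_le hle
      · rw [show ζ ^ (j + d) - ζ ^ j = ζ ^ j * (ζ ^ d - 1) by rw [pow_add]; ring, map_mul, map_pow,
          hk1, one_pow, one_mul, 𝔓.nm_pow_sub_one_eq hζ (Nat.not_dvd_of_pos_of_lt (by omega)
            (by have := Finset.mem_range.mp hk; omega))]
      · rw [show ζ ^ k - ζ ^ (k + d) = -(ζ ^ k * (ζ ^ d - 1)) by rw [pow_add]; ring,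
          AbsoluteValue.map_neg, map_mul, map_pow,
          hk1, one_pow, one_mul, 𝔓.nm_pow_sub_one_eq hζ (Nat.not_dvd_of_pos_of_lt (by omega)
            (by have := Finset.mem_range.mp hj'; omega))]
    rw [show z - ζ ^ j = (ζ ^ k - ζ ^ j) + (z - ζ ^ k) by ring,
      𝔓.nm_add_eq_of_lt (by rwa [hd]), hd]
  refine ⟨ζ ^ k, by rw [← pow_mul, mul_comm, pow_mul, hζ.pow_eq_one, one_pow], ?_, hnear⟩
  rw [Finset.prod_congr rfl hother, Finset.prod_const, Finset.card_erase_of_mem hk,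
    Finset.card_range, 𝔓.nm_zeta_sub_one_pow hζ, ← div_eq_mul_inv,
    div_le_iff₀ (by exact_mod_cast hp.out.pos)] at hz
  exact hz

omit [Finite V] in
/-- One step of the extraction of a `p`-th root. -/
lemma root_step {F : AddChar V QB → QB} {δ : ℝ} (hδ : 0 ≤ δ) (hδε : δ ≤ ε) (hεp : ε * p ≤ 1)
    (hF : InLat C 1 F) (h : InLat C δ (F ^ p - 1)) :
    ∃ t, InLat C (δ * p) t ∧ InLat C 1 (F * (1 - t)) ∧
      InLat C (δ * max (ε * p) (ε ^ (p - 1) * (p : ℝ) ^ p)) ((F * (1 - t)) ^ p - 1) := by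
  set q := max (ε * p) (ε ^ (p - 1) * (p : ℝ) ^ p)
  have hp1 : (1 : ℝ) ≤ p := mod_cast hp.out.one_lt.le
  set t : AddChar V QB → QB := fun ψ => (p : QB)⁻¹ * (F ^ p - 1) ψ with ht
  have htδ : InLat C (δ * p) t := by
    refine (InLat.const_mul _ h).mono ?_
    rw [map_inv₀, 𝔓.nm_p, inv_inv, mul_comm]
  have hδp0 : 0 ≤ δ * p := by positivity
  have hδp : δ * p ≤ 1 := (mul_le_mul_of_nonneg_right hδε (by positivity)).trans hεp
  have htp : ∀ k, InLat C ((δ * p) ^ k) (t ^ k) := by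
    intro k
    induction k with
    | zero => simpa using InLat.one
    | succ k ih => rw [pow_succ, pow_succ]; exact ih.mul (pow_nonneg hδp0 k) hδp0 htδ
  have hq0 : 0 ≤ δ * q := mul_nonneg hδ (le_max_of_le_left (by nlinarith))
  refine ⟨t, htδ, ?_, ?_⟩
  · rw [← one_mul (1 : ℝ)]
    exact hF.mul zero_le_one zero_le_one (InLat.one.sub (htδ.mono hδp))
  -- the binomial tail
  set R : AddChar V QB → QB := ∑ k ∈ Finset.Ico 2 (p + 1), fun ψ => (p.choose k : QB) * (-t) ψ ^ k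
    with hR
  have hRe : R = (1 - t) ^ p - 1 + (p : AddChar V QB → QB) * t := by
    funext ψ
    have e : (1 - t ψ) ^ p = ∑ k ∈ Finset.range (p + 1), (p.choose k : QB) * (-t ψ) ^ k := by
      rw [sub_eq_neg_add, add_pow]
      exact Finset.sum_congr rfl fun k _ => by simp [mul_comm]
    rw [Finset.range_eq_Ico, ← Finset.sum_Ico_consecutive _ (Nat.zero_le 2)
      (show 2 ≤ p + 1 by linarith [hp.out.two_le]), ← Finset.range_eq_Ico,
      Finset.sum_range_succ, Finset.sum_range_one] at e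
    simp only [hR, Finset.sum_apply, Pi.sub_apply, Pi.add_apply, Pi.mul_apply, Pi.pow_apply,
      Pi.one_apply, Pi.natCast_apply, Pi.neg_apply, e]
    simp
    ring
  have hRle : InLat C (δ * q) R := by
    refine InLat.sum _ hq0 fun k hk => ?_
    obtain ⟨hk2, hkp⟩ := Finset.mem_Ico.mp hk
    have h1 : InLat C ((δ * p) ^ k) ((-t) ^ k) := by
      rcases Nat.even_or_odd k with he | ho
      · rw [he.neg_pow]; exact htp k
      · rw [ho.neg_pow]; exact (htp k).neg
    refine (InLat.const_mul _ h1).mono ?_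
    rcases eq_or_lt_of_le (Nat.lt_succ_iff.mp hkp) with heq | hlt
    · rw [heq, Nat.choose_self, Nat.cast_one, AbsoluteValue.map_one, one_mul, mul_pow,
        ← Nat.sub_add_cancel hp.out.one_le, pow_succ δ, Nat.sub_add_cancel hp.out.one_le,
        mul_comm (δ ^ (p - 1)) δ, mul_assoc]
      refine mul_le_mul_of_nonneg_left ?_ hδ
      refine le_max_of_le_right (mul_le_mul_of_nonneg_right ?_ (by positivity))
      exact pow_le_pow_left₀ hδ hδε _
    · obtain ⟨c, hc⟩ := hp.out.dvd_choose_self (by omega) hlt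
      rw [hc, Nat.cast_mul, map_mul, 𝔓.nm_p]
      calc (p : ℝ)⁻¹ * 𝔓.nm (c : QB) * (δ * p) ^ k ≤ (p : ℝ)⁻¹ * 1 * (δ * p) ^ 2 := by
            refine mul_le_mul (mul_le_mul_of_nonneg_left (𝔓.nm_natCast_le_one c) (by positivity))
              (pow_le_pow_of_le_one hδp0 hδp hk2) (by positivity) (by positivity)
        _ = δ * (δ * p) := by field_simp
        _ ≤ δ * q := mul_le_mul_of_nonneg_left
            (le_max_of_le_left (mul_le_mul_of_nonneg_right hδε (by positivity))) hδ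
  have key : (F * (1 - t)) ^ p - 1 = F ^ p * R - (F ^ p - 1) * (F ^ p - 1) := by
    rw [hRe]
    funext ψ
    have hpt : (p : QB) * t ψ = F ψ ^ p - 1 := by
      simp only [ht, Pi.sub_apply, Pi.pow_apply, Pi.one_apply]
      rw [← mul_assoc, mul_inv_cancel₀ LocalPlace.p_ne_zero, one_mul]
    simp only [Pi.mul_apply, Pi.pow_apply, Pi.sub_apply, Pi.one_apply, Pi.natCast_apply,
      Pi.add_apply, mul_pow]
    linear_combination -(F ψ ^ p) * hpt
  rw [key]
  refine InLat.sub (by simpa using (hF.pow p).mul zero_le_one hq0 hRle) ((h.mul hδ hδ h).mono ?_)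
  exact mul_le_mul_of_nonneg_left (le_max_of_le_left (hδε.trans (le_mul_of_one_le_right
    (hδ.trans hδε) hp1))) hδ

include C hpV hζ in
/-- An approximate point is near a point. -/
theorem exists_point (Φ : H →ₗ[baseRing 𝔓.P 𝔓.IR] QB) (hε0 : 0 ≤ ε)
    (hε : ε < 𝔓.nm (ζ - 1) ^ p) (hone : ∀ h : (1 : V → QB) ∈ H, Φ ⟨1, h⟩ = 1)
    (hint : ∀ f, 𝔓.nm (Φ f) ≤ 1)
    (hmul : ∀ (f g : H) (h : (f : V → QB) * g ∈ H), 𝔓.nm (Φ ⟨_, h⟩ - Φ f * Φ g) ≤ ε) :
    ∃ x : V, ∀ f : H, 𝔓.nm (Φ f - (f : V → QB) x) ≤ ε * p := by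
  classical
  set l := 𝔓.nm (ζ - 1) with hl
  have hl0 : 0 < l := 𝔓.nm_zeta_sub_one_pos hζ
  have hl1 : l < 1 := 𝔓.nm_zeta_sub_one_lt_one hζ
  have hlpow : l ^ (p - 1) = (p : ℝ)⁻¹ := 𝔓.nm_zeta_sub_one_pow hζ
  have hpl : (p : ℝ) * l ^ p = l := by
    rw [← Nat.sub_add_cancel hp.out.one_le, pow_succ, hlpow, Nat.sub_add_cancel hp.out.one_le,
      ← mul_assoc, mul_inv_cancel₀ (by exact_mod_cast hp.out.ne_zero), one_mul]
  have hp0 : (0 : ℝ) < p := mod_cast hp.out.pos
  have hεl : ε * p < l := by rw [← hpl, mul_comm]; exact mul_lt_mul_of_pos_left hε hp0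
  have hεp : ε * p ≤ 1 := (hεl.trans hl1).le
  set φ : Fin C.n → QB := fun k => Φ ⟨C.b k, C.mem k⟩ with hφ
  set U : AddChar V QB → QB := fun ψ => ∑ k, φ k * C.u ψ k with hU
  have hU1 : InLat C 1 U := ⟨φ, fun k => hint _, fun _ => rfl⟩
  -- values at sums
  have hUone : U 1 = 1 := by
    have hmem : (1 : V → QB) ∈ H := by
      rw [show (1 : V → QB) = ∑ k, (⟨_, C.u_one k⟩ : baseRing 𝔓.P 𝔓.IR) • C.b k from funext fun x => by
        simpa [Finset.sum_apply, Subring.smul_def] using C.expand 1 x]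
      exact Submodule.sum_mem _ fun k _ => Submodule.smul_mem _ _ (C.mem k)
    rw [← hone hmem, show (⟨1, hmem⟩ : H) = ∑ k, (⟨_, C.u_one k⟩ : baseRing 𝔓.P 𝔓.IR) •
      (⟨C.b k, C.mem k⟩ : H) from Subtype.ext (funext fun x => by
        simpa [Finset.sum_apply, Subring.smul_def] using C.expand 1 x), map_sum]
    exact Finset.sum_congr rfl fun k _ => by rw [map_smul]; exact mul_comm _ _
  have herr : ∀ i j, 𝔓.nm ((∑ k, φ k * (C.μ i j k : QB)) - φ i * φ j) ≤ ε := by
    intro i j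
    have hmem : C.b i * C.b j ∈ H := by
      rw [C.b_mul]
      exact Submodule.sum_mem _ fun k _ => Submodule.smul_mem _ _ (C.mem k)
    refine le_of_eq_of_le ?_ (hmul ⟨_, C.mem i⟩ ⟨_, C.mem j⟩ hmem)
    congr 2
    rw [show (⟨C.b i * C.b j, hmem⟩ : H) = ∑ k, C.μ i j k • (⟨C.b k, C.mem k⟩ : H) from
      Subtype.ext (by simpa using C.b_mul i j), map_sum]
    exact Finset.sum_congr rfl fun k _ => by rw [map_smul]; exact mul_comm _ _
  have hdef : ∀ ψ χ, U (ψ * χ) - U ψ * U χ = ∑ i, ∑ j,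
      ((∑ k, φ k * (C.μ i j k : QB)) - φ i * φ j) * (C.u ψ i * C.u χ j) := by
    intro ψ χ
    simp only [sub_mul, Finset.sum_sub_distrib]
    congr 1
    · simp only [hU, C.u_add, Finset.mul_sum, Finset.sum_mul]
      rw [Finset.sum_comm]
      refine Finset.sum_congr rfl fun i _ => ?_
      rw [Finset.sum_comm]
      exact Finset.sum_congr rfl fun j _ => Finset.sum_congr rfl fun k _ => by ring
    · simp only [hU, Finset.sum_mul_sum]
      exact Finset.sum_congr rfl fun i _ => Finset.sum_congr rfl fun j _ => by ring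
  have hpows : ∀ n : ℕ, InLat C ε (U ^ n - fun ψ => U (ψ ^ n)) := by
    intro n
    induction n with
    | zero => exact (InLat.zero hε0).congr fun ψ => by simp [hUone]
    | succ n ih =>
      have h2 : InLat C ε (fun ψ => U (ψ ^ n * ψ) - U (ψ ^ n) * U ψ) := by
        refine (InLat.sum (C := C) Finset.univ hε0 (f := fun i => ∑ j, fun ψ =>
          ((∑ k, φ k * (C.μ i j k : QB)) - φ i * φ j) * (C.u (ψ ^ n) i * C.u ψ j)) fun i _ =>
          InLat.sum Finset.univ hε0 fun j _ => ?_).congr fun ψ => ?_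
        · refine (InLat.const_mul _
            ((InLat.coord_pow i n).mul zero_le_one zero_le_one (InLat.coord j))).mono ?_
          rw [mul_one, mul_one]; exact herr i j
        · simp [Finset.sum_apply, hdef]
      refine ((by simpa using ih.mul hε0 zero_le_one hU1 :
        InLat C ε ((U ^ n - fun ψ => U (ψ ^ n)) * U)).sub h2).congr fun ψ => ?_
      simp only [Pi.sub_apply, Pi.mul_apply, Pi.pow_apply, pow_succ]
      ring
  have hUp : InLat C ε (U ^ p - 1) :=
    (hpows p).congr fun ψ => by simp [char_pow_p' hpV, hUone]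
  -- the point
  have hval : ∀ ψ, 𝔓.nm (U ψ ^ p - 1) ≤ ε := fun ψ => by simpa using hUp.apply_le hε0 ψ
  choose ξ hξp hξ hξl using fun ψ => exists_near_root hζ (hval ψ) hε
  have hnm : ∀ ψ, 𝔓.nm (ξ ψ) = 1 := fun ψ =>
    𝔓.nm_eq_one_of_pow_eq_one hp.out.ne_zero (hξp ψ)
  have hroot_eq : ∀ {a b : QB}, a ^ p = 1 → b ^ p = 1 → 𝔓.nm (a - b) < l → a = b := by
    intro a b ha hb hab
    have hb1 := 𝔓.nm_eq_one_of_pow_eq_one hp.out.ne_zero hb
    have hb0 : b ≠ 0 := fun h => by simp [h] at hb1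
    exact (div_eq_one_iff_eq hb0).mp (𝔓.eq_one_of_pow_p_eq_one hζ (by rw [div_pow, ha, hb, div_one])
      (by rwa [div_sub_one hb0, map_div₀, hb1, div_one]))
  have hUle : ∀ ψ, 𝔓.nm (U ψ) ≤ 1 := hU1.apply_le zero_le_one
  obtain ⟨x, hx⟩ := exists_point_of_mul (f := ξ)
    (hroot_eq (hξp 1) (one_pow p) (by rw [𝔓.nm.map_sub, ← hUone]; exact hξl 1)) fun ψ χ => by
      refine hroot_eq (hξp _) (by rw [mul_pow, hξp, hξp, one_mul]) ?_
      rw [show ξ (ψ * χ) - ξ ψ * ξ χ = -(U (ψ * χ) - ξ (ψ * χ)) + ((U (ψ * χ) - U ψ * U χ) +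
        ((U ψ - ξ ψ) * U χ + ξ ψ * (U χ - ξ χ))) by ring]
      refine (𝔓.ultra _ _).trans_lt (max_lt (by rw [AbsoluteValue.map_neg]; exact hξl _)
        ((𝔓.ultra _ _).trans_lt (max_lt ?_ ((𝔓.ultra _ _).trans_lt (max_lt ?_ ?_)))))
      · refine lt_of_le_of_lt ?_ ((le_mul_of_one_le_right hε0
          (show (1 : ℝ) ≤ p by exact_mod_cast hp.out.one_lt.le)).trans_lt hεl)
        rw [hdef]
        refine 𝔓.nm_sum_le _ _ hε0 fun i _ => 𝔓.nm_sum_le _ _ hε0 fun j _ => ?_
        rw [map_mul, map_mul]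
        exact (mul_le_of_le_one_right (𝔓.nm_nonneg _)
          (mul_le_one₀ (C.u_le ψ i) (𝔓.nm_nonneg _) (C.u_le χ j))).trans (herr i j)
      · rw [map_mul]
        exact (mul_le_of_le_one_right (𝔓.nm_nonneg _) (hUle χ)).trans_lt (hξl ψ)
      · rw [map_mul, hnm, one_mul]
        exact hξl χ
  -- iterate
  set q := max (ε * p) (ε ^ (p - 1) * (p : ℝ) ^ p) with hq
  have hq0 : 0 ≤ q := le_max_of_le_left (by positivity)
  have hq1 : q < 1 := by
    refine max_lt (hεl.trans hl1) ?_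
    calc ε ^ (p - 1) * (p : ℝ) ^ p < (l ^ p) ^ (p - 1) * (p : ℝ) ^ p :=
          mul_lt_mul_of_pos_right (pow_lt_pow_left₀ hε hε0 (by have := hp.out.two_le; omega))
            (by positivity)
      _ = 1 := by
        rw [← pow_mul, mul_comm p, pow_mul, hlpow, inv_pow, inv_mul_cancel₀ (by positivity)]
  have hiter : ∀ N : ℕ, ∃ F, InLat C 1 F ∧ InLat C (ε * q ^ N) (F ^ p - 1) ∧
      InLat C (ε * p) (U - F) := by
    intro N
    induction N with
    | zero => exact ⟨U, hU1, by simpa using hUp,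
        (InLat.zero (by positivity)).congr fun ψ => by simp⟩
    | succ N ih =>
      obtain ⟨F, hF, hFp, hUF⟩ := ih
      have hδ : 0 ≤ ε * q ^ N := by positivity
      have hδε : ε * q ^ N ≤ ε := mul_le_of_le_one_right hε0 (pow_le_one₀ hq0 hq1.le)
      obtain ⟨t, ht, hF', hF'p⟩ := root_step C (ε := ε) hδ hδε hεp hF hFp
      refine ⟨F * (1 - t), hF', by rwa [pow_succ, ← mul_assoc], ?_⟩
      rw [show U - F * (1 - t) = (U - F) + F * t by ring]
      refine hUF.add ((hF.mul zero_le_one (by positivity) ht).mono ?_)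
      rw [one_mul]
      exact mul_le_mul_of_nonneg_right hδε hp0.le
  obtain ⟨Nb, hNb, hbound⟩ := exists_coord_bound C
  refine ⟨x, ?_⟩
  suffices hb : ∀ j, 𝔓.nm (φ j - C.b j x) ≤ ε * p by
    intro f
    have hf : (f : V → QB) ∈ Submodule.span (baseRing 𝔓.P 𝔓.IR) (Set.range C.b) :=
      (SetLike.ext_iff.mp C.span _).mpr f.2
    obtain ⟨d, hd⟩ := (Submodule.mem_span_range_iff_exists_fun _).mp hf
    rw [show f = ∑ k, d k • (⟨C.b k, C.mem k⟩ : H) from Subtype.ext (by simp [hd]), map_sum]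
    simp only [map_smul, AddSubmonoidClass.coe_finsetSum, SetLike.val_smul, Finset.sum_apply,
      Pi.smul_apply]
    rw [← Finset.sum_sub_distrib]
    refine 𝔓.nm_sum_le _ _ (by positivity) fun k _ => ?_
    rw [Subring.smul_def, Subring.smul_def, smul_eq_mul, smul_eq_mul, ← mul_sub, map_mul]
    exact (mul_le_of_le_one_left (𝔓.nm_nonneg _) (𝔓.mem_baseRing_iff.mp (d k).2).1).trans (hb k)
  intro j
  by_contra hgt
  push Not at hgt
  have hpos : 0 < 𝔓.nm (φ j - C.b j x) := lt_of_le_of_lt (by positivity) hgt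
  obtain ⟨N, hN⟩ : ∃ N : ℕ, Nb * (ε * q ^ N * p) < 𝔓.nm (φ j - C.b j x) := by
    obtain ⟨N, hN⟩ := exists_pow_lt_of_lt_one
      (div_pos hpos (show 0 < Nb * (ε + 1) * p by positivity)) hq1
    refine ⟨N, lt_of_le_of_lt ?_ ((lt_div_iff₀' (by positivity)).mp hN)⟩
    rw [show Nb * (ε * q ^ N * p) = Nb * ε * p * q ^ N by ring]
    exact mul_le_mul_of_nonneg_right
      (mul_le_mul_of_nonneg_right (mul_le_mul_of_nonneg_left (by linarith) hNb.le) hp0.le)
      (pow_nonneg hq0 N)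
  obtain ⟨F, hF, hFp, d, hd, hUF⟩ := hiter N
  have hδ : 0 ≤ ε * q ^ N := by positivity
  have hδε : ε * q ^ N ≤ ε := mul_le_of_le_one_right hε0 (pow_le_one₀ hq0 hq1.le)
  set e : Fin C.n → QB := fun k => φ k - d k - C.b k x with he
  have heF : ∀ ψ, ∑ k, e k * C.u ψ k = F ψ - ξ ψ := by
    intro ψ
    have h1 : U ψ - F ψ = ∑ k, d k * C.u ψ k := hUF ψ
    simp only [he, sub_mul, Finset.sum_sub_distrib, ← h1]
    rw [show ∑ k, C.b k x * C.u ψ k = ψ x by
      rw [C.expand]; exact Finset.sum_congr rfl fun _ _ => mul_comm _ _, hx]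
    simp only [hU]
    ring
  have hsmall : ∀ ψ, 𝔓.nm (∑ k, e k * C.u ψ k) ≤ ε * q ^ N * p := by
    intro ψ
    rw [heF]
    obtain ⟨r, hr, hr1, hr2⟩ := exists_near_root hζ (z := F ψ)
      (show 𝔓.nm (F ψ ^ p - 1) ≤ ε * q ^ N by simpa using hFp.apply_le hδ ψ) (hδε.trans_lt hε)
    have hUFψ : 𝔓.nm (U ψ - F ψ) ≤ ε * p := by
      have := InLat.apply_le (C := C) (F := U - F) (by positivity) ⟨d, hd, hUF⟩ ψ
      simpa using this
    rw [hroot_eq (hξp ψ) hr (by
      rw [show ξ ψ - r = -(U ψ - ξ ψ) + ((U ψ - F ψ) + (F ψ - r)) by ring]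
      exact (𝔓.ultra _ _).trans_lt (max_lt (by rw [AbsoluteValue.map_neg]; exact hξl ψ)
        ((𝔓.ultra _ _).trans_lt (max_lt (hUFψ.trans_lt hεl) hr2))))]
    exact hr1
  have hej := hbound e _ (by positivity) hsmall j
  have := 𝔓.ultra (e j) (d j)
  rw [show e j + d j = φ j - C.b j x by simp [he]; ring] at this
  exact absurd this (not_le.mpr (max_lt (hej.trans_lt hN) ((hd j).trans_lt hgt)))

end Finite

end FLTAgent.TW.Flat
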