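import Fermat.Agent.TW.Flat.Transport
import Fermat.Agent.TW.Flat.Points

/-!
# The ramification bound for finite flat group schemes killed by `p`

Over a totally ramified extension `K` of the inertia field of absolute index `e`, divisible by
`p - 1`, the Kummer classes cut out by the points of a flat module killed by `p` are congruent to
one at level `e` (modulo `p`-th powers).
-/

set_option autoImplicit false

open scoped Pointwise
open FLTAgent.FlatModel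

noncomputable section

namespace FLTAgent.TW.Flat

/-- The points are cut out by a homomorphism of `Gal(ℚ̄/K)` to a finite `p`-group. -/
def PAction (p : ℕ) {V : Type} [AddCommGroup V] (a : GQ →* AddMonoid.End V)
    (K : IntermediateField ℚ QB) : Prop :=
  ∃ (G : Type) (_ : Group G) (_ : Finite G) (φ : K.fixingSubgroup →* G),
    IsPGroup p G ∧ HasLevel _ φ ∧ ∀ σ, φ σ = 1 ↔ ∀ x, a (σ : GQ) x = x

variable {p : ℕ} {V : Type} [AddCommGroup V] {a : GQ →* AddMonoid.End V}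

lemma PAction.mono {K K' : IntermediateField ℚ QB} (h : PAction p a K) (hle : K ≤ K') :
    PAction p a K' := by
  obtain ⟨G, _, _, φ, hG, ⟨L, hL, hlev⟩, hiff⟩ := h
  have hfix : K'.fixingSubgroup ≤ K.fixingSubgroup := IntermediateField.fixingSubgroup_antitone hle
  exact ⟨G, _, ‹_›, φ.comp (Subgroup.inclusion hfix), hG, ⟨L, hL, fun σ hσ => hlev _ hσ⟩,
    fun σ => hiff (Subgroup.inclusion hfix σ)⟩

/-- A field obtained by adjoining a root of a monic equation is spanned by its powers. -/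
theorem exists_span_adjoin (L : IntermediateField ℚ QB) {x : QB} {d : ℕ} (hd : 0 < d)
    {g : Fin d → QB} (hg : ∀ j, g j ∈ L) (hx : x ^ d = ∑ j, g j * x ^ (j : ℕ)) :
    ∀ z ∈ IntermediateField.adjoin ℚ ((L : Set QB) ∪ {x}),
      ∃ c : Fin d → QB, (∀ j, c j ∈ L) ∧ z = ∑ j, c j * x ^ (j : ℕ) := by
  intro z hz
  rw [← IntermediateField.restrictScalars_adjoin, IntermediateField.mem_restrictScalars] at hz
  set G : Polynomial L := Polynomial.X ^ d -
    ∑ j : Fin d, Polynomial.C ⟨g j, hg j⟩ * Polynomial.X ^ (j : ℕ) with hG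
  have hdeg : (∑ j : Fin d, Polynomial.C (⟨g j, hg j⟩ : L) * Polynomial.X ^ (j : ℕ)).degree <
      ((Polynomial.X : Polynomial L) ^ d).degree := by
    rw [Polynomial.degree_X_pow]
    exact (Polynomial.degree_sum_le _ _).trans_lt ((Finset.sup_lt_iff (WithBot.bot_lt_coe d)).mpr
      fun i _ => (Polynomial.degree_C_mul_X_pow_le _ _).trans_lt (Nat.cast_lt.mpr i.2))
  have hGm : G.Monic := (Polynomial.monic_X_pow d).sub_of_left hdeg
  have hGd : G.natDegree = d := by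
    rw [hG, Polynomial.natDegree_eq_of_degree_eq (Polynomial.degree_sub_eq_left_of_degree_lt hdeg),
      Polynomial.natDegree_X_pow]
  have hGx : Polynomial.aeval x G = 0 := by
    simp only [hG, map_sub, map_pow, Polynomial.aeval_X, map_sum, map_mul, Polynomial.aeval_C]
    exact sub_eq_zero.mpr hx
  have hx' : z ∈ Algebra.adjoin L {x} := by
    rw [← IntermediateField.adjoin_simple_toSubalgebra_of_isAlgebraic
      (⟨G, hGm.ne_zero, hGx⟩ : IsAlgebraic L x)]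
    exact hz
  rw [Algebra.adjoin_singleton_eq_range_aeval] at hx'
  obtain ⟨f, rfl⟩ := hx'
  have hG1 : G ≠ 1 := fun h => by rw [h, Polynomial.natDegree_one] at hGd; omega
  refine ⟨fun j => ((f %ₘ G).coeff j : QB), fun j => ((f %ₘ G).coeff j).2, ?_⟩
  change Polynomial.aeval x f = _
  rw [← Polynomial.aeval_modByMonic_eq_self_of_root hGx,
    Polynomial.aeval_eq_sum_range' (hGd ▸ Polynomial.natDegree_modByMonic_lt f hGm hG1),
    Finset.sum_range]
  exact Finset.sum_congr rfl fun j _ => rfl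

variable [hp : Fact p.Prime] {𝔓 : LocalPlace p}

/-- Integral powers of elements congruent to one. -/
lemma nm_zpow_sub_one_le {v : QB} (hv : 𝔓.nm (v - 1) < 1) (k : ℤ) :
    𝔓.nm (v ^ k - 1) ≤ 𝔓.nm (v - 1) := by
  have hv1 : 𝔓.nm v = 1 := by
    rw [𝔓.nm_eq_of_sub_lt (y := 1) (by rwa [AbsoluteValue.map_one]), AbsoluteValue.map_one]
  obtain ⟨j, rfl | rfl⟩ := k.eq_nat_or_neg
  · rw [zpow_natCast]; exact 𝔓.nm_pow_sub_one_le hv1.le j
  · have h0 : v ^ j ≠ 0 := pow_ne_zero _ fun h => by simp [h] at hv1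
    rw [zpow_neg, zpow_natCast, show (v ^ j)⁻¹ - 1 = -(v ^ j - 1) * (v ^ j)⁻¹ by
      field_simp; ring, map_mul, AbsoluteValue.map_neg, map_inv₀, map_pow, hv1, one_pow, inv_one,
      mul_one]
    exact 𝔓.nm_pow_sub_one_le hv1.le j

variable [Finite V] {H : Submodule (baseRing 𝔓.P 𝔓.IR) (V → QB)}

/-- No class of low level is cut out by the points. -/
theorem false_of_low_class {e m : ℕ} (T : TR 𝔓 e) (hm : e = m * (p - 1)) {ζ : QB}
    (hζ : IsPrimitiveRoot ζ p) (hH : IsModel (𝔓.actI a) H) (hpV : ∀ x : V, p • x = 0)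
    (hact : PAction p a T.K) {y : QB} (hy : y ^ p ∈ T.K) (hy0 : y ≠ 0)
    (hfix : ∀ σ ∈ T.K.fixingSubgroup, (∀ x, a σ x = x) → σ y = y)
    (u : QB → QB) {i : ℕ} (hi : i + 2 ≤ e) {n : ℤ} (hn : ¬ (p : ℤ) ∣ n)
    (hu_nm : 𝔓.nm (u y) ^ p = T.ρ ^ n)
    (hu_mem : ∀ L : IntermediateField ℚ QB, T.K ≤ L → ∀ Y ∈ L, u Y ∈ L)
    (hu_map : ∀ σ ∈ T.K.fixingSubgroup, ∀ Y, σ (u Y) = u (σ Y))
    (hu_lip : ∀ η, 𝔓.nm (u (y * η) / u y - 1) ^ p * T.ρ ^ i ≤ 𝔓.nm (η - 1) ^ p) : False := by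
  classical
  obtain ⟨C⟩ := exists_charCoord hH
  obtain ⟨G, _, _, φ, hG, hlev, hiff⟩ := hact
  have hp2 := hp.out.two_le
  obtain ⟨α, β, hαβ, hα⟩ := T.exists_uniformiser hn hu_nm
  set Un : QB → QB := fun Y => u Y ^ α * T.π ^ β with hUn
  have hUnmem : ∀ L : IntermediateField ℚ QB, T.K ≤ L → ∀ Y ∈ L, Un Y ∈ L := fun L hL Y hY =>
    mul_mem (zpow_mem (hu_mem L hL Y hY) α) (zpow_mem (hL T.mem) β)
  have hUnmap : ∀ σ ∈ T.K.fixingSubgroup, ∀ Y, σ (Un Y) = Un (σ Y) := fun σ hσ Y => by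
    simp only [hUn, map_mul, map_zpow₀, hu_map σ hσ,
      (IntermediateField.mem_fixingSubgroup_iff _ _).mp hσ _ T.mem]
  obtain ⟨L, hLK, hLπ⟩ := T.exists_TR_adjoin hp.out.pos hy
    (hUnmem _ (T.K_le_adjoinElt y) y (T.mem_adjoinElt y)) hαβ
  have hρ : T.ρ = L.ρ ^ p := T.rho_eq_pow L
  obtain ⟨k, M, hKM, hMiff⟩ := T.exists_TR_kernel hm hζ hG φ hlev
  have hMtriv : ∀ σ ∈ M.K.fixingSubgroup, ∀ x, a σ x = x := fun σ hσ =>
    (hiff ⟨σ, IntermediateField.fixingSubgroup_antitone hKM hσ⟩).mp ((hMiff _).mp hσ)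
  have hyM : y ∈ M.K := M.mem_of_fixed fun σ hσ =>
    hfix σ (IntermediateField.fixingSubgroup_antitone hKM hσ) (hMtriv σ hσ)
  have hLM : L.K ≤ M.K := hLK ▸ T.adjoinElt_le hKM hyM
  rcases k with _ | k
  · obtain ⟨t, ht⟩ := M.exists_zpow (hLM L.mem) L.pi_ne_zero
    have hMρ : M.ρ = T.ρ := by
      have h := M.rho_pow
      simp only [pow_zero, mul_one] at h
      exact (pow_left_inj₀ M.rho_pos.le T.rho_pos.le T.pos.ne').mp (h.trans T.rho_pow.symm)
    rw [show 𝔓.nm L.π = L.ρ from rfl, hMρ] at ht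
    have h1 : T.ρ ^ (1 : ℤ) = T.ρ ^ (t * p) := by
      rw [zpow_one, zpow_mul, ← ht, zpow_natCast, ← hρ]
    have h2 : (p : ℤ) ∣ 1 := ⟨t, by rw [T.zpow_inj h1]; ring⟩
    exact hp.out.not_dvd_one (Int.natCast_dvd_natCast.mp (by exact_mod_cast h2))
  have hN : e * p ^ (k + 1) = e * p * p ^ k := by ring
  obtain ⟨M, hKM, hMiff, hMtriv, hyM, hLM⟩ : ∃ M : TR 𝔓 (e * p * p ^ k), T.K ≤ M.K ∧
      (∀ σ : T.K.fixingSubgroup, (σ : GQ) ∈ M.K.fixingSubgroup ↔ φ σ = 1) ∧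
      (∀ σ ∈ M.K.fixingSubgroup, ∀ x, a σ x = x) ∧ y ∈ M.K ∧ L.K ≤ M.K := by
    rw [← hN]; exact ⟨M, hKM, hMiff, hMtriv, hyM, hLM⟩
  obtain ⟨E⟩ := exists_relEq (L := L) (M := M) hLM
  obtain ⟨R, hRc, hπR, hR⟩ := L.exists_orbit
  have hm0 : 0 < m := Nat.pos_of_ne_zero fun h => by rw [h, zero_mul] at hm; exact T.pos.ne' hm
  have hmp : i + 2 ≤ m * p := by
    have : e ≤ m * p := by rw [hm]; exact Nat.mul_le_mul_left m (Nat.sub_le p 1)
    omega
  set r₀ := L.ρ ^ (m * p - 1) with hr₀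
  have hLρ := L.rho_pos
  -- moving `y` moves the uniformiser little
  have hmove : ∀ η, 𝔓.nm (η - 1) ≤ r₀ → 𝔓.nm (Un (y * η) - L.π) ≤ L.ρ ^ (m * p - i) := by
    intro η hη
    set δ := u (y * η) / u y - 1 with hδ
    have h1 : 𝔓.nm δ * L.ρ ^ i ≤ r₀ := by
      refine (pow_le_pow_iff_left₀ (by positivity [𝔓.nm_nonneg δ]) (by positivity) hp.out.ne_zero).mp ?_
      rw [mul_pow, ← pow_mul, mul_comm i p, pow_mul, ← hρ]
      exact (hu_lip η).trans (pow_le_pow_left₀ (𝔓.nm_nonneg _) hη p)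
    have h2 : 𝔓.nm δ ≤ L.ρ ^ (m * p - 1 - i) := by
      refine le_of_mul_le_mul_right (h1.trans ?_) (pow_pos hLρ i)
      rw [← pow_add, Nat.sub_add_cancel (by omega)]
    have h3 : 𝔓.nm δ < 1 := h2.trans_lt (pow_lt_one₀ hLρ.le L.rho_lt_one (by omega))
    have hu0 : u y ≠ 0 := fun h => by
      rw [h, map_zero, zero_pow hp.out.ne_zero] at hu_nm
      exact (zpow_pos T.rho_pos n).ne hu_nm
    have he : Un (y * η) - L.π = L.π * ((u (y * η) / u y) ^ α - 1) := by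
      rw [hLπ, hUn, div_zpow]
      field_simp
    rw [he, map_mul]
    calc 𝔓.nm L.π * 𝔓.nm ((u (y * η) / u y) ^ α - 1) ≤ L.ρ * L.ρ ^ (m * p - 1 - i) :=
          mul_le_mul le_rfl ((nm_zpow_sub_one_le h3 α).trans h2) (𝔓.nm_nonneg _) hLρ.le
      _ = L.ρ ^ (m * p - i) := by rw [← pow_succ']; congr 1; omega
  have hζr : ∀ j : ℕ, 𝔓.nm (ζ ^ j - 1) ≤ r₀ := fun j => by
    refine (𝔓.nm_pow_sub_one_le (𝔓.nm_eq_one_of_pow_eq_one hp.out.ne_zero hζ.pow_eq_one).le j).trans ?_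
    rw [T.nm_zeta hm hζ, hρ, ← pow_mul, mul_comm p m]
    exact pow_le_pow_of_le_one hLρ.le L.rho_lt_one.le (Nat.sub_le _ _)
  -- the conjugates over `K`
  obtain ⟨σ₀, hσ₀, hσ₀y⟩ : ∃ σ ∈ T.K.fixingSubgroup, σ y ≠ y := by
    by_contra h
    push Not at h
    have hyK : y ∈ T.K := T.mem_of_fixed h
    obtain ⟨t, ht⟩ := T.exists_zpow (hUnmem T.K le_rfl y hyK)
      (by rw [← hLπ]; exact L.pi_ne_zero)
    rw [ht] at hαβ
    have h1 : T.ρ ^ (1 : ℤ) = T.ρ ^ (t * p) := by rw [zpow_one, zpow_mul, zpow_natCast, hαβ]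
    have h2 : (p : ℤ) ∣ 1 := ⟨t, by rw [T.zpow_inj h1]; ring⟩
    exact hp.out.not_dvd_one (Int.natCast_dvd_natCast.mp (by exact_mod_cast h2))
  have : NeZero p := ⟨hp.out.ne_zero⟩
  obtain ⟨j₀, hj₀, hj₀e⟩ := hζ.eq_pow_of_pow_eq_one (show (σ₀ y / y) ^ p = 1 by
    rw [div_pow, ← map_pow, (IntermediateField.mem_fixingSubgroup_iff _ _).mp hσ₀ _ hy,
      div_self (pow_ne_zero _ hy0)])
  have hσy : ∀ l : ℕ, (σ₀ ^ l) y = y * (ζ ^ j₀) ^ l := by
    intro l
    induction l with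
    | zero => simp
    | succ l ih =>
      rw [pow_succ', AlgEquiv.mul_apply, ih, map_mul, map_pow, map_pow,
        (IntermediateField.mem_fixingSubgroup_iff _ _).mp hσ₀ _ (T.zeta_mem hm hζ), pow_succ,
        show σ₀ y = y * ζ ^ j₀ by rw [hj₀e, mul_div_cancel₀ _ hy0]]
      ring
  have hprim : IsPrimitiveRoot (ζ ^ j₀) p := hζ.pow_of_coprime j₀ (by
    refine (hp.out.coprime_iff_not_dvd.mpr fun hd => hσ₀y ?_).symm
    rw [← div_eq_one_iff_eq hy0, ← hj₀e, Nat.eq_zero_of_dvd_of_lt hd hj₀, pow_zero])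
  set Rp : Finset QB := (Finset.range p).image (fun l => Un (y * (ζ ^ j₀) ^ l)) with hRp
  have hRpR : Rp ⊆ R := by
    intro r hr
    obtain ⟨l, -, rfl⟩ := Finset.mem_image.mp hr
    refine (hR _).mpr ⟨σ₀ ^ l, T.fix_le_I (pow_mem hσ₀ l), ?_⟩
    rw [hLπ, hUnmap _ (pow_mem hσ₀ l), hσy]
  have hRpc : Rp.card = p := by
    rw [hRp, Finset.card_image_of_injOn, Finset.card_range]
    intro l hl l' hl' he
    simp only [Finset.coe_range, Set.mem_Iio] at hl hl'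
    have hLfix : ∀ σ ∈ T.K.fixingSubgroup, σ L.π = L.π → σ y = y := fun σ hσ hπ => by
      have hle : L.K ≤ IntermediateField.fixedField (Subgroup.zpowers σ) := by
        refine L.le_of_mem ?_ ?_ <;> [intro z hz; skip] <;>
          rw [IntermediateField.mem_fixedField_iff] <;> rintro _ ⟨j, rfl⟩
        · exact 𝔓.mem_K₀.mp hz _ (zpow_mem (T.fix_le_I hσ) j)
        · exact MulAction.mem_stabilizer_iff.mp
            (zpow_mem (MulAction.mem_stabilizer_iff.mpr hπ : σ ∈ MulAction.stabilizer GQ L.π) j)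
      exact (IntermediateField.mem_fixedField_iff _ _).mp (hle (hLK ▸ T.mem_adjoinElt y)) σ
        (Subgroup.mem_zpowers σ)
    dsimp only at he
    rw [← hσy, ← hσy, ← hUnmap _ (pow_mem hσ₀ l), ← hUnmap _ (pow_mem hσ₀ l'), ← hLπ] at he
    have h := hLfix ((σ₀ ^ l')⁻¹ * σ₀ ^ l) (mul_mem (inv_mem (pow_mem hσ₀ _)) (pow_mem hσ₀ _))
      (by rw [AlgEquiv.mul_apply, he, ← AlgEquiv.mul_apply, inv_mul_cancel, AlgEquiv.one_apply])
    have h' := congrArg (σ₀ ^ l') h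
    rw [← AlgEquiv.mul_apply, mul_inv_cancel_left, hσy, hσy] at h'
    exact hprim.pow_inj hl hl' (mul_left_cancel₀ hy0 h')
  -- the twists all lie in `M`
  have key : ∀ c ∈ 𝔓.K₀, 𝔓.nm c = 1 →
      ∀ ξ : QB, ξ ^ p = 1 + T.π ^ (m * p - 1) * c → ξ ∈ M.K := by
    intro c hc hc1 ξ hξ
    have hz : 𝔓.nm (ξ ^ p - 1) = T.ρ ^ (m * p - 1) := by
      rw [hξ, add_sub_cancel_left, map_mul, map_pow, hc1, mul_one]; rfl
    have hξgt : 𝔓.nm (ζ - 1) < 𝔓.nm (ξ - 1) := by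
      by_contra h
      push Not at h
      have := 𝔓.nm_pow_p_sub_one_of_le hζ h
      rw [hz, T.nm_zeta hm hζ, ← pow_mul] at this
      have := (pow_le_pow_iff_right_of_lt_one₀ T.rho_pos T.rho_lt_one).mp this
      omega
    have hξr : 𝔓.nm (ξ - 1) = r₀ := by
      refine (pow_left_inj₀ (𝔓.nm_nonneg _) (pow_nonneg hLρ.le _) hp.out.ne_zero).mp ?_
      rw [← 𝔓.nm_pow_p_sub_one_of_gt hζ hξgt, hz, hρ, ← pow_mul, ← pow_mul, mul_comm p (m * p - 1)]
    set π' := Un (y * ξ) with hπ'def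
    have hπ'L : 𝔓.nm (π' - L.π) ≤ L.ρ ^ (m * p - i) := hmove ξ hξr.le
    have hlt : L.ρ ^ (m * p - i) < L.ρ := by
      conv_rhs => rw [← pow_one L.ρ]
      exact pow_lt_pow_right_of_lt_one₀ hLρ L.rho_lt_one (by omega)
    have hπ' : 𝔓.nm π' = L.ρ := 𝔓.nm_eq_of_sub_lt (hπ'L.trans_lt hlt)
    have hrR : ∀ r ∈ R, 𝔓.nm (π' - r) ≤ L.ρ := by
      intro r hr
      obtain ⟨σ, hσ, rfl⟩ := (hR r).mp hr
      exact (𝔓.nm_sub_le _ _).trans (max_le hπ'.le (𝔓.nm_apply (𝔓.I_le_D hσ) _).le)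
    have hrRp : ∀ r ∈ Rp, 𝔓.nm (π' - r) ≤ L.ρ ^ (m * p - i) := by
      intro r hr
      obtain ⟨l, -, rfl⟩ := Finset.mem_image.mp hr
      rw [show π' - Un (y * (ζ ^ j₀) ^ l) = (π' - L.π) - (Un (y * (ζ ^ j₀) ^ l) - L.π) by ring]
      refine (𝔓.nm_sub_le _ _).trans (max_le hπ'L (hmove _ ?_))
      rw [← pow_mul]; exact hζr _
    have hε : ∏ r ∈ R, 𝔓.nm (π' - r) < 𝔓.nm (ζ - 1) ^ p := by
      rw [← Finset.prod_sdiff hRpR, T.nm_zeta hm hζ, hρ, ← pow_mul, ← pow_mul]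
      calc (∏ r ∈ R \ Rp, 𝔓.nm (π' - r)) * ∏ r ∈ Rp, 𝔓.nm (π' - r)
          ≤ (∏ _r ∈ R \ Rp, L.ρ) * ∏ _r ∈ Rp, L.ρ ^ (m * p - i) := by
            refine mul_le_mul (Finset.prod_le_prod (fun _ _ => 𝔓.nm_nonneg _)
              fun r hr => hrR r (Finset.mem_sdiff.mp hr).1)
              (Finset.prod_le_prod (fun _ _ => 𝔓.nm_nonneg _) hrRp)
              (Finset.prod_nonneg fun _ _ => 𝔓.nm_nonneg _) (by positivity)
        _ = L.ρ ^ ((e * p - p) + (m * p - i) * p) := by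
            rw [Finset.prod_const, Finset.prod_const, Finset.card_sdiff_of_subset hRpR, hRc, hRpc,
              ← pow_mul, ← pow_add]
        _ < L.ρ ^ (p * (m * p)) := by
            refine pow_lt_pow_right_of_lt_one₀ hLρ L.rho_lt_one ?_
            have h1 : e * p - p = (e - 1) * p := by rw [Nat.sub_mul, one_mul]
            have h2 : p * (m * p) = (m * p) * p := by ring
            rw [h1, h2, ← add_mul]
            exact Nat.mul_lt_mul_of_pos_right (by omega) hp.out.pos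
    obtain ⟨x, hx⟩ := IsAlgClosed.exists_root (E.poly π') (by
      rw [Polynomial.degree_eq_natDegree (E.monic_poly π').ne_zero, E.natDegree_poly]
      exact_mod_cast (pow_pos hp.out.pos k).ne')
    have hx' : (E.poly π').eval x = 0 := hx
    obtain ⟨F, hFm, hFd, hFM, hFx⟩ :=
      E.exists_equation_near hRc hπR hR (hπ'.le.trans L.rho_lt_one.le) hx'
    have hxM : 𝔓.nm x = M.ρ := E.nm_root (by have := T.pos; nlinarith) hπ' hx'
    obtain ⟨τ, hτnm, hτ1, hτmul, hτfix⟩ := exists_transport M hFm hFd hFM hxM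
    -- the functional of a point
    have hval : ∀ (P : V) (f : H), (f : V → QB) P ∈ M.intModule := fun P f =>
      ⟨M.mem_of_fixed fun σ hσ => by
        rw [← 𝔓.apply_actI hH f.2 (M.fix_le_I hσ) P, hMtriv σ hσ P],
        (𝔓.mem_iff _).mp (hH.integral _ f.2 P)⟩
    let Φ : V → (H →ₗ[baseRing 𝔓.P 𝔓.IR] QB) := fun P => τ.comp
      (LinearMap.codRestrict M.intModule ((LinearMap.proj P).comp H.subtype) (hval P))
    have hεp : ∏ r ∈ R, 𝔓.nm (π' - r) * 1 < 𝔓.nm (ζ - 1) ^ p := by simpa using hε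
    have hex : ∀ P, ∃ Q : V, ∀ f : H,
        𝔓.nm (Φ P f - (f : V → QB) Q) ≤ (∏ r ∈ R, 𝔓.nm (π' - r)) * p := fun P =>
      exists_point C hpV hζ (Φ P) (Finset.prod_nonneg fun _ _ => 𝔓.nm_nonneg _) hε
        (fun h => hτ1 _) (fun f => (hτnm _).trans_le (hval P f).2)
        (fun f g h => (hτmul ⟨_, hval P f⟩ ⟨_, hval P g⟩ _).trans hFx)
    have hεl : (∏ r ∈ R, 𝔓.nm (π' - r)) * p < 𝔓.nm (ζ - 1) := by
      have h := mul_lt_mul_of_pos_right hε (show (0 : ℝ) < p by exact_mod_cast hp.out.pos)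
      refine h.trans_eq ?_
      have h1 : 𝔓.nm (ζ - 1) ^ p = 𝔓.nm (ζ - 1) ^ (p - 1) * 𝔓.nm (ζ - 1) := by
        rw [← pow_succ]; congr 1; omega
      rw [h1, 𝔓.nm_zeta_sub_one_pow hζ]
      field_simp [(show (p : ℝ) ≠ 0 by exact_mod_cast hp.out.ne_zero)]
    choose Q hQ using hex
    have hQinj : Function.Injective Q := fun P P' he => eq_of_congr C hpV hζ fun f hf => by
      have h : 𝔓.nm (Φ P ⟨f, hf⟩ - Φ P' ⟨f, hf⟩) < 𝔓.nm (ζ - 1) := by
        rw [← sub_sub_sub_cancel_right (Φ P ⟨f, hf⟩) (Φ P' ⟨f, hf⟩) (f (Q P))]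
        refine (𝔓.nm_sub_le _ _).trans_lt (max_lt ((hQ P ⟨f, hf⟩).trans_lt hεl) ?_)
        rw [he]; exact (hQ P' ⟨f, hf⟩).trans_lt hεl
      rw [show Φ P ⟨f, hf⟩ - Φ P' ⟨f, hf⟩ =
        τ (⟨f P, hval P ⟨f, hf⟩⟩ - ⟨f P', hval P' ⟨f, hf⟩⟩) from (map_sub τ _ _).symm, hτnm] at h
      exact h
    have hQs : Function.Surjective Q := Finite.surjective_of_injective hQinj
    have htriv : ∀ σ ∈ 𝔓.I, σ x = x → ∀ P, a σ P = P := by
      intro σ hσ hσx P
      obtain ⟨P, rfl⟩ := hQs P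
      refine eq_of_congr C hpV hζ fun f hf => ?_
      rw [𝔓.apply_actI hH hf hσ,
        show σ (f (Q P)) - f (Q P) = -(σ (Φ P ⟨f, hf⟩ - f (Q P))) + (Φ P ⟨f, hf⟩ - f (Q P)) by
          rw [map_sub, show σ (Φ P ⟨f, hf⟩) = Φ P ⟨f, hf⟩ from hτfix σ hσ hσx _]; ring]
      refine (𝔓.ultra _ _).trans_lt (max_lt ?_ ((hQ P ⟨f, hf⟩).trans_lt hεl))
      rw [AbsoluteValue.map_neg, 𝔓.nm_apply (𝔓.I_le_D hσ)]
      exact (hQ P ⟨f, hf⟩).trans_lt hεl
    -- the twisted field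
    have hy' : (y * ξ) ^ p ∈ T.K := by
      rw [mul_pow, hξ]
      exact mul_mem hy (add_mem (one_mem _) (mul_mem (pow_mem T.mem _) (T.le hc)))
    obtain ⟨L', hL'K, hL'π⟩ := T.exists_TR_adjoin hp.out.pos hy'
      (hUnmem _ (T.K_le_adjoinElt _) _ (T.mem_adjoinElt _)) (by
        show 𝔓.nm π' ^ p = T.ρ
        rw [hπ', ← hρ])
    set M' := IntermediateField.adjoin ℚ ((L'.K : Set QB) ∪ {x}) with hM'
    have hL'M' : L'.K ≤ M' := fun z hz => IntermediateField.subset_adjoin ℚ _ (Or.inl hz)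
    have hxM' : x ∈ M' := IntermediateField.subset_adjoin ℚ _ (Or.inr rfl)
    have hTM' : T.K ≤ M' := (hL'K ▸ T.K_le_adjoinElt _).trans hL'M'
    have hMle : M.K ≤ M' := by
      have := isGalois_qb
      rw [← InfiniteGalois.fixedField_fixingSubgroup M']
      intro z hz
      rw [IntermediateField.mem_fixedField_iff]
      intro σ hσ
      have hσT := IntermediateField.fixingSubgroup_antitone hTM' hσ
      have hσM : σ ∈ M.K.fixingSubgroup := (hMiff ⟨σ, hσT⟩).mpr ((hiff ⟨σ, hσT⟩).mpr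
        (htriv σ (T.fix_le_I hσT)
          ((IntermediateField.mem_fixingSubgroup_iff _ _).mp hσ x hxM')))
      exact (IntermediateField.mem_fixingSubgroup_iff _ _).mp hσM z hz
    -- `M'` is spanned by as many elements as the degree of `M`
    have hxd : x ^ (p ^ k) = ∑ j : Fin (p ^ k),
        (∑ l : Fin (e * p * p ^ k), if (l : ℕ) % p ^ k = j then E.c l * π' ^ ((l : ℕ) / p ^ k) else 0) *
          x ^ (j : ℕ) := by
      rw [E.eval_poly, sub_eq_zero] at hx'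
      rw [hx']
      simp only [Finset.sum_mul]
      rw [Finset.sum_comm]
      refine Finset.sum_congr rfl fun l _ => ?_
      rw [Finset.sum_eq_single ⟨(l : ℕ) % p ^ k, Nat.mod_lt _ (pow_pos hp.out.pos k)⟩]
      · simp [mul_assoc]
      · intro j _ hj
        rw [if_neg fun h => hj (Fin.ext h.symm), zero_mul]
      · simp
    have hspan := exists_span_adjoin L'.K (pow_pos hp.out.pos k) (fun j => sum_mem fun l _ => by
      split_ifs
      · exact mul_mem (L'.le (E.mem l)) (pow_mem (show Un (y * ξ) ∈ L'.K by rw [← hL'π]; exact L'.mem) _)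
      · exact zero_mem _) hxd
    obtain ⟨T'', hT''K, hT''π⟩ := exists_TR_of_span M' (L'.le.trans hL'M') M.pos (hMle M.mem)
      M.nm_pow (ι := Fin (e * p) × Fin (p ^ k)) (by simp)
      (fun q => L'.π ^ (q.1 : ℕ) * x ^ (q.2 : ℕ)) (fun z hz => by
        obtain ⟨c, hc, rfl⟩ := hspan z hz
        choose c' hc' he' using fun j => L'.span (c j) (hc j)
        refine ⟨fun q => c' q.2 q.1, fun q => hc' _ _, ?_⟩
        rw [Fintype.sum_prod_type, Finset.sum_comm]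
        refine Finset.sum_congr rfl fun j _ => ?_
        rw [he' j, Finset.sum_mul]
        exact Finset.sum_congr rfl fun i _ => by ring)
    have hM'le : M' ≤ M.K := hT''K ▸ T''.le_of_mem M.le (hT''π ▸ M.mem)
    have hyξ : y * ξ ∈ M.K := hM'le (hL'M' (hL'K ▸ T.mem_adjoinElt _))
    have := M.K.mul_mem (M.K.inv_mem hyM) hyξ
    rwa [inv_mul_cancel_left₀ hy0] at this
  -- but there are only finitely many classes in `M`
  let μp := {ξ : QB // ξ ^ p = 1}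
  have : Finite μp := Set.Finite.to_subtype (s := {ξ : QB | ξ ^ p = 1})
    ((Polynomial.nthRootsFinset p (1 : QB)).finite_toSet.subset fun ξ hξ =>
      (Polynomial.mem_nthRootsFinset hp.out.pos 1).mpr hξ)
  set B := Nat.card (φ.range → μp)
  obtain ⟨N, hNdvd, hNB, hNK⟩ : ∃ N : ℕ, ¬ p ∣ N ∧ B < N ∧
      ∀ ω : QB, ω ^ N = 1 → ω ∈ 𝔓.K₀ := by
    refine ⟨p ^ (B + 1) - 1, fun hd => ?_, ?_, fun ω hω => 𝔓.mem_K₀_of_pow_eq (Nat.succ_pos B) ?_⟩
    · have h2 : p ∣ p ^ (B + 1) := dvd_pow_self p (Nat.succ_ne_zero B)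
      have h3 := Nat.dvd_sub h2 hd
      rw [Nat.sub_sub_self (Nat.one_le_pow _ _ hp.out.pos)] at h3
      exact hp.out.not_dvd_one h3
    · have := Nat.lt_pow_self (n := B + 1) hp.out.one_lt
      omega
    · rw [← Nat.sub_add_cancel (Nat.one_le_pow (B + 1) p hp.out.pos), pow_succ, hω, one_mul]
  have hN0 : 0 < N := by omega
  have : NeZero (N : QB) := ⟨Nat.cast_ne_zero.mpr hN0.ne'⟩
  obtain ⟨ω, hω⟩ := IsAlgClosed.exists_root (Polynomial.cyclotomic N QB)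
    (by rw [Polynomial.degree_cyclotomic]; exact_mod_cast (Nat.totient_pos.mpr hN0).ne')
  rw [Polynomial.isRoot_cyclotomic_iff] at hω
  have hω1 : 𝔓.nm ω = 1 := 𝔓.nm_eq_one_of_pow_eq_one hN0.ne' hω.pow_eq_one
  have hωK : ω ∈ 𝔓.K₀ := hNK ω hω.pow_eq_one
  have hj : ¬ p ∣ m * p - 1 := fun hd => by
    have h := Nat.dvd_sub (Nat.dvd_mul_left p m) hd
    rw [Nat.sub_sub_self (by omega)] at h
    exact hp.out.not_dvd_one h
  choose ξ hξ using fun c : Fin N =>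
    IsAlgClosed.exists_pow_nat_eq (1 + T.π ^ (m * p - 1) * ω ^ (c : ℕ)) hp.out.pos
  have hsmall : ∀ c : Fin N, 𝔓.nm (T.π ^ (m * p - 1) * ω ^ (c : ℕ)) < 1 := fun c => by
    rw [map_mul, map_pow, map_pow, hω1, one_pow, mul_one]
    exact pow_lt_one₀ T.rho_pos.le T.rho_lt_one (by omega)
  have hξp1 : ∀ c, 𝔓.nm (ξ c ^ p) = 1 := fun c => by
    rw [hξ, 𝔓.nm_add_eq_of_lt (by rw [AbsoluteValue.map_one]; exact hsmall c), AbsoluteValue.map_one]
  have hξ0 : ∀ c, ξ c ≠ 0 := fun c h => by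
    have := hξp1 c; simp [h, hp.out.ne_zero] at this
  have hξK : ∀ c, ξ c ^ p ∈ T.K := fun c => by
    rw [hξ]; exact add_mem (one_mem _) (mul_mem (pow_mem T.mem _) (T.le (pow_mem hωK _)))
  have hξM : ∀ c, ξ c ∈ M.K := fun c => key _ (pow_mem hωK _)
    (by rw [map_pow, hω1, one_pow]) _ (hξ c)
  choose s hs using fun g : φ.range => g.2
  let ch : Fin N → φ.range → μp := fun c g => ⟨(s g : GQ) (ξ c) / ξ c, by
    rw [div_pow, ← map_pow, (IntermediateField.mem_fixingSubgroup_iff _ _).mp (s g).2 _ (hξK c),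
      div_self (pow_ne_zero _ (hξ0 c))]⟩
  obtain ⟨c, c', hne, hcc⟩ : ∃ c c', c ≠ c' ∧ ch c = ch c' := by
    by_contra h
    push Not at h
    have hinj : Function.Injective ch := fun x y hxy => by
      by_contra hxy'; exact h x y hxy' hxy
    have := Nat.card_le_card_of_injective ch hinj
    rw [Nat.card_fin] at this
    omega
  have hq : ξ c / ξ c' ∈ T.K := T.mem_of_fixed fun σ hσ => by
    set g : φ.range := ⟨φ ⟨σ, hσ⟩, _, rfl⟩ with hg
    have h1 : (s g)⁻¹ * ⟨σ, hσ⟩ ∈ φ.ker := by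
      rw [MonoidHom.mem_ker, map_mul, map_inv, hs g, inv_mul_cancel]
    have h2 := (IntermediateField.mem_fixingSubgroup_iff _ _).mp ((hMiff _).mpr h1) _
      (M.K.div_mem (hξM c) (hξM c'))
    have h3 := congrArg (s g : GQ) h2
    rw [Subgroup.coe_mul, Subgroup.coe_inv, ← AlgEquiv.mul_apply, mul_inv_cancel_left] at h3
    rw [show σ (ξ c / ξ c') = (s g : GQ) (ξ c / ξ c') from h3]
    have h4 : (s g : GQ) (ξ c) / ξ c = (s g : GQ) (ξ c') / ξ c' :=
      congrArg Subtype.val (congrFun hcc g)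
    rw [map_div₀]
    have := hξ0 c; have := hξ0 c'
    have : (s g : GQ) (ξ c') ≠ 0 := by simpa using hξ0 c'
    field_simp at h4 ⊢
    linear_combination h4
  refine T.nm_sub_one_ne hm hζ hq (i := m * p - 1) (by omega) hj ?_
  have hne0 : ξ c' ^ p ≠ 0 := pow_ne_zero _ (hξ0 c')
  rw [div_pow, div_sub_one hne0, map_div₀, hξp1, div_one, hξ, hξ, add_sub_add_left_eq_sub,
    ← mul_sub, map_mul, map_pow, show 𝔓.nm T.π = T.ρ from rfl]
  suffices hd : 𝔓.nm (ω ^ (c : ℕ) - ω ^ (c' : ℕ)) = 1 by rw [hd, mul_one]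
  have hw0 : ω ^ (c' : ℕ) ≠ 0 := pow_ne_zero _ (hω.ne_zero hN0.ne')
  have hw1 : 𝔓.nm (ω ^ (c' : ℕ)) = 1 := by rw [map_pow, hω1, one_pow]
  refine le_antisymm ((𝔓.nm_sub_le _ _).trans (max_le (by rw [map_pow, hω1, one_pow]) hw1.le)) ?_
  by_contra hlt
  push Not at hlt
  refine hne (Fin.ext (hω.pow_inj c.2 c'.2 ((div_eq_one_iff_eq hw0).mp
    (𝔓.eq_one_of_pow_eq_one hNdvd ?_ ?_))))
  · rw [div_pow, ← pow_mul, ← pow_mul, mul_comm _ N, mul_comm _ N, pow_mul, pow_mul,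
      hω.pow_eq_one, one_pow, one_pow, div_one]
  · rw [div_sub_one hw0, map_div₀, hw1, div_one]; exact hlt

/-- **The bound.** A class cut out by the points of a flat module is congruent to one at level
`e`. -/
theorem inU_of_flat (hp2 : p ≠ 2) {e m : ℕ} (T : TR 𝔓 e) (hm : e = m * (p - 1)) {ζ : QB}
    (hζ : IsPrimitiveRoot ζ p) (hH : IsModel (𝔓.actI a) H) (hpV : ∀ x : V, p • x = 0)
    (hact : PAction p a T.K) {y : QB} (hy : y ^ p ∈ T.K) (hy0 : y ≠ 0)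
    (hfix : ∀ σ ∈ T.K.fixingSubgroup, (∀ x, a σ x = x) → σ y = y) : T.InU e (y ^ p) := by
  by_cases hyK : y ∈ T.K
  · refine ⟨y, hyK, hy0, ?_⟩
    rw [div_self (pow_ne_zero _ hy0), sub_self, map_zero]
    exact (pow_pos T.rho_pos _).le
  by_contra hU
  obtain ⟨T₂, hle, hπ₂⟩ := T.exists_TR_sqrt
  have hρ : T.ρ = T₂.ρ ^ 2 := T.rho_eq_pow T₂
  have hm₂ : e * 2 = (m * 2) * (p - 1) := by rw [hm]; ring
  have hfix₂ : ∀ σ ∈ T₂.K.fixingSubgroup, (∀ x, a σ x = x) → σ y = y := fun σ hσ =>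
    hfix σ (IntermediateField.fixingSubgroup_antitone hle hσ)
  have hp2 : ¬ (p : ℤ) ∣ 2 := fun hd => by
    have := Int.le_of_dvd two_pos hd
    have := hp.out.two_le
    omega
  obtain ⟨u, n, hn, hu, hnm, hcase⟩ := T.exists_normal_root hm hζ hy hyK
  have hn₂ : ¬ (p : ℤ) ∣ n * 2 := fun h =>
    ((Nat.prime_iff_prime_int.mp hp.out).dvd_or_dvd h).elim hn hp2
  have hnm₂ : 𝔓.nm u ^ p = T₂.ρ ^ (n * 2) := by
    rw [hnm, hρ, ← zpow_natCast T₂.ρ, ← zpow_mul, mul_comm n]; norm_num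
  rcases hcase with rfl | ⟨w, hw, i, hw0, rfl, hi0, hi, rfl, he⟩
  · refine false_of_low_class T₂ hm₂ hζ hH hpV (hact.mono hle) (hle hy) hy0 hfix₂ id (i := 0)
      (by have := T.pos; omega) hn₂ hnm₂ (fun L _ Y hY => hY) (fun σ _ Y => rfl) fun η => ?_
    rw [id_eq, id_eq, mul_div_cancel_left₀ _ hy0, pow_zero, mul_one]
  · have hie : i < e := by
      by_contra hge
      push Not at hge
      refine hU ⟨w, hw, hw0, ?_⟩
      rw [← div_pow, he]
      exact pow_le_pow_of_le_one T.rho_pos.le T.rho_lt_one.le hge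
    have hywnm : 𝔓.nm ((y / w) ^ p) = 1 := by
      rw [𝔓.nm_eq_of_sub_lt (y := 1) (by
        rw [AbsoluteValue.map_one, he]; exact pow_lt_one₀ T.rho_pos.le T.rho_lt_one hi0.ne'),
        AbsoluteValue.map_one]
    have hyw1 : 𝔓.nm (y / w) = 1 :=
      (pow_eq_one_iff_of_nonneg (𝔓.nm_nonneg _) hp.out.ne_zero).mp (by rw [← map_pow]; exact hywnm)
    refine false_of_low_class T₂ hm₂ hζ hH hpV (hact.mono hle) (hle hy) hy0 hfix₂
      (fun Y => Y / w - 1) (i := i * 2) (by omega) hn₂ hnm₂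
      (fun L hL Y hY => sub_mem (div_mem hY (hL (hle hw))) (one_mem _))
      (fun σ hσ Y => by
        rw [map_sub, map_div₀, map_one,
          (IntermediateField.mem_fixingSubgroup_iff _ _).mp hσ _ (hle hw)])
      fun η => ?_
    have hu0 : y / w - 1 ≠ 0 := fun h => by
      rw [h, map_zero, zero_pow hp.out.ne_zero] at hnm₂
      exact (zpow_pos T₂.rho_pos _).ne hnm₂
    rw [div_sub_one hu0, show y * η / w - 1 - (y / w - 1) = y / w * (η - 1) by ring,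
      map_div₀, map_mul, hyw1, one_mul, div_pow, hnm₂]
    rw [show T₂.ρ ^ (i * 2) = T₂.ρ ^ ((i : ℤ) * 2) by
      rw [show ((i : ℤ) * 2) = ((i * 2 : ℕ) : ℤ) by push_cast; ring, zpow_natCast],
      div_mul_cancel₀ _ (zpow_pos T₂.rho_pos _).ne']

end FLTAgent.TW.Flat
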