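import Mathlib.FieldTheory.Finite.Basic
import Mathlib.LinearAlgebra.Dimension.Finite
import Mathlib.LinearAlgebra.FiniteDimensional.Lemmas
import Mathlib.RingTheory.IntegralDomain
import Mathlib.RingTheory.Polynomial.Basic
import Mathlib.RingTheory.RootsOfUnity.PrimitiveRoots

/-!
# Additive maps with a semilinear symmetry

The pure algebra behind the count of graded pieces: fixed points of semilinear maps, and the
eigenvalues which can occur.
-/

set_option autoImplicit false

noncomputable section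

namespace FLTAgent.TW.Flat

section Artin

variable {K : Type*} [Field K] {M : Type*} [AddCommGroup M] [Module K M]

/-- Fixed points of a `q`-semilinear map on a space of dimension at most `n` number at most
`q^n`. -/
theorem card_fixed_le {n q : ℕ} (hq : 1 < q) [FiniteDimensional K M]
    (hn : Module.finrank K M ≤ n) (T : M → M) (hadd : ∀ x y, T (x + y) = T x + T y)
    (hsmul : ∀ (c : K) x, T (c • x) = c ^ q • T x) :
    Finite {x : M // T x = x} ∧ Nat.card {x : M // T x = x} ≤ q ^ n := by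
  classical
  obtain ⟨b, hb, hspan, hli⟩ := exists_linearIndependent K {x : M | T x = x}
  have : Fintype b := hli.setFinite.fintype
  have hcard : Fintype.card b ≤ n := hli.fintype_card_le_finrank.trans hn
  set S : Finset K := ((Polynomial.X ^ q - Polynomial.X : Polynomial K)).roots.toFinset
  have hS : S.card ≤ q :=
    (Multiset.toFinset_card_le _).trans ((Polynomial.card_roots' _).trans
      (by rw [FiniteField.X_pow_card_sub_X_natDegree_eq K hq]))
  have hT0 : ∀ (s : Finset b) (g : b → K),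
      T (∑ i ∈ s, g i • (i : M)) = ∑ i ∈ s, g i ^ q • (i : M) := by
    intro s g
    induction s using Finset.induction with
    | empty =>
      have h := hadd 0 0
      rw [add_zero] at h
      simpa using h
    | insert a s ha ih =>
      rw [Finset.sum_insert ha, Finset.sum_insert ha, hadd, ih, hsmul,
        show T (a : M) = a from hb a.2]
  have hex : ∀ x : {x : M // T x = x}, ∃ g : b → S, (x : M) = ∑ i, (g i : K) • (i : M) := by
    intro x
    have hx : (x : M) ∈ Submodule.span K (Set.range (fun i : b => (i : M))) := by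
      rw [show Set.range (fun i : b => (i : M)) = b from Subtype.range_coe, hspan]
      exact Submodule.subset_span x.2
    obtain ⟨g, hg⟩ := (Submodule.mem_span_range_iff_exists_fun K).mp hx
    have h : ∑ i, (g i ^ q - g i) • (i : M) = 0 := by
      simp only [sub_smul, Finset.sum_sub_distrib, ← hT0, hg, x.2, sub_self]
    have hgi := Fintype.linearIndependent_iff.mp hli _ h
    refine ⟨fun i => ⟨g i, ?_⟩, hg.symm⟩
    rw [Multiset.mem_toFinset, Polynomial.mem_roots (FiniteField.X_pow_card_sub_X_ne_zero K hq)]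
    simpa using hgi i
  choose g hg using hex
  have hinj : Function.Injective g := fun x y h => Subtype.ext (by rw [hg x, hg y, h])
  refine ⟨Finite.of_injective g hinj, (Nat.card_le_card_of_injective g hinj).trans ?_⟩
  rw [Nat.card_fun, Nat.card_eq_fintype_card, Nat.card_eq_fintype_card, Fintype.card_coe]
  exact (Nat.pow_le_pow_left hS _).trans (Nat.pow_le_pow_right (by omega) hcard)

end Artin

section Additive

variable {p : ℕ} [hp : Fact p.Prime] {k : Type*} [Field k] [CharP k p]
  {K : Type*} [Field K] [CharP K p]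

include hp in
/-- A scalar fixed by Frobenius is a natural number. -/
lemma exists_natCast_of_pow_eq {c : k} (h : c ^ p = c) : ∃ a : ℕ, c = (a : k) := by
  classical
  set S : Finset k := Finset.univ.image (ZMod.castHom dvd_rfl k)
  set P : Polynomial k := Polynomial.X ^ p - Polynomial.X with hP
  have hP0 : P ≠ 0 := FiniteField.X_pow_card_sub_X_ne_zero k hp.out.one_lt
  have hsub : S ⊆ P.roots.toFinset := by
    intro x hx
    obtain ⟨a, -, rfl⟩ := Finset.mem_image.mp hx
    rw [Multiset.mem_toFinset, Polynomial.mem_roots hP0, Polynomial.IsRoot.def, hP,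
      Polynomial.eval_sub, Polynomial.eval_pow, Polynomial.eval_X, sub_eq_zero, ← map_pow,
      ZMod.pow_card]
  have hcard : P.roots.toFinset.card ≤ S.card := by
    rw [Finset.card_image_of_injective _ (ZMod.castHom dvd_rfl k).injective, Finset.card_univ,
      ZMod.card]
    exact (Multiset.toFinset_card_le _).trans ((P.card_roots').trans
      (FiniteField.X_pow_card_sub_X_natDegree_eq k hp.out.one_lt).le)
  have hc : c ∈ S := by
    rw [Finset.eq_of_subset_of_card_le hsub hcard, Multiset.mem_toFinset, Polynomial.mem_roots hP0]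
    simp [hP, h]
  obtain ⟨a, -, rfl⟩ := Finset.mem_image.mp hc
  exact ⟨a.val, by rw [← map_natCast (ZMod.castHom dvd_rfl k), ZMod.natCast_zmod_val]⟩

omit hp [CharP K p] [CharP k p] in
/-- An additive map commutes with natural scalars. -/
lemma map_natCast_mul (Λ : k →+ K) (a : ℕ) (z : k) : Λ ((a : k) * z) = (a : K) * Λ z := by
  rw [← nsmul_eq_mul, map_nsmul, nsmul_eq_mul]

include hp in
/-- A possible eigenvalue satisfies the quadratic equation of `v`. -/
theorem quadratic_of_eigen {Λ : k →+ K} (hΛ : Λ ≠ 0) {v : k} {ξ : K}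
    (hv : v ^ p ^ 2 = v) (h : ∀ z, Λ (v * z) = ξ * Λ z) :
    ∃ s t : ℕ, v + v ^ p = (s : k) ∧ v ^ (p + 1) = (t : k) ∧ ξ ^ 2 - (s : K) * ξ + (t : K) = 0 := by
  obtain ⟨s, hs⟩ := exists_natCast_of_pow_eq (p := p) (c := v + v ^ p) (by
    rw [add_pow_char, ← pow_mul, ← pow_two, hv, add_comm])
  obtain ⟨t, ht⟩ := exists_natCast_of_pow_eq (p := p) (c := v ^ (p + 1)) (by
    rw [← pow_mul, show (p + 1) * p = p ^ 2 + p by ring, pow_add, hv, pow_succ]
    ring)
  obtain ⟨z, hz⟩ : ∃ z, Λ z ≠ 0 := by
    by_contra hne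
    push Not at hne
    exact hΛ (AddMonoidHom.ext hne)
  refine ⟨s, t, hs, ht, (mul_left_inj' hz).mp ?_⟩
  rw [zero_mul, ← map_zero Λ, show (0 : k) = v * (v * z) - (s : k) * (v * z) + (t : k) * z by
    rw [← hs, ← ht, pow_succ]; ring, map_add, map_sub, map_natCast_mul, map_natCast_mul, h, h]
  ring

/-- At most one of the powers `ξ^j`, `j ≤ p`, `j ≠ 1`, is a possible eigenvalue. -/
theorem allowed_unique {ξ : K} (hξ : IsPrimitiveRoot ξ (p ^ 2 - 1)) {v : k} {s t : ℕ}
    (hs : v + v ^ p = (s : k)) (ht : v ^ (p + 1) = (t : k)) {i j : ℕ}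
    (hi : i ≤ p) (hi1 : i ≠ 1) (hj : j ≤ p) (hj1 : j ≠ 1)
    (hei : (ξ ^ i) ^ 2 - (s : K) * ξ ^ i + (t : K) = 0)
    (hej : (ξ ^ j) ^ 2 - (s : K) * ξ ^ j + (t : K) = 0) : i = j := by
  have hp2 := hp.out.two_le
  have he : (p ^ 2 - 1) = (p + 1) * (p - 1) := by
    obtain ⟨q, rfl⟩ := Nat.exists_eq_add_of_le hp2
    rw [show 2 + q - 1 = q + 1 by omega, show (2 + q) ^ 2 = (2 + q + 1) * (q + 1) + 1 by ring]
    rfl
  have hle : p + 1 ≤ p ^ 2 - 1 := by rw [he]; exact Nat.le_mul_of_pos_right _ (by omega)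
  -- `ξ^(p l)` is the other root
  have hother : ∀ l, (ξ ^ l) ^ 2 - (s : K) * ξ ^ l + (t : K) = 0 →
      (ξ ^ (p * l)) ^ 2 - (s : K) * ξ ^ (p * l) + (t : K) = 0 := by
    intro l hl
    have h := congrArg (frobenius K p) hl
    rw [map_add, map_sub, map_mul, map_pow, map_natCast, map_natCast, map_zero, frobenius_def] at h
    rw [show ξ ^ (p * l) = (ξ ^ l) ^ p by rw [← pow_mul, mul_comm]]
    linear_combination h
  -- a fixed eigenvalue forces `v = 1`
  have hfix : ∀ l, l ≤ p → (ξ ^ l) ^ 2 - (s : K) * ξ ^ l + (t : K) = 0 → ξ ^ (p * l) = ξ ^ l →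
      l = 0 ∧ v = 1 := by
    intro l hl hel hpl
    have hξ0 : ξ ≠ 0 := hξ.ne_zero (by omega)
    have h1 : ξ ^ ((p - 1) * l) = 1 := mul_right_cancel₀ (pow_ne_zero l hξ0) (by
      rw [one_mul, ← pow_add, ← hpl, Nat.sub_mul, one_mul,
        Nat.sub_add_cancel (Nat.le_mul_of_pos_left l hp.out.pos)])
    have h2 := (hξ.pow_eq_one_iff_dvd _).mp h1
    rw [he, mul_comm (p + 1)] at h2
    have hl0 : l = 0 := Nat.eq_zero_of_dvd_of_lt
      (Nat.dvd_of_mul_dvd_mul_left (by omega) h2) (by omega)
    subst hl0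
    refine ⟨rfl, ?_⟩
    rw [pow_zero, one_pow, mul_one] at hel
    -- the equation descends to `k`
    have hk : ((1 : k) - (s : k) + (t : k)) = 0 := by
      have h3 : ((1 + t : ℕ) : K) = (s : K) := by push_cast; linear_combination hel
      rw [CharP.natCast_eq_natCast K p, ← CharP.natCast_eq_natCast k p] at h3
      push_cast at h3
      linear_combination h3
    have h4 : (1 - v) * (1 - v ^ p) = 0 := by
      rw [← hs, ← ht, pow_succ] at hk
      linear_combination hk
    rcases mul_eq_zero.mp h4 with h | h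
    · exact (sub_eq_zero.mp h).symm
    · have h5 : frobenius k p v = frobenius k p 1 := by
        rw [frobenius_def, frobenius_def, one_pow]; exact (sub_eq_zero.mp h).symm
      exact frobenius_inj k p h5
  have hroots : ∀ a b c : K, a ^ 2 - (s : K) * a + t = 0 → b ^ 2 - (s : K) * b + t = 0 →
      c ^ 2 - (s : K) * c + t = 0 → a ≠ b → c = a ∨ c = b := by
    intro a b c ha hb hc hab
    have hsum : a + b = (s : K) := by
      refine mul_left_cancel₀ (sub_ne_zero.mpr hab) ?_
      linear_combination ha - hb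
    have : (c - a) * (c - b) = 0 := by linear_combination hc + (a - c) * hsum - ha
    rcases mul_eq_zero.mp this with h | h
    · exact Or.inl (sub_eq_zero.mp h)
    · exact Or.inr (sub_eq_zero.mp h)
  by_cases hfi : ξ ^ (p * i) = ξ ^ i
  · obtain ⟨rfl, hv⟩ := hfix i hi hei hfi
    have hone : ξ ^ j = 1 := by
      have hs' : (s : K) = 2 := by
        have : ((s : ℕ) : k) = ((2 : ℕ) : k) := by rw [← hs, hv]; norm_num
        rw [CharP.natCast_eq_natCast k p, ← CharP.natCast_eq_natCast K p] at this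
        exact_mod_cast this
      have ht' : (t : K) = 1 := by
        have : ((t : ℕ) : k) = ((1 : ℕ) : k) := by rw [← ht, hv]; norm_num
        rw [CharP.natCast_eq_natCast k p, ← CharP.natCast_eq_natCast K p] at this
        exact_mod_cast this
      rw [hs', ht'] at hej
      exact sub_eq_zero.mp (sq_eq_zero_iff.mp (by linear_combination hej))
    have := hξ.pow_inj (i := 0) (j := j) (by omega) (by omega) (by rw [pow_zero, hone])
    exact this
  · rcases hroots _ _ _ hei (hother i hei) hej (Ne.symm hfi) with h | h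
    · exact (hξ.pow_inj (by omega) (by omega) h).symm
    · -- `j ≡ p i`
      exfalso
      by_cases hip : i = p
      · subst hip
        have hpp : ξ ^ (i * i) = ξ ^ 1 := by
          rw [← pow_two, ← Nat.sub_add_cancel (Nat.one_le_pow 2 i hp.out.pos), pow_succ,
            hξ.pow_eq_one, one_mul, pow_one]
        rw [hpp] at h
        exact hj1 (hξ.pow_inj (by omega) (by omega) h)
      have hi0 : i ≠ 0 := fun h0 => hfi (by simp [h0])
      have hlt : p * i < p ^ 2 - 1 := by
        have h1 : p * (i + 1) ≤ p * p := Nat.mul_le_mul_left p (by omega)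
        rw [mul_add, mul_one] at h1
        rw [pow_two]
        omega
      have := hξ.pow_inj (by omega) hlt h
      have h2 : p * 2 ≤ p * i := Nat.mul_le_mul_left p (by omega)
      omega

include hp in
/-- Additive maps with an eigen and a semilinear symmetry. -/
theorem card_symm_le [Finite k] {q : ℕ} (hq : 1 < q) (F : Subfield k) (hFc : Nat.card F = q)
    {v : k} {ξ : K} (hFv : ∀ c ∈ F, ∃ a b : ℕ, c = (a : k) + (b : k) * v)
    {w : k} (hw : w ≠ 0) {C : K} (hexp : ∃ n, q = p ^ n) :
    Finite {Λ : k →+ K // (∀ z, Λ (v * z) = ξ * Λ z) ∧ ∀ z, Λ (w * z) = C * Λ z ^ q} ∧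
    Nat.card {Λ : k →+ K // (∀ z, Λ (v * z) = ξ * Λ z) ∧ ∀ z, Λ (w * z) = C * Λ z ^ q} ≤
      Nat.card k := by
  classical
  obtain ⟨N, rfl⟩ := hexp
  let W : Submodule K (k → K) :=
    { carrier := {f | (∀ a b, f (a + b) = f a + f b) ∧ ∀ z, f (v * z) = ξ * f z}
      add_mem' := fun {f g} hf hg => ⟨fun a b => by simp [hf.1 a b, hg.1 a b]; ring,
        fun z => by simp [hf.2 z, hg.2 z, mul_add]⟩
      zero_mem' := ⟨fun a b => by simp, fun z => by simp⟩
      smul_mem' := fun c f hf => ⟨fun a b => by simp [hf.1 a b, mul_add],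
        fun z => by simp [hf.2 z]; ring⟩ }
  have := Fintype.ofFinite k
  have : Finite F := Finite.of_injective _ Subtype.val_injective
  have : FiniteDimensional K W := inferInstance
  let B := Module.finBasis F k
  have hdim : Module.finrank K W ≤ Module.finrank F k := by
    let ev : W →ₗ[K] (Fin (Module.finrank F k) → K) :=
      { toFun := fun f i => f.1 (B i), map_add' := fun _ _ => rfl, map_smul' := fun _ _ => rfl }
    refine (LinearMap.finrank_le_finrank_of_injective (f := ev) ?_).trans_eq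
      (Module.finrank_fin_fun K)
    intro f g hfg
    refine Subtype.ext (funext fun z => ?_)
    let df : k →+ K := AddMonoidHom.mk' f.1 f.2.1
    let dg : k →+ K := AddMonoidHom.mk' g.1 g.2.1
    show df z = dg z
    rw [← B.sum_repr z, map_sum, map_sum]
    refine Finset.sum_congr rfl fun i _ => ?_
    obtain ⟨a, b, hab⟩ := hFv _ (B.repr z i).2
    rw [show (B.repr z i • B i : k) = ((B.repr z i : F) : k) * B i from rfl, hab, add_mul,
      map_add, map_add, mul_assoc, map_natCast_mul, map_natCast_mul, map_natCast_mul,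
      map_natCast_mul]
    have h1 : df (B i) = dg (B i) := congrFun hfg i
    have h2 : df (v * B i) = dg (v * B i) := by
      show f.1 (v * B i) = g.1 (v * B i)
      rw [f.2.2, g.2.2]; exact congrArg (ξ * ·) h1
    rw [h1, h2]
  by_cases hΛ : ∀ Λ : {Λ : k →+ K // (∀ z, Λ (v * z) = ξ * Λ z) ∧
      ∀ z, Λ (w * z) = C * Λ z ^ (p ^ N)}, Λ.1 = 0
  · have : Subsingleton {Λ : k →+ K // (∀ z, Λ (v * z) = ξ * Λ z) ∧
      ∀ z, Λ (w * z) = C * Λ z ^ (p ^ N)} := ⟨fun a b => Subtype.ext ((hΛ a).trans (hΛ b).symm)⟩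
    exact ⟨inferInstance, (Finite.card_le_one_iff_subsingleton.mpr this).trans Nat.card_pos⟩
  push Not at hΛ
  obtain ⟨⟨Λ₀, hv₀, hw₀⟩, hne⟩ := hΛ
  obtain ⟨z₀, hz₀⟩ : ∃ z, Λ₀ z ≠ 0 := by
    by_contra h
    push Not at h
    exact hne (AddMonoidHom.ext h)
  have hfrob : ∀ a b : K, (a + b) ^ p ^ N = a ^ p ^ N + b ^ p ^ N := fun a b => add_pow_char_pow ..
  -- the twisted eigenvalue agrees
  have hξ : ξ ^ p ^ N = ξ := by
    have h := hw₀ (v * z₀)
    rw [mul_left_comm, hv₀, hw₀, hv₀, mul_pow] at h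
    have hC : C ≠ 0 := fun hC => hz₀ (by
      have := hw₀ (w⁻¹ * z₀)
      rwa [mul_inv_cancel_left₀ hw, hC, zero_mul] at this)
    refine (mul_left_cancel₀ (mul_ne_zero hC (pow_ne_zero (p ^ N) hz₀)) ?_).symm
    linear_combination h
  let T : W → W := fun f => ⟨fun z => C * f.1 (w⁻¹ * z) ^ p ^ N,
    fun a b => by
      show C * f.1 (w⁻¹ * (a + b)) ^ p ^ N = C * f.1 (w⁻¹ * a) ^ p ^ N + C * f.1 (w⁻¹ * b) ^ p ^ N
      rw [mul_add, f.2.1, hfrob, mul_add],
    fun z => by
      show C * f.1 (w⁻¹ * (v * z)) ^ p ^ N = ξ * (C * f.1 (w⁻¹ * z) ^ p ^ N)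
      rw [mul_left_comm w⁻¹, f.2.2, mul_pow, hξ]; ring⟩
  obtain ⟨hfin, hle⟩ := card_fixed_le (K := K) hq hdim T
    (fun f g => Subtype.ext (funext fun z => by
      show C * (f.1 _ + g.1 _) ^ p ^ N = C * f.1 _ ^ p ^ N + C * g.1 _ ^ p ^ N
      rw [hfrob, mul_add]))
    (fun c f => Subtype.ext (funext fun z => by
      show C * (c * f.1 _) ^ p ^ N = c ^ p ^ N * (C * f.1 _ ^ p ^ N)
      rw [mul_pow]; ring))
  let emb : {Λ : k →+ K // (∀ z, Λ (v * z) = ξ * Λ z) ∧ ∀ z, Λ (w * z) = C * Λ z ^ p ^ N} →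
      {f : W // T f = f} := fun Λ => ⟨⟨Λ.1, map_add Λ.1, Λ.2.1⟩, Subtype.ext (funext fun z => by
    show C * Λ.1 (w⁻¹ * z) ^ p ^ N = Λ.1 z
    rw [← Λ.2.2, mul_inv_cancel_left₀ hw])⟩
  have hinj : Function.Injective emb := fun a b h => Subtype.ext (AddMonoidHom.ext fun z =>
    congrFun (congrArg (fun f : {f : W // T f = f} => (f.1 : k → K)) h) z)
  refine ⟨Finite.of_injective emb hinj, ?_⟩
  have hk : Nat.card k = (p ^ N) ^ Module.finrank F k := by
    rw [← hFc, Module.natCard_eq_pow_finrank (K := F)]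
  rw [hk]
  exact (Nat.card_le_card_of_injective emb hinj).trans hle

end Additive

end FLTAgent.TW.Flat
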