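import Fermat.Agent.TW.Flat.TameBase
import Fermat.Agent.TW.Flat.Semilinear
import Mathlib.RingTheory.Trace.Basic

/-!
# Counting equivariant homomorphisms of level at least `e`

For `K = K₀((-p)^(1/e))`, `e = p² - 1`: the homomorphisms `Gal(ℚ̄/K) → k` whose Kummer classes are
at level `≥ e`, equivariant for a generator of tame inertia and a Frobenius element, form at most a
line, which is zero unless the eigenvalue is the one allowed.
-/

set_option autoImplicit false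

open scoped Pointwise

noncomputable section

namespace FLTAgent.TW.Flat

variable {p : ℕ} [hp : Fact p.Prime] {k : Type} [Field k] [CharP k p]

/-- `ζ ^ Tr (z a)`. -/
def kpair (p : ℕ) [Fact p.Prime] [CharP k p] (ζ : QB) (z a : k) : QB :=
  letI := ZMod.algebra k p
  ζ ^ (Algebra.trace (ZMod p) k (z * a)).val

variable {ζ : QB} (hζ : IsPrimitiveRoot ζ p)

include hζ

lemma kpair_pow_p (z a : k) : kpair p ζ z a ^ p = 1 := by
  rw [kpair, ← pow_mul, mul_comm, pow_mul, hζ.pow_eq_one, one_pow]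

lemma kpair_zero (z : k) : kpair p ζ z 0 = 1 := by simp [kpair]

lemma kpair_add (z a b : k) : kpair p ζ z (a + b) = kpair p ζ z a * kpair p ζ z b := by
  rw [kpair, kpair, kpair, mul_add, map_add, ZMod.val_add, ← pow_add, ← pow_eq_pow_mod _ hζ.pow_eq_one]

lemma kpair_add' (z z' a : k) : kpair p ζ (z + z') a = kpair p ζ z a * kpair p ζ z' a := by
  rw [kpair, kpair, kpair, add_mul, map_add, ZMod.val_add, ← pow_add, ← pow_eq_pow_mod _ hζ.pow_eq_one]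

omit hζ in
lemma kpair_smul (z c a : k) : kpair p ζ z (c * a) = kpair p ζ (z * c) a := by
  rw [kpair, kpair, mul_assoc]

lemma kpair_natCast_mul (n : ℕ) (z a : k) : kpair p ζ ((n : k) * z) a = kpair p ζ z a ^ n := by
  induction n with
  | zero => simp [kpair]
  | succ n ih => rw [Nat.cast_succ, add_mul, one_mul, kpair_add' hζ, ih, pow_succ]

lemma kpair_neg' (z a : k) : kpair p ζ (-z) a = (kpair p ζ z a)⁻¹ := by
  refine eq_inv_of_mul_eq_one_left ?_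
  rw [← kpair_add' hζ, neg_add_cancel]
  simp [kpair]

lemma eq_zero_of_kpair [Finite k] {a : k} (h : ∀ z, kpair p ζ z a = 1) : a = 0 := by
  let := ZMod.algebra k p
  have : Module.Finite (ZMod p) k := Module.Finite.of_finite
  by_contra ha
  refine ha ((traceForm_nondegenerate (ZMod p) k).1 a fun z => ?_)
  rw [Algebra.traceForm_apply, mul_comm]
  have h1 := h z
  rw [kpair] at h1
  have hd := hζ.dvd_of_pow_eq_one _ h1
  exact (ZMod.val_eq_zero _).mp (Nat.eq_zero_of_dvd_of_lt hd (ZMod.val_lt _))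

variable {𝔓 : LocalPlace p} {e m : ℕ} (T : TR 𝔓 e)

omit hζ

/-- A resolvent of `z ↦ Tr (z φ)`. -/
def IsRes (ζ : QB) (φ : T.K.fixingSubgroup → k) (z : k) (y : QB) : Prop :=
  y ≠ 0 ∧ y ^ p ∈ T.K ∧ ∀ σ : T.K.fixingSubgroup, (σ : GQ) y = kpair p ζ z (φ σ) * y

/-- A continuous homomorphism to `k`. -/
def IsKHom (φ : T.K.fixingSubgroup → k) : Prop :=
  (∀ σ τ, φ (σ * τ) = φ σ + φ τ) ∧
    ∃ L : IntermediateField ℚ QB, FiniteDimensional ℚ L ∧
      ∀ σ : T.K.fixingSubgroup, (∀ x ∈ L, (σ : GQ) x = x) → φ σ = 0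

/-- All the Kummer classes of `φ` are at level `≥ i`. -/
def InLevel (ζ : QB) (i : ℕ) (φ : T.K.fixingSubgroup → k) : Prop :=
  ∀ z y, IsRes T ζ φ z y → T.InU i (y ^ p)

/-- `r` is the coefficient at level `i` of a class. -/
def IsLead (ζ : QB) (i : ℕ) (φ : T.K.fixingSubgroup → k) (z : k) (r : 𝔓.RF) : Prop :=
  ∃ y w, IsRes T ζ φ z y ∧ w ∈ T.K ∧ w ≠ 0 ∧ 𝔓.nm (y ^ p / w ^ p - 1) ≤ T.ρ ^ i ∧
    r = 𝔓.red ((y ^ p / w ^ p - 1) / T.π ^ i)

omit [CharP k p] in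
lemma IsKHom.map_one {φ : T.K.fixingSubgroup → k} (h : IsKHom T φ) : φ 1 = 0 := by
  have := h.1 1 1
  rwa [one_mul, left_eq_add] at this

omit [CharP k p] in
lemma IsKHom.add {φ ψ : T.K.fixingSubgroup → k} (h : IsKHom T φ) (h' : IsKHom T ψ) :
    IsKHom T (φ + ψ) := by
  obtain ⟨hadd, L, hL, hlev⟩ := h
  obtain ⟨hadd', L', hL', hlev'⟩ := h'
  refine ⟨fun σ τ => by simp [hadd, hadd']; ring, L ⊔ L',
    IntermediateField.finiteDimensional_sup L L', fun σ hσ => ?_⟩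
  rw [Pi.add_apply, hlev σ fun x hx => hσ x (le_sup_left (b := L') hx),
    hlev' σ fun x hx => hσ x (le_sup_right (a := L) hx), add_zero]

omit [CharP k p] in
lemma InU_mul {i : ℕ} {x x' : QB} (h : T.InU i x) (h' : T.InU i x') : T.InU i (x * x') := by
  obtain ⟨w, hw, hw0, h⟩ := h
  obtain ⟨w', hw', hw0', h'⟩ := h'
  refine ⟨w * w', T.K.mul_mem hw hw', mul_ne_zero hw0 hw0', ?_⟩
  rw [show x * x' / (w * w') ^ p - 1 = (x / w ^ p - 1) * (x' / w' ^ p - 1) +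
    ((x / w ^ p - 1) + (x' / w' ^ p - 1)) by rw [mul_pow, mul_div_mul_comm]; ring]
  refine (𝔓.ultra _ _).trans (max_le ?_ ((𝔓.ultra _ _).trans (max_le h h')))
  rw [map_mul]
  exact (mul_le_of_le_one_right (𝔓.nm_nonneg _)
    (h'.trans (pow_le_one₀ T.rho_pos.le T.rho_lt_one.le))).trans h

omit [CharP k p] in
lemma InU_pow {i : ℕ} {u : QB} (hu : u ∈ T.K) (hu0 : u ≠ 0) : T.InU i (u ^ p) :=
  ⟨u, hu, hu0, by
    rw [div_self (pow_ne_zero p hu0), sub_self, map_zero]; exact (pow_pos T.rho_pos i).le⟩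

variable (hm : e = m * (p - 1))

include hm hζ

lemma exists_res {φ : T.K.fixingSubgroup → k} (hφ : IsKHom T φ) (z : k) :
    ∃ y, IsRes T ζ φ z y := by
  obtain ⟨L, hL, hlev⟩ := hφ.2
  let ψ : T.K.fixingSubgroup →* QB :=
    { toFun := fun σ => kpair p ζ z (φ σ)
      map_one' := by rw [hφ.map_one T, kpair_zero hζ]
      map_mul' := fun σ τ => by rw [hφ.1, kpair_add hζ] }
  obtain ⟨y, hy0, hy, hσ⟩ := T.exists_resolvent hm hζ (ψ := ψ)
    ⟨L, hL, fun σ hσ => by show kpair p ζ z (φ σ) = 1; rw [hlev σ hσ, kpair_zero hζ]⟩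
    (fun σ => kpair_pow_p hζ z _)
  exact ⟨y, hy0, hy, hσ⟩

omit hm in
lemma res_div_mem {φ : T.K.fixingSubgroup → k} {z : k} {y y' : QB} (h : IsRes T ζ φ z y)
    (h' : IsRes T ζ φ z y') : y' / y ∈ T.K := T.mem_of_fixed fun σ hσ => by
  have hk : kpair p ζ z (φ ⟨σ, hσ⟩) ≠ 0 := fun h0 => by
    have := kpair_pow_p hζ z (φ ⟨σ, hσ⟩)
    simp [h0, hp.out.ne_zero] at this
  rw [map_div₀, h.2.2 ⟨σ, hσ⟩, h'.2.2 ⟨σ, hσ⟩, mul_div_mul_left _ _ hk]

omit hm in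
lemma inU_of_res {φ : T.K.fixingSubgroup → k} {i : ℕ} {z : k} {y y' : QB} (h : IsRes T ζ φ z y)
    (hU : T.InU i (y ^ p)) (h' : IsRes T ζ φ z y') : T.InU i (y' ^ p) := by
  have hu := res_div_mem hζ T h h'
  have hu0 : y' / y ≠ 0 := div_ne_zero h'.1 h.1
  rw [show y' ^ p = y ^ p * (y' / y) ^ p by rw [← mul_pow, mul_div_cancel₀ _ h.1]]
  exact InU_mul T hU (InU_pow T hu hu0)

omit hm in
lemma IsRes.mul {φ φ' ψ : T.K.fixingSubgroup → k} {z z' w : k} {y y' : QB} (h : IsRes T ζ φ z y)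
    (h' : IsRes T ζ φ' z' y')
    (hψ : ∀ σ, kpair p ζ w (ψ σ) = kpair p ζ z (φ σ) * kpair p ζ z' (φ' σ)) :
    IsRes T ζ ψ w (y * y') :=
  ⟨mul_ne_zero h.1 h'.1, by rw [mul_pow]; exact T.K.mul_mem h.2.1 h'.2.1, fun σ => by
    rw [map_mul, h.2.2, h'.2.2, hψ]; ring⟩

/-- The homomorphisms with classes at level `≥ i`. -/
def levelHom (i : ℕ) : Submodule k (T.K.fixingSubgroup → k) where
  carrier := {φ | IsKHom T φ ∧ InLevel T ζ i φ}
  add_mem' := by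
    rintro φ φ' ⟨h1, h2⟩ ⟨h1', h2'⟩
    refine ⟨h1.add T h1', fun z y hy => ?_⟩
    obtain ⟨y₁, hy₁⟩ := exists_res hζ T hm h1 z
    obtain ⟨y₂, hy₂⟩ := exists_res hζ T hm h1' z
    refine inU_of_res hζ T (IsRes.mul hζ T hy₁ hy₂ fun σ => ?_) ?_ hy
    · rw [Pi.add_apply, kpair_add hζ]
    · rw [mul_pow]; exact InU_mul T (h2 z y₁ hy₁) (h2' z y₂ hy₂)
  zero_mem' := by
    refine ⟨⟨fun _ _ => by simp, ⊥, inferInstance, fun _ _ => rfl⟩, fun z y hy => ?_⟩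
    refine inU_of_res hζ T (y := 1) ⟨one_ne_zero, by rw [one_pow]; exact one_mem _, fun σ => by
      rw [Pi.zero_apply, kpair_zero hζ, map_one, one_mul]⟩ ?_ hy
    exact InU_pow T (one_mem _) one_ne_zero
  smul_mem' := by
    rintro c φ ⟨⟨hadd, L, hL, hlev⟩, h2⟩
    refine ⟨⟨fun σ τ => by simp [hadd]; ring, L, hL, fun σ hσ => by simp [hlev σ hσ]⟩,
      fun z y hy => h2 (z * c) y ⟨hy.1, hy.2.1, fun σ => ?_⟩⟩
    rw [hy.2.2 σ, Pi.smul_apply, smul_eq_mul, kpair_smul]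

lemma mem_levelHom {i : ℕ} {φ : T.K.fixingSubgroup → k} :
    φ ∈ levelHom hζ T hm i ↔ IsKHom T φ ∧ InLevel T ζ i φ := Iff.rfl

omit hm in
lemma lead_exists {i : ℕ} {φ : T.K.fixingSubgroup → k} (h : InLevel T ζ i φ) {z : k} {y : QB}
    (hy : IsRes T ζ φ z y) : ∃ r, IsLead T ζ i φ z r := by
  obtain ⟨w, hw, hw0, hle⟩ := h z y hy
  exact ⟨_, y, w, hy, hw, hw0, hle, rfl⟩

omit hζ hm in
lemma nm_div_pi {x : QB} {i : ℕ} (h : 𝔓.nm x ≤ T.ρ ^ i) : 𝔓.nm (x / T.π ^ i) ≤ 1 := by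
  rw [map_div₀, map_pow]; exact div_le_one_of_le₀ h (pow_nonneg (𝔓.nm_nonneg _) _)

variable {i : ℕ} (hi : i < m * p) (hpi : ¬ p ∣ i)

include hi hpi

lemma lead_unique {φ : T.K.fixingSubgroup → k} {z : k} {r r' : 𝔓.RF}
    (h : IsLead T ζ i φ z r) (h' : IsLead T ζ i φ z r') : r = r' := by
  obtain ⟨y, w, hy, hw, hw0, hle, rfl⟩ := h
  obtain ⟨y', w', hy', hw', hw0', hle', rfl⟩ := h'
  have hi0 : 0 < i := Nat.pos_of_ne_zero fun h => hpi (h ▸ dvd_zero p)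
  set x := y ^ p / w ^ p with hx
  set x' := y' ^ p / w' ^ p with hx'
  set q := y' / y * w / w' with hq
  have hqK : q ∈ T.K := T.K.div_mem (T.K.mul_mem (res_div_mem hζ T hy hy') hw) hw'
  have hyp := pow_ne_zero p hy.1
  have hxq : x' = x * q ^ p := by
    rw [hx, hx', hq, div_pow, mul_pow, div_pow]
    field_simp
  have hρ1 : T.ρ ^ i < 1 := pow_lt_one₀ T.rho_pos.le T.rho_lt_one hi0.ne'
  have hx1 : 𝔓.nm x = 1 := by
    rw [𝔓.nm_eq_of_sub_lt (y := 1) (by rw [AbsoluteValue.map_one]; exact hle.trans_lt hρ1),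
      AbsoluteValue.map_one]
  have hqle : 𝔓.nm (q ^ p - 1) ≤ T.ρ ^ i := by
    have : q ^ p - 1 = ((x' - 1) - (x - 1)) / x := by
      have hx0 : x ≠ 0 := fun h0 => by simp [h0] at hx1
      rw [hxq]; field_simp; ring
    rw [this, map_div₀, hx1, div_one]
    exact (𝔓.nm_sub_le _ _).trans (max_le hle' hle)
  have hqlt := lt_of_le_of_ne hqle (T.nm_sub_one_ne hm hζ hqK hi hpi)
  refine (𝔓.red_eq_iff (nm_div_pi T hle) (nm_div_pi T hle')).mpr ?_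
  rw [← sub_div, show (x - 1) - (x' - 1) = -(x * (q ^ p - 1)) by rw [hxq]; ring, map_div₀,
    AbsoluteValue.map_neg, map_mul, hx1, one_mul, map_pow,
    div_lt_one (pow_pos (show 0 < 𝔓.nm T.π from T.rho_pos) _)]
  exact hqlt

omit hm hi in
lemma lead_add {φ φ' ψ : T.K.fixingSubgroup → k} {z z' w : k} {r r' : 𝔓.RF}
    (h : IsLead T ζ i φ z r) (h' : IsLead T ζ i φ' z' r')
    (hψ : ∀ σ, kpair p ζ w (ψ σ) = kpair p ζ z (φ σ) * kpair p ζ z' (φ' σ)) :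
    IsLead T ζ i ψ w (r + r') := by
  obtain ⟨y, u, hy, hu, hu0, hle, rfl⟩ := h
  obtain ⟨y', u', hy', hu', hu0', hle', rfl⟩ := h'
  have hi0 : 0 < i := Nat.pos_of_ne_zero fun h => hpi (h ▸ dvd_zero p)
  set A := y ^ p / u ^ p - 1 with hA
  set B := y' ^ p / u' ^ p - 1 with hB
  have he : (y * y') ^ p / (u * u') ^ p - 1 = A * B + (A + B) := by
    rw [mul_pow, mul_pow, mul_div_mul_comm, hA, hB]; ring
  have hAB : 𝔓.nm (A * B) < T.ρ ^ i := by
    rw [map_mul]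
    calc 𝔓.nm A * 𝔓.nm B ≤ T.ρ ^ i * T.ρ ^ i :=
          mul_le_mul hle hle' (𝔓.nm_nonneg _) (pow_nonneg T.rho_pos.le _)
      _ < T.ρ ^ i := mul_lt_of_lt_one_left (pow_pos T.rho_pos _)
          (pow_lt_one₀ T.rho_pos.le T.rho_lt_one hi0.ne')
  have hsum : 𝔓.nm (A + B) ≤ T.ρ ^ i := (𝔓.ultra _ _).trans (max_le hle hle')
  have hall : 𝔓.nm (A * B + (A + B)) ≤ T.ρ ^ i := (𝔓.ultra _ _).trans (max_le hAB.le hsum)
  refine ⟨y * y', u * u', IsRes.mul hζ T hy hy' hψ, T.K.mul_mem hu hu', mul_ne_zero hu0 hu0',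
    by rw [he]; exact hall, ?_⟩
  rw [he, add_div, 𝔓.red_add (nm_div_pi T hAB.le) (nm_div_pi T hsum),
    (𝔓.red_eq_zero_iff (nm_div_pi T hAB.le)).mpr (by
      rw [map_div₀, map_pow, div_lt_one (pow_pos (show 0 < 𝔓.nm T.π from T.rho_pos) _)]; exact hAB),
    zero_add, add_div, 𝔓.red_add (nm_div_pi T hle) (nm_div_pi T hle')]

omit hi hpi hm in
/-- The lead coefficient under conjugation. -/
lemma lead_conj {g : GQ} {q a : ℕ} {c : k} (hq : 𝔓.IsFrob q g) (ha : g ζ = ζ ^ a)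
    (hgK : ∀ x ∈ T.K, g x ∈ T.K) (hg' : ∀ σ ∈ T.K.fixingSubgroup, g⁻¹ * σ * g ∈ T.K.fixingSubgroup)
    (hθ : 𝔓.nm (T.theta g) = 1) (hc : c ≠ 0) {φ : T.K.fixingSubgroup → k}
    (hφ : ∀ σ σ' : T.K.fixingSubgroup, (σ' : GQ) = g * σ * g⁻¹ → φ σ' = c * φ σ)
    {z : k} {r : 𝔓.RF} (h : IsLead T ζ i φ z r) :
    IsLead T ζ i φ ((a : k) * c⁻¹ * z) (𝔓.red (T.theta g) ^ i * r ^ q) := by
  obtain ⟨y, w, ⟨hy0, hyK, hy⟩, hw, hw0, hle, rfl⟩ := h
  have hD := hq.1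
  set x := (y ^ p / w ^ p - 1) / T.π ^ i with hx
  have hx1 : 𝔓.nm x ≤ 1 := nm_div_pi T hle
  have hres : IsRes T ζ φ ((a : k) * c⁻¹ * z) (g y) := by
    refine ⟨(map_ne_zero g).mpr hy0, by rw [← map_pow]; exact hgK _ hyK, fun σ => ?_⟩
    set σ' : T.K.fixingSubgroup := ⟨g⁻¹ * σ * g, hg' σ σ.2⟩
    have hσ : φ σ = c * φ σ' := hφ σ' σ (by
      show (σ : GQ) = g * (g⁻¹ * σ * g) * g⁻¹
      group)
    have h1 := congrArg g (hy σ')
    rw [show g ((σ' : GQ) y) = (σ : GQ) (g y) by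
      show g ((g⁻¹ * σ * g) y) = _
      rw [AlgEquiv.mul_apply, AlgEquiv.mul_apply, gq_apply_inv], map_mul,
      show g (kpair p ζ z (φ σ')) = kpair p ζ z (φ σ') ^ a by
        rw [kpair, map_pow, ha, ← pow_mul, ← pow_mul, mul_comm]] at h1
    rw [h1, hσ, kpair_smul,
      show (a : k) * c⁻¹ * z * c = (a : k) * z by field_simp, kpair_natCast_mul hζ]
  have hkey : ((g y) ^ p / (g w) ^ p - 1) / T.π ^ i = g x * T.theta g ^ i := by
    have hθ0 : T.theta g ≠ 0 := fun h => by simp [h] at hθ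
    have hπ0 := T.pi_ne_zero
    rw [hx, map_div₀, map_sub, map_div₀, map_pow, map_pow, map_one, map_pow, T.apply_pi, mul_pow]
    field_simp
  refine ⟨g y, g w, hres, hgK w hw, (map_ne_zero g).mpr hw0, ?_, ?_⟩
  · rw [show (g y) ^ p / (g w) ^ p - 1 = g (y ^ p / w ^ p - 1) by
      rw [map_sub, map_div₀, map_pow, map_pow, map_one], 𝔓.nm_apply hD]
    exact hle
  · rw [hkey, 𝔓.red_mul (by rw [𝔓.nm_apply hD]; exact hx1) (by rw [map_pow, hθ, one_pow]),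
      𝔓.red_apply_of_isFrob hq hx1, 𝔓.red_pow hθ.le, mul_comm]

omit hi hpi

/-- Level `m p` is trivial. -/
lemma eq_zero_of_top [Finite k] {φ : T.K.fixingSubgroup → k}
    (h : φ ∈ levelHom hζ T hm (m * p)) : φ = 0 := by
  obtain ⟨h1, h2⟩ := h
  funext σ
  refine eq_zero_of_kpair hζ fun z => ?_
  obtain ⟨y, hy⟩ := exists_res hζ T hm h1 z
  obtain ⟨w, hw, hw0, hle⟩ := h2 z y hy
  rw [← div_pow] at hle
  have hyw := T.mem_of_pow_near hm hζ
    (by rw [div_pow]; exact T.K.div_mem hy.2.1 (pow_mem hw p)) hle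
  have hyK : y ∈ T.K := by
    rw [← div_mul_cancel₀ y hw0]; exact T.K.mul_mem hyw hw
  have := hy.2.2 σ
  rw [(IntermediateField.mem_fixingSubgroup_iff _ _).mp σ.2 y hyK] at this
  exact mul_right_cancel₀ hy.1 (this.symm.trans (one_mul y).symm)

/-- Levels divisible by `p`. -/
lemma level_step_dvd {φ : T.K.fixingSubgroup → k} {j : ℕ} (hj0 : 0 < j) (hj : j < m)
    (h : φ ∈ levelHom hζ T hm (p * j)) : φ ∈ levelHom hζ T hm (p * j + 1) :=
  ⟨h.1, fun z y hy => T.inU_step hm hy.2.1 hj0 hj (h.2 z y hy)⟩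

lemma level_step {φ : T.K.fixingSubgroup → k} (h : φ ∈ levelHom hζ T hm i)
    (hzero : ∀ z r, IsLead T ζ i φ z r → r = 0) : φ ∈ levelHom hζ T hm (i + 1) := by
  refine ⟨h.1, fun z y hy => ?_⟩
  obtain ⟨w, hw, hw0, hle⟩ := h.2 z y hy
  have hr := hzero z _ ⟨y, w, hy, hw, hw0, hle, rfl⟩
  rw [𝔓.red_eq_zero_iff (nm_div_pi T hle), map_div₀, map_pow,
    div_lt_one (pow_pos (show 0 < 𝔓.nm T.π from T.rho_pos) _)] at hr
  exact ⟨w, hw, hw0, T.le_succ_of_lt_nat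
    (T.K.sub_mem (T.K.div_mem hy.2.1 (pow_mem hw p)) (one_mem _)) hr⟩

/-- The coefficients as an additive map. -/
theorem exists_leadHom (hi : i < m * p) (hpi : ¬ p ∣ i) {φ : T.K.fixingSubgroup → k}
    (h : φ ∈ levelHom hζ T hm i) : ∃ Λ : k →+ 𝔓.RF, ∀ z r, IsLead T ζ i φ z r ↔ r = Λ z := by
  have hex : ∀ z, ∃ r, IsLead T ζ i φ z r := fun z => by
    obtain ⟨y, hy⟩ := exists_res hζ T hm h.1 z
    exact lead_exists hζ T h.2 hy
  choose L hL using hex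
  refine ⟨AddMonoidHom.mk' L fun z z' => lead_unique hζ T hm hi hpi (hL _)
    (lead_add hζ T hpi (hL z) (hL z') fun σ => kpair_add' hζ _ _ _), fun z r => ?_⟩
  exact ⟨fun hr => lead_unique hζ T hm hi hpi hr (hL z), fun hr => hr ▸ hL z⟩

section Eigen

variable (hπ : T.π ^ e = -(p : QB)) (he : e = p ^ 2 - 1) {γ : GQ} (hγ : γ ∈ 𝔓.I)
  (hprim : IsPrimitiveRoot (T.theta γ) e) {aγ : ℕ} (haγ : γ ζ = ζ ^ aγ)

omit hζ hm

include hπ he in
lemma m_eq (hm : e = m * (p - 1)) : m = p + 1 := by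
  have := hp.out.two_le
  refine Nat.eq_of_mul_eq_mul_right (show 0 < p - 1 by omega) ?_
  rw [← hm, he]
  obtain ⟨q, rfl⟩ := Nat.exists_eq_add_of_le this
  rw [show 2 + q - 1 = q + 1 by omega, show (2 + q) ^ 2 = (2 + q + 1) * (q + 1) + 1 by ring]
  rfl

include hπ he hprim in
lemma red_theta_prim : IsPrimitiveRoot (𝔓.red (T.theta γ)) (p ^ 2 - 1) := by
  subst he
  have h1 := 𝔓.nm_eq_one_of_pow_eq_one T.pos.ne' (T.theta_pow hπ γ)
  refine ⟨by rw [← 𝔓.red_pow h1.le, T.theta_pow hπ γ, 𝔓.red_one], fun l hl => hprim.dvd_of_pow_eq_one l ?_⟩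
  rw [← 𝔓.red_pow h1.le, ← 𝔓.red_one, 𝔓.red_eq_iff (by rw [map_pow, h1, one_pow]) (by simp)] at hl
  exact 𝔓.eq_one_of_pow_eq_one (TR.not_dvd_level rfl)
    (by rw [← pow_mul, mul_comm, pow_mul, T.theta_pow hπ γ, one_pow]) hl

variable (hm' : e = m * (p - 1))

include hζ hm' hπ he hγ hprim haγ in
lemma aγ_eq : (𝔓.red (T.theta γ)) ^ (p + 1) = (aγ : 𝔓.RF) := by
  have := T.red_theta_pow hπ hm' hζ hγ haγ
  rwa [m_eq T hπ he hm'] at this

include hζ hm' hπ he hγ hprim haγ in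
lemma aγ_ne_zero : (aγ : k) ≠ 0 := by
  intro h
  have h1 : ((aγ : ℕ) : 𝔓.RF) = ((0 : ℕ) : 𝔓.RF) := by
    rw [CharP.natCast_eq_natCast 𝔓.RF p, ← CharP.natCast_eq_natCast k p, h, Nat.cast_zero]
  rw [← aγ_eq hζ T hπ he hγ hprim haγ hm', Nat.cast_zero] at h1
  exact (red_theta_prim T hπ he hprim).ne_zero
    (by subst he; exact T.pos.ne') ((pow_eq_zero_iff (Nat.succ_ne_zero p)).mp h1)

variable {cγ : k} {φ : T.K.fixingSubgroup → k}

include hζ hm' hπ he hγ hprim haγ in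
/-- The eigenvalue of a lead coefficient. -/
lemma lead_eigen (hcγ : cγ ≠ 0)
    (hφγ : ∀ σ σ' : T.K.fixingSubgroup, (σ' : GQ) = γ * σ * γ⁻¹ → φ σ' = cγ * φ σ)
    {i : ℕ} {Λ : k →+ 𝔓.RF} (hΛ : ∀ z r, IsLead T ζ i φ z r ↔ r = Λ z) (z : k) :
    Λ ((aγ : k) * cγ⁻¹ * z) = 𝔓.red (T.theta γ) ^ i * Λ z := by
  have hfrob : 𝔓.IsFrob 1 γ :=
    ⟨𝔓.I_le_D hγ, fun x hx => by rw [pow_one]; exact (𝔓.mem_I_iff.mp hγ).2 x hx⟩
  have h := lead_conj hζ T (c := cγ) hfrob haγ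
    (fun x hx => T.apply_mem_K hπ he (𝔓.I_le_D hγ) hx)
    (fun σ hσ => by simpa using T.conj_mem_fix hπ he hσ (inv_mem (𝔓.I_le_D hγ)))
    (𝔓.nm_eq_one_of_pow_eq_one T.pos.ne' (T.theta_pow hπ γ)) hcγ hφγ ((hΛ z _).mpr rfl)
  rw [pow_one] at h
  exact ((hΛ _ _).mp h).symm

include hζ hm' hπ he hγ hprim haγ in
/-- All coefficients vanish unless the level is `e + j` with `ξ^j` a conjugate of the eigenvalue. -/
lemma lead_condition (hcγ : cγ ≠ 0) {v : k} (hv : v = (aγ : k) * cγ⁻¹) (hv2 : v ^ p ^ 2 = v)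
    (hφγ : ∀ σ σ' : T.K.fixingSubgroup, (σ' : GQ) = γ * σ * γ⁻¹ → φ σ' = cγ * φ σ)
    {j : ℕ} {Λ : k →+ 𝔓.RF} (hΛ : ∀ z r, IsLead T ζ (e + j) φ z r ↔ r = Λ z) (hne : Λ ≠ 0) :
    ∃ s t : ℕ, v + v ^ p = (s : k) ∧ v ^ (p + 1) = (t : k) ∧
      (𝔓.red (T.theta γ) ^ j) ^ 2 - (s : 𝔓.RF) * 𝔓.red (T.theta γ) ^ j + (t : 𝔓.RF) = 0 := by
  refine quadratic_of_eigen hne hv2 fun z => ?_
  rw [hv, lead_eigen hζ T hπ he hγ hprim haγ hm' hcγ hφγ hΛ z, pow_add]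
  have : 𝔓.red (T.theta γ) ^ e = 1 :=
    (congrArg (fun n => 𝔓.red (T.theta γ) ^ n) he).trans (red_theta_prim T hπ he hprim).pow_eq_one
  rw [this, one_mul]

include hπ he in
lemma allowed_range (hm' : e = m * (p - 1)) {j : ℕ} (hpi : ¬ p ∣ e + j) (hi : e + j < m * p) :
    j ≤ p ∧ j ≠ 1 := by
  rw [m_eq T hπ he hm'] at hi
  have h2 : (p + 1) * p = p ^ 2 + p := by ring
  have h3 : 1 ≤ p ^ 2 := Nat.one_le_pow _ _ hp.out.pos
  refine ⟨by omega, ?_⟩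
  rintro rfl
  exact hpi ⟨p, by rw [← pow_two]; omega⟩

include hζ hm' hπ he hγ hprim haγ in
/-- Levels with vanishing coefficients can be climbed to the top. -/
lemma climb [Finite k] {φ : T.K.fixingSubgroup → k} (h : φ ∈ levelHom hζ T hm' e)
    (hzero : ∀ j, j ≤ p → j ≠ 1 → ¬ p ∣ e + j → φ ∈ levelHom hζ T hm' (e + j) →
      ∀ z r, IsLead T ζ (e + j) φ z r → r = 0) : φ = 0 := by
  refine eq_zero_of_top hζ T hm' ?_
  have hall : ∀ j, e + j ≤ m * p → φ ∈ levelHom hζ T hm' (e + j) := by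
    intro j
    induction j with
    | zero => exact fun _ => h
    | succ j ih =>
      intro hle
      have hj := ih (by omega)
      rw [← add_assoc]
      by_cases hpi : p ∣ e + j
      · obtain ⟨l, hl⟩ := hpi
        rw [hl] at hj ⊢
        refine level_step_dvd hζ T hm' (Nat.pos_of_ne_zero fun h0 => ?_) ?_ hj
        · have := T.pos; rw [h0, mul_zero] at hl; omega
        · exact Nat.lt_of_mul_lt_mul_left (a := p) (by rw [mul_comm p m]; omega)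
      · obtain ⟨h1, h2⟩ := allowed_range T hπ he hm' hpi (by omega)
        exact level_step hζ T hm' hj (hzero j h1 h2 hpi hj)
  have hle : e ≤ m * p := by rw [hm']; exact Nat.mul_le_mul_left m (Nat.sub_le p 1)
  have := hall (m * p - e) (by omega)
  rwa [Nat.add_sub_cancel' hle] at this

include hζ hm' hπ he hγ hprim haγ in
/-- An eigenvalue in the prime field other than the cyclotomic one allows nothing. -/
theorem eq_zero_of_eigen [Finite k] (hcγ : cγ ≠ 0) (hcp : cγ ^ p = cγ) (hne : cγ ≠ (aγ : k))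
    (hφ : φ ∈ levelHom hζ T hm' e)
    (hφγ : ∀ σ σ' : T.K.fixingSubgroup, (σ' : GQ) = γ * σ * γ⁻¹ → φ σ' = cγ * φ σ) : φ = 0 := by
  refine climb hζ T hπ he hγ hprim haγ hm' hφ fun j hj hj1 hpi hjφ z r hr => ?_
  have hi : e + j < m * p := by
    rw [m_eq T hπ he hm', he, show (p + 1) * p = p ^ 2 + p by ring]
    have : 1 ≤ p ^ 2 := Nat.one_le_pow _ _ hp.out.pos
    omega
  obtain ⟨Λ, hΛ⟩ := exists_leadHom hζ T hm' hi hpi hjφ
  suffices Λ = 0 by rw [(hΛ z r).mp hr, this]; rfl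
  by_contra hΛ0
  set v : k := (aγ : k) * cγ⁻¹ with hv
  have hvp : v ^ p = v := by
    rw [hv, mul_pow, inv_pow, hcp, ← frobenius_def, map_natCast]
  obtain ⟨s, t, hs, ht, heq⟩ := lead_condition hζ T hπ he hγ hprim haγ hm' hcγ hv
    (by rw [pow_two, pow_mul, hvp, hvp]) hφγ hΛ hΛ0
  obtain ⟨a, ha⟩ := exists_natCast_of_pow_eq hvp
  set ξ := 𝔓.red (T.theta γ) with hξdef
  have hξ := red_theta_prim T hπ he hprim
  have hs' : (s : 𝔓.RF) = 2 * (a : 𝔓.RF) := by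
    have : ((s : ℕ) : k) = ((2 * a : ℕ) : k) := by rw [← hs, hvp, ha]; push_cast; ring
    rw [CharP.natCast_eq_natCast k p, ← CharP.natCast_eq_natCast 𝔓.RF p] at this
    exact_mod_cast this
  have ht' : (t : 𝔓.RF) = (a : 𝔓.RF) ^ 2 := by
    have : ((t : ℕ) : k) = ((a ^ 2 : ℕ) : k) := by rw [← ht, pow_succ, hvp, ha]; push_cast; ring
    rw [CharP.natCast_eq_natCast k p, ← CharP.natCast_eq_natCast 𝔓.RF p] at this
    exact_mod_cast this
  rw [hs', ht'] at heq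
  have hja : ξ ^ j = (a : 𝔓.RF) := sub_eq_zero.mp (sq_eq_zero_iff.mp (by linear_combination heq))
  -- `ξ^j` is fixed by Frobenius
  have hjp : ξ ^ (p * j) = ξ ^ j := by
    rw [mul_comm, pow_mul, hja, ← frobenius_def, map_natCast]
  have hξ0 : ξ ≠ 0 := hξ.ne_zero (by have := T.pos; omega)
  have h1 : ξ ^ ((p - 1) * j) = 1 := mul_right_cancel₀ (pow_ne_zero j hξ0) (by
    rw [one_mul, ← pow_add, ← hjp, Nat.sub_mul, one_mul,
      Nat.sub_add_cancel (Nat.le_mul_of_pos_left j hp.out.pos)])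
  have h2 := (hξ.pow_eq_one_iff_dvd _).mp h1
  rw [← he, hm', m_eq T hπ he hm', mul_comm (p + 1)] at h2
  have hj0 : j = 0 := Nat.eq_zero_of_dvd_of_lt
    (Nat.dvd_of_mul_dvd_mul_left (by have := hp.out.two_le; omega) h2) (by omega)
  subst hj0
  rw [pow_zero] at hja
  have hv1 : v = 1 := by
    rw [ha, ← Nat.cast_one, CharP.natCast_eq_natCast k p, ← CharP.natCast_eq_natCast 𝔓.RF p,
      Nat.cast_one]
    exact hja.symm
  exact hne ((mul_inv_eq_one₀ hcγ).mp hv1).symm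

variable {τ : GQ} {N aτ : ℕ} {cτ : k}

include hζ hm' hπ he hγ hprim haγ in
/-- At most a line. -/
theorem finrank_le_one [Finite k] (hτ : 𝔓.IsFrob (p ^ N) τ) (hN : N ≠ 0) (haτ : τ ζ = ζ ^ aτ)
    (hcγ : cγ ≠ 0) (hcτ : cτ ≠ 0) {v : k} (hv : v = (aγ : k) * cγ⁻¹) (hv2 : v ^ p ^ 2 = v)
    (F : Subfield k) (hFc : Nat.card F = p ^ N)
    (hFv : ∀ c ∈ F, ∃ a b : ℕ, c = (a : k) + (b : k) * v)
    (W : Submodule k (T.K.fixingSubgroup → k)) (hW : W ≤ levelHom hζ T hm' e)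
    (hWγ : ∀ φ ∈ W, ∀ σ σ' : T.K.fixingSubgroup, (σ' : GQ) = γ * σ * γ⁻¹ → φ σ' = cγ * φ σ)
    (hWτ : ∀ φ ∈ W, ∀ σ σ' : T.K.fixingSubgroup, (σ' : GQ) = τ * σ * τ⁻¹ → φ σ' = cτ * φ σ) :
    Module.Finite k W ∧ Module.finrank k W ≤ 1 := by
  classical
  -- the allowed level
  set ξ := 𝔓.red (T.theta γ) with hξdef
  let Allowed : ℕ → Prop := fun j => j ≤ p ∧ j ≠ 1 ∧ ∃ s t : ℕ, v + v ^ p = (s : k) ∧
    v ^ (p + 1) = (t : k) ∧ (ξ ^ j) ^ 2 - (s : 𝔓.RF) * ξ ^ j + (t : 𝔓.RF) = 0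
  have hcast : ∀ {a b : ℕ}, (a : k) = (b : k) → (a : 𝔓.RF) = (b : 𝔓.RF) := fun h => by
    rwa [CharP.natCast_eq_natCast 𝔓.RF p, ← CharP.natCast_eq_natCast k p]
  have huniq : ∀ i j, Allowed i → Allowed j → i = j := by
    rintro i j ⟨hi, hi1, s, t, hs, ht, hei⟩ ⟨hj, hj1, s', t', hs', ht', hej⟩
    rw [hcast (hs'.symm.trans hs), hcast (ht'.symm.trans ht)] at hej
    exact allowed_unique (red_theta_prim T hπ he hprim) hs ht hi hi1 hj hj1 hei hej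
  have hmp : m * p = p ^ 2 + p := by rw [m_eq T hπ he hm']; ring
  have hp1 : 1 ≤ p ^ 2 := Nat.one_le_pow _ _ hp.out.pos
  have hzero : ∀ φ ∈ W, ∀ j, j ≤ p → j ≠ 1 → ¬ p ∣ e + j → ¬ Allowed j →
      φ ∈ levelHom hζ T hm' (e + j) → ∀ z r, IsLead T ζ (e + j) φ z r → r = 0 := by
    intro φ hφ j hj hj1 hpi hnot hjφ z r hr
    obtain ⟨Λ, hΛ⟩ := exists_leadHom hζ T hm' (show e + j < m * p by omega) hpi hjφ
    suffices Λ = 0 by rw [(hΛ z r).mp hr, this]; rfl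
    by_contra hΛ0
    exact hnot ⟨hj, hj1, lead_condition hζ T hπ he hγ hprim haγ hm' hcγ hv hv2 (hWγ φ hφ) hΛ hΛ0⟩
  by_cases hex : ∃ j, Allowed j ∧ ¬ p ∣ e + j
  swap
  · have hbot : W = ⊥ := (Submodule.eq_bot_iff W).mpr fun φ hφ =>
      climb hζ T hπ he hγ hprim haγ hm' (hW hφ) fun j h1 h2 hpi =>
        hzero φ hφ j h1 h2 hpi fun ha => hex ⟨j, ha, hpi⟩
    subst hbot
    exact ⟨inferInstance, by simp⟩
  obtain ⟨j₀, hj₀, hpi₀⟩ := hex
  -- every element is at that level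
  have hlev : ∀ φ ∈ W, φ ∈ levelHom hζ T hm' (e + j₀) := by
    intro φ hφ
    have hall : ∀ j, j ≤ j₀ → φ ∈ levelHom hζ T hm' (e + j) := by
      intro j
      induction j with
      | zero => exact fun _ => hW hφ
      | succ j ih =>
        intro hle
        have hj := ih (by omega)
        have hjp : j < p := by have := hj₀.1; omega
        rw [← add_assoc]
        by_cases hpi : p ∣ e + j
        · obtain ⟨l, hl⟩ := hpi
          rw [hl] at hj ⊢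
          refine level_step_dvd hζ T hm' (Nat.pos_of_ne_zero fun h0 => ?_) ?_ hj
          · have := T.pos; rw [h0, mul_zero] at hl; omega
          · exact Nat.lt_of_mul_lt_mul_left (a := p) (by rw [mul_comm p m]; omega)
        · obtain ⟨h1, h2⟩ := allowed_range T hπ he hm' hpi (by omega)
          exact level_step hζ T hm' hj (hzero φ hφ j h1 h2 hpi
            (fun ha => by have := huniq _ _ ha hj₀; omega) hj)
    exact hall j₀ le_rfl
  have hi₀ : e + j₀ < m * p := by have := hj₀.1; omega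
  choose Λ hΛ using fun φ : W => exists_leadHom hζ T hm' hi₀ hpi₀ (hlev φ φ.2)
  have hinj : ∀ φ : W, Λ φ = 0 → φ = 0 := by
    intro φ hφ0
    refine Subtype.ext (climb hζ T hπ he hγ hprim haγ hm' (hW φ.2) fun j h1 h2 hpi hjφ z r hr => ?_)
    by_cases ha : Allowed j
    · obtain rfl := huniq _ _ ha hj₀
      rw [(hΛ φ z r).mp hr, hφ0]; rfl
    · exact hzero φ φ.2 j h1 h2 hpi ha hjφ z r hr
  have hadd : ∀ φ φ' : W, Λ (φ + φ') = Λ φ + Λ φ' := fun φ φ' => AddMonoidHom.ext fun z =>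
    ((hΛ (φ + φ') z _).mp (lead_add hζ T hpi₀ ((hΛ φ z _).mpr rfl) ((hΛ φ' z _).mpr rfl)
      fun σ => kpair_add hζ _ _ _)).symm
  set w : k := (aτ : k) * cτ⁻¹
  have hw : w ≠ 0 := by
    refine mul_ne_zero (fun h => ?_) (inv_ne_zero hcτ)
    have hd : p ∣ aτ := (CharP.cast_eq_zero_iff k p aτ).mp h
    obtain ⟨d, rfl⟩ := hd
    rw [pow_mul, hζ.pow_eq_one, one_pow] at haτ
    exact hζ.ne_one hp.out.one_lt (τ.injective (haτ.trans (map_one τ).symm))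
  have hθτ : 𝔓.nm (T.theta τ) = 1 := 𝔓.nm_eq_one_of_pow_eq_one T.pos.ne' (T.theta_pow hπ τ)
  set C := 𝔓.red (T.theta τ) ^ (e + j₀)
  have hsymm : ∀ φ : W, (∀ z, Λ φ (v * z) = ξ ^ (e + j₀) * Λ φ z) ∧
      ∀ z, Λ φ (w * z) = C * Λ φ z ^ p ^ N := fun φ => ⟨fun z => by
    rw [hv]; exact lead_eigen hζ T hπ he hγ hprim haγ hm' hcγ (hWγ φ φ.2) (hΛ φ) z,
    fun z => ((hΛ φ _ _).mp (lead_conj hζ T (c := cτ) hτ haτ
      (fun x hx => T.apply_mem_K hπ he hτ.1 hx)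
      (fun σ hσ => by simpa using T.conj_mem_fix hπ he hσ (inv_mem hτ.1))
      hθτ hcτ (hWτ φ φ.2) ((hΛ φ z _).mpr rfl))).symm⟩
  obtain ⟨hfin, hcard⟩ := card_symm_le (p := p) (K := 𝔓.RF) (Nat.one_lt_pow hN hp.out.one_lt) F hFc
    (v := v) (ξ := ξ ^ (e + j₀)) hFv hw (C := C) ⟨N, rfl⟩
  let emb : W → {Λ : k →+ 𝔓.RF // (∀ z, Λ (v * z) = ξ ^ (e + j₀) * Λ z) ∧
      ∀ z, Λ (w * z) = C * Λ z ^ p ^ N} := fun φ => ⟨Λ φ, hsymm φ⟩
  have hembinj : Function.Injective emb := fun a b h => by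
    have h0 : Λ a = Λ b := congrArg Subtype.val h
    have hsub : Λ (a - b) + Λ b = Λ a := by rw [← hadd, sub_add_cancel]
    exact sub_eq_zero.mp (hinj _ (by rwa [h0, add_eq_right] at hsub))
  have : Finite W := Finite.of_injective emb hembinj
  refine ⟨Module.Finite.of_finite, ?_⟩
  have h := (Nat.card_le_card_of_injective emb hembinj).trans hcard
  rw [Module.natCard_eq_pow_finrank (K := k)] at h
  by_contra hlt
  push Not at hlt
  exact absurd (h.trans (le_of_eq (pow_one _).symm))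
    (not_le.mpr (Nat.pow_lt_pow_right Finite.one_lt_card hlt))

end Eigen

end FLTAgent.TW.Flat
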