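import Fermat.Agent.TW.Flat.Bound
import Fermat.Agent.TW.Flat.Count
import Fermat.Agent.TW.Flat.Model
import Fermat.Agent.FlatModel.Trivial
import Fermat.Agent.TW.Defs
import Mathlib.Algebra.CharP.Lemmas
import Mathlib.Algebra.CharP.Algebra
import Mathlib.GroupTheory.PGroup

/-!
# Flat lifts to the dual numbers

The model of a flat lift, the level of the homomorphisms it cuts out, and the two consequences of
the connected part which are needed when the cyclotomic character is quadratic on inertia.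
-/

set_option autoImplicit false

open scoped Pointwise
open FLTAgent.Deformation FLTAgent.FlatModel

noncomputable section

namespace FLTAgent.TW.Flat

/-- The action of a matrix representation on column vectors. -/
def mvAct {A : Type} [CommRing A] (N : GQ →* Mat A) : GQ →* AddMonoid.End (Fin 2 → A) where
  toFun σ := (Matrix.toLin' (N σ)).toAddMonoidHom
  map_one' := AddMonoidHom.ext fun x => by
    show Matrix.toLin' (N 1) x = x
    simp
  map_mul' σ τ := AddMonoidHom.ext fun x => by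
    show Matrix.toLin' (N (σ * τ)) x = Matrix.toLin' (N σ) (Matrix.toLin' (N τ) x)
    simp

lemma mvAct_apply {A : Type} [CommRing A] (N : GQ →* Mat A) (σ : GQ) (x : Fin 2 → A) :
    mvAct N σ x = Matrix.mulVec (N σ) x := rfl

variable {p : ℕ} {k : Type} [Field k]

/-- A lift of trace zero whose module of points comes from a finite flat Hopf algebra. -/
structure IsFlatLift (p : ℕ) (rb : GQ →* Mat k) (N : GQ →* Mat (DualNumber k)) : Prop where
  fst : ∀ σ, (N σ).map TrivSqZeroExt.fst = rb σ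
  trace : ∀ σ, Matrix.trace (liftCocycle rb N σ) = 0
  level : ∃ L : IntermediateField ℚ QB, FiniteDimensional ℚ L ∧
    ∀ σ : GQ, (∀ x ∈ L, σ x = x) → N σ = 1
  flat : ∃ (H₀ : Type) (_ : CommRing H₀) (_ : HopfAlgebra (GaloisRep.ratLocalizedAt p) H₀),
    Module.Finite (GaloisRep.ratLocalizedAt p) H₀ ∧
    ∃ e : WithConv (H₀ →ₐ[GaloisRep.ratLocalizedAt p] QB) ≃ (Fin 2 → DualNumber k),
      (∀ f g, e (f * g) = e f + e g) ∧
      ∀ (σ : GQ) (f g : WithConv (H₀ →ₐ[GaloisRep.ratLocalizedAt p] QB)),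
        (∀ h, g h = σ (f h)) → e g = mvAct N σ (e f)

lemma rb_mul_inv (rb : GQ →* Mat k) (σ : GQ) : rb σ * rb σ⁻¹ = 1 := by
  rw [← map_mul, mul_inv_cancel, map_one]

lemma rb_inv_mul (rb : GQ →* Mat k) (σ : GQ) : rb σ⁻¹ * rb σ = 1 := by
  rw [← map_mul, inv_mul_cancel, map_one]

namespace IsFlatLift

variable {rb : GQ →* Mat k} {N : GQ →* Mat (DualNumber k)} (h : IsFlatLift p rb N)

include h

lemma fst_apply (σ : GQ) (i j : Fin 2) : TrivSqZeroExt.fst (N σ i j) = rb σ i j := by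
  rw [← h.fst σ]; rfl

omit h in
lemma snd_apply (σ : GQ) (i j : Fin 2) :
    TrivSqZeroExt.snd (N σ i j) = (liftCocycle rb N σ * rb σ) i j := by
  rw [liftCocycle, mul_assoc, rb_inv_mul, mul_one]; rfl

lemma cocycle (σ τ : GQ) :
    liftCocycle rb N (σ * τ) = liftCocycle rb N σ + adAct rb σ (liftCocycle rb N τ) := by
  have hm : (N (σ * τ)).map TrivSqZeroExt.snd =
      rb σ * (N τ).map TrivSqZeroExt.snd + (N σ).map TrivSqZeroExt.snd * rb τ := by
    ext i j
    rw [map_mul]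
    simp only [Matrix.map_apply, Matrix.add_apply, Matrix.mul_apply, Fin.sum_univ_two,
      TrivSqZeroExt.snd_add, DualNumber.snd_mul, h.fst_apply]
    ring
  simp only [liftCocycle, adAct]
  rw [hm, add_mul, mul_inv_rev, map_mul, add_comm]
  simp only [mul_assoc]
  rw [← mul_assoc (rb τ), rb_mul_inv, one_mul]

lemma of_eq_one {σ : GQ} (hσ : N σ = 1) : rb σ = 1 ∧ liftCocycle rb N σ = 0 := by
  refine ⟨by rw [← h.fst σ, hσ]; exact Matrix.map_one _ rfl rfl, ?_⟩
  rw [liftCocycle, hσ, show (1 : Mat (DualNumber k)).map TrivSqZeroExt.snd = 0 from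
    Matrix.ext fun i j => by by_cases hij : i = j <;> simp [hij], zero_mul]

lemma mem_adZ1 (D : Subgroup GQ) : (fun g : D => liftCocycle rb N g) ∈ adZ1 rb D := by
  obtain ⟨L, hL, hlev⟩ := h.level
  refine ⟨fun g g' => h.cocycle g g', fun g => h.trace g, L, hL, fun g s hs => ?_⟩
  show liftCocycle rb N ((g : GQ) * s) = liftCocycle rb N g
  rw [h.cocycle, (h.of_eq_one (hlev _ hs)).2]
  simp [adAct]

lemma fst_act (σ : GQ) (x : Fin 2 → DualNumber k) (i : Fin 2) :
    TrivSqZeroExt.fst (mvAct N σ x i) =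
      rb σ i 0 * TrivSqZeroExt.fst (x 0) + rb σ i 1 * TrivSqZeroExt.fst (x 1) := by
  simp [mvAct_apply, Matrix.mulVec, dotProduct, Fin.sum_univ_two, h.fst_apply]

lemma snd_act (σ : GQ) (x : Fin 2 → DualNumber k) (i : Fin 2) :
    TrivSqZeroExt.snd (mvAct N σ x i) =
      rb σ i 0 * TrivSqZeroExt.snd (x 0) + rb σ i 1 * TrivSqZeroExt.snd (x 1) +
      ((liftCocycle rb N σ * rb σ) i 0 * TrivSqZeroExt.fst (x 0) +
        (liftCocycle rb N σ * rb σ) i 1 * TrivSqZeroExt.fst (x 1)) := by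
  simp [mvAct_apply, Matrix.mulVec, dotProduct, Fin.sum_univ_two, h.fst_apply, snd_apply (rb := rb)]
  ring

variable [hp : Fact p.Prime]

theorem exists_model [Finite k] (𝔓 : LocalPlace p) :
    ∃ H : Submodule (baseRing 𝔓.P 𝔓.IR) ((Fin 2 → DualNumber k) → QB),
      IsModel (𝔓.actI (mvAct N)) H ∧
      ∀ τ ∈ 𝔓.D, ∀ x, IsModel.IsConnected H x → IsModel.IsConnected H (mvAct N τ x) := by
  obtain ⟨H₀, _, _, _, e, hadd, hact⟩ := h.flat
  have : Finite (DualNumber k) := inferInstanceAs (Finite (k × k))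
  exact 𝔓.exists_model (mvAct N) e hadd hact

variable [CharP k p] {𝔓 : LocalPlace p} {e : ℕ} (T : TR 𝔓 e)

omit h hp in
lemma nsmul_eq_zero (x : Fin 2 → DualNumber k) : p • x = 0 := by
  rw [← Nat.cast_smul_eq_nsmul k, CharP.cast_eq_zero k p, zero_smul]

/-- Over a subgroup with unipotent residual image the points are cut out by a `p`-group. -/
theorem pAction [Finite k] (hu : ∀ σ ∈ T.K.fixingSubgroup, (rb σ - 1) * (rb σ - 1) = 0) :
    PAction p (mvAct N) T.K := by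
  have : Finite (DualNumber k) := inferInstanceAs (Finite (k × k))
  have : CharP (DualNumber k) p :=
    charP_of_injective_ringHom (f := TrivSqZeroExt.inlHom k k) TrivSqZeroExt.inl_injective p
  let φ : T.K.fixingSubgroup →* (Mat (DualNumber k))ˣ :=
    N.toHomUnits.comp T.K.fixingSubgroup.subtype
  obtain ⟨L, hL, hlev⟩ := h.level
  refine ⟨φ.range, inferInstance, inferInstance, φ.rangeRestrict, ?_, ?_, fun σ => ?_⟩
  · rintro ⟨_, σ, rfl⟩
    refine ⟨2, Subtype.ext (Units.ext ?_)⟩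
    show N (σ : GQ) ^ p ^ 2 = 1
    set z := N (σ : GQ) - 1 with hz
    have hz2 : ∀ i j, TrivSqZeroExt.fst ((z * z) i j) = 0 := fun i j => by
      have h1 := congrFun (congrFun (hu σ σ.2) i) j
      rw [← h.fst σ] at h1
      simp [hz, Matrix.mul_apply, Fin.sum_univ_two, Matrix.one_apply] at h1 ⊢
      split_ifs at h1 ⊢ <;> simp_all
    have hz4 : z ^ 4 = 0 := by
      rw [show z ^ 4 = z * z * (z * z) by noncomm_ring]
      ext i j <;>
        simp [Matrix.mul_apply (M := z * z), Fin.sum_univ_two, hz2]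
    rw [show N (σ : GQ) = 1 + z by rw [hz]; abel,
      add_pow_char_pow_of_commute _ _ (Commute.one_left z), one_pow]
    have h4 : 4 ≤ p ^ 2 := by
      have := hp.out.two_le
      calc 4 = 2 ^ 2 := rfl
        _ ≤ p ^ 2 := Nat.pow_le_pow_left this 2
    rw [← Nat.add_sub_cancel' h4, pow_add, hz4, zero_mul, add_zero]
  · exact ⟨L, hL, fun σ hσ => Subtype.ext (Units.ext (hlev _ hσ))⟩
  · refine ⟨fun h1 x => ?_, fun h1 => ?_⟩
    · have : N (σ : GQ) = 1 := congrArg Units.val (congrArg Subtype.val h1)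
      rw [mvAct_apply, this, Matrix.one_mulVec]
    · refine Subtype.ext (Units.ext ?_)
      exact Matrix.ext_of_mulVec_single fun i => by
        show Matrix.mulVec (N (σ : GQ)) _ = Matrix.mulVec 1 _
        rw [Matrix.one_mulVec, ← mvAct_apply, h1]

/-- Homomorphisms cut out by a flat lift have level at least `e`. -/
theorem mem_levelHom_of_lift [Finite k] (hp2 : p ≠ 2) {m : ℕ} (hm : e = m * (p - 1)) {ζ : QB}
    (hζ : IsPrimitiveRoot ζ p) (hu : ∀ σ ∈ T.K.fixingSubgroup, (rb σ - 1) * (rb σ - 1) = 0)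
    {f : T.K.fixingSubgroup → k} (hadd : ∀ σ τ, f (σ * τ) = f σ + f τ)
    (hker : ∀ σ : T.K.fixingSubgroup, N (σ : GQ) = 1 → f σ = 0) : f ∈ levelHom hζ T hm e := by
  obtain ⟨H, hH, -⟩ := h.exists_model 𝔓
  have : Finite (DualNumber k) := inferInstanceAs (Finite (k × k))
  obtain ⟨L, hL, hlev⟩ := h.level
  refine (FLTAgent.TW.Flat.mem_levelHom hζ T hm).mpr ⟨⟨hadd, L, hL, fun σ hσ => hker σ (hlev _ hσ)⟩, fun z y hy => ?_⟩
  refine inU_of_flat hp2 T hm hζ hH nsmul_eq_zero (h.pAction T hu) hy.2.1 hy.1 fun σ hσ hx => ?_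
  have h1 : N σ = 1 := Matrix.ext_of_mulVec_single fun i => by
    rw [Matrix.one_mulVec, ← mvAct_apply, hx]
  rw [show σ y = kpair p ζ z (f ⟨σ, hσ⟩) * y from hy.2.2 ⟨σ, hσ⟩, hker ⟨σ, hσ⟩ h1, kpair_zero hζ,
    one_mul]

omit [CharP k p] hp h in
/-- The vectors divisible by `ε`. -/
def epsPart : AddSubgroup (Fin 2 → DualNumber k) where
  carrier := {x | ∀ i, TrivSqZeroExt.fst (x i) = 0}
  zero_mem' _ := rfl
  add_mem' hx hy i := by simp [hx i, hy i]
  neg_mem' hx i := by simp [hx i]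

/-- The vectors `ε (a, 0)`. -/
def epsLine : AddSubgroup (Fin 2 → DualNumber k) where
  carrier := {x | (∀ i, TrivSqZeroExt.fst (x i) = 0) ∧ TrivSqZeroExt.snd (x 1) = 0}
  zero_mem' := ⟨fun _ => rfl, rfl⟩
  add_mem' hx hy := ⟨fun i => by simp [hx.1 i, hy.1 i], by simp [hx.2, hy.2]⟩
  neg_mem' hx := ⟨fun i => by simp [hx.1 i], by simp [hx.2]⟩

section Connected

variable [Finite k] (hp2 : p ≠ 2) {γ : GQ} (hγ : γ ∈ 𝔓.I)
  (hD : ∀ σ ∈ 𝔓.D, rb σ 1 0 = 0)

omit hp [CharP k p] [Finite k] in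
lemma eps_act {σ : GQ} {x : Fin 2 → DualNumber k} (hx : x ∈ epsPart)
    (i : Fin 2) : TrivSqZeroExt.fst (mvAct N σ x i) = 0 ∧
      TrivSqZeroExt.snd (mvAct N σ x i) =
        rb σ i 0 * TrivSqZeroExt.snd (x 0) + rb σ i 1 * TrivSqZeroExt.snd (x 1) := by
  rw [h.fst_act, h.snd_act, hx 0, hx 1]
  simp

include hp2 hγ hD

/-- If the line is the unramified one then the module splits. -/
theorem entry01_eq_zero_of_connected (hγ1 : rb γ = !![1, 0; 0, -1])
    (hI : ∀ σ ∈ 𝔓.I, rb σ 0 0 = 1) : ∀ σ ∈ 𝔓.D, rb σ 0 1 = 0 := by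
  obtain ⟨H, hH, hstab⟩ := h.exists_model 𝔓
  have : Finite (DualNumber k) := inferInstanceAs (Finite (k × k))
  have h2 : (2 : k) ≠ 0 := Ring.two_ne_zero (by rw [ringChar.eq k p]; exact hp2)
  let mk : k → k → (Fin 2 → DualNumber k) := fun a b =>
    ![TrivSqZeroExt.inr a, TrivSqZeroExt.inr b]
  have hmk : ∀ a b, mk a b ∈ epsPart := fun a b i => by fin_cases i <;> simp [mk]
  have hconn : ∀ b, mk 0 b ∈ hH.connectedPart := fun b => by
    have := hH.map_sub_mem_connectedPart 𝔓.isUnramifiedBase ⟨toRingEquivQB γ, γ, hγ, rfl⟩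
      (mk 0 (-b / 2))
    convert this using 1
    funext i
    have he := h.eps_act (σ := γ) (hmk 0 (-b / 2)) i
    show mk 0 b i = mvAct N γ (mk 0 (-b / 2)) i - mk 0 (-b / 2) i
    refine TrivSqZeroExt.ext ?_ ?_
    · rw [TrivSqZeroExt.fst_sub, he.1, hmk 0 b i, hmk 0 (-b / 2) i, sub_zero]
    · rw [TrivSqZeroExt.snd_sub, he.2, hγ1]
      fin_cases i <;> simp [mk]
      field_simp
      ring
  have hW : hH.connectedPart ⊓ epsLine ≤ ⊥ := by
    refine hH.le_of_connected_trivial 𝔓.isUnramifiedBase hp2 _ ⊥ ?_ ?_ inf_le_left ?_ ?_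
    · rintro τ w ⟨hw, hw'⟩
      have hσ := 𝔓.ofRingEquivGQ_mem τ
      refine ⟨hH.map_mem_connectedPart 𝔓.isUnramifiedBase τ hw, fun i => (h.eps_act hw'.1 i).1, ?_⟩
      show TrivSqZeroExt.snd (mvAct N (ofRingEquivGQ (τ : QB ≃+* QB)) w 1) = 0
      rw [(h.eps_act hw'.1 1).2, hD _ (𝔓.I_le_D hσ), hw'.2]
      simp
    · rintro τ u rfl
      exact map_zero (𝔓.actI (mvAct N) τ)
    · rintro τ w ⟨-, hw'⟩
      have hσ := 𝔓.ofRingEquivGQ_mem τ
      rw [AddSubgroup.mem_bot, sub_eq_zero]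
      funext i
      show mvAct N (ofRingEquivGQ (τ : QB ≃+* QB)) w i = w i
      refine TrivSqZeroExt.ext ?_ ?_
      · rw [(h.eps_act hw'.1 i).1, hw'.1 i]
      · rw [(h.eps_act hw'.1 i).2, hw'.2]
        fin_cases i
        · simp [hI _ hσ]
        · simp [hD _ (𝔓.I_le_D hσ), hw'.2]
    · intro w _
      rw [nsmul_eq_zero]; exact zero_mem _
  intro σ hσ
  have h1 : mvAct N σ (mk 0 1) ∈ hH.connectedPart := hstab σ hσ _ (hconn 1)
  have h2' : mvAct N σ (mk 0 1) - mk 0 (rb σ 1 1) ∈ hH.connectedPart ⊓ epsLine := by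
    refine ⟨hH.connectedPart.sub_mem h1 (hconn _), fun i => ?_, ?_⟩
    · rw [Pi.sub_apply, TrivSqZeroExt.fst_sub, (h.eps_act (hmk 0 1) i).1, hmk 0 _ i, sub_zero]
    · rw [Pi.sub_apply, TrivSqZeroExt.snd_sub, (h.eps_act (hmk 0 1) 1).2]
      simp [mk]
  have h3 := congrArg TrivSqZeroExt.snd (congrFun (AddSubgroup.mem_bot.mp (hW h2')) 0)
  rw [Pi.sub_apply, TrivSqZeroExt.snd_sub, (h.eps_act (hmk 0 1) 0).2] at h3
  simpa [mk] using h3

omit hγ in
/-- The lower entry vanishes on the wild part when the line is the cyclotomic one. -/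
theorem entry10_eq_zero_of_connected
    (hI : ∀ σ ∈ 𝔓.I, rb σ 1 1 = 1) {σ : GQ} (hσ : σ ∈ 𝔓.I) (hσ1 : rb σ 0 0 = 1) :
    liftCocycle rb N σ 1 0 = 0 := by
  obtain ⟨H, hH, -⟩ := h.exists_model 𝔓
  have : Finite (DualNumber k) := inferInstanceAs (Finite (k × k))
  have hW : hH.connectedPart ⊓ epsPart ≤ epsLine := by
    refine hH.le_of_connected_trivial 𝔓.isUnramifiedBase hp2 _ _ ?_ ?_ inf_le_left ?_ ?_
    · rintro τ w ⟨hw, hw'⟩
      exact ⟨hH.map_mem_connectedPart 𝔓.isUnramifiedBase τ hw, fun i => (h.eps_act hw' i).1⟩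
    · rintro τ u ⟨hu, hu'⟩
      refine ⟨fun i => (h.eps_act hu i).1, ?_⟩
      show TrivSqZeroExt.snd (mvAct N (ofRingEquivGQ (τ : QB ≃+* QB)) u 1) = 0
      rw [(h.eps_act hu 1).2, hD _ (𝔓.I_le_D (𝔓.ofRingEquivGQ_mem τ)), hu']
      simp
    · rintro τ w ⟨-, hw'⟩
      have hτ := 𝔓.ofRingEquivGQ_mem τ
      refine ⟨fun i => ?_, ?_⟩
      · show TrivSqZeroExt.fst (mvAct N _ w i - w i) = 0
        rw [TrivSqZeroExt.fst_sub, (h.eps_act hw' i).1, hw' i, sub_zero]
      · show TrivSqZeroExt.snd (mvAct N (ofRingEquivGQ (τ : QB ≃+* QB)) w 1 - w 1) = 0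
        have he := (h.eps_act (σ := ofRingEquivGQ (τ : QB ≃+* QB)) hw' 1).2
        rw [hI _ hτ, hD _ (𝔓.I_le_D hτ)] at he
        rw [TrivSqZeroExt.snd_sub, he]
        simp
    · intro w _
      rw [nsmul_eq_zero]; exact zero_mem _
  let x : Fin 2 → DualNumber k := ![1, 0]
  have hx : mvAct N σ x - x ∈ hH.connectedPart :=
    hH.map_sub_mem_connectedPart 𝔓.isUnramifiedBase ⟨toRingEquivQB σ, σ, hσ, rfl⟩ x
  have h10 : rb σ 1 0 = 0 := hD _ (𝔓.I_le_D hσ)
  have hmem : mvAct N σ x - x ∈ epsPart := fun i => by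
    rw [Pi.sub_apply, TrivSqZeroExt.fst_sub, h.fst_act]
    fin_cases i <;> simp [x, hσ1, h10]
  have h3 := (hW ⟨hx, hmem⟩).2
  rw [Pi.sub_apply, TrivSqZeroExt.snd_sub, h.snd_act] at h3
  simpa [x, Matrix.mul_apply, Fin.sum_univ_two, hσ1, h10] using h3

end Connected

end IsFlatLift

end FLTAgent.TW.Flat
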