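import Fermat.Prelude.Def_GaloisRep_CompletionBridge
import Fermat.Agent.Frobenius.Places
import Mathlib.Algebra.Algebra.Rat

/-!
# An absolute value at a place of `ℚ̄` over `p`

Every valuation subring of `ℚ̄` over `p` is the unit ball of a nonarchimedean absolute value
`nm` with `nm p = p⁻¹`; it is invariant under the decomposition group, and elements fixed by the
decomposition group have norms in `p^ℤ` and residues in `𝔽_p`.
-/

set_option autoImplicit false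

open scoped Pointwise

noncomputable section

namespace FLTAgent.TW.Flat

/-- `ℚ̄`. -/
abbrev QB : Type := AlgebraicClosure ℚ

/-- The absolute Galois group of `ℚ`. -/
abbrev GQ : Type := QB ≃ₐ[ℚ] QB

/-- A place of `ℚ̄` over `p` with its absolute value. -/
structure LocalPlace (p : ℕ) where
  /-- the valuation subring -/
  P : ValuationSubring QB
  /-- the absolute value -/
  nm : AbsoluteValue QB ℝ
  ultra : ∀ x y, nm (x + y) ≤ max (nm x) (nm y)
  nm_p : nm (p : QB) = (p : ℝ)⁻¹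
  mem_iff : ∀ x, x ∈ P ↔ nm x ≤ 1
  decomp_norm : ∀ x, x ≠ 0 → (∀ σ ∈ P.decompositionSubgroup ℚ, σ x = x) →
    ∃ n : ℤ, nm x = (p : ℝ) ^ n
  decomp_residue : ∀ x, nm x ≤ 1 → (∀ σ ∈ P.decompositionSubgroup ℚ, σ x = x) →
    ∃ a : ℕ, nm (x - a) < 1

variable {p : ℕ} [hp : Fact p.Prime]

lemma exists_eq_algebraMap_of_fixed {x : PadicAlgCl p}
    (h : ∀ τ : PadicAlgCl p ≃ₐ[ℚ_[p]] PadicAlgCl p, τ x = x) :
    ∃ a : ℚ_[p], algebraMap ℚ_[p] (PadicAlgCl p) a = x :=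
  (InfiniteGalois.mem_range_algebraMap_iff_fixed x).mpr h

/-- Every place over `p` carries such an absolute value. -/
theorem exists_localPlace {P : ValuationSubring QB} (hP : P.LiesOverPrime p) :
    ∃ 𝔓 : LocalPlace p, 𝔓.P = P := by
  have hB : (padicPlace p).LiesOverPrime p := by
    rw [ValuationSubring.LiesOverPrime, ValuationSubring.mem_nonunits_iff_or]
    right
    rw [mem_padicPlace_iff, map_inv₀, map_natCast, not_le, nnnorm_inv]
    have h1 : ‖(p : PadicAlgCl p)‖₊ = (p : NNReal)⁻¹ := by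
      rw [← PadicAlgCl.valuation_def, PadicAlgCl.valuation_p, one_div]
    rw [h1, inv_inv]
    exact_mod_cast hp.out.one_lt
  obtain ⟨τ, hτ⟩ := Frobenius.exists_smul_eq hp.out hB hP
  let j : QB →+* PadicAlgCl p :=
    (padicEmbedding p).toRingHom.comp (τ⁻¹ : GQ).toAlgHom.toRingHom
  have hj : ∀ x, j x = padicEmbedding p (τ⁻¹ x) := fun x => rfl
  have hfix : ∀ x, (∀ σ ∈ P.decompositionSubgroup ℚ, σ x = x) →
      ∃ a : ℚ_[p], algebraMap ℚ_[p] (PadicAlgCl p) a = j x := by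
    intro x hx
    refine exists_eq_algebraMap_of_fixed fun t => ?_
    rw [hj, ← padicEmbedding_localGaloisToGlobal]
    congr 1
    have hmem : τ * localGaloisToGlobal p t * τ⁻¹ ∈ P.decompositionSubgroup ℚ := by
      rw [MulAction.mem_stabilizer_iff, mul_smul, mul_smul, inv_smul_eq_iff.mpr hτ.symm,
        MulAction.mem_stabilizer_iff.mp (localGaloisToGlobal_mem_decompositionSubgroup p t), hτ]
    have h2 := hx _ hmem
    apply τ.injective
    simpa using h2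
  refine ⟨{
    P := P
    nm :=
      { toFun := fun x => ‖j x‖
        map_mul' := fun x y => by rw [map_mul, norm_mul]
        nonneg' := fun x => norm_nonneg _
        eq_zero' := fun x => by simp
        add_le' := fun x y => by rw [map_add]; exact norm_add_le _ _ }
    ultra := fun x y => by
      change ‖j (x + y)‖ ≤ max ‖j x‖ ‖j y‖
      rw [map_add]; exact IsUltrametricDist.norm_add_le_max _ _
    nm_p := by
      change ‖j p‖ = _
      rw [map_natCast, ← PadicAlgCl.valuation_coe, PadicAlgCl.valuation_p]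
      simp
    mem_iff := fun x => by
      change _ ↔ ‖j x‖ ≤ 1
      rw [← hτ, ValuationSubring.mem_pointwise_smul_iff_inv_smul_mem, AlgEquiv.smul_def,
        mem_padicPlace_iff, hj, ← coe_nnnorm, NNReal.coe_le_one]
    decomp_norm := fun x hx h => ?_
    decomp_residue := fun x hx h => ?_ }, rfl⟩
  · change ∃ n : ℤ, ‖j x‖ = _
    obtain ⟨a, ha⟩ := hfix x h
    have ha0 : a ≠ 0 := by
      rintro rfl
      rw [map_zero] at ha
      exact hx (by simpa using ha.symm)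
    exact ⟨-a.valuation, by rw [← ha, PadicAlgCl.norm_extends, Padic.norm_eq_zpow_neg_valuation ha0]⟩
  · change ∃ n : ℕ, ‖j (x - n)‖ < 1
    change ‖j x‖ ≤ 1 at hx
    obtain ⟨a, ha⟩ := hfix x h
    rw [← ha, PadicAlgCl.norm_extends] at hx
    refine ⟨(PadicInt.zmodRepr ⟨a, hx⟩), ?_⟩
    have h1 := (PadicInt.zmodRepr_spec (x := (⟨a, hx⟩ : ℤ_[p]))).2
    rw [IsLocalRing.mem_maximalIdeal, PadicInt.mem_nonunits, PadicInt.norm_def] at h1
    push_cast at h1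
    rw [map_sub, map_natCast, ← ha, ← map_natCast (algebraMap ℚ_[p] (PadicAlgCl p)), ← map_sub,
      PadicAlgCl.norm_extends]
    exact h1

namespace LocalPlace

variable (𝔓 : LocalPlace p)

omit hp in
lemma nm_nonneg (x : QB) : 0 ≤ 𝔓.nm x := 𝔓.nm.nonneg x

omit hp in
lemma nm_sub_le (x y : QB) : 𝔓.nm (x - y) ≤ max (𝔓.nm x) (𝔓.nm y) := by
  have h := 𝔓.ultra x (-y)
  rwa [← sub_eq_add_neg, AbsoluteValue.map_neg] at h

omit hp in
lemma nm_sum_le {ι : Type*} (s : Finset ι) (f : ι → QB) {r : ℝ} (hr : 0 ≤ r)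
    (h : ∀ i ∈ s, 𝔓.nm (f i) ≤ r) : 𝔓.nm (∑ i ∈ s, f i) ≤ r := by
  classical
  induction s using Finset.induction with
  | empty => simpa using hr
  | insert a s ha ih =>
    rw [Finset.sum_insert ha]
    exact (𝔓.ultra _ _).trans (max_le (h a (Finset.mem_insert_self a s))
      (ih fun i hi => h i (Finset.mem_insert_of_mem hi)))

omit hp in
lemma nm_sum_lt {ι : Type*} (s : Finset ι) (f : ι → QB) {r : ℝ} (hr : 0 < r)
    (h : ∀ i ∈ s, 𝔓.nm (f i) < r) : 𝔓.nm (∑ i ∈ s, f i) < r := by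
  classical
  induction s using Finset.induction with
  | empty => simpa using hr
  | insert a s ha ih =>
    rw [Finset.sum_insert ha]
    exact (𝔓.ultra _ _).trans_lt (max_lt (h a (Finset.mem_insert_self a s))
      (ih fun i hi => h i (Finset.mem_insert_of_mem hi)))

omit hp in
/-- If one summand strictly dominates, it gives the norm of the sum. -/
lemma nm_add_eq_of_lt {x y : QB} (h : 𝔓.nm y < 𝔓.nm x) : 𝔓.nm (x + y) = 𝔓.nm x := by
  refine le_antisymm ((𝔓.ultra x y).trans (by rw [max_eq_left h.le])) ?_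
  by_contra hlt
  push Not at hlt
  have := 𝔓.nm_sub_le (x + y) y
  rw [add_sub_cancel_right] at this
  exact absurd this (not_le.mpr (max_lt hlt h))

omit hp in
lemma nm_eq_of_sub_lt {x y : QB} (h : 𝔓.nm (x - y) < 𝔓.nm y) : 𝔓.nm x = 𝔓.nm y := by
  conv_lhs => rw [← add_sub_cancel y x]
  exact 𝔓.nm_add_eq_of_lt h

lemma p_ne_zero : (p : QB) ≠ 0 := Nat.cast_ne_zero.mpr hp.out.ne_zero

lemma inv_p_lt_one : (p : ℝ)⁻¹ < 1 :=
  inv_lt_one_of_one_lt₀ (by exact_mod_cast hp.out.one_lt)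

lemma nm_natCast_le_one (n : ℕ) : 𝔓.nm (n : QB) ≤ 1 :=
  (𝔓.mem_iff _).mp (natCast_mem 𝔓.P n)

lemma nm_natCast_eq_one {n : ℕ} (hn : ¬ p ∣ n) : 𝔓.nm (n : QB) = 1 := by
  refine le_antisymm (𝔓.nm_natCast_le_one n) ?_
  by_contra hlt
  push Not at hlt
  obtain ⟨u, v, huv⟩ := Int.isCoprime_iff_gcd_eq_one.mpr
    (show Int.gcd (p : ℤ) (n : ℤ) = 1 by
      rw [Int.gcd_natCast_natCast]; exact (hp.out.coprime_iff_not_dvd.mpr hn))
  have h1 : (u : QB) * (p : QB) + (v : QB) * (n : QB) = 1 := by exact_mod_cast huv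
  have hle : ∀ z : ℤ, 𝔓.nm (z : QB) ≤ 1 := fun z => (𝔓.mem_iff _).mp (intCast_mem 𝔓.P z)
  have := 𝔓.ultra ((u : QB) * p) ((v : QB) * n)
  rw [h1, AbsoluteValue.map_one, map_mul, map_mul, 𝔓.nm_p] at this
  refine absurd this (not_le.mpr (max_lt ?_ ?_))
  · exact (mul_le_of_le_one_left (by positivity) (hle u)).trans_lt inv_p_lt_one
  · exact (mul_le_of_le_one_left (𝔓.nm_nonneg _) (hle v)).trans_lt hlt

omit hp in
lemma mem_nonunits_iff (x : QB) : x ∈ 𝔓.P.nonunits ↔ 𝔓.nm x < 1 := by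
  rw [ValuationSubring.mem_nonunits_iff_or, 𝔓.mem_iff x⁻¹]
  by_cases hx : x = 0
  · simp [hx]
  · have hpos : 0 < 𝔓.nm x := 𝔓.nm.pos hx
    rw [map_inv₀, not_le, one_lt_inv₀ hpos]
    simp [hx]

lemma liesOverPrime : 𝔓.P.LiesOverPrime p := by
  rw [ValuationSubring.LiesOverPrime, 𝔓.mem_nonunits_iff, 𝔓.nm_p]
  exact inv_p_lt_one

/-- The decomposition group. -/
abbrev D : Subgroup GQ := 𝔓.P.decompositionSubgroup ℚ

/-- The inertia group. -/
abbrev I : Subgroup GQ := 𝔓.P.inertiaSubgroupIn ℚ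

omit hp in
lemma mem_iff_of_mem_D {σ : GQ} (hσ : σ ∈ 𝔓.D) (x : QB) : σ x ∈ 𝔓.P ↔ x ∈ 𝔓.P := by
  have h : σ • 𝔓.P = 𝔓.P := MulAction.mem_stabilizer_iff.mp hσ
  conv_lhs => rw [← h, ValuationSubring.mem_pointwise_smul_iff_inv_smul_mem]
  simp [AlgEquiv.smul_def]

/-- The absolute value is invariant under the decomposition group. -/
lemma nm_apply {σ : GQ} (hσ : σ ∈ 𝔓.D) (x : QB) : 𝔓.nm (σ x) = 𝔓.nm x := by
  suffices key : ∀ σ ∈ 𝔓.D, ∀ x, 𝔓.nm x ≤ 𝔓.nm (σ x) by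
    refine le_antisymm ?_ (key σ hσ x)
    have h := key σ⁻¹ (inv_mem hσ) (σ x)
    simpa using h
  intro σ hσ x
  by_contra hlt
  push Not at hlt
  have hx : x ≠ 0 := by rintro rfl; simp at hlt
  have ha : 0 < 𝔓.nm (σ x) := 𝔓.nm.pos (by simpa using hx)
  obtain ⟨N, hN⟩ := pow_unbounded_of_one_lt (p : ℝ) ((one_lt_div ha).mpr hlt)
  rw [div_pow, lt_div_iff₀ (pow_pos ha N)] at hN
  obtain ⟨M, hM1, hM2⟩ := exists_mem_Ioc_zpow (pow_pos ha N)
    (show (1 : ℝ) < (p : ℝ) by exact_mod_cast hp.out.one_lt)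
  -- `p ^ M < (nm σx)^N ≤ p ^ (M + 1)`
  set y : QB := x ^ N * (p : QB) ^ (M + 1) with hy
  have hyp : 𝔓.nm ((p : QB) ^ (M + 1)) = ((p : ℝ) ^ (M + 1))⁻¹ := by
    rw [map_zpow₀, 𝔓.nm_p, inv_zpow]
  have hq : (0 : ℝ) < (p : ℝ) ^ (M + 1) := zpow_pos (by exact_mod_cast hp.out.pos) _
  have h1 : σ y ∈ 𝔓.P := by
    rw [𝔓.mem_iff, hy, map_mul, map_pow, map_zpow₀, map_natCast, map_mul, map_pow, hyp,
      ← div_eq_mul_inv, div_le_one hq]
    exact hM2
  rw [𝔓.mem_iff_of_mem_D hσ, 𝔓.mem_iff, hy, map_mul, map_pow, hyp, ← div_eq_mul_inv,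
    div_le_one hq, zpow_add_one₀ (by exact_mod_cast hp.out.ne_zero)] at h1
  have h3 : (p : ℝ) ^ M * p < (p : ℝ) * 𝔓.nm (σ x) ^ N := by
    rw [mul_comm]; exact mul_lt_mul_of_pos_left hM1 (by exact_mod_cast hp.out.pos)
  linarith

omit hp in
lemma mem_I_iff {σ : GQ} :
    σ ∈ 𝔓.I ↔ σ ∈ 𝔓.D ∧ ∀ x, 𝔓.nm x ≤ 1 → 𝔓.nm (σ x - x) < 1 := by
  rw [Frobenius.mem_inertiaSubgroupIn_iff]
  simp only [𝔓.mem_iff, 𝔓.mem_nonunits_iff]

omit hp in
lemma I_le_D : 𝔓.I ≤ 𝔓.D := fun _ h => (𝔓.mem_I_iff.mp h).1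

omit hp in
/-- Inertia is normal in the decomposition group. -/
lemma conj_mem_I {σ τ : GQ} (hσ : σ ∈ 𝔓.I) (hτ : τ ∈ 𝔓.D) : τ * σ * τ⁻¹ ∈ 𝔓.I := by
  have h := Frobenius.inertiaSubgroupIn_conj hσ τ
  rwa [MulAction.mem_stabilizer_iff.mp hτ] at h

end LocalPlace

end FLTAgent.TW.Flat
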