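import Fermat.Agent.TW.Flat.Roots
import Mathlib.FieldTheory.IntermediateField.Adjoin.Algebra
import Mathlib.FieldTheory.Minpoly.Basic
import Mathlib.LinearAlgebra.Dimension.Finite
import Mathlib.LinearAlgebra.FiniteDimensional.Lemmas

/-!
# Totally ramified extensions of the inertia field

`TR 𝔓 e`: a field `K ⊇ K₀` with an element `π`, `|π|^e = p⁻¹`, such that every element of `K` is
a `K₀`-combination of `1, π, …, π^(e-1)`.
-/

set_option autoImplicit false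

open scoped Pointwise
open Polynomial

noncomputable section

namespace FLTAgent.TW.Flat

variable {p : ℕ}

/-- A totally ramified extension of the inertia field, with a uniformiser. -/
structure TR (𝔓 : LocalPlace p) (e : ℕ) where
  /-- the field -/
  K : IntermediateField ℚ QB
  /-- the uniformiser -/
  π : QB
  pos : 0 < e
  le : 𝔓.K₀ ≤ K
  mem : π ∈ K
  nm_pow : 𝔓.nm π ^ e = (p : ℝ)⁻¹
  span : ∀ x ∈ K, ∃ c : Fin e → QB, (∀ i, c i ∈ 𝔓.K₀) ∧ x = ∑ i, c i * π ^ (i : ℕ)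

variable [hp : Fact p.Prime] {𝔓 : LocalPlace p} {e : ℕ}

namespace LocalPlace

omit hp in
/-- If the nonzero terms have distinct norms, every term is bounded by the sum. -/
lemma nm_le_nm_sum {ι : Type*} (s : Finset ι) (f : ι → QB)
    (h : ∀ i ∈ s, ∀ j ∈ s, f i ≠ 0 → 𝔓.nm (f i) = 𝔓.nm (f j) → i = j) :
    ∀ i ∈ s, 𝔓.nm (f i) ≤ 𝔓.nm (∑ j ∈ s, f j) := by
  classical
  intro i hi
  obtain ⟨m, hm, hmax⟩ := Finset.exists_max_image s (fun j => 𝔓.nm (f j)) ⟨i, hi⟩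
  by_cases h0 : f m = 0
  · have := hmax i hi
    rw [h0, map_zero] at this
    exact this.trans (𝔓.nm_nonneg _)
  · rw [← Finset.add_sum_erase s f hm]
    rw [𝔓.nm_add_eq_of_lt (𝔓.nm_sum_lt _ _ (𝔓.nm.pos h0) fun j hj => ?_)]
    · exact hmax i hi
    · obtain ⟨hne, hj⟩ := Finset.mem_erase.mp hj
      refine lt_of_le_of_ne (hmax j hj) fun he => hne ?_
      exact (h m hm j hj h0 he.symm).symm

end LocalPlace

namespace TR

variable (T : TR 𝔓 e)

/-- The norm of the uniformiser. -/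
def ρ : ℝ := 𝔓.nm T.π

lemma rho_pow : T.ρ ^ e = (p : ℝ)⁻¹ := T.nm_pow

lemma inv_p_pos : (0 : ℝ) < (p : ℝ)⁻¹ := inv_pos.mpr (by exact_mod_cast hp.out.pos)

lemma rho_pos : 0 < T.ρ := by
  rcases (𝔓.nm_nonneg T.π).lt_or_eq with h | h
  · exact h
  · have := T.nm_pow
    rw [← h, zero_pow T.pos.ne'] at this
    exact absurd this.symm inv_p_pos.ne'

lemma pi_ne_zero : T.π ≠ 0 := fun h => by
  have := T.rho_pos
  rw [ρ, h, map_zero] at this
  exact lt_irrefl _ this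

lemma rho_lt_one : T.ρ < 1 := by
  by_contra h
  push Not at h
  have := one_le_pow₀ (n := e) h
  rw [T.rho_pow] at this
  exact absurd this (not_le.mpr LocalPlace.inv_p_lt_one)

lemma p_zpow_eq (n : ℤ) : (p : ℝ) ^ n = T.ρ ^ (-(e : ℤ) * n) := by
  rw [zpow_mul, zpow_neg, zpow_natCast, T.rho_pow, inv_inv]

lemma zpow_inj {a b : ℤ} (h : T.ρ ^ a = T.ρ ^ b) : a = b :=
  (zpow_right_strictAnti₀ T.rho_pos T.rho_lt_one).injective h

lemma zpow_le_iff {a b : ℤ} : T.ρ ^ a ≤ T.ρ ^ b ↔ b ≤ a :=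
  (zpow_right_strictAnti₀ T.rho_pos T.rho_lt_one).le_iff_ge

lemma zpow_lt_iff {a b : ℤ} : T.ρ ^ a < T.ρ ^ b ↔ b < a :=
  (zpow_right_strictAnti₀ T.rho_pos T.rho_lt_one).lt_iff_gt

/-- The norm of a term `c π^i`. -/
lemma nm_term {c : QB} (hc : c ∈ 𝔓.K₀) (hc0 : c ≠ 0) (i : ℕ) :
    ∃ n : ℤ, 𝔓.nm c = T.ρ ^ ((e : ℤ) * n) ∧
      𝔓.nm (c * T.π ^ i) = T.ρ ^ ((e : ℤ) * n + i) := by
  obtain ⟨n, hn⟩ := 𝔓.exists_zpow_of_mem_K₀ hc hc0
  have hn' : 𝔓.nm c = T.ρ ^ ((e : ℤ) * -n) := by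
    rw [hn, T.p_zpow_eq]; ring_nf
  refine ⟨-n, hn', ?_⟩
  rw [map_mul, map_pow, hn', zpow_add₀ T.rho_pos.ne', zpow_natCast]
  rfl

/-- Distinct terms have distinct norms. -/
lemma term_inj {c : Fin e → QB} (hc : ∀ i, c i ∈ 𝔓.K₀) {i j : Fin e}
    (hi : c i * T.π ^ (i : ℕ) ≠ 0)
    (h : 𝔓.nm (c i * T.π ^ (i : ℕ)) = 𝔓.nm (c j * T.π ^ (j : ℕ))) : i = j := by
  have hci : c i ≠ 0 := left_ne_zero_of_mul hi
  have hcj : c j ≠ 0 := by
    intro h0
    rw [h0, zero_mul, map_zero] at h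
    exact hi (𝔓.nm.eq_zero.mp h)
  obtain ⟨a, -, ha⟩ := T.nm_term (hc i) hci i
  obtain ⟨b, -, hb⟩ := T.nm_term (hc j) hcj j
  rw [ha, hb] at h
  have h2 := congrArg (fun z : ℤ => z % (e : ℤ)) (T.zpow_inj h)
  simp only [Int.mul_add_emod_self_left] at h2
  rw [Int.emod_eq_of_lt (by positivity) (by exact_mod_cast i.2),
    Int.emod_eq_of_lt (by positivity) (by exact_mod_cast j.2)] at h2
  exact Fin.ext (by exact_mod_cast h2)

/-- Each term is bounded by the sum. -/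
lemma nm_term_le {c : Fin e → QB} (hc : ∀ i, c i ∈ 𝔓.K₀) (i : Fin e) :
    𝔓.nm (c i * T.π ^ (i : ℕ)) ≤ 𝔓.nm (∑ j, c j * T.π ^ (j : ℕ)) :=
  LocalPlace.nm_le_nm_sum Finset.univ (fun j => c j * T.π ^ (j : ℕ))
    (fun i _ j _ hi h => T.term_inj hc hi h) i (Finset.mem_univ i)

/-- The expansion is unique. -/
lemma coeff_eq_zero {c : Fin e → QB} (hc : ∀ i, c i ∈ 𝔓.K₀)
    (h : ∑ j, c j * T.π ^ (j : ℕ) = 0) (i : Fin e) : c i = 0 := by
  have := T.nm_term_le hc i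
  rw [h, map_zero] at this
  have h0 := 𝔓.nm.eq_zero.mp (le_antisymm this (𝔓.nm_nonneg _))
  exact (mul_eq_zero.mp h0).resolve_right (pow_ne_zero _ T.pi_ne_zero)

/-- Integral elements have integral coefficients. -/
lemma integral_coeff {c : Fin e → QB} (hc : ∀ i, c i ∈ 𝔓.K₀)
    (h : 𝔓.nm (∑ j, c j * T.π ^ (j : ℕ)) ≤ 1) (i : Fin e) : 𝔓.nm (c i) ≤ 1 := by
  by_cases h0 : c i = 0
  · simp [h0]
  obtain ⟨n, hn1, hn⟩ := T.nm_term (hc i) h0 i
  have h2 := (T.nm_term_le hc i).trans h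
  rw [hn, ← zpow_zero T.ρ, T.zpow_le_iff] at h2
  rw [hn1, ← zpow_zero T.ρ, T.zpow_le_iff]
  have hi : ((i : ℕ) : ℤ) < e := by exact_mod_cast i.2
  by_contra hlt
  push Not at hlt
  have : n ≤ -1 := by
    by_contra hn'
    push Not at hn'
    have : 0 ≤ (e : ℤ) * n := mul_nonneg (by positivity) (by omega)
    omega
  nlinarith [T.pos]

/-- The norms of `K` are powers of `ρ`. -/
lemma exists_zpow {x : QB} (hx : x ∈ T.K) (hx0 : x ≠ 0) : ∃ n : ℤ, 𝔓.nm x = T.ρ ^ n := by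
  obtain ⟨c, hc, rfl⟩ := T.span x hx
  obtain ⟨m, -, hmax⟩ := Finset.exists_max_image (Finset.univ : Finset (Fin e))
    (fun j => 𝔓.nm (c j * T.π ^ (j : ℕ)))
    ⟨⟨0, T.pos⟩, Finset.mem_univ _⟩
  have heq : 𝔓.nm (∑ j, c j * T.π ^ (j : ℕ)) = 𝔓.nm (c m * T.π ^ (m : ℕ)) :=
    le_antisymm (𝔓.nm_sum_le _ _ (𝔓.nm_nonneg _) fun j _ => hmax j (Finset.mem_univ j))
      (T.nm_term_le hc m)
  have hcm : c m ≠ 0 := by
    intro h0
    rw [h0, zero_mul, map_zero] at heq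
    exact hx0 (𝔓.nm.eq_zero.mp heq)
  obtain ⟨n, -, hn⟩ := T.nm_term (hc m) hcm m
  exact ⟨_, heq.trans hn⟩

/-- A norm less than `ρ^n` is at most `ρ^(n+1)`. -/
lemma le_succ_of_lt {x : QB} (hx : x ∈ T.K) {n : ℤ} (h : 𝔓.nm x < T.ρ ^ n) :
    𝔓.nm x ≤ T.ρ ^ (n + 1) := by
  by_cases h0 : x = 0
  · rw [h0, map_zero]; exact (zpow_pos T.rho_pos _).le
  obtain ⟨k, hk⟩ := T.exists_zpow hx h0
  rw [hk, T.zpow_lt_iff] at h
  rw [hk, T.zpow_le_iff]
  omega

lemma le_succ_of_lt_nat {x : QB} (hx : x ∈ T.K) {n : ℕ} (h : 𝔓.nm x < T.ρ ^ n) :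
    𝔓.nm x ≤ T.ρ ^ (n + 1) := by
  rw [← zpow_natCast] at h
  have := T.le_succ_of_lt hx h
  rwa [← Nat.cast_one, ← Nat.cast_add, zpow_natCast] at this

lemma exists_pow_of_le_one {x : QB} (hx : x ∈ T.K) (hx0 : x ≠ 0) (h : 𝔓.nm x ≤ 1) :
    ∃ n : ℕ, 𝔓.nm x = T.ρ ^ n := by
  obtain ⟨k, hk⟩ := T.exists_zpow hx hx0
  rw [hk, ← zpow_zero T.ρ, T.zpow_le_iff] at h
  exact ⟨k.toNat, by rw [hk, ← zpow_natCast, Int.toNat_of_nonneg h]⟩

/-- Leading term: subtract `a π^n` with `a` in the inertia field. -/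
lemma exists_lead {x : QB} (hx : x ∈ T.K) {n : ℕ} (h : 𝔓.nm x ≤ T.ρ ^ n) :
    ∃ a ∈ 𝔓.K₀, 𝔓.nm a ≤ 1 ∧ 𝔓.nm (x - a * T.π ^ n) ≤ T.ρ ^ (n + 1) := by
  have hpn : (0 : ℝ) < T.ρ ^ n := pow_pos T.rho_pos n
  have hq : 𝔓.nm (x / T.π ^ n) ≤ 1 := by
    rw [map_div₀, map_pow]; exact div_le_one_of_le₀ h hpn.le
  obtain ⟨a, ha, hlt⟩ := 𝔓.exists_mem_K₀_congr _ hq
  have ha1 : 𝔓.nm a ≤ 1 := by
    have := 𝔓.nm_sub_le (x / T.π ^ n) (x / T.π ^ n - a)
    rw [sub_sub_cancel] at this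
    exact this.trans (max_le hq hlt.le)
  refine ⟨a, ha, ha1, T.le_succ_of_lt_nat
    (T.K.sub_mem hx (T.K.mul_mem (T.le ha) (pow_mem T.mem n))) ?_⟩
  have e1 : x - a * T.π ^ n = (x / T.π ^ n - a) * T.π ^ n := by
    rw [sub_mul, div_mul_cancel₀ _ (pow_ne_zero n T.pi_ne_zero)]
  rw [e1, map_mul, map_pow]
  calc 𝔓.nm (x / T.π ^ n - a) * 𝔓.nm T.π ^ n < 1 * 𝔓.nm T.π ^ n :=
        mul_lt_mul_of_pos_right hlt hpn
    _ = T.ρ ^ n := one_mul _

lemma fix_le_I : T.K.fixingSubgroup ≤ 𝔓.I := fun σ hσ =>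
  𝔓.mem_I_of_fix fun x hx => (IntermediateField.mem_fixingSubgroup_iff _ _).mp hσ x (T.le hx)

omit hp in
lemma mem_of_fixed {x : QB} (h : ∀ σ ∈ T.K.fixingSubgroup, σ x = x) : x ∈ T.K := by
  have := isGalois_qb
  rw [← InfiniteGalois.fixedField_fixingSubgroup T.K]
  exact (IntermediateField.mem_fixedField_iff _ _).mpr h

end TR

/-- A field spanned over the inertia field by `n` elements which contains an element of norm
`p^(-1/n)` is totally ramified with that uniformiser. -/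
theorem exists_TR_of_span (L : IntermediateField ℚ QB) (hL : 𝔓.K₀ ≤ L) {n : ℕ} (hn : 0 < n)
    {π : QB} (hπ : π ∈ L) (hnm : 𝔓.nm π ^ n = (p : ℝ)⁻¹) {ι : Type} [Fintype ι]
    (hι : Fintype.card ι ≤ n) (y : ι → QB)
    (hy : ∀ x ∈ L, ∃ c : ι → QB, (∀ i, c i ∈ 𝔓.K₀) ∧ x = ∑ i, c i * y i) :
    ∃ T : TR 𝔓 n, T.K = L ∧ T.π = π := by
  classical
  -- auxiliary totally ramified structure on the span of the powers of `π`
  set V : Submodule 𝔓.K₀ QB := Submodule.span 𝔓.K₀ (Set.range y) with hV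
  have hmemV : ∀ x ∈ L, x ∈ V := by
    intro x hx
    obtain ⟨c, hc, rfl⟩ := hy x hx
    exact Submodule.sum_mem _ fun i _ =>
      V.smul_mem (⟨c i, hc i⟩ : 𝔓.K₀) (Submodule.subset_span ⟨i, rfl⟩)
  have : FiniteDimensional 𝔓.K₀ V := FiniteDimensional.span_of_finite 𝔓.K₀ (Set.finite_range y)
  let w : Fin n → V := fun i => ⟨π ^ (i : ℕ), hmemV _ (pow_mem hπ _)⟩
  have hπ0 : π ≠ 0 := by
    rintro rfl
    rw [map_zero, zero_pow hn.ne'] at hnm
    exact (inv_pos.mpr (by exact_mod_cast hp.out.pos : (0 : ℝ) < p)).ne' hnm.symm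
  -- the powers of `π` are independent
  have hli : LinearIndependent 𝔓.K₀ w := by
    rw [Fintype.linearIndependent_iff]
    intro g hg i
    have h0 : ∑ j, (g j : QB) * π ^ (j : ℕ) = 0 := by
      have := congrArg (Subtype.val : V → QB) hg
      simpa [w, Submodule.coe_sum, IntermediateField.smul_def] using this
    have hr1 : 𝔓.nm π < 1 := by
      by_contra h
      push Not at h
      have := one_le_pow₀ (n := n) h
      rw [hnm] at this
      exact absurd this (not_le.mpr LocalPlace.inv_p_lt_one)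
    have hr0 : 0 < 𝔓.nm π := 𝔓.nm.pos hπ0
    have hdist : ∀ i j : Fin n, (g i : QB) * π ^ (i : ℕ) ≠ 0 →
        𝔓.nm ((g i : QB) * π ^ (i : ℕ)) = 𝔓.nm ((g j : QB) * π ^ (j : ℕ)) → i = j := by
      intro i j hi h
      have hj : (g j : QB) ≠ 0 := by
        intro hj
        rw [hj, zero_mul, map_zero] at h
        exact hi (𝔓.nm.eq_zero.mp h)
      obtain ⟨a, ha⟩ := 𝔓.exists_zpow_of_mem_K₀ (g i).2 (left_ne_zero_of_mul hi)
      obtain ⟨b, hb⟩ := 𝔓.exists_zpow_of_mem_K₀ (g j).2 hj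
      have hpz : ∀ a : ℤ, (p : ℝ) ^ a = 𝔓.nm π ^ (-(n : ℤ) * a) := fun a => by
        rw [zpow_mul, zpow_neg, zpow_natCast, hnm, inv_inv]
      rw [map_mul, map_mul, map_pow, map_pow, ha, hb, hpz, hpz, ← zpow_natCast (𝔓.nm π) i,
        ← zpow_natCast (𝔓.nm π) j, ← zpow_add₀ hr0.ne', ← zpow_add₀ hr0.ne'] at h
      have h2 := congrArg (fun z : ℤ => z % (n : ℤ))
        ((zpow_right_strictAnti₀ hr0 hr1).injective h)
      simp only [neg_mul, ← mul_neg, Int.mul_add_emod_self_left] at h2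
      rw [Int.emod_eq_of_lt (by positivity) (by exact_mod_cast i.2),
        Int.emod_eq_of_lt (by positivity) (by exact_mod_cast j.2)] at h2
      exact Fin.ext (by exact_mod_cast h2)
    have := LocalPlace.nm_le_nm_sum (𝔓 := 𝔓) Finset.univ (fun j => (g j : QB) * π ^ (j : ℕ))
      (fun i _ j _ hi h => hdist i j hi h) i (Finset.mem_univ i)
    rw [h0, map_zero] at this
    have h1 := 𝔓.nm.eq_zero.mp (le_antisymm this (𝔓.nm_nonneg _))
    exact Subtype.ext ((mul_eq_zero.mp h1).resolve_right (pow_ne_zero _ hπ0))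
  have hrank : Module.finrank 𝔓.K₀ V ≤ n :=
    ((finrank_range_le_card y).trans hι)
  have hge := hli.fintype_card_le_finrank
  rw [Fintype.card_fin] at hge
  have htop : Submodule.span 𝔓.K₀ (Set.range w) = ⊤ :=
    have : Nonempty (Fin n) := ⟨⟨0, hn⟩⟩
    hli.span_eq_top_of_card_eq_finrank (by rw [Fintype.card_fin]; omega)
  refine ⟨⟨L, π, hn, hL, hπ, hnm, fun x hx => ?_⟩, rfl, rfl⟩
  have hx' : (⟨x, hmemV x hx⟩ : V) ∈ Submodule.span 𝔓.K₀ (Set.range w) := htop ▸ Submodule.mem_top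
  obtain ⟨c, hc⟩ := (Submodule.mem_span_range_iff_exists_fun _).mp hx'
  refine ⟨fun i => (c i : QB), fun i => (c i).2, ?_⟩
  have := congrArg (Subtype.val : V → QB) hc
  simpa [w, Submodule.coe_sum, IntermediateField.smul_def] using this.symm

namespace TR

variable (T : TR 𝔓 e)

/-- `K(y)` for `y^d ∈ K`. -/
def adjoinElt (y : QB) : IntermediateField ℚ QB :=
  IntermediateField.adjoin ℚ ((T.K : Set QB) ∪ {y})

omit hp in
lemma mem_adjoinElt (y : QB) : y ∈ T.adjoinElt y :=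
  IntermediateField.subset_adjoin ℚ _ (Or.inr rfl)

omit hp in
lemma K_le_adjoinElt (y : QB) : T.K ≤ T.adjoinElt y := fun x hx =>
  IntermediateField.subset_adjoin ℚ _ (Or.inl hx)

omit hp in
lemma adjoinElt_le {y : QB} {L : IntermediateField ℚ QB} (hK : T.K ≤ L) (hy : y ∈ L) :
    T.adjoinElt y ≤ L :=
  IntermediateField.adjoin_le_iff.mpr (Set.union_subset hK (Set.singleton_subset_iff.mpr hy))

omit hp in
lemma fix_adjoinElt {y : QB} {σ : GQ} (hσ : σ ∈ T.K.fixingSubgroup) (hy : σ y = y) :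
    σ ∈ (T.adjoinElt y).fixingSubgroup := by
  have hle : T.adjoinElt y ≤ IntermediateField.fixedField (Subgroup.zpowers σ) := by
    refine T.adjoinElt_le (fun x hx => ?_) ?_ <;>
      rw [IntermediateField.mem_fixedField_iff] <;> rintro _ ⟨n, rfl⟩
    · exact (IntermediateField.mem_fixingSubgroup_iff _ _).mp (zpow_mem hσ n) x hx
    · exact MulAction.mem_stabilizer_iff.mp
        (zpow_mem (MulAction.mem_stabilizer_iff.mpr hy : σ ∈ MulAction.stabilizer GQ y) n)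
  rw [IntermediateField.mem_fixingSubgroup_iff]
  exact fun x hx => (IntermediateField.mem_fixedField_iff _ _).mp (hle hx) σ (Subgroup.mem_zpowers σ)

omit hp in
/-- `K(y)` is spanned by `π^i y^j`. -/
lemma adjoinElt_span {y : QB} {d : ℕ} (hd : 0 < d) (hy : y ^ d ∈ T.K) :
    ∀ x ∈ T.adjoinElt y, ∃ c : Fin e × Fin d → QB, (∀ i, c i ∈ 𝔓.K₀) ∧
      x = ∑ i, c i * (T.π ^ (i.1 : ℕ) * y ^ (i.2 : ℕ)) := by
  intro x hx
  rw [adjoinElt, ← IntermediateField.restrictScalars_adjoin, IntermediateField.mem_restrictScalars] at hx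
  set g : Polynomial T.K := X ^ d - C ⟨y ^ d, hy⟩ with hg
  have hgm : g.Monic := monic_X_pow_sub_C _ hd.ne'
  have hgy : aeval y g = 0 := by
    simp only [hg, map_sub, map_pow, aeval_X, aeval_C]
    exact sub_self _
  have hint : IsAlgebraic T.K y := ⟨g, hgm.ne_zero, hgy⟩
  have hx' : x ∈ Algebra.adjoin T.K {y} := by
    rw [← IntermediateField.adjoin_simple_toSubalgebra_of_isAlgebraic hint]
    exact hx
  rw [Algebra.adjoin_singleton_eq_range_aeval] at hx'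
  obtain ⟨f, rfl⟩ := hx'
  have hdeg : (f %ₘ g).natDegree < d := by
    have hg1 : g ≠ 1 := fun h => by
      have := natDegree_X_pow_sub_C (R := T.K) (n := d) (r := ⟨y ^ d, hy⟩)
      rw [← hg, h, natDegree_one] at this
      omega
    have := natDegree_modByMonic_lt f hgm hg1
    rwa [hg, natDegree_X_pow_sub_C] at this
  have hval : aeval y f = aeval y (f %ₘ g) := (aeval_modByMonic_eq_self_of_root hgy).symm
  choose c hc hce using fun j : Fin d => T.span ((f %ₘ g).coeff j : QB) ((f %ₘ g).coeff j).2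
  refine ⟨fun i => c i.2 i.1, fun i => hc _ _, ?_⟩
  change aeval y f = _
  rw [hval, aeval_eq_sum_range' hdeg, Fintype.sum_prod_type, Finset.sum_comm, Finset.sum_range]
  refine Finset.sum_congr rfl fun j _ => ?_
  rw [Algebra.smul_def]
  change ((f %ₘ g).coeff j : QB) * y ^ (j : ℕ) = _
  rw [hce j, Finset.sum_mul]
  exact Finset.sum_congr rfl fun i _ => by ring

/-- `K(y)` is totally ramified of degree `e d` if it has an element of norm `ρ^(1/d)`. -/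
theorem exists_TR_adjoin {y π' : QB} {d : ℕ} (hd : 0 < d) (hy : y ^ d ∈ T.K)
    (hπ' : π' ∈ T.adjoinElt y) (hnm : 𝔓.nm π' ^ d = T.ρ) :
    ∃ T' : TR 𝔓 (e * d), T'.K = T.adjoinElt y ∧ T'.π = π' :=
  exists_TR_of_span (T.adjoinElt y) (T.le.trans (T.K_le_adjoinElt y)) (Nat.mul_pos T.pos hd) hπ'
    (by rw [mul_comm, pow_mul, hnm, T.rho_pow]) (ι := Fin e × Fin d) (by simp)
    (fun i => T.π ^ (i.1 : ℕ) * y ^ (i.2 : ℕ)) (T.adjoinElt_span hd hy)

end TR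

/-- The inertia field itself. -/
theorem exists_TR_one (𝔓 : LocalPlace p) :
    ∃ T : TR 𝔓 1, T.K = 𝔓.K₀ ∧ T.π = (p : QB) := by
  refine exists_TR_of_span 𝔓.K₀ le_rfl one_pos (natCast_mem _ p) (by rw [pow_one, 𝔓.nm_p])
    (ι := Fin 1) (by simp) (fun _ => (1 : QB)) fun x hx => ⟨fun _ => x, fun _ => hx, by simp⟩

end FLTAgent.TW.Flat
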