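import Fermat.Agent.TW.Flat.InertiaField
import Mathlib.RingTheory.Polynomial.Cyclotomic.Eval
import Mathlib.RingTheory.Polynomial.Cyclotomic.Roots

/-!
# `p`-th roots of unity and the estimates for `p`-th roots

Also: an automorphism fixing the fixed field of a subgroup agrees on every finite normal
subextension with an element of that subgroup.
-/

set_option autoImplicit false

open scoped Pointwise
open Polynomial

noncomputable section

namespace FLTAgent.TW.Flat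

theorem isGalois_qb : IsGalois ℚ QB := by
  have : Algebra.IsAlgebraic ℚ QB := AlgebraicClosure.isAlgebraic ℚ
  have : IsAlgClosure ℚ QB := ⟨inferInstance, inferInstance⟩
  exact { to_normal := IsAlgClosure.normal ℚ QB }

/-- Every finite set lies in a finite normal subextension. -/
theorem exists_normal_level (L : IntermediateField ℚ QB) [FiniteDimensional ℚ L] :
    ∃ L' : IntermediateField ℚ QB, FiniteDimensional ℚ L' ∧ Normal ℚ L' ∧ L ≤ L' := by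
  have := isGalois_qb
  exact ⟨IntermediateField.normalClosure ℚ L QB, inferInstance, normalClosure.normal ℚ L QB,
    IntermediateField.le_normalClosure L⟩

theorem exists_normal_level_mem (x : QB) :
    ∃ L : IntermediateField ℚ QB, FiniteDimensional ℚ L ∧ Normal ℚ L ∧ x ∈ L := by
  have := isGalois_qb
  have : FiniteDimensional ℚ (IntermediateField.adjoin ℚ {x}) :=
    IntermediateField.adjoin.finiteDimensional (Algebra.IsIntegral.isIntegral x)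
  obtain ⟨L, h1, h2, h3⟩ := exists_normal_level (IntermediateField.adjoin ℚ {x})
  exact ⟨L, h1, h2, h3 (IntermediateField.mem_adjoin_simple_self ℚ x)⟩

/-- An automorphism fixing the fixed field of `H` agrees with an element of `H` on every finite
normal subextension. -/
theorem exists_eqOn_of_fix {H : Subgroup GQ} {g : GQ}
    (hg : ∀ x, (∀ h ∈ H, h x = x) → g x = x) (L : IntermediateField ℚ QB) [FiniteDimensional ℚ L]
    [Normal ℚ L] : ∃ h ∈ H, ∀ x ∈ L, h x = g x := by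
  have := isGalois_qb
  set r := AlgEquiv.restrictNormalHom (F := ℚ) (K₁ := QB) L with hr
  have hrc : ∀ (τ : GQ) (x : L), ((r τ x : L) : QB) = τ (x : QB) := fun τ x =>
    AlgEquiv.restrictNormal_commutes τ L x
  have hmem : r g ∈ (IntermediateField.fixedField (H.map r)).fixingSubgroup := by
    rw [IntermediateField.mem_fixingSubgroup_iff]
    intro x hx
    rw [IntermediateField.mem_fixedField_iff] at hx
    refine Subtype.ext ?_
    rw [hrc]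
    refine hg _ fun h hh => ?_
    rw [← hrc]
    exact congrArg Subtype.val (hx _ (Subgroup.mem_map_of_mem _ hh))
  rw [IntermediateField.fixingSubgroup_fixedField] at hmem
  obtain ⟨h, hh, he⟩ := Subgroup.mem_map.mp hmem
  refine ⟨h, hh, fun x hx => ?_⟩
  rw [← hrc h ⟨x, hx⟩, ← hrc g ⟨x, hx⟩, he]

namespace LocalPlace

variable {p : ℕ} [hp : Fact p.Prime] (𝔓 : LocalPlace p)

omit hp in
lemma smul_P_eq {σ : GQ} (h : ∀ x, σ x ∈ 𝔓.P ↔ x ∈ 𝔓.P) : σ ∈ 𝔓.D := by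
  rw [MulAction.mem_stabilizer_iff]
  ext x
  rw [ValuationSubring.mem_pointwise_smul_iff_inv_smul_mem, AlgEquiv.smul_def]
  have := h (σ⁻¹ x)
  simpa using this.symm

omit hp in
/-- Only inertia fixes the inertia field. -/
lemma mem_I_of_fix {σ : GQ} (h : ∀ x ∈ 𝔓.K₀, σ x = x) : σ ∈ 𝔓.I := by
  have key : ∀ x, ∃ ι ∈ 𝔓.I, ι x = σ x := by
    intro x
    obtain ⟨L, h1, h2, hx⟩ := exists_normal_level_mem x
    obtain ⟨ι, hι, hιe⟩ := exists_eqOn_of_fix (H := 𝔓.I) (g := σ)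
      (fun y hy => h y (𝔓.mem_K₀.mpr hy)) L
    exact ⟨ι, hι, hιe x hx⟩
  refine 𝔓.mem_I_iff.mpr ⟨𝔓.smul_P_eq fun x => ?_, fun x hx => ?_⟩
  · obtain ⟨ι, hι, he⟩ := key x
    rw [← he, 𝔓.mem_iff_of_mem_D (𝔓.I_le_D hι)]
  · obtain ⟨ι, hι, he⟩ := key x
    rw [← he]
    exact (𝔓.mem_I_iff.mp hι).2 x hx

lemma nm_pow_sub_one_le {x : QB} (hx : 𝔓.nm x ≤ 1) (i : ℕ) :
    𝔓.nm (x ^ i - 1) ≤ 𝔓.nm (x - 1) := by
  rw [← geom_sum_mul, map_mul]
  refine mul_le_of_le_one_left (𝔓.nm_nonneg _) (𝔓.nm_sum_le _ _ zero_le_one fun j _ => ?_)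
  rw [map_pow]
  exact pow_le_one₀ (𝔓.nm_nonneg _) hx

/-- All `ζ - 1` have the same norm. -/
lemma nm_pow_sub_one_eq {ζ : QB} (hζ : IsPrimitiveRoot ζ p) {i : ℕ} (hi : ¬ p ∣ i) :
    𝔓.nm (ζ ^ i - 1) = 𝔓.nm (ζ - 1) := by
  have hζ1 := 𝔓.nm_eq_one_of_pow_eq_one hp.out.ne_zero hζ.pow_eq_one
  refine le_antisymm (𝔓.nm_pow_sub_one_le hζ1.le i) ?_
  have h' : IsPrimitiveRoot (ζ ^ i) p :=
    hζ.pow_of_coprime i ((hp.out.coprime_iff_not_dvd.mpr hi).symm)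
  have : NeZero p := ⟨hp.out.ne_zero⟩
  obtain ⟨j, -, hj⟩ := h'.eq_pow_of_pow_eq_one hζ.pow_eq_one
  calc 𝔓.nm (ζ - 1) = 𝔓.nm ((ζ ^ i) ^ j - 1) := by rw [hj]
    _ ≤ 𝔓.nm (ζ ^ i - 1) := 𝔓.nm_pow_sub_one_le (by rw [map_pow, hζ1, one_pow]) j

/-- `|ζ - 1| ^ (p - 1) = p⁻¹`. -/
lemma nm_zeta_sub_one_pow {ζ : QB} (hζ : IsPrimitiveRoot ζ p) :
    𝔓.nm (ζ - 1) ^ (p - 1) = (p : ℝ)⁻¹ := by
  classical
  have hev : (∏ μ ∈ primitiveRoots p QB, (1 - μ)) = (p : QB) := by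
    have h := congrArg (eval (1 : QB)) (cyclotomic_eq_prod_X_sub_primitiveRoots hζ)
    rw [eval_one_cyclotomic_prime, eval_prod] at h
    simpa using h.symm
  rw [← 𝔓.nm_p, ← hev, map_prod, Finset.prod_eq_pow_card (b := 𝔓.nm (ζ - 1))]
  · rw [IsPrimitiveRoot.card_primitiveRoots hζ, Nat.totient_prime hp.out]
  · intro μ hμ
    have : NeZero p := ⟨hp.out.ne_zero⟩
    rw [mem_primitiveRoots hp.out.pos] at hμ
    obtain ⟨i, -, rfl⟩ := hζ.eq_pow_of_pow_eq_one hμ.pow_eq_one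
    rw [𝔓.nm.map_sub, 𝔓.nm_pow_sub_one_eq hζ]
    intro hd
    obtain ⟨k, rfl⟩ := hd
    rw [pow_mul, hζ.pow_eq_one, one_pow] at hμ
    exact hp.out.ne_one (hμ.unique IsPrimitiveRoot.one)

lemma nm_zeta_sub_one_pos {ζ : QB} (hζ : IsPrimitiveRoot ζ p) : 0 < 𝔓.nm (ζ - 1) :=
  𝔓.nm.pos (sub_ne_zero.mpr (hζ.ne_one hp.out.one_lt))

lemma nm_zeta_sub_one_lt_one {ζ : QB} (hζ : IsPrimitiveRoot ζ p) : 𝔓.nm (ζ - 1) < 1 := by
  by_contra h
  push Not at h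
  have h1 := one_le_pow₀ (n := p - 1) h
  rw [𝔓.nm_zeta_sub_one_pow hζ] at h1
  exact absurd h1 (not_le.mpr inv_p_lt_one)

/-- `x^p - 1` is the product of the `x ζ^k - 1`. -/
lemma prod_sub_one {ζ : QB} (hζ : IsPrimitiveRoot ζ p) (y : QB) :
    ∏ k ∈ Finset.range p, (y - ζ ^ k) = y ^ p - 1 := by
  classical
  have h := congrArg (eval y) (X_pow_sub_one_eq_prod (R := QB) hp.out.pos hζ)
  rw [eval_sub, eval_pow, eval_X, eval_one, eval_prod] at h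
  rw [h]
  refine Finset.prod_bij (fun k _ => ζ ^ k) ?_ ?_ ?_ (fun k _ => by simp)
  · intro k _
    rw [mem_nthRootsFinset hp.out.pos, ← pow_mul, mul_comm, pow_mul, hζ.pow_eq_one, one_pow]
  · intro a ha b hb hab
    exact hζ.pow_inj (Finset.mem_range.mp ha) (Finset.mem_range.mp hb) hab
  · intro b hb
    have : NeZero p := ⟨hp.out.ne_zero⟩
    rw [mem_nthRootsFinset hp.out.pos] at hb
    obtain ⟨i, hi, hie⟩ := hζ.eq_pow_of_pow_eq_one hb
    exact ⟨i, Finset.mem_range.mpr hi, hie⟩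

/-- If `|y - 1| > |ζ - 1|` then `|y^p - 1| = |y - 1|^p`. -/
lemma nm_pow_p_sub_one_of_gt {ζ : QB} (hζ : IsPrimitiveRoot ζ p) {y : QB}
    (h : 𝔓.nm (ζ - 1) < 𝔓.nm (y - 1)) : 𝔓.nm (y ^ p - 1) = 𝔓.nm (y - 1) ^ p := by
  rw [← prod_sub_one hζ, map_prod, Finset.prod_eq_pow_card (b := 𝔓.nm (y - 1)), Finset.card_range]
  intro k _
  refine 𝔓.nm_eq_of_sub_lt ?_
  rw [sub_sub_sub_cancel_left, 𝔓.nm.map_sub]
  exact (𝔓.nm_pow_sub_one_le (𝔓.nm_eq_one_of_pow_eq_one hp.out.ne_zero hζ.pow_eq_one).le k).trans_lt h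

/-- If `|y - 1| ≤ |ζ - 1|` then `|y^p - 1| ≤ |ζ - 1|^p`. -/
lemma nm_pow_p_sub_one_of_le {ζ : QB} (hζ : IsPrimitiveRoot ζ p) {y : QB}
    (h : 𝔓.nm (y - 1) ≤ 𝔓.nm (ζ - 1)) : 𝔓.nm (y ^ p - 1) ≤ 𝔓.nm (ζ - 1) ^ p := by
  rw [← prod_sub_one hζ, map_prod]
  refine le_of_le_of_eq (Finset.prod_le_prod (g := fun _ => 𝔓.nm (ζ - 1))
    (fun k _ => 𝔓.nm_nonneg _) fun k _ => ?_) (by simp)
  rw [show y - ζ ^ k = (y - 1) - (ζ ^ k - 1) by ring]
  exact (𝔓.nm_sub_le _ _).trans (max_le h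
    (𝔓.nm_pow_sub_one_le (𝔓.nm_eq_one_of_pow_eq_one hp.out.ne_zero hζ.pow_eq_one).le k))

/-- Congruent `p`-th roots of unity within less than `|ζ - 1|` are equal. -/
lemma eq_one_of_pow_p_eq_one {ζ u : QB} (hζ : IsPrimitiveRoot ζ p) (hu : u ^ p = 1)
    (h : 𝔓.nm (u - 1) < 𝔓.nm (ζ - 1)) : u = 1 := by
  have : NeZero p := ⟨hp.out.ne_zero⟩
  obtain ⟨i, -, rfl⟩ := hζ.eq_pow_of_pow_eq_one hu
  by_contra hne
  refine h.ne (𝔓.nm_pow_sub_one_eq hζ fun hd => hne ?_)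
  obtain ⟨k, rfl⟩ := hd
  rw [pow_mul, hζ.pow_eq_one, one_pow]

end LocalPlace

end FLTAgent.TW.Flat
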