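import Fermat.Agent.TW.Flat.Lift
import Mathlib.LinearAlgebra.Matrix.Charpoly.Basic
import Mathlib.LinearAlgebra.Matrix.ToLinearEquiv

/-!
# The residual representation at a place over `p`

In suitable coordinates a residual representation with a flat lift is either upper triangular on
the decomposition group, or tame and dihedral, with a generator of tame inertia diagonal.
-/

set_option autoImplicit false

open scoped Pointwise
open FLTAgent.Deformation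

noncomputable section

namespace FLTAgent.TW.Flat

variable {k : Type} [Field k]

/-! ### Two by two matrices -/

lemma sq_eq_zero_of_pow_eq_zero {M : Mat k} {n : ℕ} (h : M ^ n = 0) : M * M = 0 := by
  have hdet : M.det = 0 := by
    have hn : n ≠ 0 := by
      rintro rfl
      rw [pow_zero] at h
      exact one_ne_zero h
    have := congrArg Matrix.det h
    rw [Matrix.det_pow] at this
    exact (pow_eq_zero_iff hn).mp (this.trans Matrix.det_zero)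
  have hsq : M * M = (M 0 0 + M 1 1) • M := by
    rw [Matrix.det_fin_two] at hdet
    ext i j
    fin_cases i <;> fin_cases j <;> simp [Matrix.mul_apply, Fin.sum_univ_two] <;>
      first
        | ring1
        | linear_combination hdet
        | linear_combination (-1 : k) * hdet
  have hpow : ∀ j, M ^ (j + 1) = (M 0 0 + M 1 1) ^ j • M := by
    intro j
    induction j with
    | zero => simp
    | succ j ih => rw [pow_succ, ih, Matrix.smul_mul, hsq, smul_smul, ← pow_succ]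
  cases n with
  | zero => rw [pow_zero] at h; exact absurd h one_ne_zero
  | succ n =>
    rw [hpow, smul_eq_zero] at h
    rcases h with h | h
    · rw [hsq, (pow_eq_zero_iff'.mp h).1, zero_smul]
    · rw [h, zero_mul]

lemma exists_smul_of_det_eq_zero {v x : Fin 2 → k} (hv : v ≠ 0)
    (hd : v 0 * x 1 - x 0 * v 1 = 0) : ∃ c : k, x = c • v := by
  by_cases h0 : v 0 = 0
  · have hv1 : v 1 ≠ 0 := fun h => hv (funext fun i => by fin_cases i <;> assumption)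
    refine ⟨x 1 / v 1, funext fun i => ?_⟩
    fin_cases i <;> simp [h0, hv1]
    rw [h0, zero_mul, zero_sub, neg_eq_zero] at hd
    exact (mul_eq_zero.mp hd).resolve_right hv1
  · refine ⟨x 0 / v 0, funext fun i => ?_⟩
    fin_cases i <;> simp [h0]
    field_simp
    linear_combination hd

lemma exists_smul_of_killed {M : Mat k} (hM : M ≠ 0) {v x : Fin 2 → k} (hv : v ≠ 0)
    (h1 : Matrix.mulVec M v = 0) (h2 : Matrix.mulVec M x = 0) : ∃ c : k, x = c • v := by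
  have hd : v 0 * x 1 - x 0 * v 1 = 0 := by
    by_contra hd
    refine hM (Matrix.ext fun i j => ?_)
    have e1 := congrFun h1 i
    have e2 := congrFun h2 i
    simp [Matrix.mulVec, dotProduct, Fin.sum_univ_two] at e1 e2
    have h0 : M i 0 * (v 0 * x 1 - x 0 * v 1) = 0 := by linear_combination x 1 * e1 - v 1 * e2
    have h3 : M i 1 * (v 0 * x 1 - x 0 * v 1) = 0 := by linear_combination v 0 * e2 - x 0 * e1
    fin_cases j
    · exact (mul_eq_zero.mp h0).resolve_right hd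
    · exact (mul_eq_zero.mp h3).resolve_right hd
  exact exists_smul_of_det_eq_zero hv hd

/-- The unit with the given columns. -/
def colUnit (v w : Fin 2 → k) (h : v 0 * w 1 - w 0 * v 1 ≠ 0) : (Mat k)ˣ :=
  Matrix.GeneralLinearGroup.mkOfDetNeZero !![v 0, w 0; v 1, w 1] (by rwa [Matrix.det_fin_two_of])

lemma colUnit_col (v w : Fin 2 → k) (h : v 0 * w 1 - w 0 * v 1 ≠ 0) :
    Matrix.mulVec (colUnit v w h : Mat k) ![1, 0] = v ∧
      Matrix.mulVec (colUnit v w h : Mat k) ![0, 1] = w := by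
  constructor <;> funext i <;> fin_cases i <;>
    simp [colUnit, Matrix.mulVec, dotProduct, Fin.sum_univ_two]

lemma conj_col {g : (Mat k)ˣ} {A : Mat k} {v : Fin 2 → k} {c : k} {e : Fin 2 → k}
    (hg : Matrix.mulVec (g : Mat k) e = v) (hA : Matrix.mulVec A v = c • v) :
    Matrix.mulVec (((g⁻¹ : (Mat k)ˣ) : Mat k) * A * (g : Mat k)) e = c • e := by
  rw [← Matrix.mulVec_mulVec, ← Matrix.mulVec_mulVec, hg, hA, Matrix.mulVec_smul, ← hg,
    Matrix.mulVec_mulVec, Units.inv_mul, Matrix.one_mulVec]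

lemma mul_upper {A B : Mat k} (hB : B 1 0 = 0) (hA : A 1 0 = 0) :
    (A * B) 0 0 = A 0 0 * B 0 0 ∧ (A * B) 1 1 = A 1 1 * B 1 1 ∧ (A * B) 1 0 = 0 := by
  refine ⟨?_, ?_, ?_⟩ <;> simp [Matrix.mul_apply, Fin.sum_univ_two, hA, hB]

lemma pow_upper {A : Mat k} (hA : A 1 0 = 0) (n : ℕ) :
    (A ^ n) 0 0 = A 0 0 ^ n ∧ (A ^ n) 1 1 = A 1 1 ^ n ∧ (A ^ n) 1 0 = 0 := by
  induction n with
  | zero => simp
  | succ n ih =>
    obtain ⟨h1, h2, h3⟩ := mul_upper hA ih.2.2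
    rw [pow_succ]
    exact ⟨by rw [h1, ih.1, pow_succ], by rw [h2, ih.2.1, pow_succ], h3⟩

lemma pow_upper_scalar {A : Mat k} (hA : A 1 0 = 0) (h : A 0 0 = A 1 1) (n : ℕ) :
    (A ^ n) 0 1 * A 0 0 = n * A 0 0 ^ n * A 0 1 := by
  induction n with
  | zero => simp
  | succ n ih =>
    rw [pow_succ, Matrix.mul_apply, Fin.sum_univ_two, (pow_upper hA n).1, ← h, Nat.cast_succ,
      pow_succ]
    linear_combination A 0 0 * ih

lemma eigen_parallel {A : Mat k} {v x : Fin 2 → k} {l : k} (hv : v ≠ 0)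
    (hA : A ≠ l • 1) (h1 : Matrix.mulVec A v = l • v) (h2 : Matrix.mulVec A x = l • x) :
    ∃ c : k, x = c • v := by
  refine exists_smul_of_killed (M := A - l • 1) (sub_ne_zero.mpr hA) hv ?_ ?_ <;>
    rw [Matrix.sub_mulVec, Matrix.smul_mulVec, Matrix.one_mulVec, sub_eq_zero] <;> assumption

/-- The unit with the given columns, `v` and a vector outside its line. -/
lemma exists_colUnit {v : Fin 2 → k} (hv : v ≠ 0) :
    ∃ g : (Mat k)ˣ, Matrix.mulVec (g : Mat k) ![1, 0] = v := by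
  by_cases h0 : v 0 = 0
  · have hv1 : v 1 ≠ 0 := fun h => hv (funext fun i => by fin_cases i <;> assumption)
    exact ⟨colUnit v ![1, 0] (by simpa using hv1), (colUnit_col _ _ _).1⟩
  · exact ⟨colUnit v ![0, 1] (by simpa using h0), (colUnit_col _ _ _).1⟩

lemma conjRep_conjRep {A : Type} [CommRing A] (g g' : (Mat A)ˣ) (N : GQ →* Mat A) :
    conjRep g' (conjRep g N) = conjRep (g' * g) N := by
  refine MonoidHom.ext fun σ => ?_
  simp [conjRep_apply, mul_assoc]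

/-- Matrices with constant entries over the dual numbers. -/
def inlMat (g : (Mat k)ˣ) : (Mat (DualNumber k))ˣ :=
  Units.map ((TrivSqZeroExt.inlHom k k).mapMatrix : Mat k →+* Mat (DualNumber k)).toMonoidHom g

lemma map_inlMat_mul (g g' : (Mat k)ˣ) (X : Mat (DualNumber k)) :
    ((inlMat g : Mat (DualNumber k)) * X * (inlMat g' : Mat (DualNumber k))).map TrivSqZeroExt.fst =
        (g : Mat k) * X.map TrivSqZeroExt.fst * g' ∧
      ((inlMat g : Mat (DualNumber k)) * X * (inlMat g' : Mat (DualNumber k))).map TrivSqZeroExt.snd =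
        (g : Mat k) * X.map TrivSqZeroExt.snd * g' := by
  constructor <;> ext i j <;>
    simp [inlMat, Matrix.mul_apply, Fin.sum_univ_two, DualNumber.snd_mul] <;> ring

variable {p : ℕ} {rb : GQ →* Mat k}

lemma liftCocycle_conj (g : (Mat k)ˣ) (N : GQ →* Mat (DualNumber k)) (σ : GQ) :
    liftCocycle (conjRep g rb) (conjRep (inlMat g) N) σ =
      (g : Mat k) * liftCocycle rb N σ * (↑g⁻¹ : Mat k) := by
  have h := (map_inlMat_mul g g⁻¹ (N σ)).2
  have hi : inlMat g⁻¹ = (inlMat g)⁻¹ := map_inv _ g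
  rw [hi] at h
  rw [liftCocycle, liftCocycle, conjRep_apply, conjRep_apply, h]
  simp [mul_assoc]

lemma IsFlatLift.conj {N : GQ →* Mat (DualNumber k)} (h : IsFlatLift p rb N) (g : (Mat k)ˣ) :
    IsFlatLift p (conjRep g rb) (conjRep (inlMat g) N) := by
  refine ⟨fun σ => ?_, fun σ => ?_, ?_, ?_⟩
  · have h1 := (map_inlMat_mul g g⁻¹ (N σ)).1
    have hi : inlMat g⁻¹ = (inlMat g)⁻¹ := map_inv _ g
    rw [hi, h.fst] at h1
    rw [conjRep_apply, h1, conjRep_apply]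
  · rw [liftCocycle_conj, Matrix.trace_mul_cycle, Units.inv_mul, one_mul, h.trace]
  · obtain ⟨L, hL, hlev⟩ := h.level
    exact ⟨L, hL, fun σ hσ => by rw [conjRep_apply, hlev σ hσ, mul_one, Units.mul_inv]⟩
  · obtain ⟨H₀, i1, i2, hfin, e, hadd, hact⟩ := h.flat
    refine ⟨H₀, i1, i2, hfin, e.trans
      { toFun := fun x => Matrix.mulVec (inlMat g : Mat (DualNumber k)) x
        invFun := fun x => Matrix.mulVec (↑(inlMat g)⁻¹ : Mat (DualNumber k)) x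
        left_inv := fun x => by
          show Matrix.mulVec _ (Matrix.mulVec _ x) = x
          rw [Matrix.mulVec_mulVec, Units.inv_mul, Matrix.one_mulVec]
        right_inv := fun x => by
          show Matrix.mulVec _ (Matrix.mulVec _ x) = x
          rw [Matrix.mulVec_mulVec, Units.mul_inv, Matrix.one_mulVec] },
      fun f f' => ?_, fun σ f f' hff => ?_⟩
    · show Matrix.mulVec _ (e (f * f')) = Matrix.mulVec _ (e f) + Matrix.mulVec _ (e f')
      rw [hadd, Matrix.mulVec_add]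
    · show Matrix.mulVec _ (e f') = mvAct _ σ (Matrix.mulVec _ (e f))
      rw [hact σ f f' hff, mvAct_apply, mvAct_apply, conjRep_apply, Matrix.mulVec_mulVec,
        Matrix.mulVec_mulVec, mul_assoc _ ((inlMat g)⁻¹ : (Mat (DualNumber k))ˣ).val, Units.inv_mul,
        mul_one]

/-! ### Frames -/

variable [hp : Fact p.Prime]

/-- Coordinates adapted to a place over `p`. -/
structure Frame (rb : GQ →* Mat k) (𝔓 : LocalPlace p) where
  /-- `K₀((-p)^(1/(p²-1)))` -/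
  T : TR 𝔓 (p ^ 2 - 1)
  hπ : T.π ^ (p ^ 2 - 1) = -(p : QB)
  /-- a root of unity of order `p` -/
  ζ : QB
  hζ : IsPrimitiveRoot ζ p
  /-- a Frobenius element -/
  τ : GQ
  hτ : 𝔓.IsFrob p τ
  /-- a generator of tame inertia -/
  γ : GQ
  hγ : γ ∈ 𝔓.I
  hprim : IsPrimitiveRoot (T.theta γ) (p ^ 2 - 1)
  /-- the cyclotomic character at `γ` -/
  aγ : ℕ
  haγ : γ ζ = ζ ^ aγ
  /-- the eigenvalues at `γ` -/
  u1 : k
  u2 : k
  rbγ : rb γ = !![u1, 0; 0, u2]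
  hu1 : u1 ^ p ^ 2 = u1
  hu2 : u2 ^ p ^ 2 = u2
  hdet : u1 * u2 = (aγ : k)
  hfix : ∀ σ ∈ T.K.fixingSubgroup, rb σ 0 0 = 1 ∧ rb σ 1 0 = 0 ∧ rb σ 1 1 = 1
  shape :
    ((∀ σ ∈ 𝔓.D, rb σ 1 0 = 0) ∧ u1 ^ p = u1 ∧ u2 ^ p = u2 ∧
        (u1 = (aγ : k) * u2 → (aγ : k) * aγ = 1 → u2 = 1)) ∨
      ((∃ r s, rb τ = !![0, r; s, 0]) ∧ (∀ σ ∈ T.K.fixingSubgroup, rb σ = 1) ∧
        u2 = u1 ^ p ∧ u1 ≠ u2)

section Residual

variable [Finite k] [CharP k p] {𝔓 : LocalPlace p}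

omit [CharP k p] [Finite k] in
/-- Equal residual images of elements agreeing on the level. -/
lemma rb_eq_of_eqOn {L : IntermediateField ℚ QB} (hlev : ∀ σ : GQ, (∀ x ∈ L, σ x = x) → rb σ = 1)
    {σ σ' : GQ} (h : ∀ x ∈ L, σ x = σ' x) : rb σ = rb σ' := by
  have h1 : rb (σ'⁻¹ * σ) = 1 := hlev _ fun x hx => by
    rw [AlgEquiv.mul_apply, h x hx, gq_inv_apply]
  rw [← mul_one (rb σ'), ← h1, ← map_mul, mul_inv_cancel_left]

variable {L : IntermediateField ℚ QB} [FiniteDimensional ℚ L] [Normal ℚ L]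
  (hlev : ∀ σ : GQ, (∀ x ∈ L, σ x = x) → rb σ = 1) {τ : GQ} (hτ : 𝔓.IsFrob p τ)

include hlev hτ

omit [CharP k p] [Finite k] in
/-- A property stable under products and true at Frobenius and on inertia holds on `D`. -/
lemma rb_induction (P : Mat k → Prop) (h1 : P 1) (hmul : ∀ A B, P A → P B → P (A * B))
    (hPτ : P (rb τ)) (hI : ∀ ι ∈ 𝔓.I, P (rb ι)) : ∀ σ ∈ 𝔓.D, P (rb σ) := by
  intro σ hσ
  obtain ⟨j, ι, hι, he⟩ := 𝔓.exists_pow_mul_mem_I L hτ hσ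
  rw [rb_eq_of_eqOn hlev (σ' := τ ^ j * ι) fun x hx => he x hx, map_mul, map_pow]
  refine hmul _ _ ?_ (hI ι hι)
  clear he
  induction j with
  | zero => rwa [pow_zero]
  | succ j ih => rw [pow_succ]; exact hmul _ _ ih hPτ

omit hτ [Finite k] in
lemma wild_sub_one_sq {σ : GQ} (hσ : 𝔓.IsWild L σ) : (rb σ - 1) * (rb σ - 1) = 0 := by
  obtain ⟨n, hn⟩ := hσ.exists_pow_eq_one (fun s => rb s) (fun n => map_pow rb σ n) hlev
  refine sq_eq_zero_of_pow_eq_zero (n := p ^ n) ?_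
  rw [sub_pow_char_pow_of_commute _ _ (Commute.one_right _), hn, one_pow, sub_self]

omit hτ [Finite k] [CharP k p] in
lemma rb_comm_of_wild (hw : ∀ σ, 𝔓.IsWild L σ → rb σ = 1) {σ σ' : GQ} (hσ : σ ∈ 𝔓.I)
    (hσ' : σ' ∈ 𝔓.I) : rb σ * rb σ' = rb σ' * rb σ := by
  have h := hw _ (𝔓.isWild_commutator L hσ hσ')
  calc rb σ * rb σ' = rb (σ * σ' * σ⁻¹ * σ'⁻¹) * (rb σ' * rb σ) := by
        rw [← map_mul, ← map_mul, ← map_mul]; congr 1; group
    _ = rb σ' * rb σ := by rw [h, one_mul]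

end Residual

variable [Finite k] [CharP k p] (𝔓 : LocalPlace p)

/-- The raw data: tame field, root of unity, Frobenius and generator. -/
lemma exists_base :
    ∃ (T : TR 𝔓 (p ^ 2 - 1)) (ζ : QB) (τ γ : GQ) (aγ : ℕ), T.π ^ (p ^ 2 - 1) = -(p : QB) ∧
      IsPrimitiveRoot ζ p ∧ 𝔓.IsFrob p τ ∧ γ ∈ 𝔓.I ∧
      IsPrimitiveRoot (T.theta γ) (p ^ 2 - 1) ∧
      IsPrimitiveRoot (T.theta (γ ^ p ^ 2)) (p ^ 2 - 1) ∧
      γ ζ = ζ ^ aγ ∧ (γ ^ p ^ 2) ζ = ζ ^ aγ := by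
  have h1 : 1 < p ^ 2 := Nat.one_lt_pow two_ne_zero hp.out.one_lt
  obtain ⟨T, hT⟩ := exists_TR_tame 𝔓 (e := p ^ 2 - 1) (by omega)
  have : NeZero (p : QB) := ⟨Nat.cast_ne_zero.mpr hp.out.ne_zero⟩
  obtain ⟨ζ, hζ⟩ := IsAlgClosed.exists_root (Polynomial.cyclotomic p QB)
    (by rw [Polynomial.degree_cyclotomic]
        exact_mod_cast (Nat.totient_pos.mpr hp.out.pos).ne')
  rw [Polynomial.isRoot_cyclotomic_iff] at hζ
  obtain ⟨τ, hτ⟩ := 𝔓.exists_isFrob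
  obtain ⟨γ, hγ, hprim⟩ := T.exists_generator hT rfl
  have : NeZero p := ⟨hp.out.ne_zero⟩
  obtain ⟨a, -, ha⟩ := hζ.eq_pow_of_pow_eq_one (ξ := γ ζ) (by rw [← map_pow, hζ.pow_eq_one, map_one])
  have hpow : ∀ j : ℕ, T.theta (γ ^ j) = T.theta γ ^ j := by
    intro j
    induction j with
    | zero => simp [TR.theta, T.pi_ne_zero]
    | succ j ih => rw [pow_succ γ, pow_succ (T.theta γ), T.theta_mul hT rfl (pow_mem hγ j), ih]
  have hpe : p ^ 2 = (p ^ 2 - 1) + 1 := by omega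
  have hapow : ∀ j : ℕ, (γ ^ j) ζ = ζ ^ a ^ j := by
    intro j
    induction j with
    | zero => simp
    | succ j ih => rw [pow_succ, AlgEquiv.mul_apply, ← ha, map_pow, ih, ← pow_mul, ← pow_succ]
  refine ⟨T, ζ, τ, γ, a, hT, hζ, hτ, hγ, hprim, ?_, ha.symm, ?_⟩
  · rw [hpow, (congrArg (T.theta γ ^ ·) hpe).trans
      (by rw [pow_succ, T.theta_pow hT, one_mul] : T.theta γ ^ (p ^ 2 - 1 + 1) = T.theta γ)]
    exact hprim
  · have hmod : a ^ p ^ 2 % p = a % p := by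
      rw [← ZMod.natCast_eq_natCast_iff', Nat.cast_pow, pow_two, pow_mul, ZMod.pow_card, ZMod.pow_card]
    rw [hapow, pow_eq_pow_mod _ hζ.pow_eq_one, hmod, ← pow_eq_pow_mod _ hζ.pow_eq_one]

omit [Finite k] [CharP k p] in
lemma level_eq : p ^ 2 - 1 = (p + 1) * (p - 1) := by
  have := Nat.sq_sub_sq p 1
  simpa using this

omit [Finite k] in
lemma aγ_ne_one (hp2 : p ≠ 2) {T : TR 𝔓 (p ^ 2 - 1)} (hπ : T.π ^ (p ^ 2 - 1) = -(p : QB)) {ζ : QB}
    (hζ : IsPrimitiveRoot ζ p) {γ : GQ} (hγ : γ ∈ 𝔓.I)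
    (hprim : IsPrimitiveRoot (T.theta γ) (p ^ 2 - 1)) {aγ : ℕ} (haγ : γ ζ = ζ ^ aγ) :
    (aγ : k) ≠ 1 := by
  intro h
  have h1 : ((aγ : ℕ) : 𝔓.RF) = ((1 : ℕ) : 𝔓.RF) := by
    rw [CharP.natCast_eq_natCast 𝔓.RF p, ← CharP.natCast_eq_natCast k p, h, Nat.cast_one]
  rw [← aγ_eq hζ T hπ rfl hγ hprim haγ level_eq, Nat.cast_one] at h1
  have h3 := Nat.le_of_dvd (Nat.succ_pos p)
    ((red_theta_prim T hπ rfl hprim).dvd_of_pow_eq_one _ h1)
  have h4 : 3 ≤ p := by have := hp.out.two_le; omega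
  have h5 : 3 * p ≤ p ^ 2 := by rw [pow_two]; exact Nat.mul_le_mul_right p h4
  omega

omit [Finite k] [CharP k p] hp in
lemma det_eq (hdet : ∀ (σ : GQ) (a : ℕ), (∀ μ : QB, μ ^ p = 1 → σ μ = μ ^ a) →
    (rb σ).det = (a : k)) {ζ : QB} (hζ : IsPrimitiveRoot ζ p) (hp0 : p ≠ 0) {σ : GQ} {a : ℕ}
    (ha : σ ζ = ζ ^ a) : (rb σ).det = (a : k) := by
  refine hdet σ a fun μ hμ => ?_
  have : NeZero p := ⟨hp0⟩
  obtain ⟨i, -, rfl⟩ := hζ.eq_pow_of_pow_eq_one hμ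
  rw [map_pow, ha, ← pow_mul, ← pow_mul, mul_comm]

omit [Finite k] [CharP k p] hp in
lemma det_conj (hdet : ∀ (σ : GQ) (a : ℕ), (∀ μ : QB, μ ^ p = 1 → σ μ = μ ^ a) →
    (rb σ).det = (a : k)) (g : (Mat k)ˣ) (σ : GQ) (a : ℕ)
    (ha : ∀ μ : QB, μ ^ p = 1 → σ μ = μ ^ a) : (conjRep g rb σ).det = (a : k) := by
  rw [conjRep_apply, Matrix.det_units_conj, hdet σ a ha]

/-- The diagonal characters of inertia are trivial on the fixing subgroup. -/
lemma diag_eq_one_on_fix {T : TR 𝔓 (p ^ 2 - 1)} (hπ : T.π ^ (p ^ 2 - 1) = -(p : QB))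
    {L : IntermediateField ℚ QB} [FiniteDimensional ℚ L]
    (hlev : ∀ σ : GQ, (∀ x ∈ L, σ x = x) → rb σ = 1) (i : Fin 2)
    (hmul : ∀ σ ∈ 𝔓.I, ∀ σ' ∈ 𝔓.I, rb (σ * σ') i i = rb σ i i * rb σ' i i)
    (hp2' : ∀ σ ∈ 𝔓.I, rb σ i i ^ p ^ 2 = rb σ i i) :
    ∀ σ ∈ T.K.fixingSubgroup, rb σ i i = 1 := by
  let ψ₀ : 𝔓.I →* k :=
    { toFun := fun σ => rb (σ : GQ) i i
      map_one' := by simp
      map_mul' := fun σ σ' => hmul σ σ.2 σ' σ'.2 }
  intro σ hσ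
  have h := T.char_eq_one_on_fix hπ rfl (G := kˣ) ψ₀.toHomUnits
    ⟨L, inferInstance, fun s hs => Units.ext (by
      show rb (s : GQ) i i = 1
      rw [hlev _ hs, Matrix.one_apply_eq])⟩
    (fun s => Units.ext (by
      show rb (s : GQ) i i ^ (p ^ 2 - 1) = 1
      have h0 : rb (s : GQ) i i ≠ 0 := (ψ₀.toHomUnits s).ne_zero
      refine mul_right_cancel₀ h0 ?_
      rw [one_mul, ← pow_succ, Nat.sub_add_cancel (Nat.one_le_pow _ _ hp.out.pos), hp2' _ s.2]))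
    ⟨σ, T.fix_le_I hσ⟩ hσ
  exact congrArg Units.val h

section Cases

variable (hp2 : p ≠ 2) {L : IntermediateField ℚ QB} [FiniteDimensional ℚ L] [Normal ℚ L]
  (hlev : ∀ σ : GQ, (∀ x ∈ L, σ x = x) → rb σ = 1)
  (hdet : ∀ (σ : GQ) (a : ℕ), (∀ μ : QB, μ ^ p = 1 → σ μ = μ ^ a) → (rb σ).det = (a : k))

include hp2 hlev hdet

/-- The upper triangular case. When the quotient is unramified its eigenvalue comes second. -/
theorem exists_frame_of_upper (hD : ∀ σ ∈ 𝔓.D, rb σ 1 0 = 0)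
    {N : GQ →* Mat (DualNumber k)} (hN : IsFlatLift p rb N) :
    ∃ (g : (Mat k)ˣ) (F : Frame (conjRep g rb) 𝔓),
      (∀ σ ∈ 𝔓.I, rb σ 1 1 = 1) → F.u2 = 1 := by
  obtain ⟨T, ζ, τ, γ₀, aγ, hπ, hζ, hτ, hγ₀, -, hprim, -, haγ⟩ := exists_base 𝔓
  set γ := γ₀ ^ p ^ 2 with hγdef
  have hγ : γ ∈ 𝔓.I := pow_mem hγ₀ _
  have hmul : ∀ σ ∈ 𝔓.D, ∀ σ' ∈ 𝔓.D, rb (σ * σ') 0 0 = rb σ 0 0 * rb σ' 0 0 ∧
      rb (σ * σ') 1 1 = rb σ 1 1 * rb σ' 1 1 := fun σ hσ σ' hσ' => by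
    rw [map_mul]
    exact ⟨(mul_upper (hD σ' hσ') (hD σ hσ)).1, (mul_upper (hD σ' hσ') (hD σ hσ)).2.1⟩
  have hpow : ∀ σ ∈ 𝔓.I, rb σ 0 0 ^ p = rb σ 0 0 ∧ rb σ 1 1 ^ p = rb σ 1 1 := by
    intro σ hσ
    have hσD := 𝔓.I_le_D hσ
    set w := τ * σ * τ⁻¹ * (σ ^ p)⁻¹ with hwdef
    have hw : 𝔓.IsWild L w := 𝔓.isWild_frob L hσ hτ
    have h2 := wild_sub_one_sq hlev hw
    have hwD : rb w 1 0 = 0 := hD _ (𝔓.I_le_D hw.1)
    have e : rb w * rb σ ^ p * rb τ = rb τ * rb σ := by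
      rw [← map_pow, ← map_mul, ← map_mul, ← map_mul]
      congr 1
      rw [hwdef]; group
    clear_value w
    have hp10 := (pow_upper (hD σ hσD) p).2.2
    obtain ⟨m1, m2, m3⟩ := mul_upper hp10 hwD
    obtain ⟨n1, n2, -⟩ := mul_upper (hD τ hτ.1) m3
    obtain ⟨l1, l2, -⟩ := mul_upper (hD σ hσD) (hD τ hτ.1)
    have hdiag : rb τ 0 0 * rb τ 1 1 ≠ 0 := by
      have := congrArg Matrix.det (rb_mul_inv rb τ)
      rw [Matrix.det_mul, Matrix.det_fin_two, hD τ hτ.1, mul_zero, sub_zero, Matrix.det_one] at this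
      exact fun h => by simp [h] at this
    have w1 : rb w 0 0 = 1 ∧ rb w 1 1 = 1 := by
      have a := congrFun (congrFun h2 0) 0
      have b := congrFun (congrFun h2 1) 1
      simp [Matrix.mul_apply, Fin.sum_univ_two, hwD, sub_eq_zero] at a b
      exact ⟨a, b⟩
    have a := congrFun (congrFun e 0) 0
    have b := congrFun (congrFun e 1) 1
    rw [n1, m1, l1, w1.1, one_mul, (pow_upper (hD σ hσD) p).1, mul_comm] at a
    rw [n2, m2, l2, w1.2, one_mul, (pow_upper (hD σ hσD) p).2.1, mul_comm] at b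
    exact ⟨mul_left_cancel₀ (left_ne_zero_of_mul hdiag) a,
      mul_left_cancel₀ (right_ne_zero_of_mul hdiag) b⟩
  have hsq : ∀ x : k, x ^ p = x → x ^ p ^ 2 = x := fun x hx => by rw [pow_two, pow_mul, hx, hx]
  have hfix : ∀ σ ∈ T.K.fixingSubgroup, rb σ 0 0 = 1 ∧ rb σ 1 1 = 1 := fun σ hσ =>
    ⟨diag_eq_one_on_fix 𝔓 hπ hlev 0
        (fun s hs s' hs' => (hmul s (𝔓.I_le_D hs) s' (𝔓.I_le_D hs')).1)
        (fun s hs => hsq _ (hpow s hs).1) σ hσ,
      diag_eq_one_on_fix 𝔓 hπ hlev 1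
        (fun s hs s' hs' => (hmul s (𝔓.I_le_D hs) s' (𝔓.I_le_D hs')).2)
        (fun s hs => hsq _ (hpow s hs).2) σ hσ⟩
  set u1 := rb γ 0 0 with hu1
  set u2 := rb γ 1 1 with hu2
  set n := rb γ 0 1 with hn
  have hn0 : u1 = u2 → n = 0 := by
    intro h
    have hA := hD γ₀ (𝔓.I_le_D hγ₀)
    have e1 := (pow_upper hA (p ^ 2)).1
    have e2 := (pow_upper hA (p ^ 2)).2.1
    rw [hu1, hu2, hγdef, map_pow, e1, e2, hsq _ (hpow γ₀ hγ₀).1, hsq _ (hpow γ₀ hγ₀).2] at h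
    have h3 := pow_upper_scalar hA h (p ^ 2)
    rw [← map_pow, ← hγdef, ← hn, Nat.cast_pow, CharP.cast_eq_zero k p, zero_pow two_ne_zero,
      zero_mul, zero_mul] at h3
    refine (mul_eq_zero.mp h3).resolve_right fun h0 => ?_
    have := congrArg Matrix.det (rb_mul_inv rb γ₀)
    rw [Matrix.det_mul, Matrix.det_fin_two, hA, h0] at this
    simp at this
  set t := n / (u1 - u2) with ht
  have ht' : n + t * u2 - t * u1 = 0 := by
    by_cases h : u1 = u2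
    · rw [hn0 h, h]; ring
    · rw [ht]; field_simp [sub_ne_zero.mpr h]; ring
  let g₁ : (Mat k)ˣ :=
    ⟨!![1, t; 0, 1], !![1, -t; 0, 1], by
      ext i j; fin_cases i <;> fin_cases j <;> simp [Matrix.mul_apply, Fin.sum_univ_two], by
      ext i j; fin_cases i <;> fin_cases j <;> simp [Matrix.mul_apply, Fin.sum_univ_two]⟩
  set rb' := conjRep g₁ rb with hrb'
  have hent : ∀ σ ∈ 𝔓.D, rb' σ 0 0 = rb σ 0 0 ∧ rb' σ 1 0 = 0 ∧ rb' σ 1 1 = rb σ 1 1 ∧
      rb' σ 0 1 = rb σ 0 1 + t * rb σ 1 1 - t * rb σ 0 0 := fun σ hσ => by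
    simp [hrb', conjRep_apply, g₁, Matrix.mul_apply, Matrix.vecMul, dotProduct, Fin.sum_univ_two, hD σ hσ]
    ring
  have hrγ : rb' γ = !![u1, 0; 0, u2] := by
    obtain ⟨a, b, c, d⟩ := hent γ (𝔓.I_le_D hγ)
    ext i j
    fin_cases i <;> fin_cases j
    exacts [a, d.trans ht', b, c]
  have hdet' := det_conj hdet g₁
  have huu : u1 * u2 = (aγ : k) := by
    have := det_eq hdet' hζ hp.out.ne_zero haγ
    rwa [hrγ, Matrix.det_fin_two_of, mul_zero, sub_zero] at this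
  have hfix' : ∀ σ ∈ T.K.fixingSubgroup, rb' σ 0 0 = 1 ∧ rb' σ 1 0 = 0 ∧ rb' σ 1 1 = 1 :=
    fun σ hσ => by
      obtain ⟨a, b, c, -⟩ := hent σ (𝔓.I_le_D (T.fix_le_I hσ))
      exact ⟨a.trans (hfix σ hσ).1, b, c.trans (hfix σ hσ).2⟩
  by_cases htr : u1 = (aγ : k) * u2 → (aγ : k) * aγ = 1 → u2 = 1
  · exact ⟨g₁, {
      T := T, hπ := hπ, ζ := ζ, hζ := hζ, τ := τ, hτ := hτ, γ := γ, hγ := hγ, hprim := hprim,
      aγ := aγ, haγ := haγ, u1 := u1, u2 := u2, rbγ := hrγ,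
      hu1 := hsq _ (hpow γ hγ).1, hu2 := hsq _ (hpow γ hγ).2, hdet := huu, hfix := hfix',
      shape := Or.inl ⟨fun σ hσ => (hent σ hσ).2.1, (hpow γ hγ).1, (hpow γ hγ).2, htr⟩ },
      fun h => h γ hγ⟩
  push Not at htr
  obtain ⟨hua, ha2, hu2ne⟩ := htr
  have ha : (aγ : k) = -1 :=
    (mul_self_eq_one_iff.mp ha2).resolve_left (aγ_ne_one 𝔓 hp2 hπ hζ hγ hprim haγ)
  rw [ha] at hua huu
  have hu2' : u2 = -1 := by
    have : u2 * u2 = 1 := by linear_combination -huu + u2 * hua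
    exact (mul_self_eq_one_iff.mp this).resolve_left hu2ne
  have hu1' : u1 = 1 := by rw [hua, hu2']; ring
  have hD' : ∀ σ ∈ 𝔓.D, rb' σ 1 0 = 0 := fun σ hσ => (hent σ hσ).2.1
  have hI : ∀ σ ∈ 𝔓.I, rb' σ 0 0 = 1 := by
    intro σ hσ
    obtain ⟨j, hj⟩ := T.exists_pow_mul_fix hπ rfl hγ hprim hσ
    have e : rb' σ = rb' γ ^ j * rb' ((γ ^ j)⁻¹ * σ) := by
      rw [← map_pow, ← map_mul, mul_inv_cancel_left]
    rw [e, (mul_upper (hfix' _ hj).2.1 (pow_upper (hD' γ (𝔓.I_le_D hγ)) j).2.2).1, (hfix' _ hj).1,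
      (pow_upper (hD' γ (𝔓.I_le_D hγ)) j).1, hrγ]
    simp [hu1']
  have h01 : ∀ σ ∈ 𝔓.D, rb' σ 0 1 = 0 := (hN.conj g₁).entry01_eq_zero_of_connected (𝔓 := 𝔓) hp2 hγ hD'
    (by rw [← hrb', hrγ, hu1', hu2']) hI
  let g₂ : (Mat k)ˣ :=
    ⟨!![0, 1; 1, 0], !![0, 1; 1, 0], by
      ext i j; fin_cases i <;> fin_cases j <;> simp [Matrix.mul_apply, Fin.sum_univ_two], by
      ext i j; fin_cases i <;> fin_cases j <;> simp [Matrix.mul_apply, Fin.sum_univ_two]⟩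
  have hsw : ∀ σ, conjRep g₂ rb' σ = !![rb' σ 1 1, rb' σ 1 0; rb' σ 0 1, rb' σ 0 0] := fun σ => by
    ext i j
    fin_cases i <;> fin_cases j <;>
      simp [conjRep_apply, g₂, Matrix.mul_apply, Matrix.vecMul, dotProduct, Fin.sum_univ_two]
  refine ⟨g₂ * g₁, ?_⟩
  rw [← conjRep_conjRep, ← hrb']
  exact ⟨{
      T := T, hπ := hπ, ζ := ζ, hζ := hζ, τ := τ, hτ := hτ, γ := γ, hγ := hγ, hprim := hprim,
      aγ := aγ, haγ := haγ, u1 := u2, u2 := u1,
      rbγ := by rw [hsw, hrγ]; simp,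
      hu1 := hsq _ (hpow γ hγ).2, hu2 := hsq _ (hpow γ hγ).1,
      hdet := by rw [hu1', hu2', ha]; ring,
      hfix := fun σ hσ => by
        rw [hsw]
        simp [hfix' σ hσ, h01 σ (𝔓.I_le_D (T.fix_le_I hσ))],
      shape := Or.inl ⟨fun σ hσ => by rw [hsw]; simpa using h01 σ hσ, (hpow γ hγ).2, (hpow γ hγ).1,
        fun _ _ => hu1'⟩ }, fun h => absurd (h γ hγ) hu2ne⟩

variable (hsplit : ∀ σ : GQ, ∃ α β : k, (rb σ).charpoly =
  (Polynomial.X - Polynomial.C α) * (Polynomial.X - Polynomial.C β))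

include hsplit

/-- The dihedral case. -/
theorem exists_frame_of_irred
    (hline : ¬ ∃ v : Fin 2 → k, v ≠ 0 ∧ ∀ σ ∈ 𝔓.D, ∃ c : k, Matrix.mulVec (rb σ) v = c • v) :
    ∃ g : (Mat k)ˣ, Nonempty (Frame (conjRep g rb) 𝔓) := by
  obtain ⟨T, ζ, τ, γ, aγ, hπ, hζ, hτ, hγ, hprim, -, haγ, -⟩ := exists_base 𝔓
  have heig : ∀ σ, ∃ v : Fin 2 → k, v ≠ 0 ∧ ∃ c : k, Matrix.mulVec (rb σ) v = c • v := by
    intro σ
    obtain ⟨α, β, h⟩ := hsplit σ
    have h1 : (Matrix.scalar (Fin 2) α - rb σ).det = 0 := by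
      rw [← Matrix.eval_charpoly, h]; simp
    obtain ⟨v, hv, hv2⟩ := Matrix.exists_mulVec_eq_zero_iff.mpr h1
    refine ⟨v, hv, α, ?_⟩
    rw [Matrix.sub_mulVec, sub_eq_zero] at hv2
    rw [← hv2]
    funext i
    simp [Matrix.mulVec_diagonal]
  -- the wild part acts trivially
  have hw : ∀ σ, 𝔓.IsWild L σ → rb σ = 1 := by
    intro w hwild
    by_contra hne
    have hM2 := wild_sub_one_sq hlev hwild
    obtain ⟨v, hv, hMv⟩ : ∃ v : Fin 2 → k, v ≠ 0 ∧ Matrix.mulVec (rb w - 1) v = 0 := by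
      refine Matrix.exists_mulVec_eq_zero_iff.mpr ?_
      have := congrArg Matrix.det hM2
      rw [Matrix.det_mul, Matrix.det_zero] at this
      exact mul_self_eq_zero.mp this
    obtain ⟨g, hg⟩ := exists_colUnit hv
    set r' := conjRep g⁻¹ rb with hr'
    have hr'1 : ∀ σ, r' σ = ((g⁻¹ : (Mat k)ˣ) : Mat k) * rb σ * (g : Mat k) := fun σ => by
      rw [hr', conjRep_apply, inv_inv]
    have hlev' : ∀ σ : GQ, (∀ x ∈ L, σ x = x) → r' σ = 1 := fun σ hσ => by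
      rw [hr'1, hlev σ hσ, mul_one, Units.inv_mul]
    have hw10 : r' w 1 0 = 0 ∧ r' w 0 0 = 1 := by
      have := conj_col (g := g) (A := rb w) (c := 1) hg (by
        rw [Matrix.sub_mulVec, Matrix.one_mulVec, sub_eq_zero] at hMv
        rw [hMv, one_smul])
      rw [← hr'1, one_smul] at this
      exact ⟨by simpa [Matrix.mulVec, dotProduct, Fin.sum_univ_two] using congrFun this 1,
        by simpa [Matrix.mulVec, dotProduct, Fin.sum_univ_two] using congrFun this 0⟩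
    have htr : ∀ {M : Mat k}, M * M = 0 → M 0 0 + M 1 1 = 0 ∧ M 0 0 * M 0 0 + M 0 1 * M 1 0 = 0 := by
      intro M hM
      have a := congrFun (congrFun hM 0) 0
      have b := congrFun (congrFun hM 1) 1
      have c := congrFun (congrFun hM 0) 1
      simp [Matrix.mul_apply, Fin.sum_univ_two] at a b c
      refine ⟨?_, a⟩
      by_contra h
      have h01 : M 0 1 = 0 := (mul_eq_zero.mp (show (M 0 0 + M 1 1) * M 0 1 = 0 by
        linear_combination c)).resolve_left h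
      rw [h01, zero_mul, add_zero, mul_self_eq_zero] at a
      rw [h01, mul_zero, zero_add, mul_self_eq_zero] at b
      exact h (by rw [a, b, add_zero])
    have hM := wild_sub_one_sq hlev' hwild
    have hw11 : r' w 1 1 = 1 := by
      have := (htr hM).1
      simp [hw10.2, sub_eq_zero] at this
      exact this
    have hw01 : r' w 0 1 ≠ 0 := fun h => hne (by
      have h1 : r' w = 1 := by
        ext i j
        fin_cases i <;> fin_cases j <;> simp [h, hw10.1, hw10.2, hw11]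
      rw [hr'1, mul_assoc, Units.inv_mul_eq_iff_eq_mul, mul_one] at h1
      have h2 := congrArg (· * ((g⁻¹ : (Mat k)ˣ) : Mat k)) h1
      simpa [mul_assoc] using h2)
    -- every wild element fixes the line
    have hall : ∀ w', 𝔓.IsWild L w' → r' w' 1 0 = 0 ∧ r' w' 0 0 = 1 := by
      intro w' hw'
      have h1 := htr (wild_sub_one_sq hlev' hw')
      have h2 := (htr (wild_sub_one_sq hlev' (hwild.mul hw'))).1
      simp [map_mul, Matrix.mul_apply, Fin.sum_univ_two, hw10.1, hw10.2, hw11] at h1 h2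
      have h3 : r' w 0 1 * r' w' 1 0 = 0 := by linear_combination h2 - h1.1
      have h4 := (mul_eq_zero.mp h3).resolve_left hw01
      refine ⟨h4, ?_⟩
      have := h1.2
      rw [h4, mul_zero, add_zero] at this
      exact sub_eq_zero.mp (mul_self_eq_zero.mp this)
    refine hline ⟨v, hv, fun σ hσ => ?_⟩
    have hc := hall _ (hwild.conj (inv_mem hσ))
    rw [inv_inv] at hc
    have h5 : Matrix.mulVec (rb (σ⁻¹ * w * σ)) v = v := by
      have h6 : Matrix.mulVec (r' (σ⁻¹ * w * σ)) ![1, 0] = ![1, 0] := by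
        funext i
        fin_cases i <;> simp [Matrix.mulVec, dotProduct, Fin.sum_univ_two, hc.1, hc.2, -map_mul]
      rw [hr'1, ← Matrix.mulVec_mulVec, ← Matrix.mulVec_mulVec, hg] at h6
      have h7 := congrArg (Matrix.mulVec (g : Mat k)) h6
      rwa [Matrix.mulVec_mulVec, Units.mul_inv, Matrix.one_mulVec, hg] at h7
    refine exists_smul_of_killed (M := rb w - 1) (sub_ne_zero.mpr hne) hv hMv ?_
    rw [Matrix.sub_mulVec, Matrix.one_mulVec, sub_eq_zero]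
    have h8 := congrArg (Matrix.mulVec (rb σ)) h5
    rwa [Matrix.mulVec_mulVec, ← map_mul, show σ * (σ⁻¹ * w * σ) = w * σ by group, map_mul,
      ← Matrix.mulVec_mulVec] at h8
  -- inertia is commutative and not scalar
  obtain ⟨σ₀, hσ₀, hσ₀ns⟩ : ∃ σ ∈ 𝔓.I, ∀ c : k, rb σ ≠ c • 1 := by
    by_contra hns
    push Not at hns
    obtain ⟨v, hv, c, hc⟩ := heig τ
    refine hline ⟨v, hv, rb_induction hlev hτ (fun A => ∃ c : k, Matrix.mulVec A v = c • v)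
      ⟨1, by simp⟩ (fun A B ⟨a, ha⟩ ⟨b, hb⟩ => ⟨b * a, by
        rw [← Matrix.mulVec_mulVec, hb, Matrix.mulVec_smul, ha, smul_smul]⟩) ⟨c, hc⟩ fun ι hι => ?_⟩
    obtain ⟨c, hc⟩ := hns ι hι
    exact ⟨c, by rw [hc, Matrix.smul_mulVec, Matrix.one_mulVec]⟩
  obtain ⟨v, hv, l, hl⟩ := heig σ₀
  have hIv : ∀ ι ∈ 𝔓.I, ∃ c : k, Matrix.mulVec (rb ι) v = c • v := by
    intro ι hι
    refine eigen_parallel hv (hσ₀ns l) hl ?_
    rw [Matrix.mulVec_mulVec, rb_comm_of_wild hlev hw hσ₀ hι, ← Matrix.mulVec_mulVec, hl,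
      Matrix.mulVec_smul]
  set w := Matrix.mulVec (rb τ) v with hwdef
  have hIw : ∀ ι ∈ 𝔓.I, ∃ c : k, Matrix.mulVec (rb ι) w = c • w := by
    intro ι hι
    obtain ⟨c, hc⟩ := hIv _ (𝔓.conj_mem_I hι (inv_mem hτ.1))
    refine ⟨c, ?_⟩
    have h := congrArg (Matrix.mulVec (rb τ)) hc
    rwa [Matrix.mulVec_mulVec, Matrix.mulVec_smul, ← map_mul,
      show τ * (τ⁻¹ * ι * τ⁻¹⁻¹) = ι * τ by group, map_mul, ← Matrix.mulVec_mulVec] at h
  have hvw : v 0 * w 1 - w 0 * v 1 ≠ 0 := fun h => by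
    obtain ⟨c, hc⟩ := exists_smul_of_det_eq_zero hv h
    exact hline ⟨v, hv, rb_induction hlev hτ (fun A => ∃ c : k, Matrix.mulVec A v = c • v)
      ⟨1, by simp⟩ (fun A B ⟨a, ha⟩ ⟨b, hb⟩ => ⟨b * a, by
        rw [← Matrix.mulVec_mulVec, hb, Matrix.mulVec_smul, ha, smul_smul]⟩) ⟨c, hc⟩ hIv⟩
  set g := colUnit v w hvw
  obtain ⟨hg1, hg2⟩ := colUnit_col v w hvw
  set r' := conjRep g⁻¹ rb with hr'
  have hr'1 : ∀ σ, r' σ = ((g⁻¹ : (Mat k)ˣ) : Mat k) * rb σ * (g : Mat k) := fun σ => by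
    rw [hr', conjRep_apply, inv_inv]
  have hIdiag : ∀ ι ∈ 𝔓.I, r' ι 1 0 = 0 ∧ r' ι 0 1 = 0 := by
    intro ι hι
    obtain ⟨c, hc⟩ := hIv ι hι
    obtain ⟨d, hd⟩ := hIw ι hι
    have a := conj_col hg1 hc
    have b := conj_col hg2 hd
    rw [← hr'1] at a b
    exact ⟨by simpa [Matrix.mulVec, dotProduct, Fin.sum_univ_two] using congrFun a 1,
      by simpa [Matrix.mulVec, dotProduct, Fin.sum_univ_two] using congrFun b 0⟩
  have hτ0 : r' τ 0 0 = 0 ∧ r' τ 1 0 = 1 := by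
    have a : Matrix.mulVec (r' τ) ![1, 0] = ![0, 1] := by
      rw [hr'1, ← Matrix.mulVec_mulVec, ← Matrix.mulVec_mulVec, hg1, ← hwdef, ← hg2,
        Matrix.mulVec_mulVec, Units.inv_mul, Matrix.one_mulVec]
    exact ⟨by simpa [Matrix.mulVec, dotProduct, Fin.sum_univ_two] using congrFun a 0,
      by simpa [Matrix.mulVec, dotProduct, Fin.sum_univ_two] using congrFun a 1⟩
  have hr01 : r' τ 0 1 ≠ 0 := fun h => by
    have := congrArg Matrix.det (rb_mul_inv r' τ)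
    rw [Matrix.det_mul, Matrix.det_fin_two, hτ0.1, h] at this
    simp at this
  have hrel : ∀ σ ∈ 𝔓.I, r' σ 0 0 = r' σ 1 1 ^ p ∧ r' σ 0 1 = 0 ∧ r' σ 1 0 = 0 ∧
      r' σ 1 1 = r' σ 0 0 ^ p ∧
      r' τ 1 1 * r' σ 1 1 = r' σ 0 0 * r' τ 1 1 := by
    intro σ hσ
    obtain ⟨a, b⟩ := hIdiag σ hσ
    have e : r' τ * r' σ = r' σ ^ p * r' τ := by
      have h1 : r' (τ * σ * τ⁻¹ * (σ ^ p)⁻¹) = 1 := by
        rw [hr'1, hw _ (𝔓.isWild_frob L hσ hτ), mul_one, Units.inv_mul]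
      rw [← map_pow, ← map_mul, ← map_mul, ← one_mul (r' (σ ^ p * τ)), ← h1, ← map_mul]
      congr 1
      group
    have h00 := (pow_upper a p).1
    have h11 := (pow_upper a p).2.1
    have h10 := (pow_upper a p).2.2
    have h01 : (r' σ ^ p) 0 1 = 0 := by rw [← map_pow]; exact (hIdiag _ (pow_mem hσ p)).2
    have e1 := congrFun (congrFun e 1) 0
    have e2 := congrFun (congrFun e 0) 1
    have e3 := congrFun (congrFun e 1) 1
    simp [Matrix.mul_apply, Fin.sum_univ_two, a, b, h10, h01, h00, h11, hτ0] at e1 e2 e3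
    have e2' : r' σ 1 1 = r' σ 0 0 ^ p := mul_left_cancel₀ hr01 (e2.trans (mul_comm _ _))
    refine ⟨e1, b, a, e2', ?_⟩
    rw [← e1] at e3
    exact e3
  have hτ11 : r' τ 1 1 = 0 := by
    obtain ⟨e1, e2, e3, e4, e5⟩ := hrel σ₀ hσ₀
    by_contra h
    have heq : r' σ₀ 1 1 = r' σ₀ 0 0 := mul_left_cancel₀ h (by rw [e5]; ring)
    refine hσ₀ns (r' σ₀ 0 0) ?_
    have h1 : r' σ₀ = r' σ₀ 0 0 • (1 : Mat k) := by
      ext i j
      fin_cases i <;> fin_cases j <;> simp [e2, e3, heq]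
    have h2 : (g : Mat k) * r' σ₀ * ((g⁻¹ : (Mat k)ˣ) : Mat k) = rb σ₀ := by
      rw [hr'1]; simp [mul_assoc]
    rw [← h2, h1]
    simp
  have hsq : ∀ σ ∈ 𝔓.I, r' σ 0 0 ^ p ^ 2 = r' σ 0 0 ∧ r' σ 1 1 ^ p ^ 2 = r' σ 1 1 := fun σ hσ => by
    obtain ⟨e1, -, -, e4, -⟩ := hrel σ hσ
    exact ⟨by rw [pow_two, pow_mul, ← e4, ← e1], by rw [pow_two, pow_mul, ← e1, ← e4]⟩
  have hlev' : ∀ σ : GQ, (∀ x ∈ L, σ x = x) → r' σ = 1 := fun σ hσ => by
    rw [hr'1, hlev σ hσ, mul_one, Units.inv_mul]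
  have hfix : ∀ σ ∈ T.K.fixingSubgroup, r' σ = 1 := by
    intro σ hσ
    obtain ⟨a, b⟩ := hIdiag σ (T.fix_le_I hσ)
    have c := diag_eq_one_on_fix 𝔓 hπ hlev' 0
      (fun s hs s' hs' => by rw [map_mul]; exact (mul_upper (hIdiag s' hs').1 (hIdiag s hs).1).1)
      (fun s hs => (hsq s hs).1) σ hσ
    have d := diag_eq_one_on_fix 𝔓 hπ hlev' 1
      (fun s hs s' hs' => by rw [map_mul]; exact (mul_upper (hIdiag s' hs').1 (hIdiag s hs).1).2.1)
      (fun s hs => (hsq s hs).2) σ hσ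
    ext i j
    fin_cases i <;> fin_cases j <;> simp [a, b, c, d]
  obtain ⟨e1, e2, e3, e4, -⟩ := hrel γ hγ
  have hne : r' γ 0 0 ≠ r' γ 1 1 := by
    intro h
    obtain ⟨j, hj⟩ := T.exists_pow_mul_fix hπ rfl hγ hprim hσ₀
    have h1 : r' γ = r' γ 0 0 • (1 : Mat k) := by
      ext i j'
      fin_cases i <;> fin_cases j' <;> simp [e2, e3, h]
    have h2 : r' σ₀ = r' γ 0 0 ^ j • (1 : Mat k) := by
      rw [show σ₀ = γ ^ j * ((γ ^ j)⁻¹ * σ₀) by group, map_mul, hfix _ hj, mul_one, map_pow]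
      conv_lhs => rw [h1]
      rw [smul_pow, one_pow]
    refine hσ₀ns (r' γ 0 0 ^ j) ?_
    have h3 : (g : Mat k) * r' σ₀ * ((g⁻¹ : (Mat k)ˣ) : Mat k) = rb σ₀ := by
      rw [hr'1]; simp [mul_assoc]
    rw [← h3, h2]
    simp
  refine ⟨g⁻¹, ⟨{
      T := T, hπ := hπ, ζ := ζ, hζ := hζ, τ := τ, hτ := hτ, γ := γ, hγ := hγ, hprim := hprim,
      aγ := aγ, haγ := haγ, u1 := r' γ 0 0, u2 := r' γ 1 1,
      rbγ := by ext i j; fin_cases i <;> fin_cases j <;> simp [← hr', e2, e3],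
      hu1 := (hsq γ hγ).1, hu2 := (hsq γ hγ).2,
      hdet := by
        have := det_eq (det_conj hdet g⁻¹) hζ hp.out.ne_zero haγ
        rwa [← hr', Matrix.det_fin_two, e2, e3, mul_zero, sub_zero] at this,
      hfix := fun σ hσ => by rw [← hr', hfix σ hσ]; simp,
      shape := Or.inr ⟨⟨r' τ 0 1, 1, ?_⟩, fun σ hσ => hfix σ hσ, e4, hne⟩ }⟩⟩
  ext i j
  fin_cases i <;> fin_cases j <;> simp [← hr', hτ0, hτ11]

/-- Adapted coordinates exist as soon as there is a flat lift. -/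
theorem exists_frame {N : GQ →* Mat (DualNumber k)} (hN : IsFlatLift p rb N) :
    ∃ g : (Mat k)ˣ, Nonempty (Frame (conjRep g rb) 𝔓) := by
  by_cases hline : ∃ v : Fin 2 → k, v ≠ 0 ∧ ∀ σ ∈ 𝔓.D, ∃ c : k, Matrix.mulVec (rb σ) v = c • v
  swap
  · exact exists_frame_of_irred 𝔓 hp2 hlev hdet hsplit hline
  obtain ⟨v, hv, hD⟩ := hline
  obtain ⟨g, hg⟩ := exists_colUnit hv
  have hD' : ∀ σ ∈ 𝔓.D, conjRep g⁻¹ rb σ 1 0 = 0 := fun σ hσ => by
    obtain ⟨c, hc⟩ := hD σ hσ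
    rw [conjRep_apply, inv_inv]
    simpa [Matrix.mulVec, dotProduct, Fin.sum_univ_two] using congrFun (conj_col hg hc) 1
  obtain ⟨g', F, -⟩ := exists_frame_of_upper 𝔓 hp2 (rb := conjRep g⁻¹ rb) (L := L)
    (fun σ hσ => by rw [conjRep_apply, hlev σ hσ, mul_one, Units.mul_inv])
    (det_conj hdet g⁻¹) hD' (hN.conj g⁻¹)
  refine ⟨g' * g⁻¹, ?_⟩
  rw [← conjRep_conjRep]
  exact ⟨F⟩

end Cases

end FLTAgent.TW.Flat
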