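import Fermat.Agent.TW.Flat.Shape
import Mathlib.Algebra.Field.Subfield.Basic

/-!
# The space of flat cocycles in adapted coordinates

A subspace of dimension at most four of the adjoint cocycles on the decomposition group which
contains the coboundaries and the cocycles of all flat lifts.
-/

set_option autoImplicit false

open scoped Pointwise
open FLTAgent.Deformation

noncomputable section

namespace FLTAgent.TW.Flat

variable {k : Type} [Field k]

/-- A space of dimension at most four containing coboundaries and flat cocycles. -/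
def HasFlatBound (p : ℕ) (rb : GQ →* Mat k) (D : Subgroup GQ) : Prop :=
  ∃ S : Submodule k (D → Mat k), adB1 rb D ≤ S ∧ S ≤ adZ1 rb D ∧ Module.Finite k S ∧
    Module.finrank k S ≤ 4 ∧
    ∀ N, IsFlatLift p rb N → (fun g : D => liftCocycle rb N g) ∈ S

/-! ### The adjoint action -/

section Ad

variable (rb : GQ →* Mat k)

lemma adAct_mul_rb (σ : GQ) (X : Mat k) : adAct rb σ X * rb σ = rb σ * X := by
  rw [adAct, mul_assoc, rb_inv_mul, mul_one]

lemma adAct_of_eq_one {σ : GQ} (h : rb σ = 1) (X : Mat k) : adAct rb σ X = X := by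
  have h' := adAct_mul_rb rb σ X
  rwa [h, mul_one, one_mul] at h'

lemma adAct_adAct (σ τ : GQ) (X : Mat k) :
    adAct rb σ (adAct rb τ X) = adAct rb (σ * τ) X := by
  simp only [adAct, mul_inv_rev, map_mul, mul_assoc]

@[simp] lemma adAct_zero (σ : GQ) : adAct rb σ 0 = 0 := by simp [adAct]

lemma adAct_add (σ : GQ) (X Y : Mat k) : adAct rb σ (X + Y) = adAct rb σ X + adAct rb σ Y := by
  simp [adAct, mul_add, add_mul]

lemma adAct_sub (σ : GQ) (X Y : Mat k) : adAct rb σ (X - Y) = adAct rb σ X - adAct rb σ Y := by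
  simp [adAct, mul_sub, sub_mul]

/-- The adjoint action of an upper unipotent element. -/
lemma adAct_unipotent {σ : GQ} (h : rb σ 0 0 = 1 ∧ rb σ 1 0 = 0 ∧ rb σ 1 1 = 1) (X : Mat k) :
    adAct rb σ X 0 0 = X 0 0 + rb σ 0 1 * X 1 0 ∧
    adAct rb σ X 0 1 =
      X 0 1 + rb σ 0 1 * (X 1 1 - X 0 0) - rb σ 0 1 * rb σ 0 1 * X 1 0 ∧
    adAct rb σ X 1 0 = X 1 0 ∧
    adAct rb σ X 1 1 = X 1 1 - rb σ 0 1 * X 1 0 := by
  have e := adAct_mul_rb rb σ X
  have a := congrFun (congrFun e 0) 0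
  have b := congrFun (congrFun e 0) 1
  have c := congrFun (congrFun e 1) 0
  have d := congrFun (congrFun e 1) 1
  simp [Matrix.mul_apply, Fin.sum_univ_two, h] at a b c d
  rw [a] at b
  rw [c] at d
  exact ⟨a, by linear_combination b, c, by linear_combination d⟩

/-- The adjoint action of a diagonal element. -/
lemma adAct_diagonal {σ : GQ} {u v : k} (h : rb σ = !![u, 0; 0, v]) (hu : u ≠ 0) (hv : v ≠ 0)
    (X : Mat k) :
    adAct rb σ X 0 0 = X 0 0 ∧ adAct rb σ X 0 1 = u * v⁻¹ * X 0 1 ∧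
    adAct rb σ X 1 0 = v * u⁻¹ * X 1 0 ∧ adAct rb σ X 1 1 = X 1 1 := by
  have e := adAct_mul_rb rb σ X
  have a := congrFun (congrFun e 0) 0
  have b := congrFun (congrFun e 0) 1
  have c := congrFun (congrFun e 1) 0
  have d := congrFun (congrFun e 1) 1
  simp [Matrix.mul_apply, Matrix.vecMul, dotProduct, Fin.sum_univ_two, h] at a b c d
  refine ⟨mul_right_cancel₀ hu (a.trans (mul_comm _ _)), ?_, ?_,
    mul_right_cancel₀ hv (d.trans (mul_comm _ _))⟩
  · field_simp; linear_combination b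
  · field_simp; linear_combination c

variable {rb} {D : Subgroup GQ} {c : D → Mat k} (hc : c ∈ adZ1 rb D)

include hc

lemma adZ1_map_one : c 1 = 0 := by
  have h := hc.1 1 1
  rwa [mul_one, OneMemClass.coe_one, adAct_of_eq_one rb (map_one rb), left_eq_add] at h

lemma adZ1_conj (g s : D) :
    c (g * s * g⁻¹) = c g + adAct rb g (c s) - adAct rb ((g * s * g⁻¹ : D) : GQ) (c g) := by
  rw [eq_sub_iff_add_eq, ← hc.1, inv_mul_cancel_right, hc.1]

lemma adZ1_pow {g : D} (hfix : adAct rb g (c g) = c g) (j : ℕ) : c (g ^ j) = j • c g := by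
  induction j with
  | zero => rw [pow_zero, adZ1_map_one hc, zero_smul]
  | succ j ih =>
    rw [pow_succ', hc.1, ih, succ_nsmul']
    have : ∀ i : ℕ, adAct rb g (i • c g) = i • c g := fun i => by
      induction i with
      | zero => simp
      | succ i ih => rw [succ_nsmul, adAct_add, ih, hfix]
    rw [this]

lemma adZ1_trace (g : D) : c g 1 1 = -(c g 0 0) := by
  have h := hc.2.1 g
  rw [Matrix.trace_fin_two] at h
  linear_combination h

end Ad

lemma adB1_le_adZ1 {rb : GQ →* Mat k} (L : IntermediateField ℚ QB) [FiniteDimensional ℚ L]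
    (hlev : ∀ σ : GQ, (∀ x ∈ L, σ x = x) → rb σ = 1) (D : Subgroup GQ) :
    adB1 rb D ≤ adZ1 rb D := by
  rintro _ ⟨X, hX, rfl⟩
  refine ⟨fun g h => ?_, fun g => ?_, L, inferInstance, fun g s hs => ?_⟩
  · show adAct rb ((g : GQ) * h) X - X = adAct rb g X - X + adAct rb g (adAct rb h X - X)
    rw [adAct_sub, adAct_adAct]
    abel
  · show Matrix.trace (adAct rb g X - X) = 0
    rw [Matrix.trace_sub, adAct, Matrix.trace_mul_cycle, rb_inv_mul, one_mul, sub_self]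
  · show adAct rb ((g : GQ) * s) X - X = adAct rb g X - X
    rw [← adAct_adAct, adAct_of_eq_one rb (hlev _ hs)]

namespace Frame

variable {p : ℕ} [hp : Fact p.Prime] {rb : GQ →* Mat k} {𝔓 : LocalPlace p} (F : Frame rb 𝔓)

/-- The fixing subgroup of `K` in the decomposition group. -/
def ι : F.T.K.fixingSubgroup →* 𝔓.D :=
  Subgroup.inclusion (F.T.fix_le_I.trans 𝔓.I_le_D)

/-- The generator in the decomposition group. -/
def γD : 𝔓.D := ⟨F.γ, 𝔓.I_le_D F.hγ⟩

/-- Frobenius in the decomposition group. -/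
def τD : 𝔓.D := ⟨F.τ, F.hτ.1⟩

/-- The ratio of the eigenvalues. -/
def χ : k := F.u1 * F.u2⁻¹

/-- The residual entry on the fixing subgroup. -/
def nK (σ : F.T.K.fixingSubgroup) : k := rb (σ : GQ) 0 1

/-- The vectors killed at the generator. -/
def off : Submodule k (Mat k) :=
  open Classical in
  if F.u1 = F.u2 then ⊥ else Submodule.span k {!![0, 1; 0, 0], !![0, 0; 1, 0]}

section Basic

variable [CharP k p]

lemma hm : p ^ 2 - 1 = (p + 1) * (p - 1) := level_eq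

lemma aγ0 : (F.aγ : k) ≠ 0 :=
  aγ_ne_zero F.hζ F.T F.hπ rfl F.hγ F.hprim F.haγ level_eq

lemma u1_ne : F.u1 ≠ 0 := left_ne_zero_of_mul (F.hdet ▸ F.aγ0)

lemma u2_ne : F.u2 ≠ 0 := right_ne_zero_of_mul (F.hdet ▸ F.aγ0)

lemma χ_ne : F.χ ≠ 0 := mul_ne_zero F.u1_ne (inv_ne_zero F.u2_ne)

lemma χ_inv : F.χ⁻¹ = F.u2 * F.u1⁻¹ := by rw [χ, mul_inv, inv_inv, mul_comm]

lemma χ_eq_iff {a : k} : F.χ = a ↔ F.u1 = a * F.u2 := mul_inv_eq_iff_eq_mul₀ F.u2_ne

lemma χ_inv_eq_iff {a : k} : F.χ⁻¹ = a ↔ F.u2 = a * F.u1 := by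
  rw [F.χ_inv]; exact mul_inv_eq_iff_eq_mul₀ F.u1_ne

lemma ad_γ (X : Mat k) :
    adAct rb F.γ X 0 0 = X 0 0 ∧ adAct rb F.γ X 0 1 = F.χ * X 0 1 ∧
    adAct rb F.γ X 1 0 = F.χ⁻¹ * X 1 0 ∧ adAct rb F.γ X 1 1 = X 1 1 := by
  rw [F.χ_inv]
  exact adAct_diagonal rb F.rbγ F.u1_ne F.u2_ne X

omit [CharP k p] in
lemma uni {σ : GQ} (hσ : σ ∈ F.T.K.fixingSubgroup) : (rb σ - 1) * (rb σ - 1) = 0 := by
  obtain ⟨a, b, c⟩ := F.hfix σ hσ
  ext i j
  fin_cases i <;> fin_cases j <;> simp [Matrix.mul_apply, Fin.sum_univ_two, a, b, c]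

omit [CharP k p] in
lemma nK_add (σ τ : F.T.K.fixingSubgroup) : F.nK (σ * τ) = F.nK σ + F.nK τ := by
  simp [nK, map_mul, Matrix.mul_apply, Fin.sum_univ_two, (F.hfix _ σ.2).1, (F.hfix _ τ.2).2.2]
  ring

omit [CharP k p] in
lemma conj_mem {g : GQ} (hg : g ∈ 𝔓.D) (σ : F.T.K.fixingSubgroup) :
    g * σ * g⁻¹ ∈ F.T.K.fixingSubgroup :=
  F.T.conj_mem_fix F.hπ rfl σ.2 hg

omit [CharP k p] in
lemma ι_conj (g : 𝔓.D) (σ σ' : F.T.K.fixingSubgroup) (h : (σ' : GQ) = g * σ * (g : GQ)⁻¹) :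
    F.ι σ' = g * F.ι σ * g⁻¹ := Subtype.ext h

omit [CharP k p] in
lemma γ_pow_mem : F.γ ^ (p ^ 2 - 1) ∈ F.T.K.fixingSubgroup := by
  refine F.T.mem_fix_of_theta (pow_mem F.hγ _) ?_
  have hpow : ∀ j : ℕ, F.T.theta (F.γ ^ j) = F.T.theta F.γ ^ j := by
    intro j
    induction j with
    | zero => simp [TR.theta, F.T.pi_ne_zero]
    | succ j ih =>
      rw [pow_succ F.γ, pow_succ (F.T.theta F.γ), F.T.theta_mul F.hπ rfl (pow_mem F.hγ j), ih]
  rw [hpow, F.T.theta_pow F.hπ]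

end Basic

variable [Finite k] [CharP k p]

/-- An equivariant homomorphism with eigenvalue in the prime field, not cyclotomic, vanishes. -/
lemma hom_eq_zero {c : k} (hc0 : c ≠ 0) (hcp : c ^ p = c) (hne : c ≠ (F.aγ : k))
    {f : F.T.K.fixingSubgroup → k} (hf : f ∈ levelHom F.hζ F.T (m := p + 1) level_eq (p ^ 2 - 1))
    (heq : ∀ σ σ' : F.T.K.fixingSubgroup, (σ' : GQ) = F.γ * σ * F.γ⁻¹ → f σ' = c * f σ) :
    f = 0 :=
  eq_zero_of_eigen F.hζ F.T F.hπ rfl F.hγ F.hprim F.haγ level_eq hc0 hcp hne hf heq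

variable (hp2 : p ≠ 2)

include hp2

omit [Finite k] in
lemma aγ1 : (F.aγ : k) ≠ 1 := aγ_ne_one 𝔓 hp2 F.hπ F.hζ F.hγ F.hprim F.haγ

/-- In the dihedral case neither ratio is cyclotomic. -/
lemma dihedral_ne (h : F.u2 = F.u1 ^ p) (hne : F.u1 ≠ F.u2) :
    F.χ ≠ (F.aγ : k) ∧ F.χ⁻¹ ≠ (F.aγ : k) := by
  have hback : F.u1 = F.u2 ^ p := by rw [h, ← pow_mul, ← pow_two, F.hu1]
  have hodd : Odd p := hp.out.odd_of_ne_two hp2
  have key : ∀ a b : k, a = b ^ p → b * b = 1 → a = b := by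
    intro a b hab hb
    rcases mul_self_eq_one_iff.mp hb with rfl | rfl
    · rw [hab, one_pow]
    · rw [hab, hodd.neg_one_pow]
  refine ⟨fun he => hne (key _ _ hback ?_), fun he => hne (key _ _ h ?_).symm⟩
  · rw [F.χ_eq_iff, ← F.hdet, mul_assoc] at he
    refine (mul_left_cancel₀ F.u1_ne ?_).symm
    rw [mul_one]; exact he
  · rw [F.χ_inv_eq_iff, ← F.hdet, mul_comm F.u1, mul_assoc] at he
    refine (mul_left_cancel₀ F.u2_ne ?_).symm
    rw [mul_one]; exact he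

variable {N : GQ →* Mat (DualNumber k)} (hN : IsFlatLift p rb N)

include hN

lemma nK_mem : F.nK ∈ levelHom F.hζ F.T (m := p + 1) level_eq (p ^ 2 - 1) :=
  hN.mem_levelHom_of_lift F.T hp2 level_eq F.hζ (fun _ h => F.uni h) F.nK_add fun σ hσ => by
    show rb (σ : GQ) 0 1 = 0
    rw [(hN.of_eq_one hσ).1]
    rfl

lemma nK_eigen (σ σ' : F.T.K.fixingSubgroup) (h : (σ' : GQ) = F.γ * σ * F.γ⁻¹) :
    F.nK σ' = F.χ * F.nK σ := by
  have e : rb (σ' : GQ) * rb F.γ = rb F.γ * rb (σ : GQ) := by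
    rw [← map_mul, ← map_mul, h, inv_mul_cancel_right]
  have b := congrFun (congrFun e 0) 1
  simp [Matrix.mul_apply, Matrix.vecMul, dotProduct, Fin.sum_univ_two, F.rbγ,
    (F.hfix _ σ'.2).1] at b
  rw [nK, nK, χ]
  field_simp [F.u2_ne]
  linear_combination b

/-- A nonzero residual extension has cyclotomic eigenvalue. -/
lemma nK_cases : F.nK = 0 ∨ (F.χ = (F.aγ : k) ∧ ∀ σ ∈ 𝔓.D, rb σ 1 0 = 0) := by
  rcases F.shape with ⟨hD, h1, h2, -⟩ | ⟨-, hfix, -, -⟩
  · by_cases h : F.χ = (F.aγ : k)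
    · exact Or.inr ⟨h, hD⟩
    · exact Or.inl (F.hom_eq_zero F.χ_ne (by rw [χ, mul_pow, inv_pow, h1, h2]) h
        (F.nK_mem hp2 hN) (F.nK_eigen hp2 hN))
  · refine Or.inl (funext fun σ => ?_)
    show rb (σ : GQ) 0 1 = 0
    rw [hfix _ σ.2]; rfl

lemma nK_zero_of_eq (h : F.u1 = F.u2) : F.nK = 0 := by
  refine (F.nK_cases hp2 hN).resolve_right fun h' => F.aγ1 hp2 ?_
  rw [← h'.1, χ, h, mul_inv_cancel₀ F.u2_ne]

section Lift

variable {N' : GQ →* Mat (DualNumber k)} (h' : IsFlatLift p rb N')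

include h'

/-- The lower entry of a flat cocycle is an equivariant homomorphism of level `e`. -/
lemma entry10_mem :
    (fun σ : F.T.K.fixingSubgroup => liftCocycle rb N' σ 1 0) ∈
        levelHom F.hζ F.T (m := p + 1) level_eq (p ^ 2 - 1) ∧
      ∀ σ σ' : F.T.K.fixingSubgroup, (σ' : GQ) = F.γ * σ * F.γ⁻¹ →
        liftCocycle rb N' σ' 1 0 = F.χ⁻¹ * liftCocycle rb N' σ 1 0 := by
  refine ⟨h'.mem_levelHom_of_lift F.T hp2 level_eq F.hζ (fun _ h => F.uni h) (fun σ τ => ?_)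
    fun σ hσ => by simp [(h'.of_eq_one hσ).2], fun σ σ' h => ?_⟩
  · show liftCocycle rb N' ((σ : GQ) * τ) 1 0 = _
    rw [h'.cocycle, Matrix.add_apply, (adAct_unipotent rb (F.hfix _ σ.2) _).2.2.1]
  · have hc := adZ1_conj (h'.mem_adZ1 𝔓.D) F.γD (F.ι σ)
    rw [← F.ι_conj F.γD σ σ' h] at hc
    have : liftCocycle rb N' σ' 1 0 = liftCocycle rb N' F.γ 1 0 +
        adAct rb F.γ (liftCocycle rb N' σ) 1 0 -
        adAct rb (σ' : GQ) (liftCocycle rb N' F.γ) 1 0 := congrFun (congrFun hc 1) 0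
    rw [this, (adAct_unipotent rb (F.hfix _ σ'.2) _).2.2.1, (F.ad_γ _).2.2.1]
    ring

lemma entry10_zero (h : F.χ = (F.aγ : k)) (σ : F.T.K.fixingSubgroup) :
    liftCocycle rb N' σ 1 0 = 0 := by
  rcases F.shape with ⟨hD, h1, h2, htr⟩ | ⟨-, -, h', hne⟩
  swap
  · exact absurd h (F.dihedral_ne hp2 h' hne).1
  obtain ⟨hm1, hm2⟩ := F.entry10_mem hp2 hN h'
  by_cases hinv : F.χ⁻¹ = (F.aγ : k)
  swap
  · exact congrFun (F.hom_eq_zero (inv_ne_zero F.χ_ne)
      (by rw [F.χ_inv, mul_pow, inv_pow, h1, h2]) hinv hm1 hm2) σ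
  have ha2 : (F.aγ : k) * F.aγ = 1 := by
    nth_rw 1 [← h]
    rw [← hinv, mul_inv_cancel₀ F.χ_ne]
  have hu2 := htr (F.χ_eq_iff.mp h) ha2
  refine h'.entry10_eq_zero_of_connected hp2 hD (fun s hs => ?_) (F.T.fix_le_I σ.2)
    (F.hfix _ σ.2).1
  obtain ⟨j, hj⟩ := F.T.exists_pow_mul_fix F.hπ rfl F.hγ F.hprim hs
  have e : rb s = rb F.γ ^ j * rb ((F.γ ^ j)⁻¹ * s) := by
    rw [← map_pow, ← map_mul, mul_inv_cancel_left]
  have hg := pow_upper (hD F.γ (𝔓.I_le_D F.hγ)) j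
  rw [e, (mul_upper (F.hfix _ hj).2.1 hg.2.2).2.1, (F.hfix _ hj).2.2, hg.2.1, F.rbγ]
  simp [hu2]

lemma nK_mul_entry10 (σ σ' : F.T.K.fixingSubgroup) :
    F.nK σ * liftCocycle rb N' σ' 1 0 = 0 := by
  rcases F.nK_cases hp2 hN with h | h
  · rw [h, Pi.zero_apply, zero_mul]
  · rw [F.entry10_zero hp2 hN h' h.1, mul_zero]

end Lift

/-- The cocycles vanishing at the generator with entries of level `e`. -/
def space : Submodule k (𝔓.D → Mat k) where
  carrier := {c | c ∈ adZ1 rb 𝔓.D ∧ c F.γD = 0 ∧ (∀ σ, c (F.ι σ) 0 0 = 0) ∧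
    (fun σ => c (F.ι σ) 0 1) ∈ levelHom F.hζ F.T (m := p + 1) level_eq (p ^ 2 - 1) ∧
    (fun σ => c (F.ι σ) 1 0) ∈ levelHom F.hζ F.T (m := p + 1) level_eq (p ^ 2 - 1) ∧
    (F.χ = (F.aγ : k) → ∀ σ, c (F.ι σ) 1 0 = 0)}
  zero_mem' := ⟨zero_mem _, rfl, fun _ => rfl, Submodule.zero_mem _, Submodule.zero_mem _,
    fun _ _ => rfl⟩
  add_mem' := by
    rintro a b ⟨a1, a2, a3, a4, a5, a6⟩ ⟨b1, b2, b3, b4, b5, b6⟩
    exact ⟨add_mem a1 b1, by simp [a2, b2], fun σ => by simp [a3 σ, b3 σ],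
      Submodule.add_mem _ a4 b4, Submodule.add_mem _ a5 b5,
      fun h σ => by simp [a6 h σ, b6 h σ]⟩
  smul_mem' := by
    rintro t a ⟨a1, a2, a3, a4, a5, a6⟩
    exact ⟨Submodule.smul_mem _ t a1, by simp [a2], fun σ => by simp [a3 σ],
      Submodule.smul_mem _ t a4, Submodule.smul_mem _ t a5, fun h σ => by simp [a6 h σ]⟩

variable {L : IntermediateField ℚ QB} [FiniteDimensional ℚ L]
  (hlev : ∀ σ : GQ, (∀ x ∈ L, σ x = x) → rb σ = 1)

include hlev

/-- Every flat cocycle is in the space up to the coboundary of an off-diagonal matrix. -/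
theorem lift_mem {N' : GQ →* Mat (DualNumber k)} (h' : IsFlatLift p rb N') :
    ∃ X ∈ F.off, (fun g : 𝔓.D => liftCocycle rb N' g) - adDelta rb 𝔓.D X ∈ F.space := by
  classical
  set c : 𝔓.D → Mat k := fun g => liftCocycle rb N' g with hcdef
  have hc : c ∈ adZ1 rb 𝔓.D := h'.mem_adZ1 𝔓.D
  set X : Mat k := !![0, c F.γD 0 1 / (F.χ - 1); c F.γD 1 0 / (F.χ⁻¹ - 1), 0] with hX
  have hX0 : F.u1 = F.u2 → X = 0 := fun h => by
    have : F.χ = 1 := by rw [χ, h, mul_inv_cancel₀ F.u2_ne]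
    ext i j
    fin_cases i <;> fin_cases j <;> simp [hX, this]
  have hXoff : X ∈ F.off := by
    by_cases h : F.u1 = F.u2
    · rw [hX0 h]; exact zero_mem _
    · rw [off, if_neg h, Submodule.mem_span_pair]
      exact ⟨X 0 1, X 1 0, by ext i j; fin_cases i <;> fin_cases j <;> simp [hX]⟩
  have hXsl : X ∈ sl2 k := by
    rw [sl2, LinearMap.mem_ker, Matrix.traceLinearMap_apply, Matrix.trace_fin_two]
    simp [hX]
  refine ⟨X, hXoff, ?_⟩
  set c' := c - adDelta rb 𝔓.D X with hc'def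
  have hc' : c' ∈ adZ1 rb 𝔓.D :=
    sub_mem hc (adB1_le_adZ1 L hlev 𝔓.D ⟨X, hXsl, rfl⟩)
  have happ : ∀ g, c' g = c g - (adAct rb g X - X) := fun g => rfl
  have h10 : ∀ σ, c' (F.ι σ) 1 0 = liftCocycle rb N' σ 1 0 := fun σ => by
    rw [happ]
    show _ - (adAct rb (σ : GQ) X 1 0 - X 1 0) = _
    rw [(adAct_unipotent rb (F.hfix _ σ.2) X).2.2.1, sub_self, sub_zero]
    rfl
  have hker : ∀ σ : F.T.K.fixingSubgroup, N' (σ : GQ) = 1 → c' (F.ι σ) = 0 := fun σ hσ => by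
    rw [happ]
    show liftCocycle rb N' σ - (adAct rb (σ : GQ) X - X) = 0
    rw [(h'.of_eq_one hσ).2, adAct_of_eq_one rb (h'.of_eq_one hσ).1, sub_self, sub_zero]
  obtain ⟨hm1, hm2⟩ := F.entry10_mem hp2 hN h'
  set G := c' F.γD with hG
  have hG01 : F.u1 ≠ F.u2 → G 0 1 = 0 ∧ G 1 0 = 0 := by
    intro h
    have hχ : F.χ - 1 ≠ 0 := sub_ne_zero.mpr fun h1 => h (by
      rwa [F.χ_eq_iff, one_mul] at h1)
    have hχ' : F.χ⁻¹ - 1 ≠ 0 := sub_ne_zero.mpr fun h1 => h (by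
      rw [F.χ_inv_eq_iff, one_mul] at h1
      exact h1.symm)
    constructor
    · rw [hG, happ]
      show c F.γD 0 1 - (adAct rb F.γ X 0 1 - X 0 1) = 0
      rw [(F.ad_γ X).2.1, hX]
      simp
      field_simp
      ring
    · rw [hG, happ]
      show c F.γD 1 0 - (adAct rb F.γ X 1 0 - X 1 0) = 0
      rw [(F.ad_γ X).2.2.1, hX]
      simp only [Matrix.of_apply, Matrix.cons_val', Matrix.cons_val_one, Matrix.cons_val_zero,
        Matrix.cons_val_fin_one]
      rw [← sub_one_mul, mul_div_cancel₀ _ hχ', sub_self]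
  -- the upper diagonal entry
  have hnG : ∀ σ : F.T.K.fixingSubgroup, F.nK σ * G 1 0 = 0 := fun σ => by
    by_cases h : F.u1 = F.u2
    · rw [F.nK_zero_of_eq hp2 hN h]; simp
    · rw [(hG01 h).2, mul_zero]
  have hformula : ∀ σ σ' : F.T.K.fixingSubgroup, (σ' : GQ) = F.γ * σ * F.γ⁻¹ →
      c' (F.ι σ') = G + adAct rb F.γ (c' (F.ι σ)) - adAct rb (σ' : GQ) G := fun σ σ' h => by
    have := adZ1_conj hc' F.γD (F.ι σ)
    rw [← F.ι_conj F.γD σ σ' h] at this
    exact this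
  have hf00 : (fun σ => c' (F.ι σ) 0 0) = 0 := by
    refine F.hom_eq_zero one_ne_zero (one_pow p) (Ne.symm (F.aγ1 hp2))
      (h'.mem_levelHom_of_lift F.T hp2 level_eq F.hζ (fun _ h => F.uni h) (fun σ τ => ?_)
        fun σ hσ => by simp [hker σ hσ]) fun σ σ' h => ?_
    · show c' (F.ι (σ * τ)) 0 0 = _
      rw [map_mul, hc'.1, Matrix.add_apply]
      show _ + adAct rb (σ : GQ) (c' (F.ι τ)) 0 0 = _
      rw [(adAct_unipotent rb (F.hfix _ σ.2) _).1, h10, show rb (σ : GQ) 0 1 = F.nK σ from rfl,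
        F.nK_mul_entry10 hp2 hN h', add_zero]
    · show c' (F.ι σ') 0 0 = 1 * c' (F.ι σ) 0 0
      rw [hformula σ σ' h, Matrix.sub_apply, Matrix.add_apply,
        (adAct_unipotent rb (F.hfix _ σ'.2) G).1, (F.ad_γ _).1,
        show rb (σ' : GQ) 0 1 = F.nK σ' from rfl, hnG]
      ring
  have h00 : ∀ σ, c' (F.ι σ) 0 0 = 0 := fun σ => congrFun hf00 σ
  have hm01 : (fun σ => c' (F.ι σ) 0 1) ∈
      levelHom F.hζ F.T (m := p + 1) level_eq (p ^ 2 - 1) := by
    refine h'.mem_levelHom_of_lift F.T hp2 level_eq F.hζ (fun _ h => F.uni h) (fun σ τ => ?_)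
      fun σ hσ => by simp [hker σ hσ]
    rw [map_mul, hc'.1, Matrix.add_apply]
    show _ + adAct rb (σ : GQ) (c' (F.ι τ)) 0 1 = _
    rw [(adAct_unipotent rb (F.hfix _ σ.2) _).2.1, adZ1_trace hc', h00, h10,
      show rb (σ : GQ) 0 1 = F.nK σ from rfl, mul_assoc, F.nK_mul_entry10 hp2 hN h']
    ring
  -- the value at the generator
  have hfixG : adAct rb F.γ G = G := by
    obtain ⟨a, b, d, e⟩ := F.ad_γ G
    ext i j
    by_cases h : F.u1 = F.u2
    · have hχ : F.χ = 1 := by rw [χ, h, mul_inv_cancel₀ F.u2_ne]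
      rw [hχ, inv_one, one_mul] at d
      rw [hχ, one_mul] at b
      fin_cases i <;> fin_cases j <;> assumption
    · obtain ⟨h1, h2⟩ := hG01 h
      rw [h1, mul_zero] at b
      rw [h2, mul_zero] at d
      fin_cases i <;> fin_cases j
      exacts [a, b.trans h1.symm, d.trans h2.symm, e]
  have hpe : c' (F.ι ⟨F.γ ^ (p ^ 2 - 1), F.γ_pow_mem⟩) = -G := by
    rw [show F.ι ⟨F.γ ^ (p ^ 2 - 1), F.γ_pow_mem⟩ = F.γD ^ (p ^ 2 - 1) from
      Subtype.ext (by simp [ι, γD]), adZ1_pow hc' hfixG, ← Nat.cast_smul_eq_nsmul k,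
      Nat.cast_sub (Nat.one_le_pow _ _ hp.out.pos), Nat.cast_pow, CharP.cast_eq_zero k p,
      zero_pow two_ne_zero, Nat.cast_one, zero_sub, neg_smul, one_smul]
  have hG00 : G 0 0 = 0 := by
    have := congrFun (congrFun hpe 0) 0
    rw [h00, Matrix.neg_apply] at this
    exact neg_eq_zero.mp this.symm
  have hGoff : G 0 1 = 0 ∧ G 1 0 = 0 := by
    by_cases h : F.u1 = F.u2
    swap
    · exact hG01 h
    have hχ : F.χ = 1 := by rw [χ, h, mul_inv_cancel₀ F.u2_ne]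
    have hz10 := F.hom_eq_zero one_ne_zero (one_pow p) (Ne.symm (F.aγ1 hp2)) hm1 fun σ σ' hσ => by
      rw [show (1 : k) = F.χ⁻¹ by rw [hχ, inv_one]]; exact hm2 σ σ' hσ
    have hz01 := F.hom_eq_zero one_ne_zero (one_pow p) (Ne.symm (F.aγ1 hp2)) hm01 fun σ σ' hσ => by
      show c' (F.ι σ') 0 1 = 1 * c' (F.ι σ) 0 1
      rw [hformula σ σ' hσ, Matrix.sub_apply, Matrix.add_apply,
        (adAct_unipotent rb (F.hfix _ σ'.2) G).2.1, (F.ad_γ _).2.1, hχ,
        show rb (σ' : GQ) 0 1 = F.nK σ' from rfl, F.nK_zero_of_eq hp2 hN h]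
      simp
    have a := congrFun (congrFun hpe 0) 1
    have b := congrFun (congrFun hpe 1) 0
    rw [show c' (F.ι ⟨F.γ ^ (p ^ 2 - 1), F.γ_pow_mem⟩) 0 1 = 0 from congrFun hz01 _,
      Matrix.neg_apply] at a
    rw [h10, show liftCocycle rb N' (⟨F.γ ^ (p ^ 2 - 1), F.γ_pow_mem⟩ : F.T.K.fixingSubgroup) 1 0 = 0
      from congrFun hz10 _, Matrix.neg_apply] at b
    exact ⟨neg_eq_zero.mp a.symm, neg_eq_zero.mp b.symm⟩
  refine ⟨hc', ?_, h00, hm01, ?_, fun h σ => by rw [h10, F.entry10_zero hp2 hN h' h]⟩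
  · ext i j
    fin_cases i <;> fin_cases j
    exacts [hG00, hGoff.1, hGoff.2, (adZ1_trace hc' F.γD).trans (by rw [← hG, hG00, neg_zero]; rfl)]
  · simp only [h10]; exact hm1

/-- The coboundaries. -/
theorem adB1_le : adB1 rb 𝔓.D ≤ F.off.map (adDelta rb 𝔓.D) ⊔ F.space := by
  classical
  rintro _ ⟨X, hX, rfl⟩
  set Y : Mat k := if F.u1 = F.u2 then 0 else !![0, X 0 1; X 1 0, 0] with hY
  have hYoff : Y ∈ F.off := by
    by_cases h : F.u1 = F.u2
    · rw [hY, if_pos h]; exact zero_mem _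
    · rw [off, if_neg h, Submodule.mem_span_pair]
      exact ⟨X 0 1, X 1 0, by rw [hY, if_neg h]; ext i j; fin_cases i <;> fin_cases j <;> simp⟩
  have hYsl : Y ∈ sl2 k := by
    rw [sl2, LinearMap.mem_ker, Matrix.traceLinearMap_apply, Matrix.trace_fin_two, hY]
    split_ifs <;> simp
  rw [show adDelta rb 𝔓.D X = adDelta rb 𝔓.D Y + adDelta rb 𝔓.D (X - Y) by
    rw [map_sub]; abel]
  refine Submodule.add_mem_sup ⟨Y, hYoff, rfl⟩ ?_
  set Z := X - Y with hZ
  have hZsl : Z ∈ sl2 k := sub_mem hX hYsl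
  have hnZ : ∀ σ : F.T.K.fixingSubgroup, F.nK σ * Z 1 0 = 0 := fun σ => by
    by_cases h : F.u1 = F.u2
    · rw [F.nK_zero_of_eq hp2 hN h]; simp
    · rw [hZ, hY, if_neg h]; simp
  refine ⟨adB1_le_adZ1 L hlev 𝔓.D ⟨Z, hZsl, rfl⟩, ?_, fun σ => ?_, ?_, ?_, fun _ σ => ?_⟩
  · show adAct rb F.γ Z - Z = 0
    obtain ⟨a, b, d, e⟩ := F.ad_γ Z
    ext i j
    by_cases h : F.u1 = F.u2
    · have hχ : F.χ = 1 := by rw [χ, h, mul_inv_cancel₀ F.u2_ne]
      rw [hχ, inv_one, one_mul] at d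
      rw [hχ, one_mul] at b
      fin_cases i <;> fin_cases j <;> simp [a, b, d, e]
    · have h1 : Z 0 1 = 0 ∧ Z 1 0 = 0 := by rw [hZ, hY, if_neg h]; simp
      fin_cases i <;> fin_cases j <;> simp [a, b, d, e, h1]
  · show adAct rb (σ : GQ) Z 0 0 - Z 0 0 = 0
    rw [(adAct_unipotent rb (F.hfix _ σ.2) Z).1, show rb (σ : GQ) 0 1 = F.nK σ from rfl, hnZ]
    simp
  · have : (fun σ => adDelta rb 𝔓.D Z (F.ι σ) 0 1) = (Z 1 1 - Z 0 0) • F.nK := funext fun σ => by
      show adAct rb (σ : GQ) Z 0 1 - Z 0 1 = _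
      rw [(adAct_unipotent rb (F.hfix _ σ.2) Z).2.1, show rb (σ : GQ) 0 1 = F.nK σ from rfl,
        mul_assoc, hnZ, Pi.smul_apply, smul_eq_mul]
      ring
    rw [this]
    exact Submodule.smul_mem _ _ (F.nK_mem hp2 hN)
  · have : (fun σ => adDelta rb 𝔓.D Z (F.ι σ) 1 0) = 0 := funext fun σ => by
      show adAct rb (σ : GQ) Z 1 0 - Z 1 0 = 0
      rw [(adAct_unipotent rb (F.hfix _ σ.2) Z).2.2.1, sub_self]
    rw [this]
    exact Submodule.zero_mem _
  · show adAct rb (σ : GQ) Z 1 0 - Z 1 0 = 0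
    rw [(adAct_unipotent rb (F.hfix _ σ.2) Z).2.2.1, sub_self]

/-! ### Counting -/

omit hlev [FiniteDimensional ℚ L] in
/-- A cocycle of the space is determined by Frobenius and the fixing subgroup. -/
lemma eq_zero_of_vanish {c : 𝔓.D → Mat k} (hc : c ∈ F.space)
    (hτ : c F.τD = 0) (hK : ∀ σ, c (F.ι σ) = 0) : c = 0 := by
  obtain ⟨hZ, hγ, -⟩ := hc
  obtain ⟨L₀, hL₀, hlev₀⟩ := hZ.2.2
  obtain ⟨L₁, _, _, hle⟩ := exists_normal_level L₀
  have hmul : ∀ g h, c g = 0 → c h = 0 → c (g * h) = 0 := fun g h hg hh => by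
    rw [hZ.1, hg, hh, adAct_zero, add_zero]
  have hpow : ∀ (g : 𝔓.D) (j : ℕ), c g = 0 → c (g ^ j) = 0 := fun g j hg => by
    rw [adZ1_pow hZ (by rw [hg, adAct_zero]), hg, smul_zero]
  funext g
  obtain ⟨j, ι₀, hι₀, he⟩ := 𝔓.exists_pow_mul_mem_I L₁ F.hτ g.2
  obtain ⟨i, hi⟩ := F.T.exists_pow_mul_fix F.hπ rfl F.hγ F.hprim hι₀
  set w : 𝔓.D := F.τD ^ j * (F.γD ^ i * F.ι ⟨_, hi⟩)
  have hw : (w : GQ) = F.τ ^ j * ι₀ := by
    show F.τ ^ j * (F.γ ^ i * ((F.γ ^ i)⁻¹ * ι₀)) = _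
    rw [mul_inv_cancel_left]
  have hs : ∀ x ∈ L₀, ((w⁻¹ * g : 𝔓.D) : GQ) x = x := fun x hx => by
    show ((w : GQ)⁻¹ * g) x = x
    rw [hw, AlgEquiv.mul_apply, he x (hle hx),
      show (F.τ ^ j) (ι₀ x) = (F.τ ^ j * ι₀) x from rfl, gq_inv_apply]
  have := hlev₀ w (w⁻¹ * g) hs
  rw [mul_inv_cancel_left] at this
  rw [this]
  exact hmul _ _ (hpow _ j hτ) (hmul _ _ (hpow _ i hγ) (hK _))

omit hlev [FiniteDimensional ℚ L] in
/-- The entries of a cocycle of the space are equivariant. -/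
lemma entry_eigen {c : 𝔓.D → Mat k} (hc : c ∈ F.space) (σ σ' : F.T.K.fixingSubgroup)
    (h : (σ' : GQ) = F.γ * σ * F.γ⁻¹) :
    c (F.ι σ') 0 1 = F.χ * c (F.ι σ) 0 1 ∧ c (F.ι σ') 1 0 = F.χ⁻¹ * c (F.ι σ) 1 0 := by
  have := adZ1_conj hc.1 F.γD (F.ι σ)
  rw [← F.ι_conj F.γD σ σ' h, hc.2.1, zero_add, adAct_zero, sub_zero] at this
  rw [this]
  exact ⟨(F.ad_γ _).2.1, (F.ad_γ _).2.2.1⟩

omit hlev [FiniteDimensional ℚ L] in
lemma fix_eq_zero {c : 𝔓.D → Mat k} (hc : c ∈ F.space) {σ : F.T.K.fixingSubgroup}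
    (h01 : c (F.ι σ) 0 1 = 0) (h10 : c (F.ι σ) 1 0 = 0) : c (F.ι σ) = 0 := by
  ext i j
  fin_cases i <;> fin_cases j
  exacts [hc.2.2.1 σ, h01, h10, show c (F.ι σ) 1 1 = 0 by
    rw [adZ1_trace hc.1, hc.2.2.1 σ, neg_zero]]

/-- The fields of elements fixed by a power of Frobenius. -/
def frobField (N : ℕ) : Subfield k :=
  (iterateFrobenius k p N).eqLocusField (RingHom.id k)

omit hp2 hN hlev [FiniteDimensional ℚ L] [Finite k] in
lemma mem_frobField {N : ℕ} {x : k} : x ∈ frobField (p := p) (k := k) N ↔ x ^ p ^ N = x := Iff.rfl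

omit hlev [FiniteDimensional ℚ L] in
/-- The kernel of the Frobenius coordinate is at most a line. -/
theorem kernel_count (hne : F.u1 ≠ F.u2) :
    Module.Finite k ↥(F.space ⊓ LinearMap.ker
        ((Matrix.entryLinearMap k k 0 0).comp (LinearMap.proj F.τD) : (𝔓.D → Mat k) →ₗ[k] k)) ∧
      Module.finrank k ↥(F.space ⊓ LinearMap.ker
        ((Matrix.entryLinearMap k k 0 0).comp (LinearMap.proj F.τD) : (𝔓.D → Mat k) →ₗ[k] k)) ≤
        1 := by
  classical
  set S1 := F.space ⊓ LinearMap.ker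
    ((Matrix.entryLinearMap k k 0 0).comp (LinearMap.proj F.τD) : (𝔓.D → Mat k) →ₗ[k] k) with hS1
  have hX : ∀ c ∈ S1, c F.τD 0 0 = 0 ∧ c F.τD 1 1 = 0 := fun c hc => by
    have h0 : c F.τD 0 0 = 0 := hc.2
    exact ⟨h0, by rw [adZ1_trace hc.1.1, h0, neg_zero]⟩
  have hform : ∀ c ∈ S1, ∀ σ σ' : F.T.K.fixingSubgroup, (σ' : GQ) = F.τ * σ * F.τ⁻¹ →
      c (F.ι σ') = c F.τD + adAct rb F.τ (c (F.ι σ)) - adAct rb (σ' : GQ) (c F.τD) :=
    fun c hc σ σ' h => by
      have := adZ1_conj hc.1.1 F.τD (F.ι σ)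
      rw [← F.ι_conj F.τD σ σ' h] at this
      exact this
  -- vanishing on the fixing subgroup forces vanishing
  have hzero : ∀ c ∈ S1, (∀ σ, c (F.ι σ) = 0) → c = 0 := by
    intro c hc hK
    refine F.eq_zero_of_vanish hp2 hN hc.1 ?_ hK
    have hI : F.τ * F.γ * F.τ⁻¹ ∈ 𝔓.I := 𝔓.conj_mem_I F.hγ F.hτ.1
    obtain ⟨j, hj⟩ := F.T.exists_pow_mul_fix F.hπ rfl F.hγ F.hprim hI
    set w : 𝔓.D := F.γD ^ j * F.ι ⟨_, hj⟩
    have hw : w = F.τD * F.γD * F.τD⁻¹ := Subtype.ext (by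
      show F.γ ^ j * ((F.γ ^ j)⁻¹ * (F.τ * F.γ * F.τ⁻¹)) = _
      rw [mul_inv_cancel_left]; rfl)
    have hcw : c w = 0 := by
      rw [hc.1.1.1, adZ1_pow hc.1.1 (by rw [hc.1.2.1, adAct_zero]), hc.1.2.1, smul_zero, hK,
        adAct_zero, add_zero]
    have hfixX := adZ1_conj hc.1.1 F.τD F.γD
    rw [← hw, hcw, hc.1.2.1, adAct_zero, add_zero, eq_comm, sub_eq_zero] at hfixX
    have e := adAct_mul_rb rb (w : GQ) (c F.τD)
    rw [← hfixX] at e
    have hwM : rb (w : GQ) = rb F.γ ^ j * rb ((F.γ ^ j)⁻¹ * (F.τ * F.γ * F.τ⁻¹)) := by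
      show rb (F.γ ^ j * ((F.γ ^ j)⁻¹ * (F.τ * F.γ * F.τ⁻¹))) = _
      rw [map_mul, map_pow]
    have hg := pow_upper (A := rb F.γ) (by rw [F.rbγ]; rfl) j
    have h10 : rb (w : GQ) 1 0 = 0 := by
      rw [hwM]; exact (mul_upper (F.hfix _ hj).2.1 hg.2.2).2.2
    have hdiag : rb (w : GQ) 0 0 ≠ rb (w : GQ) 1 1 := by
      intro h
      have h1 : rb (w : GQ) = rb F.τ * rb F.γ * rb F.τ⁻¹ := by
        rw [← map_mul, ← map_mul, hw]; rfl
      have ht := congrArg Matrix.trace h1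
      have hd := congrArg Matrix.det h1
      rw [Matrix.trace_mul_cycle, rb_inv_mul, one_mul, Matrix.trace_fin_two, Matrix.trace_fin_two,
        F.rbγ] at ht
      rw [Matrix.det_mul, Matrix.det_mul, mul_comm (rb F.τ).det, mul_assoc, ← Matrix.det_mul,
        rb_mul_inv, Matrix.det_one, mul_one, Matrix.det_fin_two, Matrix.det_fin_two, h10,
        F.rbγ] at hd
      simp [← h] at ht hd
      refine hne (sub_eq_zero.mp (mul_self_eq_zero.mp ?_))
      linear_combination 4 * hd - (rb (w : GQ) 0 0 + rb (w : GQ) 0 0 + F.u1 + F.u2) * ht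
    obtain ⟨x0, x1⟩ := hX c hc
    have a := congrFun (congrFun e 1) 0
    have b := congrFun (congrFun e 0) 1
    simp [Matrix.mul_apply, Fin.sum_univ_two, h10, x0, x1] at a b
    have hd' : rb (w : GQ) 0 0 - rb (w : GQ) 1 1 ≠ 0 := sub_ne_zero.mpr hdiag
    ext i i'
    fin_cases i <;> fin_cases i'
    exacts [x0,
      (mul_eq_zero.mp (show (rb (w : GQ) 0 0 - rb (w : GQ) 1 1) * c F.τD 0 1 = 0 by
        linear_combination -b)).resolve_left hd',
      (mul_eq_zero.mp (show (rb (w : GQ) 0 0 - rb (w : GQ) 1 1) * c F.τD 1 0 = 0 by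
        linear_combination a)).resolve_left hd',
      x1]
  -- the entry map
  let ent : Fin 2 → Fin 2 → (↥S1 →ₗ[k] (F.T.K.fixingSubgroup → k)) := fun i j =>
    { toFun := fun c σ => c.1 (F.ι σ) i j, map_add' := fun _ _ => rfl, map_smul' := fun _ _ => rfl }
  have hcount : ∀ i j, Function.Injective (ent i j) →
      Module.Finite k ↥(LinearMap.range (ent i j)) →
      Module.finrank k ↥(LinearMap.range (ent i j)) ≤ 1 →
      Module.Finite k ↥S1 ∧ Module.finrank k ↥S1 ≤ 1 := fun i j hi hf hle =>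
    ⟨Module.Finite.equiv (LinearEquiv.ofInjective _ hi).symm,
      (LinearEquiv.ofInjective _ hi).finrank_eq.trans_le hle⟩
  have hinj : ∀ i j, (∀ c ∈ S1, (∀ σ, c (F.ι σ) i j = 0) →
      ∀ σ, c (F.ι σ) 0 1 = 0 ∧ c (F.ι σ) 1 0 = 0) → Function.Injective (ent i j) := by
    intro i j h
    refine (injective_iff_map_eq_zero _).mpr fun c hc => Subtype.ext (hzero c c.2 fun σ => ?_)
    obtain ⟨a, b⟩ := h c c.2 (congrFun hc) σ
    exact F.fix_eq_zero hp2 hN c.2.1 a b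
  obtain ⟨aτ, -, haτ⟩ := (have : NeZero p := ⟨hp.out.ne_zero⟩
    F.hζ.eq_pow_of_pow_eq_one (ξ := F.τ F.ζ) (by rw [← map_pow, F.hζ.pow_eq_one, map_one]))
  rcases F.shape with ⟨hD, h1, h2, -⟩ | ⟨⟨r, s, hrs⟩, hfix, h2, -⟩
  · -- upper triangular
    have hχp : F.χ ^ p = F.χ := by rw [χ, mul_pow, inv_pow, h1, h2]
    set A := rb F.τ 0 0 with hA
    set B := rb F.τ 1 1 with hB
    have h10τ : rb F.τ 1 0 = 0 := hD _ F.hτ.1
    have hdetτ : A * B ≠ 0 := by
      have := congrArg Matrix.det (rb_mul_inv rb F.τ)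
      rw [Matrix.det_mul, Matrix.det_fin_two, h10τ, mul_zero, sub_zero, Matrix.det_one] at this
      exact fun h => by rw [← hA, ← hB, h, zero_mul] at this; exact zero_ne_one this
    have hFc : Nat.card (frobField (p := p) (k := k) 1) = p ^ 1 := by
      rw [pow_one]
      refine (Nat.card_congr (Equiv.ofBijective
        (fun a : ZMod p => (⟨ZMod.castHom dvd_rfl k a, by
          rw [mem_frobField, pow_one, ← map_pow, ZMod.pow_card]⟩ : frobField (p := p) (k := k) 1))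
        ⟨fun a b h => (ZMod.castHom dvd_rfl k).injective (congrArg Subtype.val h), fun x => ?_⟩)).symm.trans
        (Nat.card_zmod p)
      obtain ⟨a, ha⟩ := exists_natCast_of_pow_eq (p := p) (c := (x : k))
        (by simpa using mem_frobField.mp x.2)
      exact ⟨a, Subtype.ext (by simp [ha])⟩
    have hFv : ∀ v : k, ∀ x ∈ frobField (p := p) (k := k) 1, ∃ a b : ℕ, x = (a : k) + (b : k) * v :=
      fun v x hx => by
        obtain ⟨a, ha⟩ := exists_natCast_of_pow_eq (p := p) (c := x)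
          (by simpa using mem_frobField.mp hx)
        exact ⟨a, 0, by simp [ha]⟩
    have hvp : ∀ c : k, c ^ p = c → ((F.aγ : k) * c⁻¹) ^ p ^ 2 = (F.aγ : k) * c⁻¹ := by
      intro c hc
      have : ((F.aγ : k) * c⁻¹) ^ p = (F.aγ : k) * c⁻¹ := by
        rw [mul_pow, inv_pow, hc, ← frobenius_def, map_natCast]
      rw [pow_two, pow_mul, this, this]
    have hτ1 : 𝔓.IsFrob (p ^ 1) F.τ := by rw [pow_one]; exact F.hτ
    by_cases hχ : F.χ = (F.aγ : k)
    · have hW := finrank_le_one F.hζ F.T F.hπ rfl F.hγ F.hprim F.haγ level_eq hτ1 one_ne_zero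
        haτ.symm F.χ_ne (mul_ne_zero (left_ne_zero_of_mul hdetτ)
          (inv_ne_zero (right_ne_zero_of_mul hdetτ))) rfl (hvp _ hχp)
        (frobField (p := p) (k := k) 1) hFc (hFv _) (LinearMap.range (ent 0 1))
        (by rintro _ ⟨c, rfl⟩; exact c.2.1.2.2.2.1)
        (by rintro _ ⟨c, rfl⟩ σ σ' h; exact (F.entry_eigen hp2 hN c.2.1 σ σ' h).1)
        (by
          rintro _ ⟨c, rfl⟩ σ σ' h
          show c.1 (F.ι σ') 0 1 = A * B⁻¹ * c.1 (F.ι σ) 0 1
          have z10 := c.2.1.2.2.2.2.2 hχ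
          have e := hform c c.2 σ σ' h
          obtain ⟨x0, x1⟩ := hX c c.2
          obtain ⟨u00, u01, -, -⟩ := adAct_unipotent rb (F.hfix _ σ'.2) (c.1 F.τD)
          have eY := adAct_mul_rb rb F.τ (c.1 (F.ι σ))
          have y0 := congrFun (congrFun eY 0) 0
          have y1 := congrFun (congrFun eY 0) 1
          simp [Matrix.mul_apply, Fin.sum_univ_two, h10τ, c.2.1.2.2.1 σ, z10 σ,
            adZ1_trace c.2.1.1, (left_ne_zero_of_mul hdetτ : rb F.τ 0 0 ≠ 0)] at y0 y1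
          have e00 := congrFun (congrFun e 0) 0
          have e01 := congrFun (congrFun e 0) 1
          rw [Matrix.sub_apply, Matrix.add_apply, u00, y0, c.2.1.2.2.1 σ', x0] at e00
          rw [Matrix.sub_apply, Matrix.add_apply, u01, x0, x1] at e01
          rw [y0, zero_mul, zero_add] at y1
          have hB0 : B ≠ 0 := right_ne_zero_of_mul hdetτ
          field_simp
          linear_combination B * e01 + y1 + B * rb (σ' : GQ) 0 1 * e00)
      refine hcount 0 1 (hinj 0 1 fun c hc h σ => ⟨h σ, hc.1.2.2.2.2.2 hχ σ⟩) hW.1 hW.2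
    · have hz : ∀ c ∈ S1, ∀ σ, c (F.ι σ) 0 1 = 0 := fun c hc σ => congrFun
        (F.hom_eq_zero F.χ_ne hχp hχ hc.1.2.2.2.1 fun σ σ' h => (F.entry_eigen hp2 hN hc.1 σ σ' h).1) σ
      have hW := finrank_le_one F.hζ F.T F.hπ rfl F.hγ F.hprim F.haγ level_eq hτ1 one_ne_zero
        haτ.symm (inv_ne_zero F.χ_ne) (mul_ne_zero (right_ne_zero_of_mul hdetτ)
          (inv_ne_zero (left_ne_zero_of_mul hdetτ))) rfl (hvp _ (by rw [inv_pow, hχp]))
        (frobField (p := p) (k := k) 1) hFc (hFv _) (LinearMap.range (ent 1 0))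
        (by rintro _ ⟨c, rfl⟩; exact c.2.1.2.2.2.2.1)
        (by rintro _ ⟨c, rfl⟩ σ σ' h; exact (F.entry_eigen hp2 hN c.2.1 σ σ' h).2)
        (by
          rintro _ ⟨c, rfl⟩ σ σ' h
          show c.1 (F.ι σ') 1 0 = B * A⁻¹ * c.1 (F.ι σ) 1 0
          have e := hform c c.2 σ σ' h
          obtain ⟨-, -, u10, -⟩ := adAct_unipotent rb (F.hfix _ σ'.2) (c.1 F.τD)
          have eY := adAct_mul_rb rb F.τ (c.1 (F.ι σ))
          have y := congrFun (congrFun eY 1) 0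
          simp [Matrix.mul_apply, Fin.sum_univ_two, h10τ] at y
          have e10 := congrFun (congrFun e 1) 0
          rw [Matrix.sub_apply, Matrix.add_apply, u10] at e10
          have hA0 : A ≠ 0 := left_ne_zero_of_mul hdetτ
          field_simp
          linear_combination A * e10 + y)
      refine hcount 1 0 (hinj 1 0 fun c hc h σ => ⟨hz c hc σ, h σ⟩) hW.1 hW.2
  · -- dihedral
    have hr : r ≠ 0 ∧ s ≠ 0 := by
      have := congrArg Matrix.det (rb_mul_inv rb F.τ)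
      rw [Matrix.det_mul, hrs, Matrix.det_fin_two_of, Matrix.det_one] at this
      constructor <;> rintro rfl <;> simp at this
    have hswap : ∀ c ∈ S1, ∀ σ σ' : F.T.K.fixingSubgroup, (σ' : GQ) = F.τ * σ * F.τ⁻¹ →
        c (F.ι σ') 0 1 * s = r * c (F.ι σ) 1 0 ∧ c (F.ι σ') 1 0 * r = s * c (F.ι σ) 0 1 := by
      intro c hc σ σ' h
      have e := hform c hc σ σ' h
      rw [adAct_of_eq_one rb (hfix _ σ'.2), add_sub_cancel_left] at e
      have eY := adAct_mul_rb rb F.τ (c (F.ι σ))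
      rw [← e, hrs] at eY
      exact ⟨by simpa [Matrix.mul_apply, Matrix.vecMul, dotProduct, Fin.sum_univ_two] using
          congrFun (congrFun eY 0) 0,
        by simpa [Matrix.mul_apply, Matrix.vecMul, dotProduct, Fin.sum_univ_two] using
          congrFun (congrFun eY 1) 1⟩
    have hinj01 : Function.Injective (ent 0 1) := hinj 0 1 fun c hc h σ => ⟨h σ, by
      have := (hswap c hc σ ⟨_, F.conj_mem F.hτ.1 σ⟩ rfl).1
      rw [h, zero_mul] at this
      exact (mul_eq_zero.mp this.symm).resolve_left hr.1⟩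
    obtain ⟨d1, -⟩ := F.dihedral_ne hp2 h2 hne
    by_cases hχp : F.χ ^ p = F.χ
    · have hz : ∀ c : ↥S1, ent 0 1 c = 0 := fun c =>
        F.hom_eq_zero F.χ_ne hχp d1 c.2.1.2.2.2.1 fun σ σ' h => (F.entry_eigen hp2 hN c.2.1 σ σ' h).1
      have : Subsingleton ↥S1 := ⟨fun a b => hinj01 ((hz a).trans (hz b).symm)⟩
      exact ⟨inferInstance, by rw [Module.finrank_zero_of_subsingleton]; exact zero_le_one⟩
    have hχ2 : F.χ ^ p ^ 2 = F.χ := by rw [χ, mul_pow, inv_pow, F.hu1, F.hu2]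
    set v : k := (F.aγ : k) * F.χ⁻¹ with hv
    have haF : (F.aγ : k) ^ p = (F.aγ : k) := by rw [← frobenius_def, map_natCast]
    have hv2 : v ^ p ^ 2 = v := by
      rw [hv, mul_pow, inv_pow, hχ2, pow_two, pow_mul, haF, haF]
    have hvne : v ^ p ≠ v := fun h => hχp (by
      rw [hv, mul_pow, inv_pow, haF] at h
      exact inv_injective (mul_left_cancel₀ F.aγ0 h))
    let φ : ZMod p × ZMod p → frobField (p := p) (k := k) 2 := fun ab =>
      ⟨ZMod.castHom dvd_rfl k ab.1 + ZMod.castHom dvd_rfl k ab.2 * v, by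
        have hz : ∀ a : ZMod p, (ZMod.castHom dvd_rfl k a) ^ p ^ 2 = ZMod.castHom dvd_rfl k a :=
          fun a => by rw [← map_pow, pow_two, pow_mul, ZMod.pow_card, ZMod.pow_card]
        rw [mem_frobField, add_pow_char_pow, mul_pow, hz, hz, hv2]⟩
    have hφ : Function.Injective φ := by
      rintro ⟨a, b⟩ ⟨a', b'⟩ h
      have h' := congrArg Subtype.val h
      simp only [φ] at h'
      have hb : b = b' := by
        by_contra hne'
        refine hvne ?_
        have hd : ZMod.castHom dvd_rfl k (b - b') ≠ 0 := by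
          rw [Ne, map_eq_zero_iff _ (ZMod.castHom dvd_rfl k).injective, sub_eq_zero]; exact hne'
        have hveq : v = ZMod.castHom dvd_rfl k ((a' - a) / (b - b')) := by
          rw [map_div₀, eq_div_iff hd, map_sub, map_sub]
          linear_combination h'
        rw [hveq, ← map_pow, ZMod.pow_card]
      subst hb
      exact Prod.ext ((ZMod.castHom dvd_rfl k).injective (add_right_cancel h')) rfl
    have hroots : ∀ x : frobField (p := p) (k := k) 2,
        (x : k) ∈ ((Polynomial.X ^ p ^ 2 - Polynomial.X : Polynomial k)).roots.toFinset := fun x => by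
      rw [Multiset.mem_toFinset, Polynomial.mem_roots
        (FiniteField.X_pow_card_sub_X_ne_zero k (Nat.one_lt_pow two_ne_zero hp.out.one_lt))]
      simp [mem_frobField.mp x.2]
    have hle : Nat.card (frobField (p := p) (k := k) 2) ≤ p ^ 2 := by
      refine (Nat.card_le_card_of_injective
        (fun x : frobField (p := p) (k := k) 2 => (⟨(x : k), hroots x⟩ :
          {y : k // y ∈ ((Polynomial.X ^ p ^ 2 - Polynomial.X : Polynomial k)).roots.toFinset}))
        fun x y h => Subtype.ext (by simpa using congrArg Subtype.val h)).trans ?_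
      rw [Nat.card_eq_fintype_card, Fintype.card_coe]
      exact (Multiset.toFinset_card_le _).trans ((Polynomial.card_roots' _).trans
        (FiniteField.X_pow_card_sub_X_natDegree_eq k (Nat.one_lt_pow two_ne_zero hp.out.one_lt)).le)
    have hφb : Function.Bijective φ := hφ.bijective_of_nat_card_le (by
      rw [Nat.card_prod, Nat.card_zmod, ← pow_two]; exact hle)
    have hFc : Nat.card (frobField (p := p) (k := k) 2) = p ^ 2 := by
      rw [← Nat.card_eq_of_bijective φ hφb, Nat.card_prod, Nat.card_zmod, ← pow_two]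
    have hFv : ∀ x ∈ frobField (p := p) (k := k) 2, ∃ a b : ℕ, x = (a : k) + (b : k) * v := by
      intro x hx
      obtain ⟨⟨a, b⟩, hab⟩ := hφb.2 ⟨x, hx⟩
      refine ⟨a.val, b.val, ?_⟩
      have := (congrArg Subtype.val hab).symm
      simpa [φ, ZMod.castHom_apply, ZMod.natCast_val] using this
    have haτ2 : (F.τ ^ 2) F.ζ = F.ζ ^ (aτ * aτ) := by
      rw [pow_two, AlgEquiv.mul_apply, ← haτ, map_pow, ← haτ, ← pow_mul]
    have hW := finrank_le_one F.hζ F.T F.hπ rfl F.hγ F.hprim F.haγ level_eq (𝔓.isFrob_sq F.hτ)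
      two_ne_zero haτ2 F.χ_ne (one_ne_zero : (1 : k) ≠ 0) hv hv2
      (frobField (p := p) (k := k) 2) hFc hFv (LinearMap.range (ent 0 1))
      (by rintro _ ⟨c, rfl⟩; exact c.2.1.2.2.2.1)
      (by rintro _ ⟨c, rfl⟩ σ σ' h; exact (F.entry_eigen hp2 hN c.2.1 σ σ' h).1)
      (by
        rintro _ ⟨c, rfl⟩ σ σ' h
        show c.1 (F.ι σ') 0 1 = 1 * c.1 (F.ι σ) 0 1
        set σ₁ : F.T.K.fixingSubgroup := ⟨_, F.conj_mem F.hτ.1 σ⟩
        have e1 := (hswap c c.2 σ σ₁ rfl).2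
        have e2 := (hswap c c.2 σ₁ σ' (by rw [h, pow_two]; show _ = F.τ * (F.τ * σ * F.τ⁻¹) * F.τ⁻¹; group)).1
        refine mul_left_cancel₀ (mul_ne_zero hr.2 hr.1) ?_
        linear_combination r * e2 + r * e1)
    exact hcount 0 1 hinj01 hW.1 hW.2

omit hlev [FiniteDimensional ℚ L] in
/-- The dimension of the space. -/
theorem space_count : Module.Finite k ↥(F.space) ∧
    Module.finrank k ↥(F.space) + (open Classical in if F.u1 = F.u2 then 0 else 2) ≤ 4 := by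
  classical
  by_cases h : F.u1 = F.u2
  · let Φ : ↥(F.space) →ₗ[k] (Fin 3 → k) :=
      { toFun := fun c => ![c.1 F.τD 0 0, c.1 F.τD 0 1, c.1 F.τD 1 0]
        map_add' := fun a b => by funext i; fin_cases i <;> rfl
        map_smul' := fun t a => by funext i; fin_cases i <;> rfl }
    have hχ : F.χ = 1 := by rw [χ, h, mul_inv_cancel₀ F.u2_ne]
    have hΦ : Function.Injective Φ := by
      refine (injective_iff_map_eq_zero _).mpr fun c hc => Subtype.ext
        (F.eq_zero_of_vanish hp2 hN c.2 ?_ fun σ => F.fix_eq_zero hp2 hN c.2 ?_ ?_)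
      · have a : c.1 F.τD 0 0 = 0 := congrFun hc 0
        ext i j
        fin_cases i <;> fin_cases j
        exacts [a, congrFun hc 1, congrFun hc 2,
          (adZ1_trace c.2.1 _).trans (by rw [a, neg_zero]; rfl)]
      · exact congrFun (F.hom_eq_zero one_ne_zero (one_pow p) (Ne.symm (F.aγ1 hp2))
          c.2.2.2.2.1 fun σ σ' h => by
            have := (F.entry_eigen hp2 hN c.2 σ σ' h).1
            rwa [hχ] at this) σ
      · exact congrFun (F.hom_eq_zero one_ne_zero (one_pow p) (Ne.symm (F.aγ1 hp2))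
          c.2.2.2.2.2.1 fun σ σ' h => by
            have := (F.entry_eigen hp2 hN c.2 σ σ' h).2
            rwa [hχ, inv_one] at this) σ
    refine ⟨Module.Finite.of_injective Φ hΦ, ?_⟩
    rw [if_pos h, add_zero]
    exact (LinearMap.finrank_le_finrank_of_injective hΦ).trans (by simp)
  · obtain ⟨hfin, hle⟩ := F.kernel_count hp2 hN h
    set ev : (𝔓.D → Mat k) →ₗ[k] k :=
      (Matrix.entryLinearMap k k 0 0).comp (LinearMap.proj F.τD)
    set f := ev.comp (F.space).subtype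
    have e : ↥(LinearMap.ker f) ≃ₗ[k] ↥(F.space ⊓ LinearMap.ker ev) :=
      { toFun := fun c => ⟨c.1.1, c.1.2, c.2⟩
        invFun := fun c => ⟨⟨c.1, c.2.1⟩, c.2.2⟩
        map_add' := fun _ _ => rfl
        map_smul' := fun _ _ => rfl
        left_inv := fun _ => rfl
        right_inv := fun _ => rfl }
    have : Module.Finite k ↥(LinearMap.ker f) := Module.Finite.equiv e.symm
    have : Module.Finite k (↥(F.space) ⧸ LinearMap.ker f) :=
      Module.Finite.equiv f.quotKerEquivRange.symm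
    have hS : Module.Finite k ↥(F.space) :=
      Module.Finite.of_submodule_quotient (LinearMap.ker f)
    refine ⟨hS, ?_⟩
    rw [if_neg h, ← f.finrank_range_add_finrank_ker, e.finrank_eq]
    have h1 : Module.finrank k ↥(LinearMap.range f) ≤ 1 :=
      (Submodule.finrank_le _).trans_eq (Module.finrank_self k)
    omega

include F in
/-- The bound in adapted coordinates. -/
theorem hasFlatBound : HasFlatBound p rb 𝔓.D := by
  classical
  have hoff : F.off ≤ sl2 k := by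
    rw [off]
    split_ifs
    · exact bot_le
    · rw [Submodule.span_le]
      rintro _ (rfl | rfl) <;>
        simp [sl2, Matrix.trace_fin_two]
  have hdim : Module.finrank k ↥(F.off) ≤ if F.u1 = F.u2 then 0 else 2 := by
    by_cases h : F.u1 = F.u2
    · rw [off, if_pos h, if_pos h, finrank_bot]
    · rw [off, if_neg h, if_neg h]
      refine (finrank_span_le_card _).trans ?_
      simp only [Set.toFinset_insert, Set.toFinset_singleton]
      exact Finset.card_le_two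
  obtain ⟨hfin, hle⟩ := F.space_count hp2 hN
  refine ⟨F.off.map (adDelta rb 𝔓.D) ⊔ F.space, F.adB1_le hp2 hN hlev,
    sup_le ((Submodule.map_mono hoff).trans (adB1_le_adZ1 L hlev 𝔓.D)) fun c hc => hc.1,
    inferInstance, ?_, fun N' h' => ?_⟩
  · refine (Submodule.finrank_add_le_finrank_add_finrank _ _).trans ?_
    refine (add_le_add (Submodule.finrank_map_le _ _) le_rfl).trans ?_
    by_cases h : F.u1 = F.u2
    · rw [if_pos h] at hle hdim; omega
    · rw [if_neg h] at hle hdim; omega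
  · obtain ⟨X, hX, hc⟩ := F.lift_mem hp2 hN hlev h'
    rw [← add_sub_cancel (adDelta rb 𝔓.D X) (fun g : 𝔓.D => liftCocycle rb N' g)]
    exact Submodule.add_mem_sup ⟨X, hX, rfl⟩ hc

end Frame

end FLTAgent.TW.Flat
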