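import Fermat.Agent.TW.Flat.Tower
import Mathlib.FieldTheory.Finite.Basic

/-!
# The tame structure of the decomposition group

Reduction of integral elements, Frobenius elements, the wild part of inertia at a finite level, and
generation of the decomposition group by inertia and Frobenius.
-/

set_option autoImplicit false

open scoped Pointwise

noncomputable section

namespace FLTAgent.TW.Flat

variable {p : ℕ}

/-- `g (g⁻¹ x) = x`. -/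
lemma gq_apply_inv (g : GQ) (x : QB) : g (g⁻¹ x) = x := by
  rw [← AlgEquiv.mul_apply, mul_inv_cancel, AlgEquiv.one_apply]

/-- `g⁻¹ (g x) = x`. -/
lemma gq_inv_apply (g : GQ) (x : QB) : g⁻¹ (g x) = x := by
  rw [← AlgEquiv.mul_apply, inv_mul_cancel, AlgEquiv.one_apply]

namespace LocalPlace

variable (𝔓 : LocalPlace p)

/-- The residue field of the place. -/
abbrev RF : Type := IsLocalRing.ResidueField 𝔓.P

open Classical in
/-- Reduction, zero outside the valuation ring. -/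
def red (x : QB) : 𝔓.RF :=
  if h : x ∈ 𝔓.P then IsLocalRing.residue 𝔓.P ⟨x, h⟩ else 0

lemma red_of_mem {x : QB} (h : x ∈ 𝔓.P) : 𝔓.red x = IsLocalRing.residue 𝔓.P ⟨x, h⟩ := dif_pos h

lemma red_eq_iff {x y : QB} (hx : 𝔓.nm x ≤ 1) (hy : 𝔓.nm y ≤ 1) :
    𝔓.red x = 𝔓.red y ↔ 𝔓.nm (x - y) < 1 := by
  rw [𝔓.red_of_mem ((𝔓.mem_iff x).mpr hx), 𝔓.red_of_mem ((𝔓.mem_iff y).mpr hy), residue_eq_iff]

lemma red_zero : 𝔓.red 0 = 0 := by
  rw [𝔓.red_of_mem (zero_mem _), ← map_zero (IsLocalRing.residue 𝔓.P)]; rfl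

lemma red_one : 𝔓.red 1 = 1 := by
  rw [𝔓.red_of_mem (one_mem _), ← map_one (IsLocalRing.residue 𝔓.P)]; rfl

lemma red_natCast (n : ℕ) : 𝔓.red (n : QB) = (n : 𝔓.RF) := by
  rw [𝔓.red_of_mem (natCast_mem _ n), ← map_natCast (IsLocalRing.residue 𝔓.P)]; rfl

lemma red_eq_zero_iff {x : QB} (hx : 𝔓.nm x ≤ 1) : 𝔓.red x = 0 ↔ 𝔓.nm x < 1 := by
  rw [← 𝔓.red_zero, 𝔓.red_eq_iff hx (by simp), sub_zero]

lemma red_add {x y : QB} (hx : 𝔓.nm x ≤ 1) (hy : 𝔓.nm y ≤ 1) :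
    𝔓.red (x + y) = 𝔓.red x + 𝔓.red y := by
  have hx' := (𝔓.mem_iff x).mpr hx
  have hy' := (𝔓.mem_iff y).mpr hy
  rw [𝔓.red_of_mem hx', 𝔓.red_of_mem hy', 𝔓.red_of_mem (add_mem hx' hy'), ← map_add]; rfl

lemma red_mul {x y : QB} (hx : 𝔓.nm x ≤ 1) (hy : 𝔓.nm y ≤ 1) :
    𝔓.red (x * y) = 𝔓.red x * 𝔓.red y := by
  have hx' := (𝔓.mem_iff x).mpr hx
  have hy' := (𝔓.mem_iff y).mpr hy
  rw [𝔓.red_of_mem hx', 𝔓.red_of_mem hy', 𝔓.red_of_mem (mul_mem hx' hy'), ← map_mul]; rfl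

lemma red_pow {x : QB} (hx : 𝔓.nm x ≤ 1) (n : ℕ) : 𝔓.red (x ^ n) = 𝔓.red x ^ n := by
  induction n with
  | zero => rw [pow_zero, pow_zero, 𝔓.red_one]
  | succ n ih =>
    rw [pow_succ, pow_succ, 𝔓.red_mul (by rw [map_pow]; exact pow_le_one₀ (𝔓.nm_nonneg _) hx) hx, ih]

lemma red_ne_zero {x : QB} (hx : 𝔓.nm x = 1) : 𝔓.red x ≠ 0 := by
  rw [Ne, 𝔓.red_eq_zero_iff hx.le, hx]; exact lt_irrefl 1

lemma red_apply_of_mem_I {σ : GQ} (hσ : σ ∈ 𝔓.I) {x : QB} (hx : 𝔓.nm x ≤ 1) :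
    𝔓.red (σ x) = 𝔓.red x := by
  have h : σ x ∈ 𝔓.P := (𝔓.mem_iff_of_mem_D (𝔓.I_le_D hσ) x).mpr ((𝔓.mem_iff x).mpr hx)
  exact (𝔓.red_eq_iff ((𝔓.mem_iff _).mp h) hx).mpr ((𝔓.mem_I_iff.mp hσ).2 x hx)

/-- `τ` reduces to the `q`-power map. -/
def IsFrob (q : ℕ) (τ : GQ) : Prop := τ ∈ 𝔓.D ∧ ∀ x, 𝔓.nm x ≤ 1 → 𝔓.nm (τ x - x ^ q) < 1

variable [hp : Fact p.Prime]

lemma exists_isFrob : ∃ τ, 𝔓.IsFrob p τ := by
  obtain ⟨τ, hτ⟩ := Frobenius.exists_isFrobeniusAt hp.out 𝔓.liesOverPrime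
  obtain ⟨hD, h⟩ := Frobenius.isFrobeniusAt_iff.mp hτ
  exact ⟨τ, hD, fun x hx => (𝔓.mem_nonunits_iff _).mp (h x ((𝔓.mem_iff x).mpr hx))⟩

lemma red_apply_of_isFrob {q : ℕ} {τ : GQ} (hτ : 𝔓.IsFrob q τ) {x : QB} (hx : 𝔓.nm x ≤ 1) :
    𝔓.red (τ x) = 𝔓.red x ^ q := by
  rw [← 𝔓.red_pow hx, 𝔓.red_eq_iff (by rw [𝔓.nm_apply hτ.1]; exact hx)
    (by rw [map_pow]; exact pow_le_one₀ (𝔓.nm_nonneg _) hx)]
  exact hτ.2 x hx

lemma isFrob_sq {τ : GQ} (hτ : 𝔓.IsFrob p τ) : 𝔓.IsFrob (p ^ 2) (τ ^ 2) := by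
  refine ⟨pow_mem hτ.1 2, fun x hx => ?_⟩
  have h1 : 𝔓.nm (τ x) ≤ 1 := by rw [𝔓.nm_apply hτ.1]; exact hx
  have h2 : 𝔓.nm (x ^ p) ≤ 1 := by rw [map_pow]; exact pow_le_one₀ (𝔓.nm_nonneg _) hx
  rw [← 𝔓.red_eq_iff (by rw [𝔓.nm_apply (pow_mem hτ.1 2)]; exact hx)
    (by rw [map_pow]; exact pow_le_one₀ (𝔓.nm_nonneg _) hx), pow_two τ, AlgEquiv.mul_apply,
    𝔓.red_apply_of_isFrob hτ h1, 𝔓.red_apply_of_isFrob hτ hx, 𝔓.red_pow hx, ← pow_mul, pow_two]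

/-- `σ` is wild on `L`. -/
def IsWild (L : IntermediateField ℚ QB) (σ : GQ) : Prop :=
  σ ∈ 𝔓.I ∧ ∀ x ∈ L, x ≠ 0 → 𝔓.nm (σ x - x) < 𝔓.nm x

lemma IsWild.pow {𝔓 : LocalPlace p} {L : IntermediateField ℚ QB} [Normal ℚ L] {σ : GQ} (h : 𝔓.IsWild L σ) (n : ℕ) :
    𝔓.IsWild L (σ ^ n) := by
  induction n with
  | zero => exact ⟨one_mem _, fun x _ hx => by simpa using 𝔓.nm.pos hx⟩
  | succ n ih =>
    refine ⟨pow_mem h.1 _, fun x hx hx0 => ?_⟩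
    rw [pow_succ, AlgEquiv.mul_apply,
      show (σ ^ n) (σ x) - x = (σ ^ n) (σ x - x) + ((σ ^ n) x - x) by rw [map_sub]; ring]
    refine (𝔓.ultra _ _).trans_lt (max_lt ?_ (ih.2 x hx hx0))
    rw [𝔓.nm_apply (𝔓.I_le_D (pow_mem h.1 n))]
    exact h.2 x hx hx0

lemma IsWild.mul {𝔓 : LocalPlace p} {L : IntermediateField ℚ QB} {σ σ' : GQ}
    (h : 𝔓.IsWild L σ) (h' : 𝔓.IsWild L σ') : 𝔓.IsWild L (σ * σ') := by
  refine ⟨mul_mem h.1 h'.1, fun x hx hx0 => ?_⟩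
  rw [AlgEquiv.mul_apply, show σ (σ' x) - x = σ (σ' x - x) + (σ x - x) by rw [map_sub]; ring]
  refine (𝔓.ultra _ _).trans_lt (max_lt ?_ (h.2 x hx hx0))
  rw [𝔓.nm_apply (𝔓.I_le_D h.1)]
  exact h'.2 x hx hx0

lemma IsWild.conj {𝔓 : LocalPlace p} {L : IntermediateField ℚ QB} [Normal ℚ L] {σ τ : GQ}
    (h : 𝔓.IsWild L σ) (hτ : τ ∈ 𝔓.D) : 𝔓.IsWild L (τ * σ * τ⁻¹) := by
  refine ⟨𝔓.conj_mem_I h.1 hτ, fun x hx hx0 => ?_⟩
  obtain ⟨y, rfl⟩ : ∃ y, τ y = x := ⟨τ⁻¹ x, gq_apply_inv _ _⟩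
  have hy : y ∈ L := by
    rw [← gq_inv_apply τ y, show τ⁻¹ (τ y) = algebraMap L QB ((τ⁻¹).restrictNormal L ⟨τ y, hx⟩) from
      (AlgEquiv.restrictNormal_commutes τ⁻¹ L ⟨τ y, hx⟩).symm]
    exact SetLike.coe_mem _
  rw [AlgEquiv.mul_apply, AlgEquiv.mul_apply, gq_inv_apply, ← map_sub, 𝔓.nm_apply hτ,
    𝔓.nm_apply hτ]
  exact h.2 y hy fun h0 => hx0 (by simp [h0])

/-- A wild element whose `ℓ`-th power is trivial on the level is trivial there. -/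
lemma IsWild.eq_id {𝔓 : LocalPlace p} {L : IntermediateField ℚ QB} [Normal ℚ L] {σ : GQ} (h : 𝔓.IsWild L σ)
    {l : ℕ} (hl : ¬ p ∣ l) (hσl : ∀ x ∈ L, (σ ^ l) x = x) : ∀ x ∈ L, σ x = x := by
  intro x hx
  by_contra hne
  set t := σ x - x with ht
  have ht0 : t ≠ 0 := sub_ne_zero.mpr hne
  have hσx : σ x ∈ L := by
    rw [show σ x = algebraMap L QB (σ.restrictNormal L ⟨x, hx⟩) from
      (AlgEquiv.restrictNormal_commutes σ L ⟨x, hx⟩).symm]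
    exact SetLike.coe_mem _
  have htL : t ∈ L := sub_mem hσx hx
  have hsum : ∑ j ∈ Finset.range l, (σ ^ j) t = 0 := by
    simp only [ht, map_sub]
    rw [Finset.sum_congr rfl fun j _ => show (σ ^ j) (σ x) - (σ ^ j) x =
      (σ ^ (j + 1)) x - (σ ^ j) x by rw [pow_succ, AlgEquiv.mul_apply],
      Finset.sum_range_sub (fun j => (σ ^ j) x), hσl x hx]
    simp
  have hlt : 𝔓.nm (∑ j ∈ Finset.range l, ((σ ^ j) t - t)) < 𝔓.nm t :=
    𝔓.nm_sum_lt _ _ (𝔓.nm.pos ht0) fun j _ => (h.pow j).2 t htL ht0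
  rw [Finset.sum_sub_distrib, hsum, Finset.sum_const, Finset.card_range, nsmul_eq_mul, zero_sub,
    AbsoluteValue.map_neg, map_mul, 𝔓.nm_natCast_eq_one hl, one_mul] at hlt
  exact lt_irrefl _ hlt

/-- The image of a wild element in a group of that level has `p`-power order. -/
theorem IsWild.exists_pow_eq_one {𝔓 : LocalPlace p} {L : IntermediateField ℚ QB} [FiniteDimensional ℚ L] [Normal ℚ L]
    {σ : GQ} (h : 𝔓.IsWild L σ) {G : Type*} [Monoid G] (f : GQ → G)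
    (hf : ∀ n : ℕ, f (σ ^ n) = f σ ^ n) (hlev : ∀ s : GQ, (∀ x ∈ L, s x = x) → f s = 1) :
    ∃ k : ℕ, f σ ^ p ^ k = 1 := by
  set r := AlgEquiv.restrictNormalHom (F := ℚ) (K₁ := QB) L
  have hrc : ∀ (τ : GQ) (x : L), ((r τ x : L) : QB) = τ (x : QB) := fun τ x =>
    AlgEquiv.restrictNormal_commutes τ L x
  have htriv : ∀ n, orderOf (r σ) ∣ n → ∀ x ∈ L, (σ ^ n) x = x := by
    intro n hn x hx
    have := hrc (σ ^ n) ⟨x, hx⟩
    rw [map_pow, orderOf_dvd_iff_pow_eq_one.mp hn] at this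
    exact this.symm
  set n := orderOf (r σ) with hn
  have hn0 : 0 < n := (isOfFinOrder_of_finite (r σ)).orderOf_pos
  obtain ⟨k, l, hl, hkl⟩ := Nat.exists_eq_pow_mul_and_not_dvd hn0.ne' p hp.out.ne_one
  refine ⟨k, ?_⟩
  rw [← hf]
  refine hlev _ ((h.pow (p ^ k)).eq_id hl fun x hx => ?_)
  rw [← pow_mul]
  exact htriv _ (dvd_of_eq hkl) x hx

/-- Commutators in inertia are wild at every level. -/
theorem isWild_commutator (L : IntermediateField ℚ QB) {σ τ : GQ} (hσ : σ ∈ 𝔓.I) (hτ : τ ∈ 𝔓.I) :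
    𝔓.IsWild L (σ * τ * σ⁻¹ * τ⁻¹) := by
  refine ⟨mul_mem (mul_mem (mul_mem hσ hτ) (inv_mem hσ)) (inv_mem hτ), fun x _ hx => ?_⟩
  obtain ⟨y, rfl⟩ : ∃ y, τ (σ y) = x := ⟨σ⁻¹ (τ⁻¹ x), by rw [gq_apply_inv, gq_apply_inv]⟩
  have hy : y ≠ 0 := fun h => hx (by simp [h])
  have hD := fun {s : GQ} (hs : s ∈ 𝔓.I) (z : QB) => 𝔓.nm_apply (𝔓.I_le_D hs) z
  have he : (σ * τ * σ⁻¹ * τ⁻¹) (τ (σ y)) = σ (τ y) := by
    simp only [AlgEquiv.mul_apply, gq_inv_apply]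
  rw [he, hD hτ, hD hσ]
  have hu : ∀ {s : GQ}, s ∈ 𝔓.I → 𝔓.nm (s y / y) = 1 := fun hs => by
    rw [map_div₀, hD hs]; exact div_self (𝔓.nm.pos hy).ne'
  have h1 := (𝔓.mem_I_iff.mp hσ).2 (τ y / y) (hu hτ).le
  have h2 := (𝔓.mem_I_iff.mp hτ).2 (σ y / y) (hu hσ).le
  have hmul : ∀ {s : GQ} {z : QB}, 𝔓.nm (s y / y) = 1 → 𝔓.nm z < 1 →
      𝔓.nm (s y * z) < 𝔓.nm y := by
    intro s z hs hz
    rw [show s y * z = (s y / y) * z * y by field_simp, map_mul, map_mul, hs, one_mul]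
    exact mul_lt_of_lt_one_left (𝔓.nm.pos hy) hz
  rw [show σ (τ y) - τ (σ y) = σ y * (σ (τ y / y) - τ y / y) - τ y * (τ (σ y / y) - σ y / y) by
    have hσy : σ y ≠ 0 := by simpa using hy
    have hτy : τ y ≠ 0 := by simpa using hy
    rw [map_div₀, map_div₀]; field_simp; ring]
  exact (𝔓.nm_sub_le _ _).trans_lt (max_lt (hmul (hu hσ) h1) (hmul (hu hτ) h2))

/-- Frobenius conjugates tame inertia to its `p`-th power. -/
theorem isWild_frob (L : IntermediateField ℚ QB) {σ τ : GQ} (hσ : σ ∈ 𝔓.I)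
    (hτ : 𝔓.IsFrob p τ) : 𝔓.IsWild L (τ * σ * τ⁻¹ * (σ ^ p)⁻¹) := by
  have hσp := pow_mem hσ p
  refine ⟨mul_mem (𝔓.conj_mem_I hσ hτ.1) (inv_mem hσp), fun x _ hx => ?_⟩
  obtain ⟨z, rfl⟩ : ∃ z, (σ ^ p) z = x := ⟨(σ ^ p)⁻¹ x, gq_apply_inv _ _⟩
  have hz : z ≠ 0 := fun h => hx (by simp [h])
  rw [show (τ * σ * τ⁻¹ * (σ ^ p)⁻¹) ((σ ^ p) z) = (τ * σ * τ⁻¹) z by
    rw [AlgEquiv.mul_apply, gq_inv_apply], 𝔓.nm_apply (𝔓.I_le_D hσp)]
  obtain ⟨w, rfl⟩ : ∃ w, τ w = z := ⟨τ⁻¹ z, gq_apply_inv _ _⟩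
  have hw : w ≠ 0 := fun h => hz (by simp [h])
  rw [show (τ * σ * τ⁻¹) (τ w) = τ (σ w) by simp only [AlgEquiv.mul_apply, gq_inv_apply]]
  have hnw : 𝔓.nm (τ w) = 𝔓.nm w := 𝔓.nm_apply hτ.1 w
  have hσw : 𝔓.nm (σ w / w) = 1 := by
    rw [map_div₀, 𝔓.nm_apply (𝔓.I_le_D hσ)]; exact div_self (𝔓.nm.pos hw).ne'
  set c := 𝔓.red (σ w / w)
  -- `σ^j z ≡ c^j z`
  have hpow : ∀ j : ℕ, 𝔓.nm ((σ ^ j) (τ w) / τ w) = 1 := fun j => by
    rw [map_div₀, 𝔓.nm_apply (𝔓.I_le_D (pow_mem hσ j))]; exact div_self (𝔓.nm.pos hz).ne'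
  have hc1 : 𝔓.red (σ (τ w) / τ w) = c := by
    have hu : 𝔓.nm (τ w / w) = 1 := by rw [map_div₀, hnw]; exact div_self (𝔓.nm.pos hw).ne'
    have h := 𝔓.red_apply_of_mem_I hσ hu.le
    have hu' : 𝔓.nm (σ (τ w / w)) = 1 := by rw [𝔓.nm_apply (𝔓.I_le_D hσ), hu]
    have e : σ (τ w) / τ w * (τ w / w) = σ (τ w / w) * (σ w / w) := by
      have : σ w ≠ 0 := by simpa using hw
      rw [map_div₀]; field_simp
    have h1 := hpow 1
    rw [pow_one] at h1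
    have h2 := congrArg 𝔓.red e
    rw [𝔓.red_mul h1.le hu.le, 𝔓.red_mul hu'.le hσw.le, h, mul_comm (𝔓.red (τ w / w))] at h2
    exact mul_right_cancel₀ (𝔓.red_ne_zero hu) h2
  have hcj : ∀ j : ℕ, 𝔓.red ((σ ^ j) (τ w) / τ w) = c ^ j := by
    intro j
    induction j with
    | zero => rw [pow_zero, pow_zero, AlgEquiv.one_apply, div_self hz, 𝔓.red_one]
    | succ j ih =>
      have h1 := hpow 1
      rw [pow_one] at h1
      rw [pow_succ, pow_succ', AlgEquiv.mul_apply,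
        show (σ ^ j) (σ (τ w)) / τ w = (σ ^ j) (σ (τ w) / τ w) * ((σ ^ j) (τ w) / τ w) by
          have : (σ ^ j) (τ w) ≠ 0 := (map_ne_zero (σ ^ j)).mpr hz
          rw [map_div₀]; field_simp,
        𝔓.red_mul (by rw [𝔓.nm_apply (𝔓.I_le_D (pow_mem hσ j))]; exact h1.le) (hpow j).le,
        𝔓.red_apply_of_mem_I (pow_mem hσ j) h1.le, hc1, ih]
  have hlhs : 𝔓.red (τ (σ w) / τ w) = c ^ p := by
    rw [← map_div₀, 𝔓.red_apply_of_isFrob hτ hσw.le]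
  have hl1 : 𝔓.nm (τ (σ w) / τ w) = 1 := by rw [← map_div₀, 𝔓.nm_apply hτ.1, hσw]
  have hlt := (𝔓.red_eq_iff hl1.le (hpow p).le).mp (hlhs.trans (hcj p).symm)
  rwa [← sub_div, map_div₀, div_lt_one (𝔓.nm.pos hz)] at hlt

/-- The decomposition group is generated at every level by inertia and a Frobenius element. -/
theorem exists_pow_mul_mem_I (L : IntermediateField ℚ QB) [FiniteDimensional ℚ L] [Normal ℚ L]
    {τ σ : GQ} (hτ : 𝔓.IsFrob p τ) (hσ : σ ∈ 𝔓.D) :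
    ∃ j : ℕ, ∃ ι ∈ 𝔓.I, ∀ x ∈ L, σ x = (τ ^ j) (ι x) := by
  classical
  obtain ⟨n, hn, hexp⟩ := 𝔓.exists_exponent L
  have h1 : 1 < p ^ n := Nat.one_lt_pow hn.ne' hp.out.one_lt
  set N := p ^ n - 1 with hNdef
  have hN : ¬ p ∣ N := by
    intro hd
    have h3 := Nat.dvd_sub (dvd_pow_self p hn.ne') hd
    rw [hNdef, Nat.sub_sub_self h1.le] at h3
    exact hp.out.not_dvd_one h3
  have hN0 : 0 < N := by omega
  have : NeZero (N : QB) := ⟨Nat.cast_ne_zero.mpr hN0.ne'⟩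
  have : NeZero N := ⟨hN0.ne'⟩
  obtain ⟨ω, hω⟩ := IsAlgClosed.exists_root (Polynomial.cyclotomic N QB)
    (by rw [Polynomial.degree_cyclotomic]; exact_mod_cast (Nat.totient_pos.mpr hN0).ne')
  rw [Polynomial.isRoot_cyclotomic_iff] at hω
  have hω1 : 𝔓.nm ω = 1 := 𝔓.nm_eq_one_of_pow_eq_one hN0.ne' hω.pow_eq_one
  have hωp : ω ^ p ^ n = ω := by
    rw [← Nat.sub_add_cancel h1.le, pow_succ, ← hNdef, hω.pow_eq_one, one_mul]
  set z := 𝔓.red ω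
  have hz : z ^ p ^ n = z := by rw [← 𝔓.red_pow hω1.le, hωp]
  -- the conjugates of the residue of `ω`
  have hσω1 : 𝔓.nm (σ ω) = 1 := by rw [𝔓.nm_apply hσ, hω1]
  obtain ⟨j, hj⟩ : ∃ j, 𝔓.red (σ ω) = z ^ p ^ j := by
    let := ZMod.algebra 𝔓.RF p
    let σ' : 𝔓.RF →+* 𝔓.RF :=
      MulSemiringAction.toRingHom 𝔓.D 𝔓.RF (⟨σ, hσ⟩ : 𝔓.D)
    have hσ' : σ' z = 𝔓.red (σ ω) := by
      show (⟨σ, hσ⟩ : 𝔓.D) • z = _
      rw [show z = IsLocalRing.residue 𝔓.P ⟨ω, (𝔓.mem_iff ω).mpr hω1.le⟩ from 𝔓.red_of_mem _,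
        𝔓.red_of_mem ((𝔓.mem_iff _).mpr hσω1.le)]
      rfl
    set f : Polynomial 𝔓.RF := ∏ j ∈ Finset.range n, (Polynomial.X - Polynomial.C (z ^ p ^ j))
    have hf : f.map (frobenius 𝔓.RF p) = f := by
      simp only [f, Polynomial.map_prod, Polynomial.map_sub, Polynomial.map_X, Polynomial.map_C,
        frobenius_def, ← pow_mul, ← pow_succ]
      obtain ⟨n, rfl⟩ := Nat.exists_eq_succ_of_ne_zero hn.ne'
      conv_rhs => rw [Finset.prod_range_succ', pow_zero, pow_one]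
      rw [Finset.prod_range_succ, hz]
    have hcoef : ∀ i, σ' (f.coeff i) = f.coeff i := by
      intro i
      have hfix : f.coeff i ^ p = f.coeff i := by
        conv_rhs => rw [← hf]
        rw [Polynomial.coeff_map, frobenius_def]
      obtain ⟨c, hc⟩ : f.coeff i ∈ Set.range (algebraMap (ZMod p) 𝔓.RF) := by
        set S : Finset 𝔓.RF := Finset.univ.image (algebraMap (ZMod p) 𝔓.RF) with hS
        set q : Polynomial 𝔓.RF := Polynomial.X ^ p - Polynomial.X with hq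
        have hq0 : q ≠ 0 := FiniteField.X_pow_card_sub_X_ne_zero 𝔓.RF hp.out.one_lt
        have hqd : q.natDegree = p := FiniteField.X_pow_card_sub_X_natDegree_eq 𝔓.RF hp.out.one_lt
        have hsub : S ⊆ q.roots.toFinset := by
          intro x hx
          obtain ⟨c, -, rfl⟩ := Finset.mem_image.mp hx
          rw [Multiset.mem_toFinset, Polynomial.mem_roots hq0]
          simp [hq, ← map_pow, ZMod.pow_card]
        have hcard : q.roots.toFinset.card ≤ S.card := by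
          rw [hS, Finset.card_image_of_injective _ (algebraMap (ZMod p) 𝔓.RF).injective,
            Finset.card_univ, ZMod.card]
          exact (Multiset.toFinset_card_le _).trans ((q.card_roots').trans hqd.le)
        have hmem : f.coeff i ∈ S := by
          rw [Finset.eq_of_subset_of_card_le hsub hcard, Multiset.mem_toFinset,
            Polynomial.mem_roots hq0]
          simp [hq, hfix]
        obtain ⟨c, -, hc⟩ := Finset.mem_image.mp hmem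
        exact ⟨c, hc⟩
      rw [← hc]
      exact DFunLike.congr_fun
        (RingHom.ext_zmod (σ'.comp (algebraMap (ZMod p) 𝔓.RF)) (algebraMap (ZMod p) 𝔓.RF)) c
    have hroot : f.eval (σ' z) = 0 := by
      have h0 : f.eval z = 0 := by
        simp only [f, Polynomial.eval_prod]
        exact Finset.prod_eq_zero (Finset.mem_range.mpr hn) (by simp)
      have h := congrArg σ' h0
      rw [map_zero, ← Polynomial.eval₂_at_apply, ← Polynomial.eval_map] at h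
      rwa [show f.map σ' = f from Polynomial.ext fun i => by rw [Polynomial.coeff_map, hcoef]] at h
    simp only [f, Polynomial.eval_prod, Finset.prod_eq_zero_iff, Polynomial.eval_sub,
      Polynomial.eval_X, Polynomial.eval_C, sub_eq_zero] at hroot
    obtain ⟨j, -, hj⟩ := hroot
    exact ⟨j, by rw [← hσ', hj]⟩
  have hτj : ∀ j : ℕ, ∀ {x : QB}, 𝔓.nm x ≤ 1 → 𝔓.red ((τ ^ j) x) = 𝔓.red x ^ p ^ j := by
    intro j
    induction j with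
    | zero => intro x _; simp
    | succ j ih =>
      intro x hx
      rw [pow_succ', AlgEquiv.mul_apply,
        𝔓.red_apply_of_isFrob hτ (by rw [𝔓.nm_apply (pow_mem hτ.1 j)]; exact hx), ih hx, ← pow_mul,
        ← pow_succ]
  set σ₁ := (τ ^ j)⁻¹ * σ with hσ₁
  have hσ₁D : σ₁ ∈ 𝔓.D := mul_mem (inv_mem (pow_mem hτ.1 j)) hσ
  have hfixω : σ₁ ω = ω := by
    have hjD := pow_mem hτ.1 j
    have h := 𝔓.eq_one_of_pow_eq_one (u := σ ω / (τ ^ j) ω) hN ?_ ?_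
    · have hne : (τ ^ j) ω ≠ 0 := (map_ne_zero (τ ^ j)).mpr (hω.ne_zero hN0.ne')
      rw [hσ₁, AlgEquiv.mul_apply, (div_eq_one_iff_eq hne).mp h, ← AlgEquiv.mul_apply,
        inv_mul_cancel, AlgEquiv.one_apply]
    · rw [div_pow, ← map_pow, ← map_pow, hω.pow_eq_one, map_one, map_one, div_one]
    · have hne : (τ ^ j) ω ≠ 0 := (map_ne_zero (τ ^ j)).mpr (hω.ne_zero hN0.ne')
      rw [div_sub_one hne, map_div₀, 𝔓.nm_apply hjD, hω1, div_one,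
        ← 𝔓.red_eq_iff hσω1.le (by rw [𝔓.nm_apply hjD, hω1]), hj, hτj j hω1.le]
  obtain ⟨ι, hι, hιe⟩ := Frobenius.exists_mem_inertiaSubgroupIn_eqOn L (A := 𝔓.P) σ₁ (fun z hz => by
    rw [Frobenius.mem_centre, 𝔓.mem_nonunits_iff]
    change 𝔓.nm (σ₁ (z : QB) - (z : QB)) < 1
    obtain ⟨v, hv, hzv⟩ := 𝔓.exists_root_of_pow_congr hn (hexp z hz)
    have hσv : σ₁ v = v := by
      by_cases h0 : v = 0
      · simp [h0]
      have hv' : v ^ N = 1 := by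
        refine mul_right_cancel₀ h0 ?_
        rw [← pow_succ, hNdef, Nat.sub_add_cancel h1.le, hv, one_mul]
      obtain ⟨i, -, rfl⟩ := hω.eq_pow_of_pow_eq_one hv'
      rw [map_pow, hfixω]
    rw [show σ₁ (z : QB) - (z : QB) = σ₁ ((z : QB) - v) - ((z : QB) - v) by rw [map_sub, hσv]; ring]
    exact (𝔓.nm_sub_le _ _).trans_lt (max_lt (by rw [𝔓.nm_apply hσ₁D]; exact hzv) hzv))
  refine ⟨j, ι, hι, fun x hx => ?_⟩
  rw [hιe x hx, hσ₁, ← AlgEquiv.mul_apply, mul_inv_cancel_left]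

end LocalPlace

end FLTAgent.TW.Flat
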