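import Fermat.Agent.TW.Flat.Tower
import Fermat.Agent.TW.Flat.Model
import Mathlib.FieldTheory.Minpoly.Basic
import Mathlib.RingTheory.Polynomial.Basic

/-!
# Moving the uniformiser of a totally ramified field

If `L ⊆ M` are totally ramified with uniformisers `π_L`, `π_M` and `π'` is close to the conjugates of
`π_L`, then some `π''` nearly satisfies the Eisenstein equation of `π_M`; sending `π_M` to `π''` is
a norm preserving map on integral elements which is multiplicative up to a small error.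
-/

set_option autoImplicit false

open scoped Pointwise
open Polynomial FLTAgent.FlatModel

noncomputable section

namespace FLTAgent.TW.Flat

variable {p : ℕ} [hp : Fact p.Prime] {𝔓 : LocalPlace p}

namespace TR

variable {e : ℕ} (T : TR 𝔓 e)

/-- A monic equation of the uniformiser over the inertia field. -/
lemma exists_equation : ∃ q : QB[X], q.Monic ∧ q.natDegree = e ∧ (∀ j, q.coeff j ∈ 𝔓.K₀) ∧
    q.eval T.π = 0 := by
  obtain ⟨c, hc, he⟩ := T.span (T.π ^ e) (pow_mem T.mem e)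
  have hdeg : (∑ i : Fin e, C (c i) * X ^ (i : ℕ)).degree < ((X : QB[X]) ^ e).degree := by
    rw [degree_X_pow]
    exact (degree_sum_le _ _).trans_lt ((Finset.sup_lt_iff (WithBot.bot_lt_coe e)).mpr fun i _ =>
      (degree_C_mul_X_pow_le _ _).trans_lt (Nat.cast_lt.mpr i.2))
  refine ⟨X ^ e - ∑ i : Fin e, C (c i) * X ^ (i : ℕ), (monic_X_pow e).sub_of_left hdeg, ?_,
    fun j => ?_, ?_⟩
  · rw [natDegree_sub_eq_left_of_natDegree_lt, natDegree_X_pow]
    rw [natDegree_X_pow]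
    rcases eq_or_ne (∑ i : Fin e, C (c i) * X ^ (i : ℕ)) (0 : QB[X]) with h0 | h0
    · rw [h0, natDegree_zero]; exact T.pos
    · rw [natDegree_lt_iff_degree_lt h0]; rwa [degree_X_pow] at hdeg
  · simp only [coeff_sub, coeff_X_pow, finsetSum_coeff, coeff_C_mul_X_pow]
    refine sub_mem ?_ (sum_mem fun i _ => ?_) <;> split_ifs
    · exact one_mem _
    · exact zero_mem _
    · exact hc i
    · exact zero_mem _
  · simp [eval_finsetSum, he]

/-- The inertia orbit of the uniformiser. -/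
theorem exists_orbit : ∃ R : Finset QB, R.card = e ∧ T.π ∈ R ∧
    ∀ r, r ∈ R ↔ ∃ σ ∈ 𝔓.I, σ T.π = r := by
  classical
  obtain ⟨q, hqm, hqd, hqc, hq0⟩ := T.exists_equation
  let R := q.roots.toFinset.filter fun r => ∃ σ ∈ 𝔓.I, σ T.π = r
  have hmem : ∀ r, r ∈ R ↔ ∃ σ ∈ 𝔓.I, σ T.π = r := by
    intro r
    simp only [R, Finset.mem_filter, Multiset.mem_toFinset, mem_roots hqm.ne_zero, IsRoot.def]
    refine and_iff_right_of_imp ?_
    rintro ⟨σ, hσ, rfl⟩
    have h := congrArg σ hq0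
    rw [map_zero, eval_eq_sum_range, map_sum] at h
    rw [eval_eq_sum_range, ← h]
    exact Finset.sum_congr rfl fun j _ => by rw [map_mul, map_pow, 𝔓.mem_K₀.mp (hqc j) σ hσ]
  have hπ : T.π ∈ R := (hmem _).mpr ⟨1, one_mem _, rfl⟩
  refine ⟨R, le_antisymm ?_ ?_, hπ, hmem⟩
  · exact (Finset.card_filter_le _ _).trans ((Multiset.toFinset_card_le _).trans
      ((q.card_roots').trans hqd.le))
  by_contra hlt
  push Not at hlt
  set P : QB[X] := ∏ r ∈ R, (X - C r) with hP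
  have hPm : P.Monic := monic_prod_of_monic _ _ fun r _ => monic_X_sub_C r
  have hPd : P.natDegree = R.card := natDegree_finsetProd_X_sub_C_eq_card R id
  have hPK : ∀ j, P.coeff j ∈ 𝔓.K₀ := by
    intro j
    rw [𝔓.mem_K₀]
    intro σ hσ
    have key : P.map (σ : QB →+* QB) = P := by
      rw [hP, Polynomial.map_prod]
      simp only [Polynomial.map_sub, map_X, map_C]
      refine Finset.prod_nbij' (fun r => σ r) (fun r => σ⁻¹ r) ?_ ?_ ?_ ?_ (fun r _ => rfl)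
      · intro r hr
        obtain ⟨τ, hτ, rfl⟩ := (hmem r).mp hr
        exact (hmem _).mpr ⟨σ * τ, mul_mem hσ hτ, rfl⟩
      · intro r hr
        obtain ⟨τ, hτ, rfl⟩ := (hmem r).mp hr
        exact (hmem _).mpr ⟨σ⁻¹ * τ, mul_mem (inv_mem hσ) hτ, rfl⟩
      · intro r _; simp
      · intro r _; simp
    have := congrArg (fun f : QB[X] => f.coeff j) key
    simp only [coeff_map] at this
    exact this
  have h0 : P.eval T.π = 0 := by
    rw [hP, eval_prod]
    exact Finset.prod_eq_zero hπ (by simp)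
  rw [eval_eq_sum_range' (n := e) (by omega), Finset.sum_range] at h0
  have h1 := T.coeff_eq_zero (c := fun i => P.coeff i) (fun i => hPK i) h0 ⟨R.card, hlt⟩
  simp only at h1
  rw [← hPd, hPm.coeff_natDegree] at h1
  exact one_ne_zero h1

end TR

/-- A root of a monic polynomial with integral coefficients is integral. -/
lemma nm_root_le_one {d : ℕ} {x : QB} {g : Fin d → QB} (hg : ∀ j, 𝔓.nm (g j) ≤ 1)
    (h : x ^ d = ∑ j, g j * x ^ (j : ℕ)) : 𝔓.nm x ≤ 1 := by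
  by_contra hgt
  push Not at hgt
  rcases Nat.eq_zero_or_pos d with rfl | hd
  · simp at h
  have h1 : 𝔓.nm (x ^ d) < 𝔓.nm (x ^ d) := by
    conv_lhs => rw [h]
    refine 𝔓.nm_sum_lt _ _ (by rw [map_pow]; positivity) fun j _ => ?_
    rw [map_mul, map_pow, map_pow]
    exact (mul_le_of_le_one_left (pow_nonneg (𝔓.nm_nonneg x) _) (hg j)).trans_lt
      (pow_lt_pow_right₀ hgt j.2)
  exact lt_irrefl _ h1

omit hp in
/-- Powers of congruent integral elements are congruent. -/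
lemma nm_pow_sub_pow_le {x y : QB} (hx : 𝔓.nm x ≤ 1) (hy : 𝔓.nm y ≤ 1) (q : ℕ) :
    𝔓.nm (x ^ q - y ^ q) ≤ 𝔓.nm (x - y) := by
  rw [← geom_sum₂_mul, map_mul]
  refine mul_le_of_le_one_left (𝔓.nm_nonneg _) (𝔓.nm_sum_le _ _ zero_le_one fun i _ => ?_)
  rw [map_mul, map_pow, map_pow]
  exact mul_le_one₀ (pow_le_one₀ (𝔓.nm_nonneg _) hx) (pow_nonneg (𝔓.nm_nonneg _) _)
    (pow_le_one₀ (𝔓.nm_nonneg _) hy)

variable {e₁ d : ℕ}

/-- The coefficients of the equation of `π_M` over `L`. -/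
structure RelEq (L : TR 𝔓 e₁) (M : TR 𝔓 (e₁ * d)) where
  /-- the coefficients -/
  c : Fin (e₁ * d) → QB
  mem : ∀ l, c l ∈ 𝔓.K₀
  le_one : ∀ l, 𝔓.nm (c l) ≤ 1
  eqn : M.π ^ d = ∑ l : Fin (e₁ * d), c l * (L.π ^ ((l : ℕ) / d) * M.π ^ ((l : ℕ) % d))

variable {L : TR 𝔓 e₁} {M : TR 𝔓 (e₁ * d)}

lemma TR.rho_eq_pow (L : TR 𝔓 e₁) (M : TR 𝔓 (e₁ * d)) : L.ρ = M.ρ ^ d :=
  (pow_left_inj₀ L.rho_pos.le (pow_nonneg M.rho_pos.le _) L.pos.ne').mp
    (by rw [L.rho_pow, ← pow_mul, mul_comm d, M.rho_pow])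

lemma TR.deg_pos (M : TR 𝔓 (e₁ * d)) : 0 < d := Nat.pos_of_mul_pos_left M.pos

lemma nm_monomial {x : QB} (hx : 𝔓.nm x = L.ρ) (l : ℕ) :
    𝔓.nm (x ^ (l / d) * M.π ^ (l % d)) = M.ρ ^ l := by
  rw [map_mul, map_pow, map_pow, hx, L.rho_eq_pow M, ← pow_mul,
    show 𝔓.nm M.π = M.ρ from rfl, ← pow_add, Nat.div_add_mod]

theorem exists_relEq (hLM : L.K ≤ M.K) : Nonempty (RelEq L M) := by
  obtain ⟨c, hc, he, hint⟩ := M.exists_expansion
    (fun l => L.π ^ ((l : ℕ) / d) * M.π ^ ((l : ℕ) % d))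
    (fun l => M.K.mul_mem (pow_mem (hLM L.mem) _) (pow_mem M.mem _))
    (fun l => nm_monomial rfl l) (pow_mem M.mem d)
  exact ⟨⟨c, hc, fun l => hint (by
    rw [map_pow]; exact pow_le_one₀ (𝔓.nm_nonneg _) M.rho_lt_one.le) l, he⟩⟩

namespace RelEq

variable (E : RelEq L M)

/-- The equation with `π_L` replaced by `r`. -/
def poly (r : QB) : QB[X] :=
  X ^ d - ∑ l : Fin (e₁ * d), C (E.c l * r ^ ((l : ℕ) / d)) * X ^ ((l : ℕ) % d)

include E in
lemma degree_lt (r : QB) : (∑ l : Fin (e₁ * d),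
    C (E.c l * r ^ ((l : ℕ) / d)) * X ^ ((l : ℕ) % d)).degree < ((X : QB[X]) ^ d).degree := by
  rw [degree_X_pow]
  exact (degree_sum_le _ _).trans_lt ((Finset.sup_lt_iff (WithBot.bot_lt_coe d)).mpr fun i _ =>
    (degree_C_mul_X_pow_le _ _).trans_lt (Nat.cast_lt.mpr (Nat.mod_lt _ M.deg_pos)))

lemma monic_poly (r : QB) : (E.poly r).Monic := (monic_X_pow d).sub_of_left (E.degree_lt r)

lemma natDegree_poly (r : QB) : (E.poly r).natDegree = d := by
  unfold poly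
  rw [natDegree_eq_of_degree_eq (degree_sub_eq_left_of_degree_lt (E.degree_lt r)), natDegree_X_pow]

lemma eval_poly (r x : QB) : (E.poly r).eval x =
    x ^ d - ∑ l : Fin (e₁ * d), E.c l * (r ^ ((l : ℕ) / d) * x ^ ((l : ℕ) % d)) := by
  simp [poly, eval_finsetSum, mul_assoc]

lemma term_le (l : Fin (e₁ * d)) : 𝔓.nm (E.c l) * M.ρ ^ (l : ℕ) ≤ M.ρ ^ d := by
  have h := LocalPlace.nm_le_nm_sum (𝔓 := 𝔓) Finset.univ
    (fun l : Fin (e₁ * d) => E.c l * (L.π ^ ((l : ℕ) / d) * M.π ^ ((l : ℕ) % d)))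
    (fun i _ j _ hi h => ?_) l (Finset.mem_univ l)
  · rw [← E.eqn, map_mul, nm_monomial rfl, map_pow] at h
    exact h
  have hi' : E.c i * M.π ^ (i : ℕ) ≠ 0 :=
    mul_ne_zero (left_ne_zero_of_mul hi) (pow_ne_zero _ M.pi_ne_zero)
  refine M.term_inj E.mem hi' ?_
  rw [map_mul 𝔓.nm (E.c i), map_mul 𝔓.nm (E.c j), nm_monomial rfl, nm_monomial rfl] at h
  rw [map_mul, map_mul, map_pow, map_pow]
  exact h

/-- The roots of the moved equation have the norm of `π_M`. -/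
theorem nm_root (h2 : 2 ≤ e₁) {r x : QB} (hr : 𝔓.nm r = L.ρ) (hx : (E.poly r).eval x = 0) :
    𝔓.nm x = M.ρ := by
  have hd := M.deg_pos
  have hdN : d < e₁ * d := by nlinarith
  set t : Fin (e₁ * d) → QB := fun l => E.c l * (r ^ ((l : ℕ) / d) * x ^ ((l : ℕ) % d)) with ht
  rw [eval_poly, sub_eq_zero] at hx
  change x ^ d = ∑ l, t l at hx
  set s := 𝔓.nm x with hs
  have hs0 : 0 ≤ s := 𝔓.nm_nonneg x
  have hMρ := M.rho_pos
  have htn : ∀ l, 𝔓.nm (t l) * M.ρ ^ ((l : ℕ) % d) =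
      𝔓.nm (E.c l) * M.ρ ^ (l : ℕ) * s ^ ((l : ℕ) % d) := by
    intro l
    rw [ht, map_mul, map_mul, map_pow, map_pow, hr, L.rho_eq_pow M, ← pow_mul, ← hs]
    rw [show M.ρ ^ (l : ℕ) = M.ρ ^ (d * ((l : ℕ) / d)) * M.ρ ^ ((l : ℕ) % d) by
      rw [← pow_add, Nat.div_add_mod]]
    ring
  have hle : ∀ l, 𝔓.nm (t l) * M.ρ ^ ((l : ℕ) % d) ≤ M.ρ ^ d * s ^ ((l : ℕ) % d) := fun l => by
    rw [htn]
    exact mul_le_mul_of_nonneg_right (E.term_le l) (pow_nonneg hs0 _)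
  rcases lt_trichotomy s M.ρ with hlt | heq | hgt
  · exfalso
    -- the term `l = d` dominates
    set l₀ : Fin (e₁ * d) := ⟨d, hdN⟩
    have hother : ∀ l, l ≠ l₀ → 𝔓.nm (E.c l) * M.ρ ^ (l : ℕ) < M.ρ ^ d := by
      intro l hl
      refine lt_of_le_of_ne (E.term_le l) fun h => hl ?_
      have hc0 : E.c l ≠ 0 := fun h0 => by
        rw [h0, map_zero, zero_mul] at h
        exact absurd h.symm (pow_pos hMρ d).ne'
      obtain ⟨n, -, hn⟩ := M.nm_term (E.mem l) hc0 l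
      rw [map_mul, map_pow, show 𝔓.nm M.π = M.ρ from rfl, h, ← zpow_natCast] at hn
      have h2 := congrArg (fun z : ℤ => z % ((e₁ * d : ℕ) : ℤ)) (M.zpow_inj hn)
      simp only [Int.mul_add_emod_self_left] at h2
      rw [Int.emod_eq_of_lt (by positivity) (mod_cast hdN),
        Int.emod_eq_of_lt (by positivity) (mod_cast l.2)] at h2
      exact Fin.ext (by exact_mod_cast h2.symm)
    -- its coefficient is a unit
    have heq0 : 𝔓.nm (E.c l₀) = 1 := by
      refine le_antisymm (E.le_one l₀) ?_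
      by_contra hc
      push Not at hc
      have : 𝔓.nm (M.π ^ d) < M.ρ ^ d := by
        rw [E.eqn]
        refine 𝔓.nm_sum_lt _ _ (pow_pos hMρ d) fun l _ => ?_
        rw [map_mul, nm_monomial rfl]
        by_cases hl : l = l₀
        · subst hl
          exact mul_lt_of_lt_one_left (pow_pos hMρ _) hc
        · exact hother l hl
      rw [map_pow] at this
      exact lt_irrefl _ this
    have hsmall : ∀ l, l ≠ l₀ → 𝔓.nm (t l) < M.ρ ^ d := by
      intro l hl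
      have hj : (0 : ℝ) < M.ρ ^ ((l : ℕ) % d) := pow_pos hMρ _
      refine lt_of_mul_lt_mul_right ?_ hj.le
      rw [htn]
      rcases Nat.eq_zero_or_pos ((l : ℕ) % d) with hj0 | hj0
      · rw [hj0, pow_zero, pow_zero, mul_one, mul_one]; exact hother l hl
      · exact (mul_le_mul_of_nonneg_right (E.term_le l) (pow_nonneg hs0 _)).trans_lt
          (mul_lt_mul_of_pos_left (pow_lt_pow_left₀ hlt hs0 hj0.ne') (pow_pos hMρ d))
    have hl₀ : 𝔓.nm (t l₀) = M.ρ ^ d := by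
      rw [ht, map_mul, heq0, one_mul, map_mul, map_pow, map_pow,
        show ((l₀ : ℕ)) / d = 1 from Nat.div_self hd,
        show ((l₀ : ℕ)) % d = 0 from Nat.mod_self d, pow_one, pow_zero, mul_one, hr,
        L.rho_eq_pow M]
    have hsum : 𝔓.nm (∑ l, t l) = M.ρ ^ d := by
      rw [← Finset.add_sum_erase _ _ (Finset.mem_univ l₀), 𝔓.nm_add_eq_of_lt, hl₀]
      rw [hl₀]
      exact 𝔓.nm_sum_lt _ _ (pow_pos hMρ d) fun l hl => hsmall l (Finset.ne_of_mem_erase hl)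
    rw [← hx, map_pow, ← hs] at hsum
    exact absurd hsum (pow_lt_pow_left₀ hlt hs0 hd.ne').ne
  · exact heq
  · exfalso
    have hspos : 0 < s := hMρ.trans hgt
    have hsum : 𝔓.nm (∑ l, t l) < s ^ d := by
      refine 𝔓.nm_sum_lt _ _ (pow_pos hspos d) fun l _ => ?_
      have hj : (0 : ℝ) < M.ρ ^ ((l : ℕ) % d) := pow_pos hMρ _
      refine lt_of_mul_lt_mul_right ((hle l).trans_lt ?_) hj.le
      have hjd : (l : ℕ) % d < d := Nat.mod_lt _ hd
      obtain ⟨k, hk⟩ := Nat.exists_eq_add_of_lt hjd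
      calc M.ρ ^ d * s ^ ((l : ℕ) % d)
          = M.ρ ^ (k + 1) * (M.ρ ^ ((l : ℕ) % d) * s ^ ((l : ℕ) % d)) := by
            rw [← mul_assoc, ← pow_add, show k + 1 + (l : ℕ) % d = d by omega]
        _ < s ^ (k + 1) * (M.ρ ^ ((l : ℕ) % d) * s ^ ((l : ℕ) % d)) :=
            mul_lt_mul_of_pos_right (pow_lt_pow_left₀ hgt hMρ.le (Nat.succ_ne_zero k))
              (mul_pos hj (pow_pos hspos _))
        _ = s ^ d * M.ρ ^ ((l : ℕ) % d) := by
            rw [show s ^ d = s ^ (k + 1) * s ^ ((l : ℕ) % d) by rw [← pow_add]; congr 1; omega]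
            ring
    rw [← hx, map_pow, ← hs] at hsum
    exact lt_irrefl _ hsum

/-- The equation of `π_M` over the inertia field nearly vanishes at roots of moved equations. -/
theorem exists_equation_near {R : Finset QB} (hRc : R.card = e₁) (hπ : L.π ∈ R)
    (hR : ∀ r, r ∈ R ↔ ∃ σ ∈ 𝔓.I, σ L.π = r) {π' x : QB} (hπ' : 𝔓.nm π' ≤ 1)
    (hx : (E.poly π').eval x = 0) :
    ∃ F : (baseRing 𝔓.P 𝔓.IR)[X], F.Monic ∧ F.natDegree = e₁ * d ∧ aeval M.π F = 0 ∧
      𝔓.nm (aeval x F) ≤ ∏ r ∈ R, 𝔓.nm (π' - r) := by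
  classical
  set G : QB[X] := ∏ r ∈ R, E.poly r with hG
  have hRle : ∀ r ∈ R, 𝔓.nm r ≤ 1 := by
    intro r hr
    obtain ⟨σ, hσ, rfl⟩ := (hR r).mp hr
    rw [𝔓.nm_apply (𝔓.I_le_D hσ)]
    exact L.rho_lt_one.le
  have hGm : G.Monic := monic_prod_of_monic _ _ fun r _ => E.monic_poly r
  have hGd : G.natDegree = e₁ * d := by
    rw [hG, natDegree_prod_of_monic _ _ fun r _ => E.monic_poly r]
    simp [E.natDegree_poly, hRc]
  have hK : ∀ j, ∀ σ ∈ 𝔓.I, σ (G.coeff j) = G.coeff j := by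
    intro j σ hσ
    have key : G.map (σ : QB →+* QB) = G := by
      rw [hG, Polynomial.map_prod]
      refine Finset.prod_nbij' (fun r => σ r) (fun r => σ⁻¹ r) ?_ ?_ ?_ ?_ ?_
      · intro r hr
        obtain ⟨τ, hτ, rfl⟩ := (hR r).mp hr
        exact (hR _).mpr ⟨σ * τ, mul_mem hσ hτ, rfl⟩
      · intro r hr
        obtain ⟨τ, hτ, rfl⟩ := (hR r).mp hr
        exact (hR _).mpr ⟨σ⁻¹ * τ, mul_mem (inv_mem hσ) hτ, rfl⟩
      · intro r _; simp
      · intro r _; simp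
      · intro r _
        simp only [poly, Polynomial.map_sub, Polynomial.map_pow, map_X, Polynomial.map_sum,
          Polynomial.map_mul, map_C]
        congr 1
        refine Finset.sum_congr rfl fun l _ => ?_
        show C (σ (E.c l * r ^ ((l : ℕ) / d))) * _ = _
        rw [map_mul σ, map_pow σ, 𝔓.mem_K₀.mp (E.mem l) σ hσ]
    have := congrArg (fun f : QB[X] => f.coeff j) key
    simp only [coeff_map] at this
    exact this
  have hint : ∀ r ∈ R, E.poly r ∈ lifts 𝔓.P.toSubring.subtype := by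
    intro r hr
    refine (lifts_iff_coeff_lifts _).mpr fun j => ?_
    refine ⟨⟨(E.poly r).coeff j, ?_⟩, rfl⟩
    show (E.poly r).coeff j ∈ 𝔓.P
    simp only [poly, coeff_sub, coeff_X_pow, finsetSum_coeff, coeff_C_mul_X_pow]
    refine sub_mem ?_ (sum_mem fun l _ => ?_) <;> split_ifs
    · exact one_mem _
    · exact zero_mem _
    · exact mul_mem ((𝔓.mem_iff _).mpr (E.le_one l)) (pow_mem ((𝔓.mem_iff r).mpr (hRle r hr)) _)
    · exact zero_mem _
  have hGP : ∀ j, G.coeff j ∈ 𝔓.P := fun j => by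
    have h : G ∈ lifts 𝔓.P.toSubring.subtype := by rw [hG]; exact prod_mem hint
    obtain ⟨a, ha⟩ := (lifts_iff_coeff_lifts _).mp h j
    exact ha ▸ a.2
  have hlift : G ∈ lifts (baseRing 𝔓.P 𝔓.IR).subtype := (lifts_iff_coeff_lifts _).mpr fun j =>
    ⟨⟨G.coeff j, 𝔓.mem_baseRing_iff.mpr ⟨(𝔓.mem_iff _).mp (hGP j), 𝔓.mem_K₀.mpr (hK j)⟩⟩, rfl⟩
  obtain ⟨F, hF, hFd, hFm⟩ := lifts_and_natDegree_eq_and_monic hlift hGm
  have haeval : ∀ y, aeval y F = G.eval y := fun y => by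
    rw [← hF, eval_map]; rfl
  refine ⟨F, hFm, hFd.trans hGd, ?_, ?_⟩
  · rw [haeval, hG, eval_prod]
    exact Finset.prod_eq_zero hπ (by rw [eval_poly, ← E.eqn, sub_self])
  rw [haeval, hG, eval_prod, map_prod]
  refine Finset.prod_le_prod (fun r _ => 𝔓.nm_nonneg _) fun r hr => ?_
  have hx1 : 𝔓.nm x ≤ 1 := by
    rw [eval_poly, sub_eq_zero] at hx
    by_contra hgt
    push Not at hgt
    have h : 𝔓.nm (x ^ d) < 𝔓.nm (x ^ d) := by
      conv_lhs => rw [hx]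
      refine 𝔓.nm_sum_lt _ _ (by rw [map_pow]; positivity) fun l _ => ?_
      rw [map_mul, map_mul, map_pow, map_pow, map_pow]
      refine (mul_le_of_le_one_left (mul_nonneg (pow_nonneg (𝔓.nm_nonneg _) _)
        (pow_nonneg (𝔓.nm_nonneg _) _)) (E.le_one l)).trans_lt ?_
      exact (mul_le_of_le_one_left (pow_nonneg (𝔓.nm_nonneg _) _)
        (pow_le_one₀ (𝔓.nm_nonneg _) hπ')).trans_lt (pow_lt_pow_right₀ hgt (Nat.mod_lt _ M.deg_pos))
    exact lt_irrefl _ h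
  rw [← sub_zero ((E.poly r).eval x), ← hx, eval_poly, eval_poly, sub_sub_sub_cancel_left,
    ← Finset.sum_sub_distrib]
  refine 𝔓.nm_sum_le _ _ (𝔓.nm_nonneg _) fun l _ => ?_
  rw [← mul_sub, ← sub_mul, map_mul, map_mul]
  exact (mul_le_of_le_one_left (mul_nonneg (𝔓.nm_nonneg _) (𝔓.nm_nonneg _)) (E.le_one l)).trans
    ((mul_le_of_le_one_right (𝔓.nm_nonneg _) (by
      rw [map_pow]; exact pow_le_one₀ (𝔓.nm_nonneg _) hx1)).trans
      (nm_pow_sub_pow_le hπ' (hRle r hr) _))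

end RelEq

/-- The integral elements of a totally ramified field as a module over `K₀ ∩ A`. -/
def TR.intModule {N : ℕ} (M : TR 𝔓 N) : Submodule (baseRing 𝔓.P 𝔓.IR) QB where
  carrier := {x | x ∈ M.K ∧ 𝔓.nm x ≤ 1}
  add_mem' hx hy := ⟨M.K.add_mem hx.1 hy.1, (𝔓.ultra _ _).trans (max_le hx.2 hy.2)⟩
  zero_mem' := ⟨M.K.zero_mem, by simp⟩
  smul_mem' c x hx := by
    refine ⟨M.K.mul_mem (M.le (𝔓.mem_baseRing_iff.mp c.2).2) hx.1, ?_⟩
    show 𝔓.nm ((c : QB) * x) ≤ 1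
    rw [map_mul]
    exact mul_le_one₀ (𝔓.mem_baseRing_iff.mp c.2).1 (𝔓.nm_nonneg _) hx.2

/-- Sending the uniformiser to `x` on integral elements. -/
theorem exists_transport {N : ℕ} (M : TR 𝔓 N) {F : (baseRing 𝔓.P 𝔓.IR)[X]} (hFm : F.Monic)
    (hFd : F.natDegree = N) (hF : aeval M.π F = 0) {x : QB} (hx : 𝔓.nm x = M.ρ) :
    ∃ τ : M.intModule →ₗ[baseRing 𝔓.P 𝔓.IR] QB, (∀ z, 𝔓.nm (τ z) = 𝔓.nm (z : QB)) ∧
      (∀ h : (1 : QB) ∈ M.intModule, τ ⟨1, h⟩ = 1) ∧
      (∀ (z w : M.intModule) (h : (z : QB) * w ∈ M.intModule),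
        𝔓.nm (τ ⟨_, h⟩ - τ z * τ w) ≤ 𝔓.nm (aeval x F)) ∧
      ∀ σ ∈ 𝔓.I, σ x = x → ∀ z, σ (τ z) = τ z := by
  classical
  let O := baseRing 𝔓.P 𝔓.IR
  have hval : ∀ (P : O[X]) (y : QB), P.natDegree < N →
      aeval y P = ∑ i : Fin N, (P.coeff i : QB) * y ^ (i : ℕ) := by
    intro P y hP
    rw [aeval_eq_sum_range' hP, Finset.sum_range]
    exact Finset.sum_congr rfl fun i _ => rfl
  have hcK : ∀ (P : O[X]) (i : ℕ), (P.coeff i : QB) ∈ 𝔓.K₀ := fun P i =>
    (𝔓.mem_baseRing_iff.mp (P.coeff i).2).2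
  have huniq : ∀ P Q : O[X], P.natDegree < N → Q.natDegree < N →
      aeval M.π P = aeval M.π Q → P = Q := by
    intro P Q hP hQ he
    rw [hval P _ hP, hval Q _ hQ, ← sub_eq_zero, ← Finset.sum_sub_distrib] at he
    simp only [← sub_mul] at he
    ext i
    by_cases hi : i < N
    · exact sub_eq_zero.mp
        (M.coeff_eq_zero (fun i => sub_mem (hcK P i) (hcK Q i)) he ⟨i, hi⟩)
    · rw [coeff_eq_zero_of_natDegree_lt (by omega), coeff_eq_zero_of_natDegree_lt (by omega)]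
  have hex : ∀ z : M.intModule, ∃ P : O[X], P.natDegree < N ∧ aeval M.π P = z := by
    intro z
    obtain ⟨c, hc, hz⟩ := M.span z z.2.1
    have hc1 : ∀ i, 𝔓.nm (c i) ≤ 1 := M.integral_coeff hc (hz ▸ z.2.2)
    set P : O[X] := ∑ i : Fin N, monomial (i : ℕ)
      (⟨c i, 𝔓.mem_baseRing_iff.mpr ⟨hc1 i, hc i⟩⟩ : O) with hPdef
    refine ⟨P, ?_, ?_⟩
    · have hle : P.natDegree ≤ N - 1 := natDegree_sum_le_of_forall_le _ _ fun i _ =>
        (natDegree_monomial_le _).trans (by omega)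
      have := M.pos
      omega
    · rw [hPdef, map_sum, hz]
      exact Finset.sum_congr rfl fun i _ => by rw [aeval_monomial]; rfl
  choose P hPd hP using hex
  have hnorm : ∀ Q : O[X], Q.natDegree < N → 𝔓.nm (aeval x Q) = 𝔓.nm (aeval M.π Q) := by
    intro Q hQ
    have hxi : ∀ i : Fin N, 𝔓.nm ((Q.coeff i : QB) * x ^ (i : ℕ)) =
        𝔓.nm ((Q.coeff i : QB) * M.π ^ (i : ℕ)) := fun i => by
      rw [map_mul, map_mul, map_pow, map_pow, hx]; rfl
    have hxle : ∀ i : Fin N, 𝔓.nm ((Q.coeff i : QB) * x ^ (i : ℕ)) ≤ 𝔓.nm (aeval x Q) := by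
      rw [hval Q x hQ]
      intro i
      refine LocalPlace.nm_le_nm_sum Finset.univ (fun i : Fin N => (Q.coeff i : QB) * x ^ (i : ℕ))
        (fun i _ j _ hi h => ?_) i (Finset.mem_univ i)
      rw [hxi, hxi] at h
      exact M.term_inj (c := fun i => (Q.coeff i : QB)) (fun i => hcK Q i)
        (mul_ne_zero (left_ne_zero_of_mul hi) (pow_ne_zero _ M.pi_ne_zero)) h
    refine le_antisymm ?_ ?_
    · rw [hval Q x hQ]
      refine 𝔓.nm_sum_le _ _ (𝔓.nm_nonneg _) fun i _ => ?_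
      rw [hxi, hval Q _ hQ]
      exact M.nm_term_le (c := fun i => (Q.coeff i : QB)) (fun i => hcK Q i) i
    · rw [hval Q M.π hQ]
      refine 𝔓.nm_sum_le _ _ (𝔓.nm_nonneg _) fun i _ => ?_
      rw [← hxi]
      exact hxle i
  let τ : M.intModule →ₗ[O] QB :=
    { toFun := fun z => aeval x (P z)
      map_add' := fun z w => by
        rw [← map_add, huniq (P (z + w)) (P z + P w) (hPd _)
          ((natDegree_add_le _ _).trans_lt (max_lt (hPd z) (hPd w)))
          (by rw [map_add, hP, hP, hP]; rfl)]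
      map_smul' := fun c z => by
        rw [RingHom.id_apply, ← map_smul (aeval x), huniq (P (c • z)) (c • P z) (hPd _)
          ((natDegree_smul_le _ _).trans_lt (hPd z)) (by rw [map_smul, hP, hP]; rfl)] }
  refine ⟨τ, fun z => ?_, fun h => ?_, fun z w h => ?_, fun σ hσ hσx z => ?_⟩
  · show 𝔓.nm (aeval x (P z)) = _
    rw [hnorm _ (hPd z), hP]
  · show aeval x (P ⟨1, h⟩) = 1
    rw [huniq (P ⟨1, h⟩) 1 (hPd _) (by simpa using M.pos) (by rw [hP, map_one]), map_one]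
  · show 𝔓.nm (aeval x (P ⟨_, h⟩) - aeval x (P z) * aeval x (P w)) ≤ _
    have hF1 : F ≠ 1 := fun h1 => by rw [h1, natDegree_one] at hFd; exact M.pos.ne hFd
    have key : P ⟨_, h⟩ = (P z * P w) %ₘ F := by
      refine huniq _ _ (hPd _) (hFd ▸ natDegree_modByMonic_lt _ hFm hF1) ?_
      rw [hP, aeval_modByMonic_eq_self_of_root hF, map_mul, hP, hP]
    rw [key, ← map_mul, ← map_sub, modByMonic_eq_sub_mul_div, sub_sub_cancel_left, map_neg,
      map_mul, AbsoluteValue.map_neg, map_mul]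
    refine mul_le_of_le_one_right (𝔓.nm_nonneg _) ?_
    rw [aeval_eq_sum_range]
    refine 𝔓.nm_sum_le _ _ zero_le_one fun i _ => ?_
    rw [Subring.smul_def, smul_eq_mul, map_mul, map_pow, hx]
    exact mul_le_one₀ (𝔓.mem_baseRing_iff.mp (Subtype.prop _)).1 (pow_nonneg M.rho_pos.le _)
      (pow_le_one₀ M.rho_pos.le M.rho_lt_one.le)
  · show σ (aeval x (P z)) = aeval x (P z)
    rw [hval _ x (hPd z), map_sum]
    exact Finset.sum_congr rfl fun i _ => by
      rw [map_mul, map_pow, hσx, 𝔓.mem_K₀.mp (hcK _ _) σ hσ]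

end FLTAgent.TW.Flat
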