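import Fermat.Agent.TW.Flat.Tame
import Fermat.Agent.TW.Flat.Transport

/-!
# The field `K₀((-p)^(1/e))`

It is stable under the decomposition group, inertia is generated over its fixing subgroup by one
element, and it trivialises the characters of inertia of order dividing `e`.
-/

set_option autoImplicit false

open scoped Pointwise

noncomputable section

namespace FLTAgent.TW.Flat

variable {p : ℕ} [hp : Fact p.Prime] {𝔓 : LocalPlace p}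

omit hp in
/-- The resolvent of a character with values fixed by the subgroup. -/
theorem exists_resolvent' (H : Subgroup GQ) {ψ : H →* QB} (hψ : HasLevel H ψ)
    (hne : ∀ σ, ψ σ ≠ 0) (hfixed : ∀ (σ : H) (τ : H), (σ : GQ) (ψ τ) = ψ τ) :
    ∃ y : QB, y ≠ 0 ∧ ∀ σ : H, (σ : GQ) y = ψ σ * y := by
  classical
  obtain ⟨L₀, hL₀, hlev⟩ := hψ
  obtain ⟨L, hL, hLn, hle⟩ := exists_normal_level L₀
  set r := AlgEquiv.restrictNormalHom (F := ℚ) (K₁ := QB) L with hr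
  have hrc : ∀ (τ : GQ) (x : L), ((r τ x : L) : QB) = τ (x : QB) := fun τ x =>
    AlgEquiv.restrictNormal_commutes τ L x
  set Γ := H.map r
  have := Fintype.ofFinite Γ
  choose s hs hsr using fun g : Γ => Subgroup.mem_map.mp g.2
  have hwd : ∀ σ τ : H, r σ = r τ → ψ σ = ψ τ := by
    intro σ τ h
    have h1 : ψ (τ⁻¹ * σ) = 1 := hlev _ fun x hx => by
      have := hrc ((τ : GQ)⁻¹ * σ) ⟨x, hle hx⟩
      rw [map_mul, map_inv, h, inv_mul_cancel] at this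
      exact this.symm
    have h2 := congrArg (ψ τ * ·) h1
    rwa [← map_mul, mul_inv_cancel_left, mul_one] at h2
  obtain ⟨a, ha⟩ : ∃ a : L, ∑ g : Γ, (ψ ⟨s g, hs g⟩)⁻¹ * ((g : L ≃ₐ[ℚ] L) a : QB) ≠ 0 := by
    by_contra h
    push Not at h
    let χ : Γ → (L →* QB) := fun g =>
      (((algebraMap L QB).comp ((g : L ≃ₐ[ℚ] L) : L →+* L)) : L →* QB)
    have hχ : Function.Injective χ := fun g g' hgg => Subtype.ext (AlgEquiv.ext fun x =>
      Subtype.ext (DFunLike.congr_fun hgg x))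
    have := Fintype.linearIndependent_iff.mp ((linearIndependent_monoidHom L QB).comp χ hχ)
      (fun g => (ψ ⟨s g, hs g⟩)⁻¹) (funext fun x => by
        simpa [χ, Finset.sum_apply] using h x) 1
    exact inv_ne_zero (hne _) this
  refine ⟨_, ha, fun σ => ?_⟩
  rw [map_sum, Finset.mul_sum]
  refine Fintype.sum_equiv (Equiv.mulLeft ⟨r σ, Subgroup.mem_map_of_mem r σ.2⟩) _ _ fun g => ?_
  set g' : Γ := ⟨r σ, Subgroup.mem_map_of_mem r σ.2⟩ * g with hg'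
  have hψg : ψ ⟨s g', hs g'⟩ = ψ σ * ψ ⟨s g, hs g⟩ := by
    rw [← map_mul]
    refine hwd _ _ ?_
    rw [hsr g']
    show r σ * (g : L ≃ₐ[ℚ] L) = r ((σ : GQ) * s g)
    rw [map_mul, hsr g]
  have hψ' : (σ : GQ) (ψ ⟨s g, hs g⟩)⁻¹ = (ψ ⟨s g, hs g⟩)⁻¹ := by rw [map_inv₀, hfixed]
  rw [map_mul, hψ', show (σ : GQ) (((g : L ≃ₐ[ℚ] L) a : L) : QB) = ((g' : L ≃ₐ[ℚ] L) a : QB) from
    (hrc _ _).symm, show Equiv.mulLeft ⟨r σ, Subgroup.mem_map_of_mem r σ.2⟩ g = g' from rfl, hψg,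
    mul_inv, ← mul_assoc, ← mul_assoc, mul_inv_cancel₀ (hne σ), one_mul]

namespace TR

variable {e : ℕ} (T : TR 𝔓 e)

/-- `σ π / π`. -/
def theta (σ : GQ) : QB := σ T.π / T.π

lemma apply_pi (σ : GQ) : σ T.π = T.theta σ * T.π := by
  rw [theta, div_mul_cancel₀ _ T.pi_ne_zero]

variable (hπ : T.π ^ e = -(p : QB)) (he : e = p ^ 2 - 1)

include hπ in
lemma theta_pow (σ : GQ) : T.theta σ ^ e = 1 := by
  rw [theta, div_pow, ← map_pow, hπ, map_neg, map_natCast,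
    div_self (neg_ne_zero.mpr LocalPlace.p_ne_zero)]

include he in
omit T in
lemma not_dvd_level : ¬ p ∣ e := by
  intro hd
  have h2 : p ∣ p ^ 2 := dvd_pow_self p two_ne_zero
  have h3 := Nat.dvd_sub h2 hd
  rw [he, Nat.sub_sub_self (Nat.one_le_pow _ _ hp.out.pos)] at h3
  exact hp.out.not_dvd_one h3

include he in
omit T in
lemma mem_K₀_of_pow_eq_one' {ω : QB} (hω : ω ^ e = 1) : ω ∈ 𝔓.K₀ :=
  𝔓.mem_K₀_of_pow_eq two_pos (by
    rw [← Nat.sub_add_cancel (Nat.one_le_pow 2 p hp.out.pos), ← he, pow_succ, hω, one_mul])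

include hπ he in
lemma theta_mem (σ : GQ) : T.theta σ ∈ 𝔓.K₀ := mem_K₀_of_pow_eq_one' he (T.theta_pow hπ σ)

include hπ he in
lemma apply_mem_K {σ : GQ} (hσ : σ ∈ 𝔓.D) {x : QB} (hx : x ∈ T.K) : σ x ∈ T.K := by
  obtain ⟨c, hc, rfl⟩ := T.span x hx
  rw [map_sum]
  refine sum_mem fun i _ => ?_
  rw [map_mul, map_pow, T.apply_pi]
  exact mul_mem (T.le (𝔓.apply_mem_K₀ hσ (hc i)))
    (pow_mem (mul_mem (T.le (T.theta_mem hπ he σ)) T.mem) _)

include hπ he in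
lemma conj_mem_fix {σ τ : GQ} (hσ : σ ∈ T.K.fixingSubgroup) (hτ : τ ∈ 𝔓.D) :
    τ * σ * τ⁻¹ ∈ T.K.fixingSubgroup := by
  rw [IntermediateField.mem_fixingSubgroup_iff] at hσ ⊢
  intro x hx
  rw [AlgEquiv.mul_apply, AlgEquiv.mul_apply,
    hσ _ (T.apply_mem_K hπ he (inv_mem hτ) hx), gq_apply_inv]

lemma mem_fix_of_theta {σ : GQ} (hσ : σ ∈ 𝔓.I) (h : T.theta σ = 1) :
    σ ∈ T.K.fixingSubgroup := by
  rw [IntermediateField.mem_fixingSubgroup_iff]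
  intro x hx
  obtain ⟨c, hc, rfl⟩ := T.span x hx
  rw [map_sum]
  refine Finset.sum_congr rfl fun i _ => ?_
  rw [map_mul, map_pow, T.apply_pi, h, one_mul, 𝔓.mem_K₀.mp (hc i) σ hσ]

include hπ he in
lemma theta_mul {σ τ : GQ} (hσ : σ ∈ 𝔓.I) :
    T.theta (σ * τ) = T.theta σ * T.theta τ := by
  rw [theta, AlgEquiv.mul_apply, T.apply_pi τ, map_mul, 𝔓.mem_K₀.mp (T.theta_mem hπ he τ) σ hσ,
    T.apply_pi σ, theta]
  field_simp [T.pi_ne_zero]

include hπ he in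
/-- A generator of inertia modulo the fixing subgroup. -/
theorem exists_generator : ∃ γ ∈ 𝔓.I, IsPrimitiveRoot (T.theta γ) e := by
  classical
  obtain ⟨R, hRc, -, hR⟩ := T.exists_orbit
  have : NeZero (e : QB) := ⟨Nat.cast_ne_zero.mpr T.pos.ne'⟩
  obtain ⟨ω, hω⟩ := IsAlgClosed.exists_root (Polynomial.cyclotomic e QB)
    (by rw [Polynomial.degree_cyclotomic]; exact_mod_cast (Nat.totient_pos.mpr T.pos).ne')
  rw [Polynomial.isRoot_cyclotomic_iff] at hω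
  set S := (Polynomial.nthRootsFinset e (1 : QB)).image (· * T.π)
  have hsub : R ⊆ S := by
    intro r hr
    obtain ⟨σ, -, rfl⟩ := (hR r).mp hr
    exact Finset.mem_image.mpr
      ⟨T.theta σ, (Polynomial.mem_nthRootsFinset T.pos 1).mpr (T.theta_pow hπ σ), (T.apply_pi σ).symm⟩
  have hS : S.card ≤ R.card := by
    rw [hRc]
    exact Finset.card_image_le.trans (hω.card_nthRootsFinset).le
  have hmem : ω * T.π ∈ R := by
    rw [Finset.eq_of_subset_of_card_le hsub hS]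
    exact Finset.mem_image_of_mem _ ((Polynomial.mem_nthRootsFinset T.pos 1).mpr hω.pow_eq_one)
  obtain ⟨γ, hγ, hγe⟩ := (hR _).mp hmem
  refine ⟨γ, hγ, ?_⟩
  rwa [theta, hγe, mul_div_cancel_right₀ _ T.pi_ne_zero]

include hπ he in
/-- Every element of inertia is a power of the generator times an element fixing `K`. -/
theorem exists_pow_mul_fix {γ : GQ} (hγ : γ ∈ 𝔓.I) (hprim : IsPrimitiveRoot (T.theta γ) e)
    {σ : GQ} (hσ : σ ∈ 𝔓.I) : ∃ j : ℕ, (γ ^ j)⁻¹ * σ ∈ T.K.fixingSubgroup := by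
  have : NeZero e := ⟨T.pos.ne'⟩
  obtain ⟨j, -, hj⟩ := hprim.eq_pow_of_pow_eq_one (T.theta_pow hπ σ)
  have hpow : ∀ j : ℕ, T.theta (γ ^ j) = T.theta γ ^ j := by
    intro j
    induction j with
    | zero => simp [theta, T.pi_ne_zero]
    | succ j ih => rw [pow_succ, pow_succ, T.theta_mul hπ he (pow_mem hγ j), ih]
  refine ⟨j, T.mem_fix_of_theta (mul_mem (inv_mem (pow_mem hγ j)) hσ) ?_⟩
  have h := T.theta_mul hπ he (pow_mem hγ j) (τ := (γ ^ j)⁻¹ * σ)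
  rw [mul_inv_cancel_left, hpow, hj] at h
  exact (mul_eq_left₀ (fun h0 => by simpa [h0, T.pos.ne'] using T.theta_pow hπ σ)).mp h.symm

include hπ in
/-- The tame character and the cyclotomic character agree modulo `𝔪`. -/
theorem red_theta_pow {m : ℕ} (hm : e = m * (p - 1)) {ζ : QB} (hζ : IsPrimitiveRoot ζ p) {σ : GQ}
    (hσ : σ ∈ 𝔓.I) {a : ℕ} (ha : σ ζ = ζ ^ a) : 𝔓.red (T.theta σ) ^ m = (a : 𝔓.RF) := by
  have hz0 : ζ - 1 ≠ 0 := sub_ne_zero.mpr (hζ.ne_one hp.out.one_lt)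
  have hπm : T.π ^ m ≠ 0 := pow_ne_zero _ T.pi_ne_zero
  have hv : 𝔓.nm ((ζ - 1) / T.π ^ m) = 1 := by
    rw [map_div₀, map_pow, T.nm_zeta hm hζ]; exact div_self (pow_ne_zero _ T.rho_pos.ne')
  have hθ : 𝔓.nm (T.theta σ) = 1 := 𝔓.nm_eq_one_of_pow_eq_one T.pos.ne' (T.theta_pow hπ σ)
  have hθm : 𝔓.nm (T.theta σ ^ m) = 1 := by rw [map_pow, hθ, one_pow]
  have hζ1 := 𝔓.nm_eq_one_of_pow_eq_one hp.out.ne_zero hζ.pow_eq_one
  have hs : 𝔓.nm (∑ i ∈ Finset.range a, ζ ^ i) ≤ 1 :=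
    𝔓.nm_sum_le _ _ zero_le_one fun i _ => by rw [map_pow, hζ1, one_pow]
  have key : σ ((ζ - 1) / T.π ^ m) * T.theta σ ^ m =
      (∑ i ∈ Finset.range a, ζ ^ i) * ((ζ - 1) / T.π ^ m) := by
    have hθ0 : T.theta σ ≠ 0 := fun h => by simp [h] at hθ
    rw [map_div₀, map_sub, map_one, ha, map_pow, T.apply_pi, ← mul_div_assoc _ (ζ - 1), geom_sum_mul,
      mul_pow]
    field_simp
  have hred := congrArg 𝔓.red key
  rw [𝔓.red_mul (by rw [𝔓.nm_apply (𝔓.I_le_D hσ), hv]) hθm.le, 𝔓.red_apply_of_mem_I hσ hv.le,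
    𝔓.red_mul hs hv.le, mul_comm (𝔓.red (∑ i ∈ Finset.range a, ζ ^ i)), 𝔓.red_pow hθ.le] at hred
  rw [mul_left_cancel₀ (𝔓.red_ne_zero hv) hred]
  clear key hred ha hs
  induction a with
  | zero => simp [𝔓.red_zero]
  | succ a ih =>
    rw [Finset.sum_range_succ, 𝔓.red_add (𝔓.nm_sum_le _ _ zero_le_one fun i _ => by
      rw [map_pow, hζ1, one_pow]) (by rw [map_pow, hζ1, one_pow]), ih, 𝔓.red_pow hζ1.le,
      (𝔓.red_eq_iff hζ1.le (by simp)).mpr (𝔓.nm_zeta_sub_one_lt_one hζ), 𝔓.red_one, one_pow,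
      Nat.cast_succ]

include hπ he in
/-- Characters of inertia of order dividing `e` are trivial on the fixing subgroup of `K`. -/
theorem char_eq_one_on_fix {G : Type*} [CommGroup G] [Finite G] (ψ : 𝔓.I →* G)
    (hψ : HasLevel 𝔓.I ψ) (hpow : ∀ σ, ψ σ ^ e = 1) :
    ∀ σ : 𝔓.I, (σ : GQ) ∈ T.K.fixingSubgroup → ψ σ = 1 := by
  intro σ₁ hσ₁
  by_contra hne
  have : NeZero (Monoid.exponent G) :=
    ⟨Monoid.ExponentExists.exponent_ne_zero Monoid.ExponentExists.of_finite⟩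
  obtain ⟨φ, hφ⟩ := CommGroup.exists_apply_ne_one_of_hasEnoughRootsOfUnity G QB hne
  obtain ⟨L, hL, hlev⟩ := hψ
  set ψ' : 𝔓.I →* QB := ((Units.coeHom QB).comp φ).comp ψ
  have hψe : ∀ σ, ψ' σ ^ e = 1 := fun σ => by
    show ((φ (ψ σ) : QBˣ) : QB) ^ e = 1
    rw [← Units.val_pow_eq_pow_val, ← map_pow, hpow, map_one, Units.val_one]
  have hval : ∀ σ, ψ' σ ∈ 𝔓.K₀ := fun σ => mem_K₀_of_pow_eq_one' he (hψe σ)
  obtain ⟨y, hy0, hy⟩ := exists_resolvent' 𝔓.I (ψ := ψ')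
    ⟨L, hL, fun σ hσ => by
      show ((φ (ψ σ) : QBˣ) : QB) = 1
      rw [hlev σ hσ, map_one, Units.val_one]⟩
    (fun σ h => by simpa [h, T.pos.ne'] using hψe σ)
    (fun σ τ => 𝔓.mem_K₀.mp (hval τ) σ σ.2)
  have hyeK : y ^ e ∈ 𝔓.K₀ := 𝔓.mem_K₀.mpr fun σ hσ => by
    rw [map_pow, hy ⟨σ, hσ⟩, mul_pow, hψe, one_mul]
  obtain ⟨t, ht⟩ := 𝔓.exists_zpow_of_mem_K₀ hyeK (pow_ne_zero _ hy0)
  set v := y / T.π ^ (-t) with hv
  have hπt : T.π ^ (-t) ≠ 0 := zpow_ne_zero _ T.pi_ne_zero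
  have hnv : 𝔓.nm v = 1 := by
    refine (pow_eq_one_iff_of_nonneg (𝔓.nm_nonneg _) T.pos.ne').mp ?_
    rw [← map_pow, hv, div_pow, map_div₀, ht, map_pow, map_zpow₀, ← zpow_natCast, ← zpow_mul,
      show 𝔓.nm T.π = T.ρ from rfl, T.p_zpow_eq,
      show -t * (e : ℤ) = -(e : ℤ) * t by ring, div_self (zpow_ne_zero _ T.rho_pos.ne')]
  have hveK : v ^ e ∈ 𝔓.K₀ := by
    rw [hv, div_pow, ← zpow_natCast (T.π ^ (-t)), ← zpow_mul, mul_comm, zpow_mul, zpow_natCast, hπ]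
    exact div_mem hyeK (zpow_mem (neg_mem (natCast_mem _ p)) _)
  have hv0 : v ≠ 0 := div_ne_zero hy0 hπt
  have hvK : v ∈ 𝔓.K₀ := 𝔓.mem_K₀.mpr fun σ hσ => by
    refine (div_eq_one_iff_eq hv0).mp (𝔓.eq_one_of_pow_eq_one (not_dvd_level he) ?_ ?_)
    · rw [div_pow, ← map_pow, 𝔓.mem_K₀.mp hveK σ hσ, div_self (pow_ne_zero _ hv0)]
    · rw [div_sub_one hv0, map_div₀, hnv, div_one]
      exact (𝔓.mem_I_iff.mp hσ).2 v hnv.le
  have hyK : y ∈ T.K := by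
    rw [show y = v * T.π ^ (-t) by rw [hv, div_mul_cancel₀ _ hπt]]
    exact mul_mem (T.le hvK) (zpow_mem T.mem _)
  have h := hy σ₁
  rw [(IntermediateField.mem_fixingSubgroup_iff _ _).mp hσ₁ y hyK] at h
  exact hφ (Units.ext (by simpa [ψ'] using mul_right_cancel₀ hy0 (h.symm.trans (one_mul y).symm)))

end TR

end FLTAgent.TW.Flat
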