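import Fermat.Agent.TW.Flat.Kummer
import Mathlib.GroupTheory.Nilpotent
import Mathlib.GroupTheory.FiniteAbelian.Duality
import Mathlib.RingTheory.RootsOfUnity.AlgebraicallyClosed
import Mathlib.LinearAlgebra.LinearIndependent.Basic

/-!
# `p`-extensions of a totally ramified field

Characters of order `p` have resolvents; kernels of homomorphisms to finite `p`-groups have totally
ramified fixed fields; expansions along a family with the norms of `1, π, …, π^(N-1)`.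
-/

set_option autoImplicit false

open scoped Pointwise

noncomputable section

namespace FLTAgent.TW.Flat

/-- A function on a subgroup which is trivial on the elements fixing a number field. -/
def HasLevel {G : Type*} [One G] (H : Subgroup GQ) (φ : H → G) : Prop :=
  ∃ L : IntermediateField ℚ QB, FiniteDimensional ℚ L ∧
    ∀ σ : H, (∀ x ∈ L, (σ : GQ) x = x) → φ σ = 1

variable {p : ℕ} [hp : Fact p.Prime] {𝔓 : LocalPlace p}

/-- A finite nontrivial `p`-group has a nontrivial character with values in `μ_p`. -/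
theorem exists_char_of_isPGroup {G : Type*} [Group G] [Finite G] [Nontrivial G]
    (hG : IsPGroup p G) : ∃ ψ : G →* QB, (∃ g, ψ g ≠ 1) ∧ ∀ g, ψ g ^ p = 1 := by
  classical
  have : Group.IsNilpotent G := hG.isNilpotent
  have hlt := Group.IsSolvable.commutator_lt_top_of_nontrivial G
  obtain ⟨a, -, ha⟩ := SetLike.exists_of_lt hlt
  have ha' : Abelianization.of a ≠ 1 := fun h => ha (by
    rwa [← MonoidHom.mem_ker, Abelianization.ker_of] at h)
  have : NeZero (Monoid.exponent (Abelianization G)) :=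
    ⟨Monoid.ExponentExists.exponent_ne_zero Monoid.ExponentExists.of_finite⟩
  obtain ⟨φ, hφ⟩ :=
    CommGroup.exists_apply_ne_one_of_hasEnoughRootsOfUnity (Abelianization G) QB ha'
  obtain ⟨n, hn⟩ := IsPGroup.iff_card.mp hG
  have hP : ∃ j, ∀ g : G, (φ (Abelianization.of g)) ^ p ^ j = 1 := ⟨n, fun g => by
    rw [← map_pow, ← map_pow, ← hn, pow_card_eq_one', map_one, map_one]⟩
  have hj0 : Nat.find hP ≠ 0 := fun h => hφ (by simpa [h] using Nat.find_spec hP a)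
  obtain ⟨j, hj⟩ := Nat.exists_eq_succ_of_ne_zero hj0
  obtain ⟨g, hg⟩ := not_forall.mp (Nat.find_min hP (show j < Nat.find hP by omega))
  let ψ : G →* QB :=
    { toFun := fun g => ((φ (Abelianization.of g)) ^ p ^ j : QBˣ)
      map_one' := by simp
      map_mul' := fun x y => by simp [mul_pow] }
  refine ⟨ψ, ⟨g, fun h => hg (Units.ext h)⟩, fun g => ?_⟩
  show (((φ (Abelianization.of g)) ^ p ^ j : QBˣ) : QB) ^ p = 1
  rw [← Units.val_pow_eq_pow_val, ← pow_mul, ← pow_succ, show j + 1 = Nat.find hP by omega,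
    Nat.find_spec hP g, Units.val_one]

namespace TR

variable {e m : ℕ} (T : TR 𝔓 e) (hm : e = m * (p - 1)) {ζ : QB} (hζ : IsPrimitiveRoot ζ p)

omit hp in
/-- Elements of a totally ramified field are fixed once the uniformiser and the base are. -/
lemma le_of_mem (T : TR 𝔓 e) {L : IntermediateField ℚ QB} (hL : 𝔓.K₀ ≤ L) (hπ : T.π ∈ L) :
    T.K ≤ L := fun x hx => by
  obtain ⟨c, hc, rfl⟩ := T.span x hx
  exact sum_mem fun i _ => mul_mem (hL (hc i)) (pow_mem hπ _)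

/-- A family with the norms of `1, π, …` gives unique expansions, integral on integral elements. -/
theorem exists_expansion (v : Fin e → QB) (hv : ∀ l, v l ∈ T.K)
    (hnm : ∀ l, 𝔓.nm (v l) = T.ρ ^ (l : ℕ)) {x : QB} (hx : x ∈ T.K) :
    ∃ c : Fin e → QB, (∀ i, c i ∈ 𝔓.K₀) ∧ x = ∑ i, c i * v i ∧
      (𝔓.nm x ≤ 1 → ∀ i, 𝔓.nm (c i) ≤ 1) := by
  choose C hC hCv using fun l => T.span (v l) (hv l)
  let f : (Fin e → 𝔓.K₀) →ₗ[𝔓.K₀] (Fin e → 𝔓.K₀) :=
    { toFun := fun d i => ∑ l, d l * ⟨C l i, hC l i⟩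
      map_add' := fun a b => funext fun i => by simp [add_mul, Finset.sum_add_distrib]
      map_smul' := fun r a => funext fun i => by simp [Finset.mul_sum, mul_assoc] }
  have hf : ∀ d : Fin e → 𝔓.K₀,
      ∑ i, ((f d i : 𝔓.K₀) : QB) * T.π ^ (i : ℕ) = ∑ l, (d l : QB) * v l := by
    intro d
    simp only [hCv, Finset.mul_sum]
    rw [Finset.sum_comm]
    refine Finset.sum_congr rfl fun i _ => ?_
    show ((∑ l, d l * ⟨C l i, hC l i⟩ : 𝔓.K₀) : QB) * _ = _
    push_cast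
    rw [Finset.sum_mul]
    exact Finset.sum_congr rfl fun l _ => by ring
  have hterm : ∀ (d : Fin e → QB), (∀ i, d i ∈ 𝔓.K₀) → ∀ i,
      𝔓.nm (d i * v i) = 𝔓.nm (d i * T.π ^ (i : ℕ)) := fun d _ i => by
    rw [map_mul, map_mul, hnm, map_pow]; rfl
  have hle : ∀ (d : Fin e → QB), (∀ i, d i ∈ 𝔓.K₀) → ∀ i,
      𝔓.nm (d i * T.π ^ (i : ℕ)) ≤ 𝔓.nm (∑ j, d j * v j) := by
    intro d hd i
    rw [← hterm d hd]
    refine LocalPlace.nm_le_nm_sum Finset.univ (fun j => d j * v j) (fun i _ j _ hi h => ?_) i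
      (Finset.mem_univ i)
    rw [hterm d hd, hterm d hd] at h
    refine T.term_inj hd (fun h0 => ?_) h
    have := hterm d hd i
    rw [h0, map_zero] at this
    exact hi (𝔓.nm.eq_zero.mp this)
  have hinj : Function.Injective f := by
    rw [injective_iff_map_eq_zero]
    intro d hd
    funext i
    have h := hle (fun j => (d j : QB)) (fun j => (d j).2) i
    rw [← hf, hd] at h
    simp only [Pi.zero_apply, ZeroMemClass.coe_zero, zero_mul, Finset.sum_const_zero,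
      map_zero] at h
    exact Subtype.ext ((mul_eq_zero.mp (𝔓.nm.eq_zero.mp
      (le_antisymm h (𝔓.nm_nonneg _)))).resolve_right (pow_ne_zero _ T.pi_ne_zero))
  obtain ⟨c', hc', rfl⟩ := T.span x hx
  obtain ⟨d, hd⟩ := LinearMap.surjective_of_injective hinj (fun i => ⟨c' i, hc' i⟩)
  have he : ∑ i, c' i * T.π ^ (i : ℕ) = ∑ i, (d i : QB) * v i := by rw [← hf, hd]
  refine ⟨fun i => (d i : QB), fun i => (d i).2, he, fun h1 i => ?_⟩
  by_cases h0 : (d i : QB) = 0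
  · simp [h0]
  obtain ⟨n, hn1, hn⟩ := T.nm_term (d i).2 h0 i
  have h2 := (hle (fun j => (d j : QB)) (fun j => (d j).2) i).trans (he ▸ h1)
  rw [hn, ← zpow_zero T.ρ, T.zpow_le_iff] at h2
  rw [hn1, ← zpow_zero T.ρ, T.zpow_le_iff]
  have hi : ((i : ℕ) : ℤ) < e := mod_cast i.2
  by_contra hlt
  push Not at hlt
  have : n ≤ -1 := by
    by_contra hn'
    push Not at hn'
    have := mul_nonneg (show (0 : ℤ) ≤ e by positivity) (show (0 : ℤ) ≤ n by omega)
    omega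
  nlinarith [T.pos]

include hm hζ

/-- The resolvent of a character with values in `μ_p`. -/
theorem exists_resolvent {ψ : T.K.fixingSubgroup →* QB} (hψ : HasLevel _ ψ)
    (hpow : ∀ σ, ψ σ ^ p = 1) :
    ∃ y : QB, y ≠ 0 ∧ y ^ p ∈ T.K ∧ ∀ σ : T.K.fixingSubgroup, (σ : GQ) y = ψ σ * y := by
  classical
  obtain ⟨L₀, hL₀, hlev⟩ := hψ
  obtain ⟨L, hL, hLn, hle⟩ := exists_normal_level L₀
  set r := AlgEquiv.restrictNormalHom (F := ℚ) (K₁ := QB) L with hr
  have hrc : ∀ (τ : GQ) (x : L), ((r τ x : L) : QB) = τ (x : QB) := fun τ x =>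
    AlgEquiv.restrictNormal_commutes τ L x
  set Γ := T.K.fixingSubgroup.map r
  have := Fintype.ofFinite Γ
  choose s hs hsr using fun g : Γ => Subgroup.mem_map.mp g.2
  have hwd : ∀ σ τ : T.K.fixingSubgroup, r σ = r τ → ψ σ = ψ τ := by
    intro σ τ h
    have h1 : ψ (τ⁻¹ * σ) = 1 := hlev _ fun x hx => by
      have := hrc ((τ : GQ)⁻¹ * σ) ⟨x, hle hx⟩
      rw [map_mul, map_inv, h, inv_mul_cancel] at this
      exact this.symm
    have h2 := congrArg (ψ τ * ·) h1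
    rwa [← map_mul, mul_inv_cancel_left, mul_one] at h2
  have hψ0 : ∀ σ, ψ σ ≠ 0 := fun σ h => by simpa [h, hp.out.ne_zero] using hpow σ
  have hψζ : ∀ σ τ : T.K.fixingSubgroup, (σ : GQ) (ψ τ) = ψ τ := by
    intro σ τ
    have : NeZero p := ⟨hp.out.ne_zero⟩
    obtain ⟨j, -, hj⟩ := hζ.eq_pow_of_pow_eq_one (hpow τ)
    rw [← hj, map_pow, (IntermediateField.mem_fixingSubgroup_iff _ _).mp σ.2 _
      (T.zeta_mem hm hζ)]
  -- the resolvents are not all zero
  obtain ⟨a, ha⟩ : ∃ a : L, ∑ g : Γ, (ψ ⟨s g, hs g⟩)⁻¹ * ((g : L ≃ₐ[ℚ] L) a : QB) ≠ 0 := by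
    by_contra h
    push Not at h
    let χ : Γ → (L →* QB) := fun g =>
      (((algebraMap L QB).comp ((g : L ≃ₐ[ℚ] L) : L →+* L)) : L →* QB)
    have hχ : Function.Injective χ := fun g g' hgg => Subtype.ext (AlgEquiv.ext fun x =>
      Subtype.ext (DFunLike.congr_fun hgg x))
    have := Fintype.linearIndependent_iff.mp ((linearIndependent_monoidHom L QB).comp χ hχ)
      (fun g => (ψ ⟨s g, hs g⟩)⁻¹) (funext fun x => by
        simpa [χ, Finset.sum_apply] using h x) 1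
    exact inv_ne_zero (hψ0 _) this
  set y := ∑ g : Γ, (ψ ⟨s g, hs g⟩)⁻¹ * ((g : L ≃ₐ[ℚ] L) a : QB) with hy
  have hσy : ∀ σ : T.K.fixingSubgroup, (σ : GQ) y = ψ σ * y := by
    intro σ
    rw [hy, map_sum, Finset.mul_sum]
    refine Fintype.sum_equiv (Equiv.mulLeft ⟨r σ, Subgroup.mem_map_of_mem r σ.2⟩) _ _ fun g => ?_
    set g' : Γ := ⟨r σ, Subgroup.mem_map_of_mem r σ.2⟩ * g with hg'
    have hψg : ψ ⟨s g', hs g'⟩ = ψ σ * ψ ⟨s g, hs g⟩ := by
      rw [← map_mul]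
      refine hwd _ _ ?_
      rw [hsr g']
      show r σ * (g : L ≃ₐ[ℚ] L) = r ((σ : GQ) * s g)
      rw [map_mul, hsr g]
    have hψ' : (σ : GQ) (ψ ⟨s g, hs g⟩)⁻¹ = (ψ ⟨s g, hs g⟩)⁻¹ := by rw [map_inv₀, hψζ]
    rw [map_mul, hψ', show (σ : GQ) (((g : L ≃ₐ[ℚ] L) a : L) : QB) = ((g' : L ≃ₐ[ℚ] L) a : QB) from
      (hrc _ _).symm, show Equiv.mulLeft ⟨r σ, Subgroup.mem_map_of_mem r σ.2⟩ g = g' from rfl, hψg, mul_inv, ← mul_assoc, ← mul_assoc,
      mul_inv_cancel₀ (hψ0 σ), one_mul]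
  refine ⟨y, ha, T.mem_of_fixed fun σ hσ => ?_, hσy⟩
  rw [map_pow, hσy ⟨σ, hσ⟩, mul_pow, hpow, one_mul]

/-- The kernel of a homomorphism to a finite `p`-group has a totally ramified fixed field. -/
theorem exists_TR_kernel {G : Type*} [Group G] [Finite G] (hG : IsPGroup p G)
    (φ : T.K.fixingSubgroup →* G) (hφ : HasLevel _ φ) :
    ∃ k : ℕ, ∃ T' : TR 𝔓 (e * p ^ k), T.K ≤ T'.K ∧
      ∀ σ : T.K.fixingSubgroup, (σ : GQ) ∈ T'.K.fixingSubgroup ↔ φ σ = 1 := by
  classical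
  induction hc : Nat.card φ.range using Nat.strong_induction_on generalizing e m T φ with
  | _ c ih => ?_
  subst hc
  rcases subsingleton_or_nontrivial φ.range with hsub | hnt
  · refine ⟨0, ?_⟩
    rw [pow_zero, mul_one]
    exact ⟨T, le_rfl, fun σ => iff_of_true σ.2 (congrArg Subtype.val
      (Subsingleton.elim (⟨φ σ, σ, rfl⟩ : φ.range) 1))⟩
  obtain ⟨ψ, ⟨g, hg⟩, hpow⟩ := exists_char_of_isPGroup (hG.to_subgroup φ.range)
  obtain ⟨L, hL, hlev⟩ := hφ
  set ψ' : T.K.fixingSubgroup →* QB := ψ.comp φ.rangeRestrict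
  obtain ⟨y, hy0, hy, hσy⟩ := T.exists_resolvent hm hζ (ψ := ψ')
    ⟨L, hL, fun σ hσ => by
      rw [MonoidHom.comp_apply, show φ.rangeRestrict σ = 1 from Subtype.ext (hlev σ hσ), map_one]⟩
    (fun σ => hpow _)
  obtain ⟨σ₀, hσ₀⟩ := φ.rangeRestrict_surjective g
  have hnot : y ∉ T.K := by
    intro hyK
    have h := hσy σ₀
    rw [(IntermediateField.mem_fixingSubgroup_iff _ _).mp σ₀.2 _ hyK] at h
    refine hg ?_
    rw [← hσ₀]
    exact mul_right_cancel₀ hy0 (h.symm.trans (one_mul y).symm)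
  obtain ⟨T₁, hT₁⟩ := T.exists_TR_root hm hζ hy hnot
  have hle₁ : T.K ≤ T₁.K := hT₁ ▸ T.K_le_adjoinElt y
  have hfix : T₁.K.fixingSubgroup ≤ T.K.fixingSubgroup := IntermediateField.fixingSubgroup_antitone hle₁
  set φ₁ := φ.comp (Subgroup.inclusion hfix)
  have hmem₁ : ∀ σ : T.K.fixingSubgroup, φ σ = 1 → (σ : GQ) ∈ T₁.K.fixingSubgroup := by
    intro σ hσ
    rw [hT₁]
    refine T.fix_adjoinElt σ.2 ?_
    rw [hσy, MonoidHom.comp_apply, show φ.rangeRestrict σ = 1 from Subtype.ext hσ, map_one, one_mul]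
  have hlt : Nat.card φ₁.range < Nat.card φ.range := by
    have hsub : (φ₁.range : Set G) ⊂ φ.range := by
      refine ⟨?_, fun hsup => hg ?_⟩
      · rintro _ ⟨σ, rfl⟩
        exact ⟨_, rfl⟩
      obtain ⟨σ₁, hσ₁⟩ := hsup g.2
      have he : φ.rangeRestrict (Subgroup.inclusion hfix σ₁) = g := Subtype.ext hσ₁
      have h := hσy (Subgroup.inclusion hfix σ₁)
      have hy₁ : y ∈ T₁.K := hT₁ ▸ T.mem_adjoinElt y
      rw [MonoidHom.comp_apply, he, show ((Subgroup.inclusion hfix σ₁ : T.K.fixingSubgroup) : GQ) = σ₁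
        from rfl, (IntermediateField.mem_fixingSubgroup_iff _ _).mp σ₁.2 _ hy₁] at h
      exact mul_right_cancel₀ hy0 (h.symm.trans (one_mul y).symm)
    exact Set.Finite.card_lt_card (Set.toFinite _) hsub
  obtain ⟨k, T', hle, hiff⟩ := ih _ hlt T₁
    (show e * p = m * p * (p - 1) by rw [hm]; ring) φ₁
    ⟨L, hL, fun σ hσ => hlev _ hσ⟩ rfl
  refine ⟨k + 1, ?_⟩
  rw [pow_succ', ← mul_assoc]
  refine ⟨T', hle₁.trans hle, fun σ => ⟨fun hσ => ?_, fun hσ => ?_⟩⟩
  · have hσ₁ := IntermediateField.fixingSubgroup_antitone hle hσ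
    exact (hiff ⟨σ, hσ₁⟩).mp hσ
  · exact (hiff ⟨σ, hmem₁ σ hσ⟩).mpr hσ

end TR

end FLTAgent.TW.Flat
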